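import Fermat.Agent.LT.B.SpecSph

/-!
# LT, piece B: spherical kernels, commuting finite kernels and twists
-/

set_option autoImplicit false
set_option maxHeartbeats 400000

open NumberField IsDedekindDomain Matrix MeasureTheory Set Filter Topology ProbabilityTheory
open Fermat.LT Fermat.Agent.LT.CTree Fermat.Agent.LT.CArch
open scoped ENNReal NNReal ComplexConjugate

namespace Fermat.Agent.LT.B

variable {F : Type} [Field F] [NumberField F] {D : Datum F} {P : Set (Pl F)}

/-! ### composition of finite kernels and test kernels -/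

theorem IsFinTest.kc {U : Level F} {κ κ' : Y U → Y U → ℂ} (h : IsFinTest κ) (h' : IsFinTest κ') :
    IsFinTest (Fermat.Agent.LT.B.kc κ κ') where
  inv γ y y' := by
    change ∑ᶠ x, κ (γ • y) x * κ' x (γ • y') = ∑ᶠ x, κ y x * κ' x y'
    rw [← finsum_comp_equiv (MulAction.toPerm γ)]
    refine finsum_congr fun x => ?_
    rw [MulAction.toPerm_apply, h.inv, h'.inv]
  fin := RF.kc h.fin h'.fin
  fin' y' := by
    refine ((h'.fin' y').biUnion fun x _ => h.fin' x).subset ?_
    intro y hy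
    have h1 : Fermat.Agent.LT.B.kc κ κ' y y' ≠ 0 := hy
    rw [kc_eq_ka, RF.ka_eq h.fin] at h1
    obtain ⟨x, -, hne⟩ := Finset.exists_ne_zero_of_sum_ne_zero h1
    exact Set.mem_biUnion (right_ne_zero_of_mul hne) (left_ne_zero_of_mul hne)
  bdd := by
    obtain ⟨n, hn⟩ := h.exists_ncard_le
    obtain ⟨a, ha⟩ := h.bdd
    obtain ⟨b, hb⟩ := h'.bdd
    refine ⟨n * (|a| * |b|), fun y y' => ?_⟩
    rw [kc_eq_ka, RF.ka_eq h.fin]
    refine (norm_sum_le _ _).trans ?_
    calc ∑ x ∈ (h.fin y).toFinset, ‖κ y x * κ' x y'‖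
        ≤ ∑ _x ∈ (h.fin y).toFinset, |a| * |b| := by
          refine Finset.sum_le_sum fun x _ => ?_
          rw [norm_mul]
          exact mul_le_mul ((ha y x).trans (le_abs_self a)) ((hb x y').trans (le_abs_self b))
            (norm_nonneg _) (abs_nonneg _)
      _ = (h.fin y).toFinset.card * (|a| * |b|) := by rw [Finset.sum_const, nsmul_eq_mul]
      _ ≤ n * (|a| * |b|) := by
          gcongr
          have := hn y
          rwa [Set.ncard_eq_toFinset_card _ (h.fin y)] at this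

theorem IsTestKer.opF {κ : Y D.toLevel → Y D.toLevel → ℂ} (hκ : IsFinTest κ)
    {k : X D → X D → ℂ} (hk : IsTestKer k) :
    IsTestKer fun x z => Fermat.Agent.LT.B.opF κ (fun y => k y z) x := by
  obtain ⟨J, fJ, Φ, κ', hΦ, hκ', hk⟩ := hk
  refine ⟨J, fJ, Φ, fun j => Fermat.Agent.LT.B.kc κ (κ' j), hΦ, fun j => hκ.kc (hκ' j),
    fun x z => ?_⟩
  show Fermat.Agent.LT.B.opF κ (fun y => k y z) x = _
  rw [opF_eq_sum hκ.fin]
  have e1 : ∀ u, k (x.1, u) z = ∑ j, Φ j (chv x z) * κ' j u z.2 := fun u => hk _ _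
  simp_rw [e1, kc_eq_ka, RF.ka_eq hκ.fin, Finset.mul_sum]
  rw [Finset.sum_comm]
  exact Finset.sum_congr rfl fun j _ => Finset.sum_congr rfl fun u _ => by ring

/-! ### commuting finite kernels -/

/-- `κ` commutes with the Hecke operators at the places in `P`. -/
def CommP (P : Set (Pl F)) (κ : Y D.toLevel → Y D.toLevel → ℂ) : Prop :=
  ∀ w ∈ P, ∀ φ : Y D.toLevel → ℂ, ka κ (TY w φ) = TY w (ka κ φ)

theorem CommP.wk (hP : ∀ w ∈ P, D.n w = 0) {κ : Y D.toLevel → Y D.toLevel → ℂ}
    (h : CommP P κ) {l : List (Pl F)} (hl : ∀ w ∈ l, w ∈ P) (φ : Y D.toLevel → ℂ) :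
    ka κ (ka (wk l) φ) = ka (Fermat.Agent.LT.B.wk l) (ka κ φ) := by
  induction l with
  | nil => rw [ka_wk_nil, ka_wk_nil]
  | cons w l ih =>
    have hg : Good D.toLevel (w :: l) := fun v hv => hP v (hl v hv)
    rw [ka_wk_cons hg, ka_wk_cons hg, h w (hl w (List.mem_cons_self ..)),
      ih fun v hv => hl v (List.mem_cons_of_mem _ hv)]

theorem appK_opF_bk (hP : ∀ w ∈ P, D.n w = 0) {κ : Y D.toLevel → Y D.toLevel → ℂ} (hκ : RF κ)
    (h : CommP P κ) {g : D.I → ℝ → ℂ} (hg : ∀ i, IsTest (g i)) {l : List (Pl F)}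
    (hl : ∀ w ∈ l, w ∈ P) {φ : X D → ℂ} (hφ : Continuous φ) (x : X D) :
    appK volume (bk g l) (opF κ φ) x = opF κ (appK volume (bk g l) φ) x := by
  have hgl : Good D.toLevel l := fun w hw => hP w (hl w hw)
  have e1 : appK volume (bk g l) (opF κ φ) x
      = ka (wk l) (fun y => opA g (fun R => opF κ φ (R, y)) x.1) x.2 :=
    appK_tensor hg (RF_wk hgl) (continuous_opF hκ hφ) x
  have e2 : ∀ z : X D, appK volume (bk g l) φ z
      = ka (wk l) (fun y => opA g (fun R => φ (R, y)) z.1) z.2 :=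
    fun z => appK_tensor hg (RF_wk hgl) hφ z
  have e3 : opF κ (appK volume (bk g l) φ) x
      = ka κ (ka (wk l) fun y => opA g (fun R => φ (R, y)) x.1) x.2 := by
    unfold opF
    congr 1
    funext y
    exact e2 (x.1, y)
  rw [e1, e3, h.wk hP hl]
  congr 1
  funext y
  -- exchange the finite sum and the integral
  have e4 : ∀ R, opF κ φ (R, y) = ∑ u ∈ (hκ y).toFinset, κ y u * φ (R, u) :=
    fun R => opF_eq_sum hκ φ (R, y)
  simp_rw [e4]
  rw [hκ.ka_eq]
  unfold opA
  simp_rw [Finset.mul_sum]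
  rw [integral_finsetSum]
  · refine Finset.sum_congr rfl fun u _ => ?_
    rw [← integral_const_mul]
    refine integral_congr_ae (Eventually.of_forall fun R => ?_)
    show pk g x.1 R * (κ y u * φ (R, u)) = κ y u * (pk g x.1 R * φ (R, u))
    ring
  · intro u _
    have hc : Continuous fun R : XI D.toArch => κ y u * φ (R, u) := by
      have := hφ.comp (Continuous.prodMk_left (X := XI D.toArch) u)
      exact continuous_const.mul this
    exact integrable_opA hg hc x.1

theorem opF_congr {κ : Y D.toLevel → Y D.toLevel → ℂ} {φ ψ : X D → ℂ} (h : ∀ x, φ x = ψ x)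
    (x : X D) : opF κ φ x = opF κ ψ x := by
  rw [show φ = ψ from funext h]

/-- Spherical kernels commute with `opF κ`. -/
theorem appK_opF (hP : ∀ w ∈ P, D.n w = 0) {κ : Y D.toLevel → Y D.toLevel → ℂ} (hκ : RF κ)
    (h : CommP P κ) {k : X D → X D → ℂ} (hk : k ∈ Sph D P) {φ : X D → ℂ} (hφ : Continuous φ)
    (x : X D) : appK volume k (opF κ φ) x = opF κ (appK volume k φ) x := by
  revert x
  refine Submodule.span_induction
    (p := fun k _ => ∀ x, appK volume k (opF κ φ) x = opF κ (appK volume k φ) x) ?_ ?_ ?_ ?_ hk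
  · rintro _ ⟨g, l, hg, hl, rfl⟩ x
    exact appK_opF_bk hP hκ h hg hl hφ x
  · intro x
    have e : appK volume (0 : X D → X D → ℂ) φ = fun _ => 0 := by funext y; simp [appK]
    rw [e, opF_zero]
    simp [appK]
  · intro k1 k2 h1 h2 hk1 hk2 x
    have c1 := (isTestKer_of_mem_Sph hP h1).cKer
    have c2 := (isTestKer_of_mem_Sph hP h2).cKer
    rw [appK_add_ker c1 c2 (continuous_opF hκ hφ).locallyIntegrable, hk1, hk2,
      opF_congr (fun y => appK_add_ker c1 c2 hφ.locallyIntegrable y) x]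
    exact (opF_add hκ _ _ x).symm
  · intro a k1 _ hk1 x
    rw [appK_smul_ker, hk1, opF_congr (fun y => appK_smul_ker a k1 φ y) x]
    exact (opF_smul hκ a _ x).symm

theorem IsJ.opF (hP : ∀ w ∈ P, D.n w = 0) {κ : Y D.toLevel → Y D.toLevel → ℂ}
    (hκ : IsFinTest κ) (h : CommP P κ) {c : JSph D P → ℂ} {φ : X D → ℂ} (hφ : IsJ c φ) :
    IsJ c (Fermat.Agent.LT.B.opF κ φ) := by
  refine ⟨opF_mem_autFun hκ hφ.1, fun j x => ?_⟩
  have e : appK volume (jk j) (Fermat.Agent.LT.B.opF κ φ) x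
      = Fermat.Agent.LT.B.opF κ (appK volume (jk j) φ) x :=
    appK_opF hP hκ.fin h j.2.1 hφ.cont x
  rw [e, opF_congr (fun y => hφ.2 j y) x]
  exact opF_smul hκ.fin _ _ x

/-! ### twists -/

section twist

variable (T : Twist D P)

/-- the transported kernel -/
noncomputable def Twist.tk (k : X D → X D → ℂ) : X D → X D → ℂ := fun x y => k (T.hX x) (T.hX y)

theorem Twist.ka_wk (hP : ∀ w ∈ P, D.n w = 0) {l : List (Pl F)} (hl : ∀ w ∈ l, w ∈ P)
    (φ : Y D.toLevel → ℂ) (y : Y D.toLevel) :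
    ka (wk l) φ (T.σY y) = ka (wk (l.map T.πP.symm)) (fun y => φ (T.σY y)) y := by
  induction l generalizing y with
  | nil => rw [List.map_nil, ka_wk_nil, ka_wk_nil]
  | cons w l ih =>
    have hg : Good D.toLevel (w :: l) := fun v hv => hP v (hl v hv)
    have hw : T.πP.symm w ∈ P := by
      rw [← T.stable, Equiv.apply_symm_apply]; exact hl w (List.mem_cons_self ..)
    have hg' : Good D.toLevel (T.πP.symm w :: l.map T.πP.symm) := by
      intro v hv
      rcases List.mem_cons.1 hv with h | h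
      · rw [h]; exact hP _ hw
      · obtain ⟨u, hu, rfl⟩ := List.mem_map.1 h
        refine hP _ ?_
        rw [← T.stable, Equiv.apply_symm_apply]
        exact hl u (List.mem_cons_of_mem _ hu)
    rw [List.map_cons, ka_wk_cons hg, ka_wk_cons hg']
    have h1 := T.hecke _ hw (ka (wk l) φ) y
    rw [Equiv.apply_symm_apply] at h1
    rw [h1]
    congr 1
    funext y
    exact ih (fun v hv => hl v (List.mem_cons_of_mem _ hv)) y

theorem Twist.wk_apply (hP : ∀ w ∈ P, D.n w = 0) {l : List (Pl F)} (hl : ∀ w ∈ l, w ∈ P)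
    (y z : Y D.toLevel) : wk l (T.σY y) (T.σY z) = wk (l.map T.πP.symm) y z := by
  classical
  rw [← ka_dl (wk l) (T.σY z) (T.σY y), T.ka_wk hP hl, ← ka_dl (wk (l.map T.πP.symm)) z y]
  congr 1
  funext u
  unfold dl
  congr 1
  exact propext ⟨fun h => T.σY.injective h, fun h => by rw [h]⟩

theorem Twist.pk_apply (g : D.I → ℝ → ℂ) (x y : XI D.toArch) :
    pk g (permI T.πI x) (permI T.πI y) = pk (fun i => g (T.πI.symm i)) x y := by
  have h := Equiv.prod_comp T.πI (fun j => kfun (g (T.πI.symm j)) (H3.ch (x j) (y j)))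
  refine Eq.trans ?_ h
  refine Finset.prod_congr rfl fun i _ => ?_
  show kfun (g i) (H3.ch (x (T.πI i)) (y (T.πI i)))
    = kfun (g (T.πI.symm (T.πI i))) (H3.ch (x (T.πI i)) (y (T.πI i)))
  rw [Equiv.symm_apply_apply]

theorem Twist.tk_mem_Sph (hP : ∀ w ∈ P, D.n w = 0) {k : X D → X D → ℂ} (hk : k ∈ Sph D P) :
    T.tk k ∈ Sph D P := by
  refine Submodule.span_induction (p := fun k _ => T.tk k ∈ Sph D P) ?_ ?_ ?_ ?_ hk
  · rintro _ ⟨g, l, hg, hl, rfl⟩
    have e : T.tk (bk g l) = bk (fun i => g (T.πI.symm i)) (l.map T.πP.symm) := by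
      funext x y
      show pk g (permI T.πI x.1) (permI T.πI y.1) * wk l (T.σY x.2) (T.σY y.2) = _
      rw [T.pk_apply, T.wk_apply hP hl]
      rfl
    rw [e]
    refine bk_mem_Sph (fun i => hg _) fun w hw => ?_
    obtain ⟨u, hu, rfl⟩ := List.mem_map.1 hw
    rw [← T.stable, Equiv.apply_symm_apply]
    exact hl u hu
  · exact zero_mem _
  · intro k1 k2 _ _ h h'
    exact add_mem h h'
  · intro a k1 _ h
    exact Submodule.smul_mem _ a h

theorem Twist.appK_tk (k : X D → X D → ℂ) (φ : X D → ℂ) (x : X D) :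
    appK volume (T.tk k) φ x = appK volume k (fun y => φ (T.hX.symm y)) (T.hX x) := by
  unfold appK Twist.tk
  have h := (measurePreserving_twX T.πI T.σY).integral_comp (T.hX.toMeasurableEquiv.measurableEmbedding)
    (fun y => k (T.hX x) y * φ (T.hX.symm y))
  rw [← h]
  refine integral_congr_ae (Eventually.of_forall fun y => ?_)
  show k (T.hX x) (T.hX y) * φ y = k (T.hX x) (T.hX y) * φ (T.hX.symm (T.hX y))
  rw [Homeomorph.symm_apply_apply]

theorem Twist.killed_tk {k : X D → X D → ℂ} (hk : Killed k) : Killed (T.tk k) := by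
  intro ψ hψ x
  rw [T.appK_tk]
  exact hk _ (T.nb ψ hψ) _

/-- transport on the index set of the family -/
noncomputable def Twist.jt (hP : ∀ w ∈ P, D.n w = 0) (j : JSph D P) : JSph D P :=
  ⟨T.tk j.1, T.tk_mem_Sph hP j.2.1, T.killed_tk j.2.2.1, fun _ _ => j.2.2.2 _ _⟩

theorem Twist.appK_symm (k : X D → X D → ℂ) (φ : X D → ℂ) (x : X D) :
    appK volume k (fun y => φ (T.hX.symm y)) x = appK volume (T.tk k) φ (T.hX.symm x) := by
  rw [T.appK_tk, Homeomorph.apply_symm_apply]

end twist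

end Fermat.Agent.LT.B
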