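import Fermat.Agent.LT.B.Kernel

/-!
# Composition of the operators attached to equivariant kernels
-/

set_option linter.unusedSectionVars false
set_option linter.unusedVariables false

open MeasureTheory MulAction Set ProbabilityTheory
open scoped ENNReal NNReal

namespace Fermat.Agent.LT.B

variable {Γ X : Type*} [Group Γ] [MulAction Γ X] [MeasurableSpace X]

section

variable [Countable Γ] [MeasurableConstSMul Γ X] {μ : Measure X} [SMulInvariantMeasure Γ X μ]
  [SFinite μ] {w : X → ℝ≥0∞} {κ : Kernel X X} [IsSFiniteKernel κ] {c : X → X → ℂ} {A B : ℝ≥0}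

/-- The constant kernel `μ` is reversible. -/
theorem isRev_const : IsRev Γ μ (Kernel.const X μ) where
  eqv γ x := by
    simp only [Kernel.const_apply]
    exact (measurePreserving_smul γ μ).map_eq.symm
  rev := by
    rw [Measure.compProd_const, Measure.prod_swap]

/-- Kernels with a bound and a bound of the measure of the support are Schur bounded. -/
theorem IsSchur.of_bound {c : X → X → ℂ} {M V : ℝ≥0} (hm : StronglyMeasurable (Function.uncurry c))
    (hinv : ∀ (γ : Γ) x y, c (γ • x) (γ • y) = c x y) (hM : ∀ x y, ‖c x y‖ₑ ≤ M)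
    (hV : ∀ x, κ x {y | c x y ≠ 0} ≤ V) (hV' : ∀ x, κ x {y | c y x ≠ 0} ≤ V) :
    IsSchur Γ κ c (M * V) (M * V) where
  meas := hm
  inv := hinv
  left x := by
    have hs : MeasurableSet {y | c x y ≠ 0} :=
      (hm.comp_measurable measurable_prodMk_left).measurable (measurableSet_singleton 0).compl
    calc ∫⁻ y, ‖c x y‖ₑ ∂κ x = ∫⁻ y in {y | c x y ≠ 0}, ‖c x y‖ₑ ∂κ x := by
          rw [← lintegral_indicator hs]
          congr 1
          ext y
          by_cases h : c x y = 0
          · rw [indicator_of_notMem (by simpa using h), h, enorm_zero]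
          · rw [indicator_of_mem (by simpa using h)]
      _ ≤ ∫⁻ y in {y | c x y ≠ 0}, M ∂κ x := lintegral_mono fun y => hM x y
      _ = M * κ x {y | c x y ≠ 0} := setLIntegral_const _ _
      _ ≤ (M * V : ℝ≥0) := by
          rw [ENNReal.coe_mul]
          gcongr
          exact hV x
  right x := by
    have hs : MeasurableSet {y | c y x ≠ 0} :=
      (hm.comp_measurable (measurable_id.prodMk measurable_const)).measurable
        (measurableSet_singleton 0).compl
    calc ∫⁻ y, ‖c y x‖ₑ ∂κ x = ∫⁻ y in {y | c y x ≠ 0}, ‖c y x‖ₑ ∂κ x := by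
          rw [← lintegral_indicator hs]
          congr 1
          ext y
          by_cases h : c y x = 0
          · rw [indicator_of_notMem (by simpa using h), h, enorm_zero]
          · rw [indicator_of_mem (by simpa using h)]
      _ ≤ ∫⁻ y in {y | c y x ≠ 0}, M ∂κ x := lintegral_mono fun y => hM y x
      _ = M * κ x {y | c y x ≠ 0} := setLIntegral_const _ _
      _ ≤ (M * V : ℝ≥0) := by
          rw [ENNReal.coe_mul]
          gcongr
          exact hV' x

/-- absolute value of a coefficient function -/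
theorem IsSchur.abs (hc : IsSchur Γ κ c A B) : IsSchur Γ κ (fun x y => (‖c x y‖ : ℂ)) A B where
  meas := by
    have h := hc.meas.norm
    exact Complex.continuous_ofReal.comp_stronglyMeasurable h
  inv γ x y := by rw [hc.inv]
  left x := by
    have e : ∀ y, ‖(‖c x y‖ : ℂ)‖ₑ = ‖c x y‖ₑ := fun y => by simp [enorm_eq_nnnorm]
    simp_rw [e]
    exact hc.left x
  right x := by
    have e : ∀ y, ‖(‖c y x‖ : ℂ)‖ₑ = ‖c y x‖ₑ := fun y => by simp [enorm_eq_nnnorm]
    simp_rw [e]
    exact hc.right x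

/-- The composition formula. -/
theorem IsOp.comp_apply {κ' : Kernel X X} [IsSFiniteKernel κ'] {c' : X → X → ℂ}
    (h : IsRev Γ μ κ) (hw : IsWeight Γ w)
    {T T' : Lp ℂ 2 (qMeas Γ μ w) →L[ℂ] Lp ℂ 2 (qMeas Γ μ w)}
    (hT : IsOp Γ μ w κ c T) (hT' : IsOp Γ μ w κ' c' T') (f : Lp ℂ 2 (qMeas Γ μ w)) :
    ∀ᵐ x ∂μ, T (T' f) (pr Γ x) = ∫ y, c x y * ∫ z, c' y z * f (pr Γ z) ∂κ' y ∂κ x := by
  filter_upwards [hT (T' f), h.ae_ae (hT' f)] with x h1 h2
  rw [h1]
  refine integral_congr_ae ?_
  filter_upwards [h2] with y hy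
  rw [hy]

/-- Coefficient function of a composition `(κ, c) ∘ (μ, c')`. -/
noncomputable def compC (κ : Kernel X X) (c c' : X → X → ℂ) : X → X → ℂ :=
  fun x z => ∫ y, c x y * c' y z ∂κ x

theorem enorm_compC_le (c c' : X → X → ℂ) (x z : X) :
    ‖compC κ c c' x z‖ₑ ≤ ∫⁻ y, ‖c x y‖ₑ * ‖c' y z‖ₑ ∂κ x := by
  refine (enorm_integral_le_lintegral_enorm _).trans (le_of_eq ?_)
  simp_rw [enorm_mul]

theorem IsSchur.comp_const {c' : X → X → ℂ} {A' B' : ℝ≥0} (hc : IsSchur Γ κ c A B)
    (hc' : IsSchur Γ (Kernel.const X μ) c' A' B') (h : IsRev Γ μ κ) :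
    IsSchur Γ (Kernel.const X μ) (compC κ c c') (A * A') (B * B') where
  meas := by
    let κ₁ : Kernel (X × X) X := κ.comap Prod.fst measurable_fst
    have : StronglyMeasurable (fun p : X × X => ∫ y, c p.1 y * c' y p.2 ∂(κ₁ p)) := by
      refine StronglyMeasurable.integral_kernel_prod_right ?_
      refine StronglyMeasurable.mul ?_ ?_
      · exact hc.meas.comp_measurable
          ((measurable_fst.comp measurable_fst).prodMk measurable_snd)
      · exact hc'.meas.comp_measurable
          (measurable_snd.prodMk (measurable_snd.comp measurable_fst))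
    exact this
  inv γ x z := by
    unfold compC
    rw [h.eqv, show (fun y : X => γ • y) = (MeasurableEquiv.smul γ : X ≃ᵐ X) from rfl,
      integral_map_equiv]
    congr 1
    ext y
    rw [show (MeasurableEquiv.smul γ : X ≃ᵐ X) y = γ • y from rfl, hc.inv, hc'.inv]
  left x := by
    have hm : AEMeasurable (Function.uncurry fun z y : X => ‖c x y‖ₑ * ‖c' y z‖ₑ)
        (((Kernel.const X μ) x).prod (κ x)) := by
      refine Measurable.aemeasurable ?_
      exact ((hc.meas.comp_measurable measurable_prodMk_left).enorm.comp measurable_snd).mul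
        (hc'.meas.enorm.comp measurable_swap)
    calc ∫⁻ z, ‖compC κ c c' x z‖ₑ ∂(Kernel.const X μ) x
        ≤ ∫⁻ z, ∫⁻ y, ‖c x y‖ₑ * ‖c' y z‖ₑ ∂κ x ∂(Kernel.const X μ) x :=
          lintegral_mono fun z => enorm_compC_le c c' x z
      _ = ∫⁻ y, ∫⁻ z, ‖c x y‖ₑ * ‖c' y z‖ₑ ∂(Kernel.const X μ) x ∂κ x :=
          lintegral_lintegral_swap hm
      _ = ∫⁻ y, ‖c x y‖ₑ * ∫⁻ z, ‖c' y z‖ₑ ∂(Kernel.const X μ) y ∂κ x := by
          congr 1
          ext y
          exact lintegral_const_mul _ (hc'.meas.comp_measurable measurable_prodMk_left).enorm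
      _ ≤ ∫⁻ y, ‖c x y‖ₑ * A' ∂κ x := by
          refine lintegral_mono fun y => ?_
          gcongr
          exact hc'.left y
      _ = (∫⁻ y, ‖c x y‖ₑ ∂κ x) * A' :=
          lintegral_mul_const _ (hc.meas.comp_measurable measurable_prodMk_left).enorm
      _ ≤ ((A * A' : ℝ≥0) : ℝ≥0∞) := by
          rw [ENNReal.coe_mul]
          gcongr
          exact hc.left x
  right z := by
    have hm1 : Measurable (fun p : X × X => ‖c p.1 p.2‖ₑ * ‖c' p.2 z‖ₑ) :=
      hc.meas.enorm.mul ((hc'.meas.comp_measurable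
        (measurable_id.prodMk measurable_const)).enorm.comp measurable_snd)
    have hm2 : Measurable (fun p : X × X => ‖c p.2 p.1‖ₑ * ‖c' p.1 z‖ₑ) :=
      hm1.comp measurable_swap
    calc ∫⁻ x, ‖compC κ c c' x z‖ₑ ∂(Kernel.const X μ) z
        ≤ ∫⁻ x, ∫⁻ y, ‖c x y‖ₑ * ‖c' y z‖ₑ ∂κ x ∂μ :=
          lintegral_mono fun x => enorm_compC_le c c' x z
      _ = ∫⁻ p : X × X, ‖c p.1 p.2‖ₑ * ‖c' p.2 z‖ₑ ∂(μ ⊗ₘ κ) :=
          (Measure.lintegral_compProd hm1).symm
      _ = ∫⁻ p : X × X, ‖c p.2 p.1‖ₑ * ‖c' p.1 z‖ₑ ∂(μ ⊗ₘ κ) := by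
          conv_lhs => rw [← h.rev]
          rw [lintegral_map hm1 measurable_swap]
          rfl
      _ = ∫⁻ x, ∫⁻ y, ‖c y x‖ₑ * ‖c' x z‖ₑ ∂κ x ∂μ := Measure.lintegral_compProd hm2
      _ = ∫⁻ x, (∫⁻ y, ‖c y x‖ₑ ∂κ x) * ‖c' x z‖ₑ ∂μ := by
          congr 1
          ext x
          exact lintegral_mul_const _ (hc.meas.comp_measurable
            (measurable_id.prodMk measurable_const)).enorm
      _ ≤ ∫⁻ x, B * ‖c' x z‖ₑ ∂μ := by
          refine lintegral_mono fun x => ?_
          gcongr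
          exact hc.right x
      _ = B * ∫⁻ x, ‖c' x z‖ₑ ∂μ :=
          lintegral_const_mul _ (hc'.meas.comp_measurable
            (measurable_id.prodMk measurable_const)).enorm
      _ ≤ ((B * B' : ℝ≥0) : ℝ≥0∞) := by
          rw [ENNReal.coe_mul]
          gcongr
          exact hc'.right z

/-- Composition with an integral operator on the right is an integral operator. -/
theorem IsOp.comp {c' : X → X → ℂ} {A' B' : ℝ≥0} (hc : IsSchur Γ κ c A B)
    (hc' : IsSchur Γ (Kernel.const X μ) c' A' B') (h : IsRev Γ μ κ) (hw : IsWeight Γ w)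
    {T T' : Lp ℂ 2 (qMeas Γ μ w) →L[ℂ] Lp ℂ 2 (qMeas Γ μ w)}
    (hT : IsOp Γ μ w κ c T) (hT' : IsOp Γ μ w (Kernel.const X μ) c' T') :
    IsOp Γ μ w (Kernel.const X μ) (compC κ c c') (T.comp T') := by
  intro f
  have hfm := Lp.stronglyMeasurable f
  have hfp : StronglyMeasurable (fun y : X => f (pr Γ y)) := hfm.comp_measurable measurable_pr
  -- absolute integrability
  have hna : StronglyMeasurable (fun q : Qt Γ X => (‖f q‖ : ℂ)) :=
    Complex.continuous_ofReal.comp_stronglyMeasurable hfm.norm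
  have hna2 : MemLp (fun q : Qt Γ X => (‖f q‖ : ℂ)) 2 (qMeas Γ μ w) := by
    refine (memLp_congr_norm hna.aestronglyMeasurable (Lp.memLp f).1 ?_).2 (Lp.memLp f)
    exact Filter.Eventually.of_forall fun q => by simp
  have hR : IsRev Γ μ (Kernel.const X μ) := isRev_const
  have hF2 := hc'.abs.memLp_opFun hR hw hna hna2
  have hF2m := hc'.abs.stronglyMeasurable_opFun hR hna
  have hint := hc.ae_integrable h hw hF2m hF2.1
  have hint' := hc'.abs.ae_integrable hR hw hna hna2
  filter_upwards [hT.comp_apply h hw hT' f, hint, h.ae_ae hint'] with x h1 h2 h3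
  rw [ContinuousLinearMap.comp_apply, h1]
  simp only [Kernel.const_apply] at h3 ⊢
  have hsm : StronglyMeasurable (Function.uncurry fun y z : X => c x y * (c' y z * f (pr Γ z))) := by
    refine StronglyMeasurable.mul ?_ (hc'.meas.mul (hfp.comp_measurable measurable_snd))
    exact (hc.meas.comp_measurable measurable_prodMk_left).comp_measurable measurable_fst
  have hI : Integrable (Function.uncurry fun y z : X => c x y * (c' y z * f (pr Γ z)))
      ((κ x).prod μ) := by
    rw [integrable_prod_iff hsm.aestronglyMeasurable]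
    constructor
    · filter_upwards [h3] with y hy
      have hi : Integrable (fun z => c' y z * f (pr Γ z)) μ := by
        refine hy.mono ((hc'.meas.comp_measurable measurable_prodMk_left).mul
          hfp).aestronglyMeasurable (Filter.Eventually.of_forall fun z => ?_)
        simp
      exact hi.const_mul (c x y)
    · refine h2.norm.congr (Filter.Eventually.of_forall fun y => ?_)
      have e1 : hc'.abs.opFun hR (fun q : Qt Γ X => (‖f q‖ : ℂ)) (pr Γ y)
          = ((∫ z, ‖c' y z‖ * ‖f (pr Γ z)‖ ∂μ : ℝ) : ℂ) := by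
        rw [IsSchur.opFun_pr, Kernel.const_apply, ← integral_complex_ofReal]
        simp
      have e2 : 0 ≤ ∫ z, ‖c' y z‖ * ‖f (pr Γ z)‖ ∂μ := integral_nonneg fun z => by positivity
      simp only [e1, norm_mul, Complex.norm_real, Real.norm_of_nonneg e2]
      rw [← integral_const_mul]
      congr 1
      ext z
      simp only [Function.uncurry_apply_pair, norm_mul]
  calc ∫ y, c x y * ∫ z, c' y z * f (pr Γ z) ∂μ ∂κ x
      = ∫ y, ∫ z, c x y * (c' y z * f (pr Γ z)) ∂μ ∂κ x := by
        simp_rw [integral_const_mul]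
    _ = ∫ z, ∫ y, c x y * (c' y z * f (pr Γ z)) ∂κ x ∂μ := integral_integral_swap hI
    _ = ∫ z, compC κ c c' x z * f (pr Γ z) ∂μ := by
        congr 1
        ext z
        unfold compC
        rw [← integral_mul_const]
        congr 1
        ext y
        ring

/-- Composition with an integral operator on the left is an integral operator. -/
theorem IsOp.comp' {c' : X → X → ℂ} {A' B' : ℝ≥0} (hc : IsSchur Γ κ c A B)
    (hc' : IsSchur Γ (Kernel.const X μ) c' A' B') (h : IsRev Γ μ κ) (hw : IsWeight Γ w)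
    {T T' : Lp ℂ 2 (qMeas Γ μ w) →L[ℂ] Lp ℂ 2 (qMeas Γ μ w)}
    (hT : IsOp Γ μ w κ c T) (hT' : IsOp Γ μ w (Kernel.const X μ) c' T') :
    IsOp Γ μ w (Kernel.const X μ) (fun x z => ∫ y, c' x y * c y z ∂κ z) (T'.comp T) := by
  have hR : IsRev Γ μ (Kernel.const X μ) := isRev_const
  obtain ⟨S, hS, -⟩ := hc.conjTranspose.exists_isOp h hw
  obtain ⟨S', hS', -⟩ := hc'.conjTranspose.exists_isOp hR hw
  have e1 := hc.isOp_adjoint h hw hT hS
  have e2 := hc'.isOp_adjoint hR hw hT' hS'
  have h1 := IsOp.comp hc.conjTranspose hc'.conjTranspose h hw hS hS'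
  have hs := hc.conjTranspose.comp_const hc'.conjTranspose h
  obtain ⟨R, hRo, -⟩ := hs.conjTranspose.exists_isOp hR hw
  have e3 := hs.isOp_adjoint hR hw h1 hRo
  have e4 : T'.comp T = R := by
    rw [e3, e1, e2, ContinuousLinearMap.adjoint_comp, ContinuousLinearMap.adjoint_adjoint,
      ContinuousLinearMap.adjoint_adjoint]
  have e5 : (fun x z => ∫ y, c' x y * c y z ∂κ z) = conjTr (compC κ (conjTr c) (conjTr c')) := by
    ext x z
    rw [conjTr_apply]
    unfold compC
    rw [← integral_conj]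
    congr 1
    ext y
    simp only [conjTr_apply, map_mul, Complex.conj_conj]
    ring
  rw [e4, e5]
  exact hRo

/-- Commutation of an integral operator with the operator `(κ, c)`: it is enough to check the
identity of coefficient functions. -/
theorem IsOp.comm {c' : X → X → ℂ} {A' B' : ℝ≥0} (hc : IsSchur Γ κ c A B)
    (hc' : IsSchur Γ (Kernel.const X μ) c' A' B') (h : IsRev Γ μ κ) (hw : IsWeight Γ w)
    {T T' : Lp ℂ 2 (qMeas Γ μ w) →L[ℂ] Lp ℂ 2 (qMeas Γ μ w)}
    (hT : IsOp Γ μ w κ c T) (hT' : IsOp Γ μ w (Kernel.const X μ) c' T')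
    (hcomm : ∀ x z, ∫ y, c x y * c' y z ∂κ x = ∫ y, c' x y * c y z ∂κ z) :
    T.comp T' = T'.comp T := by
  have h1 := IsOp.comp hc hc' h hw hT hT'
  have h2 := IsOp.comp' hc hc' h hw hT hT'
  have e : compC κ c c' = fun x z => ∫ y, c' x y * c y z ∂κ z := by
    ext x z
    exact hcomm x z
  rw [← e] at h2
  exact h1.unique hw h2

/-- The swapping criterion for commutation (Gelfand's trick). -/
theorem comm_of_swap {c' : X → X → ℂ} (hsym : ∀ x y, c x y = c y x) (hsym' : ∀ x y, c' x y = c' y x)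
    (hswap : ∀ x z, ∃ g : X ≃ᵐ X, g x = z ∧ g z = x ∧ (κ z = (κ x).map g) ∧
      (∀ a b, c (g a) (g b) = c a b) ∧ ∀ a b, c' (g a) (g b) = c' a b) (x z : X) :
    ∫ y, c x y * c' y z ∂κ x = ∫ y, c' x y * c y z ∂κ z := by
  obtain ⟨g, h1, h2, h3, h4, h5⟩ := hswap x z
  rw [h3, integral_map_equiv]
  congr 1
  ext y
  have e1 : c (g y) z = c y x := by
    conv_lhs => rw [← h1]
    exact h4 y x
  have e2 : c' x (g y) = c' z y := by
    conv_lhs => rw [← h2]
    exact h5 z y
  rw [e1, e2, hsym x y, hsym' y z, mul_comm]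

end

end Fermat.Agent.LT.B
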