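import Fermat.Agent.LT.B.Cusp

/-!
# LT, piece B: finite kernels on `Y U` and words in the Hecke operators
-/

set_option autoImplicit false

open NumberField IsDedekindDomain Matrix
open Fermat.LT Fermat.Agent.LT.CTree

namespace Fermat.Agent.LT.B

section general

variable {Y : Type*}

/-- composition of kernels on a discrete set -/
noncomputable def kc (κ κ' : Y → Y → ℂ) (a b : Y) : ℂ := ∑ᶠ x, κ a x * κ' x b

/-- action of a kernel on functions on a discrete set -/
noncomputable def ka (κ : Y → Y → ℂ) (φ : Y → ℂ) (a : Y) : ℂ := ∑ᶠ x, κ a x * φ x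

/-- row finite kernels -/
def RF (κ : Y → Y → ℂ) : Prop := ∀ a, {x | κ a x ≠ 0}.Finite

theorem kc_eq_ka (κ κ' : Y → Y → ℂ) (a b : Y) : kc κ κ' a b = ka κ (fun x => κ' x b) a := rfl

theorem ka_eq_sum {κ : Y → Y → ℂ} {φ : Y → ℂ} {a : Y} {s : Finset Y}
    (h : ∀ x, κ a x ≠ 0 → x ∈ s) : ka κ φ a = ∑ x ∈ s, κ a x * φ x := by
  unfold ka
  refine finsum_eq_sum_of_support_subset _ fun x hx => ?_
  exact h x (left_ne_zero_of_mul hx)

theorem RF.ka_eq {κ : Y → Y → ℂ} (h : RF κ) (φ : Y → ℂ) (a : Y) :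
    ka κ φ a = ∑ x ∈ (h a).toFinset, κ a x * φ x :=
  ka_eq_sum fun _ hx => (Set.Finite.mem_toFinset _).2 hx

theorem RF.ka_add {κ : Y → Y → ℂ} (h : RF κ) (φ ψ : Y → ℂ) :
    ka κ (fun x => φ x + ψ x) = fun a => ka κ φ a + ka κ ψ a := by
  funext a
  rw [h.ka_eq, h.ka_eq, h.ka_eq, ← Finset.sum_add_distrib]
  exact Finset.sum_congr rfl fun x _ => by ring

theorem RF.ka_smul {κ : Y → Y → ℂ} (h : RF κ) (c : ℂ) (φ : Y → ℂ) :
    ka κ (fun x => c * φ x) = fun a => c * ka κ φ a := by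
  funext a
  rw [h.ka_eq, h.ka_eq, Finset.mul_sum]
  exact Finset.sum_congr rfl fun x _ => by ring

theorem RF.kc {κ κ' : Y → Y → ℂ} (h : RF κ) (h' : RF κ') : RF (kc κ κ') := by
  intro a
  refine ((h a).biUnion fun x _ => h' x).subset ?_
  intro b hb
  have h1 : Fermat.Agent.LT.B.kc κ κ' a b ≠ 0 := hb
  rw [kc_eq_ka, h.ka_eq] at h1
  obtain ⟨x, hx, hne⟩ := Finset.exists_ne_zero_of_sum_ne_zero h1
  exact Set.mem_biUnion ((Set.Finite.mem_toFinset _).1 hx) (right_ne_zero_of_mul hne)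

theorem ka_kc {κ κ' : Y → Y → ℂ} (h : RF κ) (h' : RF κ') (φ : Y → ℂ) :
    ka (Fermat.Agent.LT.B.kc κ κ') φ = ka κ (ka κ' φ) := by
  classical
  funext a
  set s := (h a).toFinset with hs
  set t := s.biUnion fun x => (h' x).toFinset with ht
  have hsub : ∀ b, Fermat.Agent.LT.B.kc κ κ' a b ≠ 0 → b ∈ t := by
    intro b hb
    rw [kc_eq_ka, h.ka_eq] at hb
    obtain ⟨x, hx, hne⟩ := Finset.exists_ne_zero_of_sum_ne_zero hb
    exact Finset.mem_biUnion.2 ⟨x, hx, (Set.Finite.mem_toFinset _).2 (right_ne_zero_of_mul hne)⟩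
  rw [ka_eq_sum hsub, h.ka_eq (ka κ' φ) a]
  have h1 : ∀ x ∈ s, ka κ' φ x = ∑ b ∈ t, κ' x b * φ b := fun x hx =>
    ka_eq_sum fun b hb => Finset.mem_biUnion.2 ⟨x, hx, (Set.Finite.mem_toFinset _).2 hb⟩
  have h2 : ∀ b, Fermat.Agent.LT.B.kc κ κ' a b = ∑ x ∈ s, κ a x * κ' x b := fun b => by
    rw [kc_eq_ka, h.ka_eq]
  calc ∑ b ∈ t, Fermat.Agent.LT.B.kc κ κ' a b * φ b
      = ∑ b ∈ t, ∑ x ∈ s, κ a x * κ' x b * φ b :=
        Finset.sum_congr rfl fun b _ => by rw [h2, Finset.sum_mul]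
    _ = ∑ x ∈ s, ∑ b ∈ t, κ a x * κ' x b * φ b := Finset.sum_comm
    _ = ∑ x ∈ s, κ a x * ka κ' φ x := Finset.sum_congr rfl fun x hx => by
        rw [h1 x hx, Finset.mul_sum]
        exact Finset.sum_congr rfl fun b _ => by ring

open Classical in
/-- the delta function -/
noncomputable def dl (b : Y) (x : Y) : ℂ := if x = b then 1 else 0

theorem ka_dl (κ : Y → Y → ℂ) (b a : Y) : ka κ (dl b) a = κ a b := by
  classical
  unfold ka dl
  rw [finsum_eq_single _ b]
  · rw [if_pos rfl, mul_one]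
  · intro x hx
    rw [if_neg hx, mul_zero]

theorem ext_of_ka {κ κ' : Y → Y → ℂ} (h : ∀ φ, ka κ φ = ka κ' φ) : κ = κ' := by
  funext a b
  rw [← ka_dl κ b a, h, ka_dl]

theorem kc_assoc {κ κ' κ'' : Y → Y → ℂ} (h : RF κ) (h' : RF κ') :
    kc (kc κ κ') κ'' = kc κ (kc κ' κ'') := by
  funext a b
  rw [kc_eq_ka, ka_kc h h', kc_eq_ka]
  rfl

theorem ka_id (φ : Y → ℂ) : ka (fun y y' => dl y' y) φ = φ := by
  classical
  funext a
  unfold ka
  rw [finsum_eq_single _ a]
  · show dl a a * φ a = φ a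
    rw [dl, if_pos rfl, one_mul]
  · intro x hx
    show dl x a * φ x = 0
    rw [dl, if_neg (fun h => hx h.symm), zero_mul]

theorem RF_id : RF (fun y y' : Y => dl y' y) := by
  classical
  intro a
  refine (Set.finite_singleton a).subset fun x hx => ?_
  by_contra h
  exact hx (if_neg fun h' => h h'.symm)

end general

section upd

variable {F : Type} [Field F] [NumberField F] {U : Level F}

theorem upd_same (y : Y U) (w : Pl F) (z : Yl U w) : (upd y w z) w = z := by
  classical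
  exact Function.update_self w z y.val

theorem upd_ne (y : Y U) {w v : Pl F} (h : v ≠ w) (z : Yl U w) : (upd y w z) v = y v := by
  classical
  exact Function.update_of_ne h z y.val

theorem upd_self (y : Y U) (w : Pl F) : upd y w (y w) = y := by
  refine Y.ext' fun v => ?_
  by_cases h : v = w
  · subst h; exact upd_same y v (y v)
  · exact upd_ne y h _

theorem upd_upd (y : Y U) (w : Pl F) (z z' : Yl U w) : upd (upd y w z) w z' = upd y w z' := by
  refine Y.ext' fun v => ?_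
  by_cases h : v = w
  · subst h; rw [upd_same, upd_same]
  · rw [upd_ne _ h, upd_ne _ h, upd_ne _ h]

theorem upd_comm (y : Y U) {w v : Pl F} (h : v ≠ w) (z : Yl U w) (z' : Yl U v) :
    upd (upd y w z) v z' = upd (upd y v z') w z := by
  refine Y.ext' fun u => ?_
  by_cases h1 : u = v
  · subst h1; rw [upd_same, upd_ne _ h, upd_same]
  · by_cases h2 : u = w
    · subst h2; rw [upd_ne _ h1, upd_same, upd_same]
    · rw [upd_ne _ h1, upd_ne _ h2, upd_ne _ h2, upd_ne _ h1]

theorem upd_injective (y : Y U) (w : Pl F) : Function.Injective (upd y w) := by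
  intro z z' h
  rw [← upd_same y w z, h, upd_same]

theorem upd_eq_of {y y' : Y U} {w : Pl F} (h : ∀ v, v ≠ w → y v = y' v) : upd y w (y' w) = y' := by
  refine Y.ext' fun v => ?_
  by_cases h1 : v = w
  · subst h1; exact upd_same _ _ _
  · rw [upd_ne _ h1, h v h1]

end upd

section hecke

variable {F : Type} [Field F] [NumberField F] {U : Level F} {w : Pl F}

open Classical in
/-- the kernel of the Hecke operator at `w` -/
noncomputable def tk (w : Pl F) (y y' : Y U) : ℂ :=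
  if (∀ v, v ≠ w → y v = y' v) ∧ dY w (y w) (y' w) = 1 then 1 else 0

theorem tk_symm (w : Pl F) (y y' : Y U) : tk w y y' = tk w y' y := by
  classical
  unfold tk
  congr 1
  rw [dY_comm w (y w) (y' w)]
  refine propext ⟨fun h => ⟨fun v hv => (h.1 v hv).symm, h.2⟩,
    fun h => ⟨fun v hv => (h.1 v hv).symm, h.2⟩⟩

theorem tk_upd (w : Pl F) (y : Y U) (z : Yl U w) : tk w y (upd y w z) = δ₁ (dY w (y w) z) := by
  classical
  unfold tk δ₁
  rw [upd_same]
  congr 1
  refine propext ⟨fun h => h.2, fun h => ⟨fun v hv => (upd_ne y hv z).symm, h⟩⟩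

theorem tk_ne_zero {y y' : Y U} (h : tk w y y' ≠ 0) :
    (∀ v, v ≠ w → y v = y' v) ∧ dY w (y w) (y' w) = 1 := by
  classical
  by_contra hc
  exact h (if_neg hc)

/-- the sphere of radius one -/
noncomputable def sph1 (hw : U.n w = 0) (z : Yl U w) : Finset (Yl U w) :=
  (finite_sphere hw 1 z).toFinset

theorem mem_sph1 (hw : U.n w = 0) {z z' : Yl U w} : z' ∈ sph1 hw z ↔ dY w z z' = 1 := by
  simp [sph1]

theorem TY_eq_sum (hw : U.n w = 0) (φ : Y U → ℂ) (y : Y U) :
    TY w φ y = ∑ z ∈ sph1 hw (y w), φ (upd y w z) := by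
  classical
  unfold TY
  rw [Tl_eq_sum hw δ₁_support _ _ (s := sph1 hw (y w))]
  · refine Finset.sum_congr rfl fun z hz => ?_
    rw [(mem_sph1 hw).1 hz, δ₁, if_pos rfl, one_mul]
  · intro z hz
    rw [Set.Finite.mem_toFinset, Set.mem_ofPred_eq] at hz
    rw [mem_sph1 hw]
    by_contra hc
    exact hz (if_neg hc)

theorem RF_tk (hw : U.n w = 0) : RF (tk (U := U) w) := by
  intro y
  refine ((sph1 hw (y w)).finite_toSet.image (upd y w)).subset ?_
  intro y' hy'
  obtain ⟨h1, h2⟩ := tk_ne_zero hy'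
  exact ⟨y' w, (mem_sph1 hw).2 h2, upd_eq_of h1⟩

theorem ka_tk (hw : U.n w = 0) (φ : Y U → ℂ) : ka (tk w) φ = TY w φ := by
  classical
  funext y
  rw [TY_eq_sum hw, ka_eq_sum (s := (sph1 hw (y w)).image (upd y w))]
  · rw [Finset.sum_image fun z _ z' _ h => upd_injective y w h]
    refine Finset.sum_congr rfl fun z hz => ?_
    rw [tk_upd, (mem_sph1 hw).1 hz, δ₁, if_pos rfl, one_mul]
  · intro y' hy'
    obtain ⟨h1, h2⟩ := tk_ne_zero hy'
    exact Finset.mem_image.2 ⟨y' w, (mem_sph1 hw).2 h2, upd_eq_of h1⟩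

/-- Hecke operators at good places commute. -/
theorem TY_comm {v : Pl F} (hw : U.n w = 0) (hv : U.n v = 0) (φ : Y U → ℂ) :
    TY w (TY v φ) = TY v (TY w φ) := by
  classical
  by_cases h : v = w
  · subst h; rfl
  · funext y
    rw [TY_eq_sum hw, TY_eq_sum hv]
    have h1 : ∀ z, TY v φ (upd y w z) = ∑ z' ∈ sph1 hv (y v), φ (upd (upd y w z) v z') := by
      intro z
      rw [TY_eq_sum hv, upd_ne y h]
    have h2 : ∀ z', TY w φ (upd y v z') = ∑ z ∈ sph1 hw (y w), φ (upd (upd y v z') w z) := by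
      intro z'
      rw [TY_eq_sum hw, upd_ne y (fun h' => h h'.symm)]
    simp_rw [h1, h2]
    rw [Finset.sum_comm]
    exact Finset.sum_congr rfl fun z' _ => Finset.sum_congr rfl fun z _ => by
      rw [upd_comm y h]

theorem tk_smul (γ : PG F) (y y' : Y U) : tk w (γ • y) (γ • y') = tk w y y' := by
  classical
  obtain ⟨g, rfl⟩ := Matrix.ProjGenLinGroup.mk_surjective γ
  change tk w (g • y) (g • y') = tk w y y'
  unfold tk
  congr 1
  rw [G2_smul_apply, G2_smul_apply, dY_smul]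
  refine propext ⟨fun h => ⟨fun v hv => ?_, h.2⟩, fun h => ⟨fun v hv => ?_, h.2⟩⟩
  · have := h.1 v hv
    rw [G2_smul_apply, G2_smul_apply] at this
    exact MulAction.injective g this
  · rw [G2_smul_apply, G2_smul_apply, h.1 v hv]

theorem exists_card_sph1 (hw : U.n w = 0) : ∃ n : ℕ, ∀ z : Yl U w, (sph1 hw z).card ≤ n := by
  classical
  refine ⟨Fintype.card (Option (𝓞 F ⧸ w.asIdeal)), fun z => ?_⟩
  obtain ⟨g, rfl⟩ := QuotientGroup.mk_surjective z
  have h1 : sph1 hw (g : Yl U w) ⊆ Finset.univ.image (nb (U := U) w g) := by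
    intro x hx
    obtain ⟨o, ho⟩ := exists_nb_eq hw ((mem_sph1 hw).1 hx)
    exact Finset.mem_image.2 ⟨o, Finset.mem_univ _, ho⟩
  exact (Finset.card_le_card h1).trans Finset.card_image_le

theorem norm_TY_le (hw : U.n w = 0) : ∃ C : ℝ, 0 ≤ C ∧ ∀ (φ : Y U → ℂ) (A : ℝ),
    (∀ y, ‖φ y‖ ≤ A) → ∀ y, ‖TY w φ y‖ ≤ C * A := by
  obtain ⟨n, hn⟩ := exists_card_sph1 hw
  refine ⟨n, Nat.cast_nonneg n, fun φ A hA y => ?_⟩
  have hA0 : 0 ≤ A := (norm_nonneg _).trans (hA y)
  rw [TY_eq_sum hw]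
  refine (norm_sum_le _ _).trans ?_
  calc ∑ z ∈ sph1 hw (y w), ‖φ (upd y w z)‖ ≤ ∑ _z ∈ sph1 hw (y w), A :=
        Finset.sum_le_sum fun z _ => hA _
    _ = (sph1 hw (y w)).card * A := by rw [Finset.sum_const, nsmul_eq_mul]
    _ ≤ n * A := by
        gcongr
        exact hn _

/-- The kernel of a word in the Hecke operators. -/
noncomputable def wk : List (Pl F) → Y U → Y U → ℂ
  | [] => fun y y' => dl y' y
  | w :: l => kc (tk w) (wk l)

/-- all letters are good places -/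
def Good (U : Level F) (l : List (Pl F)) : Prop := ∀ w ∈ l, U.n w = 0

theorem Good.of_cons {w : Pl F} {l : List (Pl F)} (h : Good U (w :: l)) : U.n w = 0 ∧ Good U l :=
  ⟨h w (List.mem_cons_self ..), fun v hv => h v (List.mem_cons_of_mem _ hv)⟩

theorem RF_wk {l : List (Pl F)} (h : Good U l) : RF (wk (U := U) l) := by
  induction l with
  | nil => exact RF_id
  | cons w l ih => exact (RF_tk h.of_cons.1).kc (ih h.of_cons.2)

theorem ka_wk_nil (φ : Y U → ℂ) : ka (wk (U := U) []) φ = φ := ka_id φ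

theorem ka_wk_cons {l : List (Pl F)} (h : Good U (w :: l)) (φ : Y U → ℂ) :
    ka (wk (w :: l)) φ = TY w (ka (wk l) φ) := by
  rw [wk, ka_kc (RF_tk h.of_cons.1) (RF_wk h.of_cons.2), ka_tk h.of_cons.1]

theorem ka_wk_TY {l : List (Pl F)} (h : Good U l) (hw : U.n w = 0) (φ : Y U → ℂ) :
    ka (wk l) (TY w φ) = TY w (ka (wk l) φ) := by
  induction l with
  | nil => rw [ka_wk_nil, ka_wk_nil]
  | cons v l ih => rw [ka_wk_cons h, ka_wk_cons h, ih h.of_cons.2, TY_comm hw h.of_cons.1]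

theorem kc_wk_tk {l : List (Pl F)} (h : Good U l) (hw : U.n w = 0) :
    kc (wk (U := U) l) (tk w) = kc (tk w) (wk l) := by
  refine ext_of_ka fun φ => ?_
  rw [ka_kc (RF_wk h) (RF_tk hw), ka_kc (RF_tk hw) (RF_wk h), ka_tk hw, ka_tk hw, ka_wk_TY h hw]

theorem wk_symm {l : List (Pl F)} (h : Good U l) (y z : Y U) : wk l y z = wk l z y := by
  induction l generalizing y z with
  | nil =>
    classical
    unfold wk dl
    congr 1
    exact propext ⟨fun h => h.symm, fun h => h.symm⟩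
  | cons w l ih =>
    have h1 : wk (w :: l) z y = kc (wk l) (tk w) z y := by
      rw [kc_wk_tk h.of_cons.2 h.of_cons.1]; rfl
    rw [h1]
    change ∑ᶠ x, tk w y x * wk l x z = ∑ᶠ x, wk l z x * tk w x y
    refine finsum_congr fun x => ?_
    rw [tk_symm w y x, ih h.of_cons.2 x z, mul_comm]

theorem wk_smul (l : List (Pl F)) (γ : PG F) (y z : Y U) :
    wk l (γ • y) (γ • z) = wk l y z := by
  induction l generalizing y z with
  | nil =>
    classical
    change dl (γ • z) (γ • y) = dl z y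
    unfold dl
    congr 1
    exact propext ⟨fun h => MulAction.injective γ h, fun h => by rw [h]⟩
  | cons w l ih =>
    change ∑ᶠ x, tk w (γ • y) x * wk l x (γ • z) = ∑ᶠ x, tk w y x * wk l x z
    rw [← finsum_comp_equiv (MulAction.toPerm γ)]
    refine finsum_congr fun x => ?_
    rw [MulAction.toPerm_apply, tk_smul, ih]

theorem wk_bdd {l : List (Pl F)} (h : Good U l) : ∃ A : ℝ, ∀ y z : Y U, ‖wk l y z‖ ≤ A := by
  induction l with
  | nil =>
    classical
    refine ⟨1, fun y z => ?_⟩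
    change ‖dl z y‖ ≤ 1
    unfold dl
    split_ifs <;> simp
  | cons w l ih =>
    obtain ⟨A, hA⟩ := ih h.of_cons.2
    obtain ⟨C, hC0, hC⟩ := norm_TY_le h.of_cons.1
    refine ⟨C * A, fun y z => ?_⟩
    have h1 : wk (w :: l) y z = TY w (fun x => wk l x z) y := by
      rw [← ka_tk h.of_cons.1]; rfl
    rw [h1]
    exact hC _ A (fun x => hA x z) y

theorem isFinTest_wk {l : List (Pl F)} (h : Good U l) : IsFinTest (wk (U := U) l) where
  inv γ y y' := wk_smul l γ y y'
  fin y := RF_wk h y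
  fin' y' := by
    have := RF_wk h y'
    refine this.subset fun x hx => ?_
    change wk l y' x ≠ 0
    rw [wk_symm h]; exact hx
  bdd := wk_bdd h

theorem wk_conj (l : List (Pl F)) (y z : Y U) : (starRingEnd ℂ) (wk l y z) = wk l y z := by
  classical
  induction l generalizing y z with
  | nil =>
    change (starRingEnd ℂ) (dl z y) = dl z y
    unfold dl
    split_ifs <;> simp
  | cons w l ih =>
    change (starRingEnd ℂ) (∑ᶠ x, tk w y x * wk l x z) = ∑ᶠ x, tk w y x * wk l x z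
    have h1 : (starRingEnd ℂ) (∑ᶠ x, tk w y x * wk l x z)
        = ∑ᶠ x, (starRingEnd ℂ) (tk w y x * wk l x z) :=
      AddMonoidHom.map_finsum_of_injective (starRingEnd ℂ).toAddMonoidHom
        (starRingEnd ℂ).injective _
    rw [h1]
    refine finsum_congr fun x => ?_
    rw [map_mul, ih]
    congr 1
    unfold tk
    split_ifs <;> simp

theorem kc_wk_comm {l l' : List (Pl F)} (h : Good U l) (h' : Good U l') :
    kc (wk (U := U) l) (wk l') = kc (wk l') (wk l) := by
  refine ext_of_ka fun φ => ?_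
  rw [ka_kc (RF_wk h) (RF_wk h'), ka_kc (RF_wk h') (RF_wk h)]
  induction l with
  | nil => rw [ka_wk_nil, ka_wk_nil]
  | cons w l ih =>
    rw [ka_wk_cons h, ka_wk_cons h, ih h.of_cons.2, ka_wk_TY h' h.of_cons.1]

theorem wk_append {l l' : List (Pl F)} (h : Good U l) :
    wk (U := U) (l ++ l') = kc (wk l) (wk l') := by
  induction l with
  | nil =>
    funext a b
    rw [List.nil_append]
    change _ = ka (fun y y' => dl y' y) (fun x => wk l' x b) a
    rw [ka_id]
  | cons w l ih =>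
    rw [List.cons_append, wk, wk, ih h.of_cons.2, kc_assoc (RF_tk h.of_cons.1) (RF_wk h.of_cons.2)]

end hecke

end Fermat.Agent.LT.B
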