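import Fermat.Agent.LT.B.Joint

set_option autoImplicit false

/-!
# LT, piece B: the spectral side of the (twisted) trace formula, abstract form

`T : J → End L²` commuting symmetric, `J₀ ⊆ J` compact members ("killed" unramified Hecke
operators), `TA`, `TB` Hilbert–Schmidt, `U = U_σ` the unitary attached to a measure preserving
automorphism. If `TA TB U` vanishes on the common kernel of `T j`, `j ∈ J₀`, then

`Σ_χ tr(TA TB U | V_χ) = ∬ K_A(y,x) K_B(x,σ y)`.
-/

set_option linter.unusedSectionVars false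

namespace Fermat.Agent.LT.B

open MeasureTheory ENNReal NNReal ComplexConjugate Filter Topology Module End
open scoped InnerProductSpace

section abstract

variable {H : Type*} [NormedAddCommGroup H] [InnerProductSpace ℂ H] [CompleteSpace H]
  {J : Type*} {T : J → H →L[ℂ] H} {J₀ : Set J}

/-- The common kernel is the orthogonal complement of the images. -/
theorem CommSymm.commonKer_eq (hT : CommSymm T) :
    commonKer T J₀ = (⨆ j : J₀, LinearMap.range (T j : H →ₗ[ℂ] H))ᗮ := by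
  rw [← Submodule.iInf_orthogonal]
  ext v
  rw [mem_commonKer, Submodule.mem_iInf]
  constructor
  · rintro h ⟨j, hj⟩
    rw [Submodule.mem_orthogonal]
    rintro _ ⟨u, rfl⟩
    have := hT.symm j u v
    rw [this]
    simp [h j hj]
  · intro h j hj
    have h1 := (Submodule.mem_orthogonal _ _).1 (h ⟨j, hj⟩) (T j (T j v)) ⟨T j v, rfl⟩
    have h2 := hT.symm j (T j v) v
    have h3 : ⟪T j v, T j v⟫_ℂ = 0 := by
      have h4 : ⟪T j (T j v), v⟫_ℂ = ⟪T j v, T j v⟫_ℂ := h2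
      rw [← h4]; exact h1
    exact inner_self_eq_zero.1 h3

theorem CommSymm.commonKer_orthogonal (hT : CommSymm T) :
    (commonKer T J₀)ᗮ = (⨆ j : J₀, LinearMap.range (T j : H →ₗ[ℂ] H)).topologicalClosure := by
  rw [hT.commonKer_eq, Submodule.orthogonal_orthogonal_eq_closure]

theorem CommSymm.map_mem_commonKer (hT : CommSymm T) {v : H} (hv : v ∈ commonKer T J₀) (i : J) :
    T i v ∈ commonKer T J₀ := by
  rw [mem_commonKer] at hv ⊢
  intro j hj
  rw [hT.comm, hv j hj, map_zero]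

/-- An operator commuting with the family preserves the joint eigenspaces. -/
theorem map_mem_jointSpace {R : H →L[ℂ] H} (hR : ∀ j v, R (T j v) = T j (R v)) {χ : J → ℂ}
    {v : H} (hv : v ∈ jointSpace T χ) : R v ∈ jointSpace T χ := by
  rw [mem_jointSpace] at hv ⊢
  intro j
  rw [← hR, hv j, map_smul]

/-- An operator `U` with `U T_j = T_{τ j} U` maps `V_χ` to `V_{χ ∘ τ⁻¹}`. -/
theorem map_mem_jointSpace_of_twist {U : H →L[ℂ] H} {τ : J ≃ J}
    (hU : ∀ j v, U (T j v) = T (τ j) (U v)) {χ : J → ℂ}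
    {v : H} (hv : v ∈ jointSpace T χ) : U v ∈ jointSpace T (χ ∘ τ.symm) := by
  rw [mem_jointSpace] at hv ⊢
  intro j
  have h := hU (τ.symm j) v
  rw [Equiv.apply_symm_apply] at h
  rw [← h, hv, map_smul, Function.comp_apply]

theorem CommSymm.inner_eq_zero (hT : CommSymm T) {χ χ' : J → ℂ} (h : χ ≠ χ') {u v : H}
    (hu : u ∈ jointSpace T χ) (hv : v ∈ jointSpace T χ') : ⟪u, v⟫_ℂ = 0 :=
  hT.orthogonalFamily.pairwise h.symm hv u hu

theorem CommSymm.trOn_twist_eq_zero (hT : CommSymm T) {R U : H →L[ℂ] H} {τ : J ≃ J}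
    (hR : ∀ j v, R (T j v) = T j (R v)) (hU : ∀ j v, U (T j v) = T (τ j) (U v)) {χ : J → ℂ}
    [FiniteDimensional ℂ (jointSpace T χ)] (hχ : χ ∘ τ.symm ≠ χ) :
    trOn (jointSpace T χ) (R ∘L U) = 0 := by
  refine trOn_eq_zero _ fun v hv u hu => ?_
  exact hT.inner_eq_zero hχ.symm hu (map_mem_jointSpace hR (map_mem_jointSpace_of_twist hU hv))

/-- scalars `T_j` can be pulled out of the trace on a joint eigenspace. -/
theorem trOn_comp_apply {R : H →L[ℂ] H} {χ : J → ℂ} [FiniteDimensional ℂ (jointSpace T χ)]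
    (j : J) : trOn (jointSpace T χ) (R ∘L T j) = χ j * trOn (jointSpace T χ) R := by
  rw [← trOn_smul]
  refine trOn_congr _ fun v hv => ?_
  rw [ContinuousLinearMap.comp_apply, mem_jointSpace.1 hv j, map_smul]
  rfl

/-- eigenvalues of symmetric operators on joint eigenspaces are real. -/
theorem CommSymm.conj_eq (hT : CommSymm T) {χ : J → ℂ} (h : jointSpace T χ ≠ ⊥) (j : J) :
    conj (χ j) = χ j := by
  obtain ⟨v, hv, hv0⟩ := Submodule.exists_mem_ne_zero_of_ne_bot h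
  refine (hT.symm j).conj_eigenvalue_eq_self ?_
  refine hasEigenvalue_of_hasEigenvector (x := v) ⟨?_, hv0⟩
  rw [mem_eigenspace_iff]
  exact mem_jointSpace.1 hv j

end abstract

universe u v

variable {X : Type u} [MeasurableSpace X] {μ : Measure X} [SFinite μ]
  {KA KB : X → X → ℂ} {J : Type v} {T : J → Lp ℂ 2 μ →L[ℂ] Lp ℂ 2 μ} {J₀ : Set J}

theorem HasKernel.isCompactOperator' [TopologicalSpace.SeparableSpace (Lp ℂ 2 μ)]
    {TA : Lp ℂ 2 μ →L[ℂ] Lp ℂ 2 μ} (h : HasKernel μ TA KA) (hK : SqInt μ KA) :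
    IsCompactOperator TA := by
  obtain ⟨w, b, -⟩ := exists_hilbertBasis ℂ (Lp ℂ 2 μ)
  have := HilbertBasis.countable b
  exact h.isCompactOperator b hK

/-- **Spectral side of the trace formula.** -/
theorem CommSymm.hasSum_trace [TopologicalSpace.SeparableSpace (Lp ℂ 2 μ)] (hT : CommSymm T)
    (hc : ∀ j ∈ J₀, IsCompactOperator (T j))
    {TA TB : Lp ℂ 2 μ →L[ℂ] Lp ℂ 2 μ} (hA : HasKernel μ TA KA) (hKA : SqInt μ KA)
    (hB : HasKernel μ TB KB) (hKB : SqInt μ KB)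
    (hN : ∀ v ∈ commonKer T J₀, ⟪v, TA (TB v)⟫_ℂ = 0) :
    HasSum (fun χ : systems T J₀ =>
      haveI := CommSymm.finiteDimensional hc χ.2.2
      trOn (jointSpace T χ) (TA ∘L TB)) (∫ y, ∫ x, KA y x * KB x y ∂μ ∂μ) := by
  refine hT.hasSum_trOn hc (R := TA ∘L TB) (fun v hv => hN v hv) fun ι _ b => ?_
  have := hA.hasSum_trace b hKA hB hKB
  simpa only [ContinuousLinearMap.comp_apply] using this

/-- **Spectral side of the twisted trace formula.** -/
theorem CommSymm.hasSum_twisted_trace [TopologicalSpace.SeparableSpace (Lp ℂ 2 μ)]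
    (hT : CommSymm T) (hc : ∀ j ∈ J₀, IsCompactOperator (T j))
    {TA TB U : Lp ℂ 2 μ →L[ℂ] Lp ℂ 2 μ} (hA : HasKernel μ TA KA) (hKA : SqInt μ KA)
    (hB : HasKernel μ TB KB) (hKB : SqInt μ KB)
    (σ : X ≃ᵐ X) (hσ : MeasurePreserving σ μ μ)
    (hU : ∀ f : Lp ℂ 2 μ, U f =ᵐ[μ] fun x => f (σ.symm x))
    (hN : ∀ v ∈ commonKer T J₀, ⟪v, TA (TB (U v))⟫_ℂ = 0) :
    HasSum (fun χ : systems T J₀ =>
      haveI := CommSymm.finiteDimensional hc χ.2.2
      trOn (jointSpace T χ) (TA ∘L TB ∘L U)) (∫ y, ∫ x, KA y x * KB x (σ y) ∂μ ∂μ) := by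
  refine hT.hasSum_trOn hc (R := TA ∘L TB ∘L U) (fun v hv => hN v hv) fun ι _ b => ?_
  have := hA.hasSum_twisted_trace b hKA hB hKB σ hσ hU
  simpa only [ContinuousLinearMap.comp_apply] using this

/-- The unitary operator `f ↦ f ∘ σ⁻¹` of a measure preserving automorphism. -/
noncomputable def unitaryOf (σ : X ≃ᵐ X) (hσ : MeasurePreserving σ μ μ) :
    Lp ℂ 2 μ →L[ℂ] Lp ℂ 2 μ :=
  (Lp.compMeasurePreservingₗᵢ ℂ σ.symm (hσ.symm)).toContinuousLinearMap

theorem unitaryOf_apply (σ : X ≃ᵐ X) (hσ : MeasurePreserving σ μ μ) (f : Lp ℂ 2 μ) :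
    unitaryOf σ hσ f =ᵐ[μ] fun x => f (σ.symm x) :=
  Lp.coeFn_compMeasurePreserving f hσ.symm

theorem norm_unitaryOf (σ : X ≃ᵐ X) (hσ : MeasurePreserving σ μ μ) (f : Lp ℂ 2 μ) :
    ‖unitaryOf σ hσ f‖ = ‖f‖ :=
  (Lp.compMeasurePreservingₗᵢ ℂ σ.symm (hσ.symm)).norm_map f

end Fermat.Agent.LT.B
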