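import Fermat.Agent.LT.B.Comp
import Fermat.Agent.LT.B.TwTrace

/-!
# Automorphic kernels `K(x, y) = ∑_γ c(x, γ y)` on `Q × Q`
-/

set_option linter.unusedSectionVars false
set_option linter.unusedVariables false

open MeasureTheory MulAction Set ProbabilityTheory
open scoped ENNReal NNReal

namespace Fermat.Agent.LT.B

variable {Γ X : Type*} [Group Γ] [MulAction Γ X] [MeasurableSpace X]

section Orbit

variable [Countable Γ] [MeasurableConstSMul Γ X] {w : X → ℝ≥0∞}

theorem orbMeas_inv (w : X → ℝ≥0∞) (g : Γ) (x : X) :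
    Measure.sum (fun γ : Γ => w (γ • (g • x)) • Measure.dirac (γ • (g • x)))
      = Measure.sum (fun γ : Γ => w (γ • x) • Measure.dirac (γ • x)) := by
  ext s hs
  rw [Measure.sum_apply _ hs, Measure.sum_apply _ hs,
    ← (Equiv.mulRight g).tsum_eq (fun γ : Γ => (w (γ • x) • Measure.dirac (γ • x)) s)]
  simp [mul_smul]

/-- the probability measure on an orbit defined by a weight -/
noncomputable def orbMeas (w : X → ℝ≥0∞) : Qt Γ X → Measure X :=
  desc (fun x => Measure.sum (fun γ : Γ => w (γ • x) • Measure.dirac (γ • x))) (orbMeas_inv w)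

theorem orbMeas_pr (w : X → ℝ≥0∞) (x : X) :
    orbMeas w (pr Γ x) = Measure.sum (fun γ : Γ => w (γ • x) • Measure.dirac (γ • x)) := rfl

/-- the orbit kernel -/
noncomputable def orbK (hw : IsWeight Γ w) : Kernel (Qt Γ X) X where
  toFun := orbMeas w
  measurable' := by
    refine Measure.measurable_of_measurable_coe _ fun s hs => ?_
    rw [measurable_iff_pr]
    simp only [orbMeas_pr, Measure.sum_apply _ hs, Measure.smul_apply, smul_eq_mul]
    refine Measurable.tsum fun γ => ?_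
    refine (hw.meas.comp (measurable_const_smul γ)).mul ?_
    exact (Measure.measurable_coe hs).comp (Measure.measurable_dirac.comp (measurable_const_smul γ))

theorem orbK_pr (hw : IsWeight Γ w) (x : X) :
    orbK hw (pr Γ x) = Measure.sum (fun γ : Γ => w (γ • x) • Measure.dirac (γ • x)) := rfl

instance (hw : IsWeight Γ w) : IsMarkovKernel (orbK hw) := by
  refine ⟨fun q => ⟨?_⟩⟩
  obtain ⟨x, rfl⟩ := pr_surjective q
  rw [orbK_pr, Measure.sum_apply _ MeasurableSet.univ]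
  simp [hw.sum_eq]

theorem integral_orbK (hw : IsWeight Γ w) {F : Qt Γ X → ℂ}
    (hF : Measurable (fun x => F (pr Γ x))) (q : Qt Γ X) :
    ∫ x, F (pr Γ x) ∂orbK hw q = F q := by
  obtain ⟨x₀, rfl⟩ := pr_surjective q
  have hae : (fun x => F (pr Γ x)) =ᵐ[orbK hw (pr Γ x₀)] fun _ => F (pr Γ x₀) := by
    rw [orbK_pr, Filter.EventuallyEq, Measure.ae_sum_iff]
    intro γ
    refine Measure.ae_smul_measure ?_ _
    rw [ae_dirac_iff]
    · rw [pr_smul]
    · exact hF (measurableSet_singleton _)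
  rw [integral_congr_ae hae, integral_const]
  simp

/-- Measurability on `Q × Q` can be tested on `X × X`. -/
theorem stronglyMeasurable_pr₂ (hw : IsWeight Γ w) {G : Qt Γ X → Qt Γ X → ℂ}
    (h : StronglyMeasurable fun p : X × X => G (pr Γ p.1) (pr Γ p.2)) :
    StronglyMeasurable (Function.uncurry G) := by
  have h1 : StronglyMeasurable (fun p : Qt Γ X × X => G p.1 (pr Γ p.2)) := by
    let P1 : Kernel (Qt Γ X × X) X := (orbK hw).comap Prod.fst measurable_fst
    have e : (fun p : Qt Γ X × X => G p.1 (pr Γ p.2))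
        = fun p => ∫ x, G (pr Γ x) (pr Γ p.2) ∂P1 p := by
      ext p
      have hm : Measurable (fun x : X => G (pr Γ x) (pr Γ p.2)) :=
        (h.comp_measurable (measurable_id.prodMk measurable_const)).measurable
      exact (integral_orbK hw (F := fun q => G q (pr Γ p.2)) hm p.1).symm
    rw [e]
    refine StronglyMeasurable.integral_kernel_prod_right ?_
    exact h.comp_measurable (measurable_snd.prodMk (measurable_snd.comp measurable_fst))
  let P2 : Kernel (Qt Γ X × Qt Γ X) X := (orbK hw).comap Prod.snd measurable_snd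
  have e : Function.uncurry G = fun p => ∫ y, G p.1 (pr Γ y) ∂P2 p := by
    ext p
    have hm : Measurable (fun y : X => G p.1 (pr Γ y)) :=
      (h1.comp_measurable (measurable_const.prodMk measurable_id)).measurable
    exact (integral_orbK hw (F := fun q => G p.1 q) hm p.2).symm
  rw [e]
  refine StronglyMeasurable.integral_kernel_prod_right ?_
  exact h1.comp_measurable ((measurable_fst.comp measurable_fst).prodMk measurable_snd)

end Orbit

/-- The automorphic kernel. -/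
noncomputable def qKer (Γ : Type*) {X : Type*} [Group Γ] [MulAction Γ X] (c : X → X → ℂ) :
    Qt Γ X → Qt Γ X → ℂ := fun q q' => ∑' γ : Γ, c q.out (γ • q'.out)

theorem qKer_pr {c : X → X → ℂ} (hinv : ∀ (γ : Γ) x y, c (γ • x) (γ • y) = c x y) (x y : X) :
    qKer Γ c (pr Γ x) (pr Γ y) = ∑' γ : Γ, c x (γ • y) := by
  unfold qKer
  have hx : pr Γ (pr Γ x).out = pr Γ x := Quotient.out_eq _
  have hy : pr Γ (pr Γ y).out = pr Γ y := Quotient.out_eq _
  obtain ⟨g, hg⟩ := pr_eq_iff.1 hx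
  obtain ⟨g', hg'⟩ := pr_eq_iff.1 hy
  rw [← hg, ← hg', ← ((Equiv.mulRight g').trans (Equiv.mulLeft g⁻¹)).tsum_eq
    (fun γ : Γ => c x (γ • y))]
  congr 1
  ext γ
  simp only [Equiv.trans_apply, Equiv.coe_mulRight, Equiv.coe_mulLeft]
  rw [← hinv g x]
  congr 1
  simp [mul_smul]

section Kernel

variable [Countable Γ] [MeasurableConstSMul Γ X] {μ : Measure X} [SMulInvariantMeasure Γ X μ]
  [SFinite μ] {w : X → ℝ≥0∞} {c : X → X → ℂ} {A B : ℝ≥0}

theorem stronglyMeasurable_qKer (hw : IsWeight Γ w)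
    (hc : IsSchur Γ (Kernel.const X μ) c A B) :
    StronglyMeasurable (Function.uncurry (qKer Γ c)) := by
  refine stronglyMeasurable_pr₂ hw ?_
  simp_rw [qKer_pr hc.inv]
  refine Measurable.stronglyMeasurable (Measurable.tsum fun γ => ?_)
  exact hc.meas.measurable.comp (measurable_fst.prodMk
    ((measurable_const_smul γ).comp measurable_snd))

/-- `R(k)` is the integral operator on `Q` with kernel `K`. -/
theorem IsOp.hasKernel (hw : IsWeight Γ w) (hc : IsSchur Γ (Kernel.const X μ) c A B)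
    {T : Lp ℂ 2 (qMeas Γ μ w) →L[ℂ] Lp ℂ 2 (qMeas Γ μ w)}
    (hT : IsOp Γ μ w (Kernel.const X μ) c T) :
    HasKernel (qMeas Γ μ w) T (qKer Γ c) := by
  intro f
  have hR : IsRev Γ μ (Kernel.const X μ) := isRev_const
  rw [Filter.EventuallyEq, ae_qMeas_iff hw]
  filter_upwards [hT f, hc.ae_integrable hR hw (Lp.stronglyMeasurable f) (Lp.memLp f)] with x h1 h2
  rw [h1]
  simp only [Kernel.const_apply] at h2 ⊢
  rw [← integral_periodize hw h2]
  congr 1
  ext q
  obtain ⟨y, rfl⟩ := pr_surjective q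
  rw [periodize_pr, qKer_pr hc.inv, ← tsum_mul_right]
  simp_rw [pr_smul]

/-- Square integrability from boundedness. -/
theorem sqInt_of_bound [IsFiniteMeasure (qMeas Γ μ w)] (hw : IsWeight Γ w)
    (hc : IsSchur Γ (Kernel.const X μ) c A B) {C : ℝ}
    (hb : ∀ x y, ‖∑' γ : Γ, c x (γ • y)‖ ≤ C) : SqInt (qMeas Γ μ w) (qKer Γ c) := by
  refine MemLp.of_bound (stronglyMeasurable_qKer hw hc).aestronglyMeasurable C ?_
  refine Filter.Eventually.of_forall fun p => ?_
  obtain ⟨q, q'⟩ := p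
  obtain ⟨x, rfl⟩ := pr_surjective q
  obtain ⟨y, rfl⟩ := pr_surjective q'
  show ‖qKer Γ c (pr Γ x) (pr Γ y)‖ ≤ C
  rw [qKer_pr hc.inv]
  exact hb x y

/-- it is enough to bound `K` on `S × S` if `X = Γ S` -/
theorem norm_tsum_le_of_cover (hinv : ∀ (γ : Γ) x y, c (γ • x) (γ • y) = c x y) {S : Set X}
    (hS : ∀ x, ∃ γ : Γ, γ • x ∈ S) {C : ℝ}
    (hb : ∀ x ∈ S, ∀ y ∈ S, ‖∑' γ : Γ, c x (γ • y)‖ ≤ C) (x y : X) :
    ‖∑' γ : Γ, c x (γ • y)‖ ≤ C := by
  obtain ⟨g, hg⟩ := hS x
  obtain ⟨g', hg'⟩ := hS y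
  rw [← qKer_pr hinv, ← pr_smul g x, ← pr_smul g' y, qKer_pr hinv]
  exact hb _ hg _ hg'

/-- Pointwise composition of automorphic kernels. -/
theorem integral_qKer_mul_qKer (hw : IsWeight Γ w) {c' : X → X → ℂ} {A' B' : ℝ≥0}
    (hc : IsSchur Γ (Kernel.const X μ) c A B) (hc' : IsSchur Γ (Kernel.const X μ) c' A' B')
    (x z : X)
    (hfin : ∫⁻ y, ‖c x y‖ₑ * ∑' γ : Γ, ‖c' y (γ • z)‖ₑ ∂μ ≠ ∞) :
    ∫ q, qKer Γ c (pr Γ x) q * qKer Γ c' q (pr Γ z) ∂qMeas Γ μ w
      = ∑' γ : Γ, compC (Kernel.const X μ) c c' x (γ • z) := by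
  have hcx : StronglyMeasurable (fun y => c x y) := hc.meas.comp_measurable measurable_prodMk_left
  have hc'm : ∀ γ : Γ, StronglyMeasurable (fun y => c' y (γ • z)) := fun γ =>
    hc'.meas.comp_measurable (measurable_id.prodMk measurable_const)
  have hKm : StronglyMeasurable (fun y => qKer Γ c' (pr Γ y) (pr Γ z)) := by
    refine Measurable.stronglyMeasurable ?_
    simp_rw [qKer_pr hc'.inv]
    exact Measurable.tsum fun γ => (hc'm γ).measurable
  have hI : Integrable (fun y => c x y * qKer Γ c' (pr Γ y) (pr Γ z)) μ := by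
    refine ⟨(hcx.mul hKm).aestronglyMeasurable, ?_⟩
    unfold HasFiniteIntegral
    refine lt_of_le_of_lt (lintegral_mono fun y => ?_) hfin.lt_top
    rw [enorm_mul, qKer_pr hc'.inv]
    gcongr
    exact enorm_tsum_le_tsum_enorm
  calc ∫ q, qKer Γ c (pr Γ x) q * qKer Γ c' q (pr Γ z) ∂qMeas Γ μ w
      = ∫ q, periodize Γ (fun y => c x y * qKer Γ c' (pr Γ y) (pr Γ z)) q ∂qMeas Γ μ w := by
        congr 1
        ext q
        obtain ⟨y, rfl⟩ := pr_surjective q
        rw [periodize_pr, qKer_pr hc.inv, ← tsum_mul_right]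
        simp_rw [pr_smul]
    _ = ∫ y, c x y * qKer Γ c' (pr Γ y) (pr Γ z) ∂μ := integral_periodize hw hI
    _ = ∫ y, ∑' γ : Γ, c x y * c' y (γ • z) ∂μ := by
        congr 1
        ext y
        rw [qKer_pr hc'.inv, tsum_mul_left]
    _ = ∑' γ : Γ, ∫ y, c x y * c' y (γ • z) ∂μ := by
        refine integral_tsum (fun γ => (hcx.mul (hc'm γ)).aestronglyMeasurable) ?_
        have : ∑' γ : Γ, ∫⁻ y, ‖c x y * c' y (γ • z)‖ₑ ∂μ
            = ∫⁻ y, ‖c x y‖ₑ * ∑' γ : Γ, ‖c' y (γ • z)‖ₑ ∂μ := by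
          have hmm : ∀ γ : Γ, AEMeasurable (fun y => ‖c x y * c' y (γ • z)‖ₑ) μ := fun γ =>
            (hcx.mul (hc'm γ)).aestronglyMeasurable.enorm
          rw [← lintegral_tsum hmm]
          congr 1
          ext y
          simp_rw [enorm_mul, ENNReal.tsum_mul_left]
        rw [this]
        exact hfin
    _ = ∑' γ : Γ, compC (Kernel.const X μ) c c' x (γ • z) := rfl

end Kernel

section Separable

variable [Countable Γ] [MeasurableConstSMul Γ X] {μ : Measure X} [SMulInvariantMeasure Γ X μ]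
  {w : X → ℝ≥0∞}

theorem measurePreserving_pr (w : X → ℝ≥0∞) :
    MeasurePreserving (pr Γ : X → Qt Γ X) (μ.withDensity w) (qMeas Γ μ w) :=
  ⟨measurable_pr, rfl⟩

/-- `L²(Q)` is separable. -/
theorem separable_Lp_qMeas [MeasurableSpace.CountablyGenerated X] [SigmaFinite μ]
    (hw : IsWeight Γ w) : TopologicalSpace.SeparableSpace (Lp ℂ 2 (qMeas Γ μ w)) := by
  have : SigmaFinite (μ.withDensity w) := by
    have h : w = fun x => ((w x).toNNReal : ℝ≥0∞) := by
      ext x
      rw [ENNReal.coe_toNNReal (hw.ne_top x)]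
    rw [h]
    exact SigmaFinite.withDensity _
  have h2 : SecondCountableTopology (Lp ℂ 2 (μ.withDensity w)) := by
    have : Fact ((1 : ℝ≥0∞) ≤ 2) := ⟨by norm_num⟩
    have : Fact ((2 : ℝ≥0∞) ≠ ∞) := ⟨by norm_num⟩
    infer_instance
  have hiso := (Lp.compMeasurePreservingₗᵢ ℂ (pr Γ : X → Qt Γ X)
    (measurePreserving_pr (μ := μ) w) (E := ℂ) (p := 2)).isometry
  have := hiso.isUniformInducing.isInducing.secondCountableTopology
  infer_instance

end Separable

section Twist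

variable [Countable Γ] [MeasurableConstSMul Γ X] {μ : Measure X} [SMulInvariantMeasure Γ X μ]
  [SFinite μ] {w : X → ℝ≥0∞} {κ : Kernel X X} [IsSFiniteKernel κ] {c : X → X → ℂ} {A B : ℝ≥0}

/-- An automorphism of the pair `(Γ, X)` induces an automorphism of the quotient. -/
def twQ (τ : Γ ≃* Γ) (σ : X ≃ᵐ X) (h : ∀ γ x, σ (γ • x) = τ γ • σ x) : Qt Γ X ≃ᵐ Qt Γ X where
  toFun := desc (fun x => pr Γ (σ x)) (fun γ x => by rw [h, pr_smul])
  invFun := desc (fun x => pr Γ (σ.symm x)) (fun γ x => by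
    have : σ.symm (γ • x) = τ.symm γ • σ.symm x := by
      apply σ.injective
      rw [h]
      simp
    rw [this, pr_smul])
  left_inv q := by
    obtain ⟨x, rfl⟩ := pr_surjective q
    simp
  right_inv q := by
    obtain ⟨x, rfl⟩ := pr_surjective q
    simp
  measurable_toFun := measurable_iff_pr.2 (measurable_pr.comp σ.measurable)
  measurable_invFun := measurable_iff_pr.2 (measurable_pr.comp σ.symm.measurable)

theorem twQ_pr (τ : Γ ≃* Γ) (σ : X ≃ᵐ X) (h : ∀ γ x, σ (γ • x) = τ γ • σ x) (x : X) :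
    twQ τ σ h (pr Γ x) = pr Γ (σ x) := rfl

theorem twQ_symm_pr (τ : Γ ≃* Γ) (σ : X ≃ᵐ X) (h : ∀ γ x, σ (γ • x) = τ γ • σ x) (x : X) :
    (twQ τ σ h).symm (pr Γ x) = pr Γ (σ.symm x) := rfl

theorem measurePreserving_twQ (hw : IsWeight Γ w) (τ : Γ ≃* Γ) (σ : X ≃ᵐ X)
    (h : ∀ γ x, σ (γ • x) = τ γ • σ x) (hσ : MeasurePreserving σ μ μ) :
    MeasurePreserving (twQ τ σ h) (qMeas Γ μ w) (qMeas Γ μ w) := by
  refine ⟨(twQ τ σ h).measurable, ?_⟩
  -- another weight
  have hw' : IsWeight Γ (fun x => w (σ.symm x)) := by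
    refine ⟨hw.meas.comp σ.symm.measurable, fun x => ?_⟩
    have h' : ∀ γ : Γ, σ.symm (γ • x) = τ.symm γ • σ.symm x := by
      intro γ
      apply σ.injective
      rw [h]
      simp
    simp_rw [h']
    rw [← hw.sum_eq (σ.symm x)]
    exact τ.symm.toEquiv.tsum_eq (fun γ => w (γ • σ.symm x))
  refine Measure.ext_of_lintegral _ fun F hF => ?_
  have hF' : Measurable (fun q => F (twQ τ σ h q)) := hF.comp (twQ τ σ h).measurable
  have hm : Measurable (fun x => w (σ.symm x) * F (pr Γ x)) :=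
    (hw.meas.comp σ.symm.measurable).mul (hF.comp measurable_pr)
  rw [lintegral_map hF (twQ τ σ h).measurable, lintegral_qMeas hw hF', qMeas_congr hw hw',
    lintegral_qMeas hw' hF, ← hσ.lintegral_comp hm]
  simp [twQ_pr]

/-- Conjugation of an operator by the unitary operator `U f = f ∘ σ⁻¹`. -/
theorem IsOp.conj_twist (h : IsRev Γ μ κ) (hw : IsWeight Γ w) {σ : X ≃ᵐ X}
    (hσ : MeasurePreserving σ μ μ) (hκ : ∀ x, κ (σ x) = (κ x).map σ)
    {c' : X → X → ℂ} (hc' : ∀ x y, c' (σ x) (σ y) = c x y)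
    {T T' U : Lp ℂ 2 (qMeas Γ μ w) →L[ℂ] Lp ℂ 2 (qMeas Γ μ w)} (hT : IsOp Γ μ w κ c T)
    (hT' : IsOp Γ μ w κ c' T')
    (hU : ∀ f, ∀ᵐ x ∂μ, U f (pr Γ (σ x)) = f (pr Γ x)) :
    T'.comp U = U.comp T := by
  ext1 f
  apply Lp.ext
  rw [Filter.EventuallyEq, ae_qMeas_iff hw]
  have h1 : ∀ᵐ x ∂μ, (T'.comp U) f (pr Γ (σ x)) = (U.comp T) f (pr Γ (σ x)) := by
    filter_upwards [hσ.quasiMeasurePreserving.ae (hT' (U f)), hU (T f), hT f,
      h.ae_ae (hU f)] with x e1 e2 e3 e4
    rw [ContinuousLinearMap.comp_apply, ContinuousLinearMap.comp_apply, e1, e2, e3, hκ,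
      integral_map_equiv]
    refine integral_congr_ae ?_
    filter_upwards [e4] with y hy
    rw [hy, hc']
  have h2 := (hσ.symm σ).quasiMeasurePreserving.ae h1
  filter_upwards [h2] with x hx
  simpa using hx

end Twist

end Fermat.Agent.LT.B
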