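import Fermat.Agent.LT.B.Quot
import Fermat.Agent.LT.B.TwTrace

set_option autoImplicit false

/-!
# LT, piece B: continuous representatives

`Γ` acts properly discontinuously on `X`, `k : X → X → ℂ` is a continuous, `Γ`-invariant, properly
supported kernel.  For `v ∈ L²(Γ\X)` the function `x ↦ ∫ k(x,y) v(π y) dμ(y)` is defined
everywhere, continuous and `Γ`-invariant.  Joint eigenvectors have canonical continuous
representatives, for which all eigen-equations hold pointwise.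
-/

set_option linter.unusedSectionVars false

open MeasureTheory MulAction Set Filter Topology
open scoped ENNReal ComplexConjugate

namespace Fermat.Agent.LT.B

/-- A continuous, `Γ`-invariant, properly supported kernel. -/
structure CKer (Γ : Type*) {X : Type*} [Group Γ] [MulAction Γ X] [TopologicalSpace X]
    (k : X → X → ℂ) : Prop where
  cont : Continuous fun p : X × X => k p.1 p.2
  inv : ∀ (γ : Γ) x y, k (γ • x) (γ • y) = k x y
  supp : ∀ C : Set X, IsCompact C → ∃ C' : Set X, IsCompact C' ∧ ∀ x ∈ C, ∀ y ∉ C', k x y = 0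

/-- The operator with kernel `k` on functions. -/
noncomputable def appK {X : Type*} [MeasurableSpace X] (μ : Measure X) (k : X → X → ℂ)
    (f : X → ℂ) (x : X) : ℂ := ∫ y, k x y * f y ∂μ

section multiplicity

variable {Γ X : Type*} [Group Γ] [Countable Γ] [MulAction Γ X] [TopologicalSpace X]
  [MeasurableSpace X] [BorelSpace X] [ContinuousConstSMul Γ X] [ProperlyDiscontinuousSMul Γ X]

/-- The multiplicity of a compact set is bounded. -/
theorem exists_cnt_le {C : Set X} (hC : IsCompact C) : ∃ M : ℕ, ∀ x, cnt Γ C x ≤ M := by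
  classical
  have hfin := ProperlyDiscontinuousSMul.finite_disjoint_inter_image (Γ := Γ) hC hC
  refine ⟨hfin.toFinset.card, fun x => ?_⟩
  by_cases h : ∃ γ : Γ, γ • x ∈ C
  · obtain ⟨γ₀, h0⟩ := h
    rw [← cnt_smul C γ₀ x]
    unfold cnt
    have h1 : ∀ γ : Γ, γ ∉ hfin.toFinset →
        C.indicator (1 : X → ℝ≥0∞) (γ • γ₀ • x) = 0 := by
      intro γ hγ
      rw [Set.indicator_of_notMem]
      intro hmem
      apply hγ
      rw [Set.Finite.mem_toFinset]
      have hne : ((fun y : X => γ • y) '' C ∩ C).Nonempty :=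
        ⟨γ • γ₀ • x, ⟨γ₀ • x, h0, rfl⟩, hmem⟩
      exact hne
    rw [tsum_eq_sum h1]
    calc ∑ γ ∈ hfin.toFinset, C.indicator (1 : X → ℝ≥0∞) (γ • γ₀ • x)
        ≤ ∑ _γ ∈ hfin.toFinset, 1 := Finset.sum_le_sum fun γ _ => Set.indicator_le_self' (by simp) _
      _ = _ := by simp
  · rw [cnt_eq_zero h]; simp

theorem finite_smul_mem [T2Space X] {C : Set X} (hC : IsCompact C) (x : X) :
    {γ : Γ | γ • x ∈ C}.Finite := by
  have hfin := ProperlyDiscontinuousSMul.finite_disjoint_inter_image (Γ := Γ)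
    (isCompact_singleton (x := x)) hC
  refine hfin.subset fun γ hγ => ?_
  have hne : ((fun y : X => γ • y) '' {x} ∩ C).Nonempty := ⟨γ • x, ⟨x, rfl, rfl⟩, hγ⟩
  exact hne

end multiplicity

section local_

variable {Γ X : Type*} [Group Γ] [Countable Γ] [MulAction Γ X] [TopologicalSpace X] [T2Space X]
  [MeasurableSpace X] [BorelSpace X] [ProperlyDiscontinuousSMul Γ X] [ContinuousConstSMul Γ X]
  {μ : Measure X} [SMulInvariantMeasure Γ X μ] {w : X → ℝ≥0∞}

theorem lintegral_compact_le (hw : IsWeight Γ w) {C : Set X} (hC : IsCompact C) :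
    ∃ M : ℕ, ∀ F : Qt Γ X → ℝ≥0∞, AEMeasurable F (qMeas Γ μ w) →
      ∫⁻ x in C, F (pr Γ x) ∂μ ≤ M * ∫⁻ q, F q ∂qMeas Γ μ w := by
  obtain ⟨M, hM⟩ := exists_cnt_le (Γ := Γ) hC
  refine ⟨M, fun F hF => ?_⟩
  have hCm : MeasurableSet C := hC.isClosed.measurableSet
  have hF' : AEMeasurable (fun x => F (pr Γ x)) μ :=
    hF.comp_quasiMeasurePreserving (quasiMeasurePreserving_pr hw)
  have h1 : ∫⁻ x in C, F (pr Γ x) ∂μ = ∫⁻ x, C.indicator 1 x * F (pr Γ x) ∂μ := by
    rw [← lintegral_indicator hCm]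
    refine lintegral_congr fun x => ?_
    by_cases hx : x ∈ C <;> simp [hx]
  have h2 : ∫⁻ x, C.indicator 1 x * F (pr Γ x) ∂μ
      = ∫⁻ x, w x * ∑' γ : Γ, (C.indicator 1 (γ • x) * F (pr Γ (γ • x))) ∂μ :=
    (hw.lintegral_unfold (φ := fun x => C.indicator 1 x * F (pr Γ x))
      ((measurable_one.indicator hCm).aemeasurable.mul hF')).symm
  rw [h1, h2, lintegral_qMeas' hw hF, ← lintegral_const_mul'']
  · refine lintegral_mono fun x => ?_
    have h3 : ∑' γ : Γ, (C.indicator (1 : X → ℝ≥0∞) (γ • x) * F (pr Γ (γ • x)))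
        = cnt Γ C x * F (pr Γ x) := by
      simp only [pr_smul]
      rw [ENNReal.tsum_mul_right]; rfl
    rw [h3, mul_left_comm]
    exact mul_le_mul_left (hM x) _
  · exact hw.meas.aemeasurable.mul hF'

variable [IsFiniteMeasureOnCompacts μ]

/-- Functions in `L²(Γ\X)` are locally square integrable upstairs. -/
theorem memLp_restrict_compact (hw : IsWeight Γ w) {v : Qt Γ X → ℂ}
    (hv : MemLp v 2 (qMeas Γ μ w)) {C : Set X} (hC : IsCompact C) :
    MemLp (fun x => v (pr Γ x)) 2 (μ.restrict C) := by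
  have hm : AEStronglyMeasurable (fun x => v (pr Γ x)) (μ.restrict C) :=
    ((aestronglyMeasurable_qMeas_iff hw).1 hv.1).restrict
  rw [memLp_two_iff_lintegral hm]
  obtain ⟨M, hM⟩ := lintegral_compact_le (μ := μ) hw hC
  refine (hM (fun q => ‖v q‖ₑ ^ 2) (hv.1.enorm.pow_const 2)).trans_lt ?_
  exact ENNReal.mul_lt_top (by simp) (lintegral_sq_lt_top hv)

theorem integrableOn_compact (hw : IsWeight Γ w) {v : Qt Γ X → ℂ}
    (hv : MemLp v 2 (qMeas Γ μ w)) {C : Set X} (hC : IsCompact C) :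
    IntegrableOn (fun x => v (pr Γ x)) C μ := by
  have : IsFiniteMeasure (μ.restrict C) := ⟨by
    rw [Measure.restrict_apply_univ]; exact hC.measure_lt_top⟩
  exact (memLp_restrict_compact hw hv hC).integrable (by norm_num)

theorem locallyIntegrable_comp_pr [LocallyCompactSpace X] (hw : IsWeight Γ w) {v : Qt Γ X → ℂ}
    (hv : MemLp v 2 (qMeas Γ μ w)) : LocallyIntegrable (fun x => v (pr Γ x)) μ := by
  rw [locallyIntegrable_iff]
  exact fun C hC => integrableOn_compact hw hv hC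

end local_

section apply

variable {Γ X : Type*} [Group Γ] [MulAction Γ X] [TopologicalSpace X] [T2Space X]
  [LocallyCompactSpace X] [SecondCountableTopology X]
  [MeasurableSpace X] [BorelSpace X] {μ : Measure X} {k : X → X → ℂ} {f : X → ℂ}

theorem CKer.integrable (hk : CKer Γ k) (hf : LocallyIntegrable f μ) (x : X) :
    Integrable (fun y => k x y * f y) μ := by
  obtain ⟨C', hC', h0⟩ := hk.supp {x} isCompact_singleton
  have hcont : Continuous (fun y => k x y) := hk.cont.comp (continuous_const.prodMk continuous_id)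
  have h1 : IntegrableOn (fun y => k x y * f y) C' μ :=
    (hf.integrableOn_isCompact hC').continuousOn_mul hcont.continuousOn hC'
  refine (integrableOn_iff_integrable_of_support_subset ?_).1 h1
  intro y hy
  by_contra hyC
  exact hy (by simp [h0 x rfl y hyC])

theorem CKer.continuous_appK (hk : CKer Γ k) (hf : LocallyIntegrable f μ) :
    Continuous (appK μ k f) := by
  rw [continuous_iff_continuousAt]
  intro x₀
  obtain ⟨C, hC, hx₀⟩ := exists_compact_mem_nhds x₀
  obtain ⟨C', hC', h0⟩ := hk.supp C hC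
  obtain ⟨B, hB⟩ := (hC.prod hC').exists_bound_of_continuousOn
    (f := fun p : X × X => k p.1 p.2) hk.cont.continuousOn
  have hcont : ∀ x, Continuous (fun y => k x y) := fun x =>
    hk.cont.comp (continuous_const.prodMk continuous_id)
  have hC'm : MeasurableSet C' := hC'.isClosed.measurableSet
  refine continuousAt_of_dominated (bound := C'.indicator (fun y => B * ‖f y‖)) ?_ ?_ ?_ ?_
  · refine Eventually.of_forall fun x => ?_
    exact (hcont x).aestronglyMeasurable.mul hf.aestronglyMeasurable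
  · filter_upwards [hx₀] with x hx
    refine Eventually.of_forall fun y => ?_
    by_cases hy : y ∈ C'
    · rw [Set.indicator_of_mem hy, norm_mul]
      exact mul_le_mul_of_nonneg_right (hB (x, y) ⟨hx, hy⟩) (norm_nonneg _)
    · rw [Set.indicator_of_notMem hy, h0 x hx y hy]; simp
  · rw [integrable_indicator_iff hC'm]
    exact ((hf.integrableOn_isCompact hC').norm).const_mul B
  · refine Eventually.of_forall fun y => ?_
    have : Continuous (fun x => k x y * f y) :=
      (hk.cont.comp (continuous_id.prodMk continuous_const)).mul continuous_const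
    exact this.continuousAt

theorem CKer.appK_smul [SMulInvariantMeasure Γ X μ] [ContinuousConstSMul Γ X] (hk : CKer Γ k)
    (hf : ∀ (γ : Γ) x, f (γ • x) = f x) (γ : Γ) (x : X) :
    appK μ k f (γ • x) = appK μ k f x := by
  unfold appK
  rw [← integral_smul_eq_self (μ := μ) (fun y => k (γ • x) y * f y) (g := γ)]
  simp only [hk.inv, hf]

theorem appK_congr {g : X → ℂ} (h : f =ᵐ[μ] g) (x : X) : appK μ k f x = appK μ k g x := by
  unfold appK
  refine integral_congr_ae ?_
  filter_upwards [h] with y hy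
  rw [hy]

end apply

/-! ### The automorphic kernel and sup bounds -/

section bound

variable {Γ X : Type*} [Group Γ] [Countable Γ] [MulAction Γ X] [TopologicalSpace X] [T2Space X]
  [LocallyCompactSpace X] [SecondCountableTopology X]
  [MeasurableSpace X] [BorelSpace X] [ProperlyDiscontinuousSMul Γ X] [ContinuousConstSMul Γ X]
  {μ : Measure X} [SMulInvariantMeasure Γ X μ] [IsFiniteMeasureOnCompacts μ]
  {w : X → ℝ≥0∞} {k : X → X → ℂ}

/-- The automorphic kernel is a finite sum. -/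
theorem CKer.finite_support (hk : CKer Γ k) (x y : X) :
    (Function.support fun γ : Γ => k x (γ • y)).Finite := by
  obtain ⟨C', hC', h0⟩ := hk.supp {x} isCompact_singleton
  refine (finite_smul_mem (Γ := Γ) hC' y).subset fun γ hγ => ?_
  by_contra h
  exact hγ (h0 x rfl _ h)

/-- `R(k) v` in terms of the automorphic kernel. -/
theorem CKer.appK_eq_integral (hw : IsWeight Γ w) (hk : CKer Γ k) {v : Qt Γ X → ℂ}
    (hv : MemLp v 2 (qMeas Γ μ w)) (x : X) :
    appK μ k (fun y => v (pr Γ y)) x = ∫ q, periodize Γ (fun y => k x y) q * v q ∂qMeas Γ μ w := by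
  have h1 := integral_periodize (μ := μ) hw (hk.integrable (locallyIntegrable_comp_pr hw hv) x)
  unfold appK
  rw [← h1]
  congr 1
  funext q
  obtain ⟨y, rfl⟩ := pr_surjective (Γ := Γ) q
  rw [periodize_pr, periodize_pr]
  simp only [pr_smul]
  rw [tsum_mul_right]

theorem integral_norm_le_sqrt_mul {Q : Type*} [MeasurableSpace Q] {ν : Measure Q}
    [IsFiniteMeasure ν] (v : Lp ℂ 2 ν) :
    ∫ q, ‖v q‖ ∂ν ≤ Real.sqrt (ν.real Set.univ) * ‖v‖ := by
  have h1 := integral_mul_le_Lp_mul_Lq_of_nonneg (μ := ν) (p := 2) (q := 2)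
    (by norm_num [Real.holderConjugate_iff]) (f := fun _ => (1 : ℝ)) (g := fun q => ‖v q‖)
    (Eventually.of_forall fun _ => zero_le_one) (Eventually.of_forall fun _ => norm_nonneg _)
    (memLp_const _) (by
      have := (Lp.memLp v).norm
      simpa using this)
  simp only [one_mul, Real.one_rpow, integral_const, smul_eq_mul, mul_one] at h1
  refine h1.trans ?_
  have h2 : (∫ q, ‖v q‖ ^ (2 : ℝ) ∂ν) ^ (1 / (2 : ℝ)) = ‖v‖ := by
    have h3 := L2.inner_def (𝕜 := ℂ) v v
    rw [inner_self_eq_norm_sq_to_K] at h3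
    have h4 : (∫ x, inner ℂ (v x) (v x) ∂ν) = ((∫ x, ‖v x‖ ^ 2 ∂ν : ℝ) : ℂ) := by
      rw [← integral_complex_ofReal]
      refine integral_congr_ae (Filter.Eventually.of_forall fun x => ?_)
      simp only [inner_self_eq_norm_sq_to_K]
      push_cast; rfl
    rw [h4] at h3
    have h5 : ‖v‖ ^ 2 = ∫ x, ‖v x‖ ^ 2 ∂ν := by
      refine Complex.ofReal_injective ?_
      rw [← h3]
      push_cast; rfl
    have h6 : (∫ q, ‖v q‖ ^ (2 : ℝ) ∂ν) = ‖v‖ ^ 2 := by
      rw [h5]
      refine integral_congr_ae (Filter.Eventually.of_forall fun x => ?_)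
      simp only
      rw [Real.rpow_two]
    rw [h6, ← Real.sqrt_eq_rpow, Real.sqrt_sq (norm_nonneg _)]
  rw [h2, ← Real.sqrt_eq_rpow]

/-- **Sup bound.** -/
theorem CKer.norm_appK_le (hw : IsWeight Γ w) [IsFiniteMeasure (qMeas Γ μ w)] (hk : CKer Γ k)
    (v : Lp ℂ 2 (qMeas Γ μ w)) {x : X} {B : ℝ} (hB : ∀ y, ‖∑' γ : Γ, k x (γ • y)‖ ≤ B) :
    ‖appK μ k (fun y => v (pr Γ y)) x‖ ≤
      B * (Real.sqrt ((qMeas Γ μ w).real Set.univ) * ‖v‖) := by
  have hB0 : 0 ≤ B := (norm_nonneg _).trans (hB x)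
  rw [hk.appK_eq_integral hw (Lp.memLp v)]
  have hi : Integrable (fun q => ‖v q‖) (qMeas Γ μ w) :=
    ((Lp.memLp v).integrable (by norm_num)).norm
  calc ‖∫ q, periodize Γ (fun y => k x y) q * v q ∂qMeas Γ μ w‖
      ≤ ∫ q, B * ‖v q‖ ∂qMeas Γ μ w := by
        refine norm_integral_le_of_norm_le (hi.const_mul B) (Eventually.of_forall fun q => ?_)
        rw [norm_mul]
        refine mul_le_mul_of_nonneg_right ?_ (norm_nonneg _)
        obtain ⟨y, rfl⟩ := pr_surjective (Γ := Γ) q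
        exact hB y
    _ = B * ∫ q, ‖v q‖ ∂qMeas Γ μ w := by rw [integral_const_mul]
    _ ≤ _ := mul_le_mul_of_nonneg_left (integral_norm_le_sqrt_mul v) hB0

end bound

/-! ### Joint eigenvectors -/

section eigen

variable {Γ X : Type*} [Group Γ] [Countable Γ] [MulAction Γ X] [TopologicalSpace X] [T2Space X]
  [LocallyCompactSpace X] [SecondCountableTopology X]
  [MeasurableSpace X] [BorelSpace X] [ProperlyDiscontinuousSMul Γ X] [ContinuousConstSMul Γ X]
  {μ : Measure X} [SMulInvariantMeasure Γ X μ] [IsFiniteMeasureOnCompacts μ]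
  [μ.IsOpenPosMeasure] {w : X → ℝ≥0∞}

/-- `T` is the operator on `L²(Γ\X)` induced by the kernel `k` on `X`. -/
def HasXKernel (μ : Measure X) (w : X → ℝ≥0∞)
    (T : Lp ℂ 2 (qMeas Γ μ w) →L[ℂ] Lp ℂ 2 (qMeas Γ μ w)) (k : X → X → ℂ) : Prop :=
  ∀ v : Lp ℂ 2 (qMeas Γ μ w), ∀ᵐ x ∂μ, T v (pr Γ x) = appK μ k (fun y => v (pr Γ y)) x

/-- **Canonical continuous representative of an eigenvector.** -/
theorem exists_continuous_rep (hw : IsWeight Γ w)
    {T : Lp ℂ 2 (qMeas Γ μ w) →L[ℂ] Lp ℂ 2 (qMeas Γ μ w)} {k : X → X → ℂ} (hk : CKer Γ k)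
    (hT : HasXKernel μ w T k) {v : Lp ℂ 2 (qMeas Γ μ w)} {c : ℂ} (hc : c ≠ 0)
    (hv : T v = c • v) :
    ∃ φ : X → ℂ, Continuous φ ∧ (∀ (γ : Γ) x, φ (γ • x) = φ x) ∧
      (∀ᵐ x ∂μ, v (pr Γ x) = φ x) ∧ (∀ x, appK μ k φ x = c * φ x) := by
  set f : X → ℂ := fun y => v (pr Γ y) with hf
  have hfl : LocallyIntegrable f μ := locallyIntegrable_comp_pr hw (Lp.memLp v)
  have hfinv : ∀ (γ : Γ) x, f (γ • x) = f x := fun γ x => by simp only [hf, pr_smul]
  refine ⟨fun x => c⁻¹ * appK μ k f x, continuous_const.mul (hk.continuous_appK hfl),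
    fun γ x => by simp only [hk.appK_smul hfinv], ?_, ?_⟩
  · have h1 := hT v
    rw [hv] at h1
    have h2 : ∀ᵐ x ∂μ, (c • v : Lp ℂ 2 (qMeas Γ μ w)) (pr Γ x) = c • v (pr Γ x) :=
      (quasiMeasurePreserving_pr (μ := μ) hw).ae (Lp.coeFn_smul c v)
    filter_upwards [h1, h2] with x hx hx2
    rw [hx2, smul_eq_mul] at hx
    rw [← hx, ← mul_assoc, inv_mul_cancel₀ hc, one_mul]
  · have hae : f =ᵐ[μ] fun x => c⁻¹ * appK μ k f x := by
      have h1 := hT v
      rw [hv] at h1
      have h2 : ∀ᵐ x ∂μ, (c • v : Lp ℂ 2 (qMeas Γ μ w)) (pr Γ x) = c • v (pr Γ x) :=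
        (quasiMeasurePreserving_pr (μ := μ) hw).ae (Lp.coeFn_smul c v)
      filter_upwards [h1, h2] with x hx hx2
      rw [hx2, smul_eq_mul] at hx
      rw [← hx, ← mul_assoc, inv_mul_cancel₀ hc, one_mul]
    intro x
    rw [← appK_congr hae x, ← mul_assoc, mul_inv_cancel₀ hc, one_mul]

/-- Two continuous representatives agree. -/
theorem rep_unique {v : Lp ℂ 2 (qMeas Γ μ w)} {φ φ' : X → ℂ} (hφ : Continuous φ)
    (hφ' : Continuous φ') (h : ∀ᵐ x ∂μ, v (pr Γ x) = φ x)
    (h' : ∀ᵐ x ∂μ, v (pr Γ x) = φ' x) : φ = φ' := by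
  refine (Continuous.ae_eq_iff_eq μ hφ hφ').1 ?_
  filter_upwards [h, h'] with x hx hx'
  rw [← hx, ← hx']

/-- Sup bound for continuous representatives of eigenvectors. -/
theorem norm_rep_le (hw : IsWeight Γ w) [IsFiniteMeasure (qMeas Γ μ w)]
    {k : X → X → ℂ} (hk : CKer Γ k)
    {v : Lp ℂ 2 (qMeas Γ μ w)} {c : ℂ} (hc : c ≠ 0)
    {φ : X → ℂ} (hvφ : ∀ᵐ x ∂μ, v (pr Γ x) = φ x) (hφ : ∀ x, appK μ k φ x = c * φ x)
    {x : X} {B : ℝ} (hB : ∀ y, ‖∑' γ : Γ, k x (γ • y)‖ ≤ B) :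
    ‖φ x‖ ≤ ‖c‖⁻¹ * (B * (Real.sqrt ((qMeas Γ μ w).real Set.univ) * ‖v‖)) := by
  have h1 : φ x = c⁻¹ * appK μ k (fun y => v (pr Γ y)) x := by
    rw [appK_congr hvφ x, hφ, ← mul_assoc, inv_mul_cancel₀ hc, one_mul]
  rw [h1, norm_mul, norm_inv]
  exact mul_le_mul_of_nonneg_left (hk.norm_appK_le hw v hB) (by positivity)

/-- Eigen-equations hold pointwise for continuous representatives. -/
theorem appK_eq_of_ae (hw : IsWeight Γ w)
    {T : Lp ℂ 2 (qMeas Γ μ w) →L[ℂ] Lp ℂ 2 (qMeas Γ μ w)} {k : X → X → ℂ} (hk : CKer Γ k)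
    (hT : HasXKernel μ w T k) {v : Lp ℂ 2 (qMeas Γ μ w)} {c : ℂ}
    (hv : T v = c • v) {φ : X → ℂ} (hφ : Continuous φ) (hvφ : ∀ᵐ x ∂μ, v (pr Γ x) = φ x) (x : X) :
    appK μ k φ x = c * φ x := by
  have hfl : LocallyIntegrable φ μ := hφ.locallyIntegrable
  have hc1 : Continuous (appK μ k φ) := hk.continuous_appK hfl
  have hc2 : Continuous (fun x => c * φ x) := continuous_const.mul hφ
  have h1 := hT v
  rw [hv] at h1
  have h2 : ∀ᵐ x ∂μ, (c • v : Lp ℂ 2 (qMeas Γ μ w)) (pr Γ x) = c • v (pr Γ x) :=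
    (quasiMeasurePreserving_pr (μ := μ) hw).ae (Lp.coeFn_smul c v)
  have h3 : appK μ k φ =ᵐ[μ] fun x => c * φ x := by
    filter_upwards [h1, h2, hvφ] with x hx hx2 hx3
    rw [hx2, smul_eq_mul, hx3] at hx
    rw [hx]
    exact (appK_congr hvφ x).symm
  exact congrFun ((Continuous.ae_eq_iff_eq μ hc1 hc2).1 h3) x

end eigen

end Fermat.Agent.LT.B
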