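import Mathlib
import Fermat.Agent.LT.A.H3

/-!
LT piece B (helper31): derivative bounds for radial kernels along unipotent directions.
-/

open Set Filter Topology
open scoped ContDiff Nat

namespace Fermat.Agent.LT.B

open Fermat.LT

/-- Archimedean test functions of the variables `c i = cosh d(P i, P' i) ≥ 1`: smooth on `c ≥ 1`
and vanishing when some `c i` is large. -/
structure IsArchTest {ι : Type*} [Fintype ι] (Φ : (ι → ℝ) → ℂ) : Prop where
  smooth : ContDiffOn ℝ ∞ Φ (Ici 1)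
  compact : ∃ V : ℝ, ∀ c, 1 ≤ c → (∃ i, V ≤ c i) → Φ c = 0

section

variable {ι : Type*} [Fintype ι]

omit [Fintype ι] in
lemma uniqueDiffOn_Ici_one : UniqueDiffOn ℝ (Ici (1 : ι → ℝ)) := by
  rw [← Set.pi_univ_Ici]
  exact UniqueDiffOn.univ_pi fun i => uniqueDiffOn_Ici _

lemma IsArchTest.exists_bound {Φ : (ι → ℝ) → ℂ} (hΦ : IsArchTest Φ) (j : ℕ) :
    ∃ C, 0 ≤ C ∧ ∀ c ∈ Ici (1 : ι → ℝ), ‖iteratedFDerivWithin ℝ j Φ (Ici 1) c‖ ≤ C := by
  obtain ⟨V, hV⟩ := hΦ.compact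
  have hK : IsCompact (Icc (1 : ι → ℝ) (fun _ => V + 1)) := isCompact_Icc
  have hcont : ContinuousOn (iteratedFDerivWithin ℝ j Φ (Ici 1)) (Ici 1) :=
    hΦ.smooth.continuousOn_iteratedFDerivWithin (by exact_mod_cast le_top) uniqueDiffOn_Ici_one
  obtain ⟨C, hC⟩ := hK.exists_bound_of_continuousOn
    (hcont.mono (fun x hx => hx.1))
  refine ⟨max C 0, le_max_right _ _, fun c hc => ?_⟩
  by_cases h : c ≤ fun _ => V + 1
  · exact (hC c ⟨hc, h⟩).trans (le_max_left _ _)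
  · have h' : ∃ i, V + 1 < c i := by
      by_contra hcon
      push Not at hcon
      exact h hcon
    obtain ⟨i, hi⟩ := h'
    have hev : Φ =ᶠ[𝓝[Ici 1] c] fun _ => 0 := by
      have h1 : ∀ᶠ x : ι → ℝ in 𝓝[Ici 1] c, V < x i := by
        refine eventually_nhdsWithin_of_eventually_nhds ?_
        exact (continuous_apply i).continuousAt.eventually
          (lt_mem_nhds (show V < c i by linarith))
      filter_upwards [h1, self_mem_nhdsWithin] with x hx hx1
      exact hV x hx1 ⟨i, hx.le⟩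
    have h2 : iteratedFDerivWithin ℝ j Φ (Ici 1) c
        = iteratedFDerivWithin ℝ j (fun _ => (0 : ℂ)) (Ici 1) c :=
      hev.iteratedFDerivWithin_eq (hev.self_of_nhdsWithin hc) j
    rw [h2]
    have h3 : iteratedFDerivWithin ℝ j (fun _ => (0 : ℂ)) (Ici 1) c = 0 := by
      have := iteratedFDerivWithin_fun_zero (𝕜 := ℝ) (E := ι → ℝ) (F := ℂ) (s := Ici 1) (i := j)
      exact congrFun this c
    rw [h3, norm_zero]
    exact le_max_right _ _

/-- the quadratic curve -/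
def quadCurve (α β γ : ι → ℝ) (s : ℝ) : ι → ℝ := fun i => α i + β i * s + γ i * s ^ 2

lemma hasDerivAt_quadCurve (α β γ : ι → ℝ) (s : ℝ) :
    HasDerivAt (quadCurve α β γ) (quadCurve β (fun i => 2 * γ i) 0 s) s := by
  rw [hasDerivAt_pi]
  intro i
  have h1 : HasDerivAt (fun s : ℝ => α i + β i * s + γ i * s ^ 2)
      (0 + β i * 1 + γ i * (2 * s)) s := by
    refine ((hasDerivAt_const s (α i)).add ((hasDerivAt_id s).const_mul (β i))).add ?_
    have := (hasDerivAt_pow 2 s).const_mul (γ i)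
    simpa using this
  have h2 : quadCurve β (fun i => 2 * γ i) 0 s i = 0 + β i * 1 + γ i * (2 * s) := by
    show β i + 2 * γ i * s + 0 * s ^ 2 = _
    ring
  rw [h2]
  exact h1

lemma deriv_quadCurve (α β γ : ι → ℝ) :
    deriv (quadCurve α β γ) = quadCurve β (fun i => 2 * γ i) 0 :=
  funext fun s => (hasDerivAt_quadCurve α β γ s).deriv

lemma contDiff_quadCurve (α β γ : ι → ℝ) : ContDiff ℝ ∞ (quadCurve α β γ) := by
  rw [contDiff_pi]
  intro i
  unfold quadCurve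
  fun_prop

lemma norm_iteratedDeriv_quadCurve_le (α β γ : ι → ℝ) {δ : ℝ} (hδ : 0 ≤ δ)
    (hβ : ∀ i, |β i| ≤ δ) (hγ : ∀ i, 2 * |γ i| ≤ δ ^ 2) (j : ℕ) (hj : 1 ≤ j) :
    ‖iteratedDeriv j (quadCurve α β γ) 0‖ ≤ δ ^ j := by
  obtain ⟨j, rfl⟩ : ∃ k, j = k + 1 := ⟨j - 1, by omega⟩
  rw [iteratedDeriv_succ', deriv_quadCurve]
  rcases j with _ | j
  · rw [iteratedDeriv_zero, zero_add, pow_one, pi_norm_le_iff_of_nonneg hδ]
    intro i
    simpa [quadCurve] using hβ i
  · rw [iteratedDeriv_succ', deriv_quadCurve]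
    rcases j with _ | j
    · rw [iteratedDeriv_zero, zero_add, one_add_one_eq_two,
        pi_norm_le_iff_of_nonneg (by positivity)]
      intro i
      simpa [quadCurve, abs_mul] using hγ i
    · rw [iteratedDeriv_succ', deriv_quadCurve]
      have h0 : (quadCurve (fun i => 2 * (0 : ι → ℝ) i) (fun i => 2 * (0 : ι → ℝ) i) 0)
          = fun _ => 0 := by
        funext s i; simp [quadCurve]
      have h1 : ∀ k : ℕ, iteratedDeriv k (fun _ : ℝ => (0 : ι → ℝ)) 0 = 0 := by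
        intro k
        rw [iteratedDeriv_const]
        simp
      rw [h0, h1, norm_zero]; positivity

/-- the derivative bound -/
theorem IsArchTest.exists_deriv_bound {Φ : (ι → ℝ) → ℂ} (hΦ : IsArchTest Φ) (M : ℕ) :
    ∃ C, 0 ≤ C ∧ ∀ (α β γ : ι → ℝ) (δ : ℝ), 0 ≤ δ → (∀ s, 1 ≤ quadCurve α β γ s) →
      (∀ i, |β i| ≤ δ) → (∀ i, 2 * |γ i| ≤ δ ^ 2) →
      ‖iteratedDeriv M (fun s => Φ (quadCurve α β γ s)) 0‖ ≤ C * δ ^ M := by
  choose C hC0 hC using hΦ.exists_bound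
  refine ⟨M ! * ∑ j ∈ Finset.range (M + 1), C j, by
    have := Finset.sum_nonneg (s := Finset.range (M + 1)) (fun j _ => hC0 j)
    positivity, ?_⟩
  intro α β γ δ hδ h1 hβ hγ
  rw [← norm_iteratedFDeriv_eq_norm_iteratedDeriv, ← iteratedFDerivWithin_univ]
  refine norm_iteratedFDerivWithin_comp_le (g := Φ) (f := quadCurve α β γ) (t := Ici 1)
    hΦ.smooth (contDiff_quadCurve α β γ).contDiffOn (by exact_mod_cast le_top)
    uniqueDiffOn_Ici_one uniqueDiffOn_univ (fun s _ => h1 s) (mem_univ _) ?_ ?_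
  · intro i hi
    refine (hC i _ (h1 0)).trans ?_
    exact Finset.single_le_sum (f := C) (fun j _ => hC0 j) (Finset.mem_range.2 (by omega))
  · intro i hi _
    rw [iteratedFDerivWithin_univ, norm_iteratedFDeriv_eq_norm_iteratedDeriv]
    exact norm_iteratedDeriv_quadCurve_le α β γ hδ hβ hγ i hi

/-! ### Hyperbolic space -/

/-- translation of `P : H3` by `u` (the action of `[[1,u],[0,1]]`). -/
noncomputable def shift (u : ℂ) (P : H3) : H3 := H3.mk (P.z + u) P.t P.t_pos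

@[simp] lemma shift_z (u : ℂ) (P : H3) : (shift u P).z = P.z + u := rfl
@[simp] lemma shift_t (u : ℂ) (P : H3) : (shift u P).t = P.t := rfl

lemma shift_zero (P : H3) : shift 0 P = P := H3.ext (by simp) rfl

lemma shift_shift (u v : ℂ) (P : H3) : shift u (shift v P) = shift (u + v) P :=
  H3.ext (by simp; ring) rfl

lemma ch_shift_eq (P P' : H3) (e : ℂ) (s : ℝ) :
    H3.ch (shift (s • e) P) P' = H3.ch P P'
      + ((e.re * (P.z - P'.z).re + e.im * (P.z - P'.z).im) / (P.t * P'.t)) * s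
      + (Complex.normSq e / (2 * P.t * P'.t)) * s ^ 2 := by
  have h1 := P.t_ne_zero
  have h2 := P'.t_ne_zero
  unfold H3.ch
  rw [shift_z, shift_t]
  simp only [Complex.normSq_apply, Complex.sub_re, Complex.sub_im, Complex.add_re, Complex.add_im,
    Complex.smul_re, Complex.smul_im, smul_eq_mul]
  field_simp
  ring

/-- if `ch P P' ≤ V` then the heights are comparable -/
lemma t_le_of_ch_le {P P' : H3} {V : ℝ} (h : H3.ch P P' ≤ V) : P.t ≤ 2 * V * P'.t := by
  have h1 := P.t_pos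
  have h2 := P'.t_pos
  unfold H3.ch at h
  rw [div_le_iff₀ (by positivity)] at h
  have h3 := Complex.normSq_nonneg (P.z - P'.z)
  have h4 : P.t * P.t ≤ (2 * V * P'.t) * P.t := by nlinarith
  exact le_of_mul_le_mul_right h4 h1

lemma normSq_sub_le_of_ch_le {P P' : H3} {V : ℝ} (h : H3.ch P P' ≤ V) :
    Complex.normSq (P.z - P'.z) ≤ 2 * V * (P.t * P'.t) := by
  have h1 := P.t_pos
  have h2 := P'.t_pos
  unfold H3.ch at h
  rw [div_le_iff₀ (by positivity)] at h
  nlinarith [sq_nonneg P.t, sq_nonneg P'.t]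

lemma abs_coeff_le {P P' : H3} {V : ℝ} (h : H3.ch P P' ≤ V) (e : ℂ) {δ : ℝ} (hδ : 0 ≤ δ)
    (he : ‖e‖ ≤ δ * P.t) :
    |(e.re * (P.z - P'.z).re + e.im * (P.z - P'.z).im) / (P.t * P'.t)| ≤ 2 * V * δ := by
  have h1 := P.t_pos
  have h2 := P'.t_pos
  have hV : 1 ≤ V := (H3.one_le_ch P P').trans h
  set w := P.z - P'.z with hw
  have hcs : |e.re * w.re + e.im * w.im| ≤ ‖e‖ * ‖w‖ := by
    apply abs_le_of_sq_le_sq _ (by positivity)
    rw [mul_pow, ← Complex.normSq_eq_norm_sq, ← Complex.normSq_eq_norm_sq, Complex.normSq_apply,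
      Complex.normSq_apply]
    nlinarith [sq_nonneg (e.re * w.im - e.im * w.re)]
  have hw2 : ‖w‖ ^ 2 ≤ 2 * V * (P.t * P'.t) := by
    rw [← Complex.normSq_eq_norm_sq]; exact normSq_sub_le_of_ch_le h
  have ht : P.t ≤ 2 * V * P'.t := t_le_of_ch_le h
  have hwle : ‖w‖ ≤ 2 * V * P'.t := by
    refine le_of_sq_le_sq ?_ (by positivity)
    calc ‖w‖ ^ 2 ≤ 2 * V * (P.t * P'.t) := hw2
      _ ≤ 2 * V * ((2 * V * P'.t) * P'.t) := by gcongr
      _ = (2 * V * P'.t) ^ 2 := by ring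
  rw [abs_div, abs_of_pos (mul_pos h1 h2), div_le_iff₀ (by positivity)]
  calc |e.re * w.re + e.im * w.im| ≤ ‖e‖ * ‖w‖ := hcs
    _ ≤ (δ * P.t) * (2 * V * P'.t) := by gcongr
    _ = 2 * V * δ * (P.t * P'.t) := by ring

lemma coeff2_le {P P' : H3} {V : ℝ} (h : H3.ch P P' ≤ V) (e : ℂ) {δ : ℝ}
    (he : ‖e‖ ≤ δ * P.t) :
    2 * |Complex.normSq e / (2 * P.t * P'.t)| ≤ (2 * V * δ) ^ 2 := by
  have h1 := P.t_pos
  have h2 := P'.t_pos
  have hV : 1 ≤ V := (H3.one_le_ch P P').trans h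
  have ht : P.t ≤ 2 * V * P'.t := t_le_of_ch_le h
  rw [abs_of_nonneg (div_nonneg (Complex.normSq_nonneg _) (by positivity)),
    Complex.normSq_eq_norm_sq]
  have h3 : 2 * (‖e‖ ^ 2 / (2 * P.t * P'.t)) = ‖e‖ ^ 2 / (P.t * P'.t) := by
    field_simp
  rw [h3, div_le_iff₀ (by positivity)]
  calc ‖e‖ ^ 2 ≤ (δ * P.t) ^ 2 := by gcongr
    _ = δ ^ 2 * P.t * P.t := by ring
    _ ≤ δ ^ 2 * P.t * (2 * V * P'.t) := by gcongr
    _ = (2 * V) * (δ ^ 2 * (P.t * P'.t)) := by ring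
    _ ≤ (2 * V) ^ 2 * (δ ^ 2 * (P.t * P'.t)) := by
        gcongr
        nlinarith
    _ = (2 * V * δ) ^ 2 * (P.t * P'.t) := by ring

/-- the function along a line -/
noncomputable def lineFun (Φ : (ι → ℝ) → ℂ) (P P' : ι → H3) (e : ι → ℂ) (s : ℝ) : ℂ :=
  Φ (fun i => H3.ch (shift (s • e i) (P i)) (P' i))

omit [Fintype ι] in
lemma lineFun_eq (Φ : (ι → ℝ) → ℂ) (P P' : ι → H3) (e : ι → ℂ) :
    lineFun Φ P P' e = fun s => Φ (quadCurve (fun i => H3.ch (P i) (P' i))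
      (fun i => ((e i).re * ((P i).z - (P' i).z).re + (e i).im * ((P i).z - (P' i).z).im)
        / ((P i).t * (P' i).t))
      (fun i => Complex.normSq (e i) / (2 * (P i).t * (P' i).t)) s) := by
  funext s
  unfold lineFun quadCurve
  congr 1
  funext i
  exact ch_shift_eq _ _ _ _

lemma contDiff_lineFun {Φ : (ι → ℝ) → ℂ} (hΦ : IsArchTest Φ) (P P' : ι → H3) (e : ι → ℂ) :
    ContDiff ℝ ∞ (lineFun Φ P P' e) := by
  rw [lineFun_eq, ← contDiffOn_univ]
  refine hΦ.smooth.comp (contDiff_quadCurve _ _ _).contDiffOn ?_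
  intro s _ i
  have := H3.one_le_ch (shift (s • e i) (P i)) (P' i)
  rwa [ch_shift_eq] at this

/-- The derivative bound for radial kernels, for a given `V` beyond which `Φ` vanishes. -/
theorem IsArchTest.exists_line_bound {Φ : (ι → ℝ) → ℂ} (hΦ : IsArchTest Φ) {V : ℝ}
    (hV : ∀ c, 1 ≤ c → (∃ i, V ≤ c i) → Φ c = 0) (M : ℕ) :
    ∃ C, 0 ≤ C ∧ ∀ (P P' : ι → H3) (e : ι → ℂ) (δ : ℝ), 0 ≤ δ →
      (∀ i, ‖e i‖ ≤ δ * (P i).t) →
      ‖iteratedDeriv M (lineFun Φ P P' e) 0‖ ≤ C * δ ^ M := by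
  obtain ⟨C, hC0, hC⟩ := hΦ.exists_deriv_bound M
  have hC' : 0 ≤ C * (2 * |V|) ^ M := by positivity
  refine ⟨C * (2 * |V|) ^ M, hC', ?_⟩
  intro P P' e δ hδ he
  by_cases h : ∀ i, H3.ch (P i) (P' i) ≤ V
  · by_cases hne : Nonempty ι
    · obtain ⟨i0⟩ := hne
      have hV1 : 1 ≤ V := (H3.one_le_ch _ _).trans (h i0)
      rw [abs_of_pos (by linarith), lineFun_eq, mul_assoc, ← mul_pow]
      refine hC _ _ _ (2 * V * δ) (by positivity) ?_ ?_ ?_
      · intro s i
        have := H3.one_le_ch (shift (s • e i) (P i)) (P' i)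
        rwa [ch_shift_eq] at this
      · intro i
        exact abs_coeff_le (h i) (e i) hδ (he i)
      · intro i
        exact coeff2_le (h i) (e i) (he i)
    · rw [not_nonempty_iff] at hne
      rw [lineFun_eq, mul_assoc, ← mul_pow]
      refine hC _ _ _ (2 * |V| * δ) (by positivity) ?_ ?_ ?_
      · intro s i; exact hne.elim i
      · intro i; exact hne.elim i
      · intro i; exact hne.elim i
  · push Not at h
    obtain ⟨i, hi⟩ := h
    have hev : lineFun Φ P P' e =ᶠ[𝓝 0] fun _ => 0 := by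
      have hcont : Continuous fun s : ℝ => H3.ch (shift (s • e i) (P i)) (P' i) := by
        simp_rw [ch_shift_eq]
        fun_prop
      have h0 : V < H3.ch (shift ((0 : ℝ) • e i) (P i)) (P' i) := by
        rw [zero_smul, shift_zero]; exact hi
      filter_upwards [hcont.continuousAt.eventually (lt_mem_nhds h0)] with s hs
      exact hV _ (fun j => H3.one_le_ch _ _) ⟨i, hs.le⟩
    have h2 : iteratedDeriv M (lineFun Φ P P' e) 0 = iteratedDeriv M (fun _ : ℝ => (0 : ℂ)) 0 :=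
      hev.iteratedDeriv_eq M
    rw [h2, iteratedDeriv_const]
    simp only [ite_self, norm_zero]
    positivity

end

end Fermat.Agent.LT.B
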