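import Mathlib

/-!
LT piece B (helper31): box means of periodic functions, and the bound
`‖f v - mean‖ ≤ n * sup ‖iterated derivative along the period directions‖`.
-/

open MeasureTheory Set

namespace Fermat.Agent.LT.B

/-- the mean of `f` over the box spanned by the family `b`. -/
noncomputable def boxMean {ι V : Type*} [Fintype ι] [AddCommGroup V] [Module ℝ V]
    (b : ι → V) (f : V → ℂ) (v : V) : ℂ :=
  ∫ s in Icc (0 : ι → ℝ) 1, f (v + ∑ i, s i • b i)

section oneD

/-- One dimensional estimate, base case. -/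
lemma norm_sub_mean_le_one {g : ℝ → ℂ} (hper : Function.Periodic g 1)
    (hg : ContDiff ℝ 1 g) {B : ℝ} (hB : ∀ s, ‖deriv g s‖ ≤ B) (s : ℝ) :
    ‖g s - ∫ t in (0 : ℝ)..1, g t‖ ≤ B := by
  have hcont : Continuous g := hg.continuous
  have h1 : (∫ t in (0 : ℝ)..1, g t) = ∫ t in s..(s + 1), g t := by
    have := hper.intervalIntegral_add_eq 0 s
    simpa using this
  have h2 : g s = ∫ _t in s..(s + 1), g s := by simp
  rw [h1]
  conv_lhs => rw [h2]
  rw [← intervalIntegral.integral_sub (by simp) (hcont.intervalIntegrable _ _)]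
  have hdiff : Differentiable ℝ g := hg.differentiable (by norm_num)
  have hle : ∀ t ∈ Ioc s (s + 1), ‖g s - g t‖ ≤ B := by
    intro t ht
    have hB0 : 0 ≤ B := (norm_nonneg _).trans (hB s)
    have h3 : ‖g s - g t‖ ≤ B * ‖s - t‖ :=
      Convex.norm_image_sub_le_of_norm_deriv_le (𝕜 := ℝ) (f := g) (C := B) (s := Set.univ)
        (fun x _ => hdiff x) (fun x _ => hB x) convex_univ (mem_univ _) (mem_univ _)
    have h4 : ‖s - t‖ ≤ 1 := by
      rw [Real.norm_eq_abs, abs_le]
      constructor <;> linarith [ht.1, ht.2]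
    calc ‖g s - g t‖ ≤ B * ‖s - t‖ := h3
      _ ≤ B * 1 := by gcongr
      _ = B := mul_one B
  have := intervalIntegral.norm_integral_le_of_norm_le_const
    (a := s) (b := s + 1) (f := fun t => g s - g t) (C := B)
    (by
      intro t ht
      rw [uIoc_of_le (by linarith)] at ht
      exact hle t ht)
  simpa using this

/-- One dimensional estimate. -/
lemma norm_sub_mean_le {M : ℕ} (hM : 1 ≤ M) : ∀ {g : ℝ → ℂ} (_ : Function.Periodic g 1)
    (_ : ContDiff ℝ M g) {B : ℝ} (_ : ∀ s, ‖iteratedDeriv M g s‖ ≤ B) (s : ℝ),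
    ‖g s - ∫ t in (0 : ℝ)..1, g t‖ ≤ B := by
  induction M, hM using Nat.le_induction with
  | base =>
    intro g hper hg B hB s
    refine norm_sub_mean_le_one hper (by exact_mod_cast hg) (fun s => ?_) s
    have := hB s
    rwa [iteratedDeriv_one] at this
  | succ M hM ih =>
    intro g hper hg B hB s
    have hg1 : ContDiff ℝ 1 g := hg.of_le (by norm_cast; omega)
    refine norm_sub_mean_le_one hper hg1 (fun s => ?_) s
    have hg' : ContDiff ℝ M (deriv g) := by
      have : ContDiff ℝ (M + 1) g := by exact_mod_cast hg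
      exact (contDiff_succ_iff_deriv.1 this).2.2
    have hper' : Function.Periodic (deriv g) 1 := by
      intro x
      have : (fun y => g (y + 1)) = g := funext hper
      calc deriv g (x + 1) = deriv (fun y => g (y + 1)) x := (deriv_comp_add_const g 1 x).symm
        _ = deriv g x := by rw [this]
    have hB' : ∀ s, ‖iteratedDeriv M (deriv g) s‖ ≤ B := by
      intro s
      have := hB s
      rwa [iteratedDeriv_succ'] at this
    have h := ih hper' hg' hB' s
    have h0 : ∫ t in (0 : ℝ)..1, deriv g t = 0 := by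
      rw [intervalIntegral.integral_deriv_eq_sub
        (fun x _ => (hg1.differentiable (by norm_num)) x)
        (hg'.continuous.intervalIntegrable _ _)]
      have := hper 0
      simp only [zero_add] at this
      rw [this, sub_self]
    rwa [h0, sub_zero] at h

end oneD

section multi

variable {V : Type*} [AddCommGroup V] [Module ℝ V] [TopologicalSpace V] [ContinuousAdd V]
  [ContinuousSMul ℝ V]

lemma continuous_box_arg {ι : Type*} [Fintype ι] (b : ι → V) (v : V) :
    Continuous (fun s : ι → ℝ => v + ∑ i, s i • b i) := by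
  fun_prop

lemma integrableOn_box {ι : Type*} [Fintype ι] (b : ι → V) {f : V → ℂ} (hf : Continuous f)
    (v : V) : IntegrableOn (fun s : ι → ℝ => f (v + ∑ i, s i • b i)) (Icc 0 1) :=
  (hf.comp (continuous_box_arg b v)).continuousOn.integrableOn_compact isCompact_Icc

lemma volume_real_box (ι : Type*) [Fintype ι] :
    (volume (Icc (0 : ι → ℝ) 1)) = 1 := by
  rw [Real.volume_Icc_pi]
  simp

omit [TopologicalSpace V] [ContinuousAdd V] [ContinuousSMul ℝ V] in
lemma norm_boxMean_le {ι : Type*} [Fintype ι] (b : ι → V) {f : V → ℂ}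
    {B : ℝ} (hB : ∀ v, ‖f v‖ ≤ B) (v : V) : ‖boxMean b f v‖ ≤ B := by
  unfold boxMean
  have := norm_setIntegral_le_of_norm_le_const (μ := (volume : Measure (ι → ℝ)))
    (s := Icc (0 : ι → ℝ) 1) (f := fun s => f (v + ∑ i, s i • b i)) (C := B)
    (by rw [volume_real_box]; exact ENNReal.one_lt_top) (fun s _ => hB _)
  simpa [Measure.real, volume_real_box] using this

lemma boxMean_sub {ι : Type*} [Fintype ι] (b : ι → V) {f g : V → ℂ} (hf : Continuous f)
    (hg : Continuous g) (v : V) :
    boxMean b (fun v => f v - g v) v = boxMean b f v - boxMean b g v := by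
  unfold boxMean
  exact integral_sub (integrableOn_box b hf v) (integrableOn_box b hg v)

/-- Fubini: split off the first direction. -/
lemma boxMean_succ {n : ℕ} (b : Fin (n + 1) → V) {f : V → ℂ} (hf : Continuous f) (v : V) :
    boxMean b f v = boxMean (fun i : Fin n => b i.succ)
      (fun w => ∫ t in (0 : ℝ)..1, f (w + t • b 0)) v := by
  unfold boxMean
  have hmp := volume_preserving_piFinSuccAbove (fun _ : Fin (n + 1) => ℝ) 0
  set e := MeasurableEquiv.piFinSuccAbove (fun _ : Fin (n + 1) => ℝ) 0 with he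
  have hset : e ⁻¹' (Icc (0 : ℝ) 1 ×ˢ Icc (0 : Fin n → ℝ) 1) = Icc (0 : Fin (n + 1) → ℝ) 1 := by
    ext s
    simp only [mem_preimage, mem_prod, mem_Icc, he]
    constructor
    · rintro ⟨⟨h1, h2⟩, ⟨h3, h4⟩⟩
      constructor
      · intro i
        refine Fin.cases ?_ (fun j => ?_) i
        · exact h1
        · exact h3 j
      · intro i
        refine Fin.cases ?_ (fun j => ?_) i
        · exact h2
        · exact h4 j
    · rintro ⟨h1, h2⟩
      exact ⟨⟨h1 0, h2 0⟩, ⟨fun j => h1 j.succ, fun j => h2 j.succ⟩⟩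
  have h1 : ∫ s in Icc (0 : Fin (n + 1) → ℝ) 1, f (v + ∑ i, s i • b i)
      = ∫ p in (Icc (0 : ℝ) 1 ×ˢ Icc (0 : Fin n → ℝ) 1),
          f (v + (∑ i, p.2 i • b i.succ) + p.1 • b 0) := by
    rw [← hset, ← hmp.setIntegral_preimage_emb e.measurableEmbedding
      (fun p : ℝ × (Fin n → ℝ) => f (v + (∑ i, p.2 i • b i.succ) + p.1 • b 0))]
    refine setIntegral_congr_fun ?_ (fun s _ => ?_)
    · rw [hset]; exact measurableSet_Icc
    · show f (v + ∑ i, s i • b i) = f (v + (∑ i, (e s).2 i • b i.succ) + (e s).1 • b 0)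
      congr 1
      rw [Fin.sum_univ_succ]
      have h2 : (e s).1 = s 0 := rfl
      have h3 : ∀ i : Fin n, (e s).2 i = s i.succ := fun i => rfl
      simp only [h2, h3]
      abel
  rw [h1]
  have hcont : Continuous (fun p : ℝ × (Fin n → ℝ) =>
      f (v + (∑ i, p.2 i • b i.succ) + p.1 • b 0)) := by
    refine hf.comp ?_
    fun_prop
  rw [Measure.volume_eq_prod, ← Measure.prod_restrict, integral_prod_symm]
  · refine integral_congr_ae (Filter.Eventually.of_forall fun s => ?_)
    show ∫ t in Icc (0 : ℝ) 1, f (v + (∑ i, s i • b i.succ) + t • b 0)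
      = ∫ t in (0 : ℝ)..1, f (v + (∑ i, s i • b i.succ) + t • b 0)
    rw [intervalIntegral.integral_of_le zero_le_one, integral_Icc_eq_integral_Ioc]
  · rw [Measure.prod_restrict]
    exact hcont.continuousOn.integrableOn_compact (isCompact_Icc.prod isCompact_Icc)

/-- `f` minus its box mean is bounded by `n` times a bound for the `M`-th derivatives of `f`
along the period directions. -/
theorem norm_sub_boxMean_le {M : ℕ} (hM : 1 ≤ M) {f : V → ℂ} (hf : Continuous f) {B : ℝ} :
    ∀ {n : ℕ} (b : Fin n → V)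
    (_ : ∀ i v, f (v + b i) = f v)
    (_ : ∀ i v, ContDiff ℝ M (fun s : ℝ => f (v + s • b i)))
    (_ : ∀ i v, ‖iteratedDeriv M (fun s : ℝ => f (v + s • b i)) 0‖ ≤ B) (v : V),
    ‖f v - boxMean b f v‖ ≤ n * B := by
  intro n
  induction n with
  | zero =>
    intro b _ _ _ v
    have : boxMean b f v = f v := by
      unfold boxMean
      simp [measureReal_def]
    rw [this]; simp
  | succ n ih =>
    intro b hper hsm hB v
    rw [boxMean_succ b hf v]
    set b' : Fin n → V := fun i => b i.succ with hb'
    have h1 := ih b' (fun i => hper i.succ) (fun i => hsm i.succ) (fun i => hB i.succ) v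
    have hmean : ∀ w, ‖f w - ∫ t in (0 : ℝ)..1, f (w + t • b 0)‖ ≤ B := by
      intro w
      have hp : Function.Periodic (fun s : ℝ => f (w + s • b 0)) 1 := by
        intro s
        show f (w + (s + 1) • b 0) = f (w + s • b 0)
        rw [add_smul, one_smul, ← add_assoc, hper]
      have hder : ∀ s, ‖iteratedDeriv M (fun s : ℝ => f (w + s • b 0)) s‖ ≤ B := by
        intro s
        have h2 := hB 0 (w + s • b 0)
        have h3 : (fun r : ℝ => f (w + s • b 0 + r • b 0))
            = fun r : ℝ => (fun s : ℝ => f (w + s • b 0)) (s + r) := by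
          funext r
          show _ = f (w + (s + r) • b 0)
          rw [add_smul, add_assoc]
        have h4 := congrFun (iteratedDeriv_comp_const_add M (fun s : ℝ => f (w + s • b 0)) s) 0
        rw [add_zero] at h4
        rw [h3] at h2
        exact h4 ▸ h2
      have := norm_sub_mean_le hM hp (hsm 0 w) hder 0
      simpa using this
    have hcont : Continuous (fun w => ∫ t in (0 : ℝ)..1, f (w + t • b 0)) := by
      refine intervalIntegral.continuous_parametric_intervalIntegral_of_continuous' ?_ 0 1
      exact hf.comp (by fun_prop)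
    have h2 : ‖boxMean b' f v - boxMean b' (fun w => ∫ t in (0 : ℝ)..1, f (w + t • b 0)) v‖
        ≤ B := by
      rw [← boxMean_sub b' hf hcont]
      exact norm_boxMean_le b' hmean v
    calc ‖f v - boxMean b' (fun w => ∫ t in (0 : ℝ)..1, f (w + t • b 0)) v‖
        ≤ ‖f v - boxMean b' f v‖
          + ‖boxMean b' f v - boxMean b' (fun w => ∫ t in (0 : ℝ)..1, f (w + t • b 0)) v‖ :=
          norm_sub_le_norm_sub_add_norm_sub _ _ _
      _ ≤ n * B + B := add_le_add h1 h2
      _ = ((n + 1 : ℕ) : ℝ) * B := by push_cast; ring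

end multi

end Fermat.Agent.LT.B
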