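import Mathlib
import Fermat.Agent.LT.A.H3
import Fermat.Agent.LT.B.Torus
import Fermat.Agent.LT.B.Deriv

/-!
LT piece B (helper31): bound for "Poincaré series" `F u = ∑ γ, ∑ j, c γ j * Φ j (ch (shift u P) (P' γ))`
which are periodic with mean zero.
-/

open Set Filter Topology
open scoped ContDiff Nat

namespace Fermat.Agent.LT.B

open Fermat.LT

/-- quasi triangle inequality -/
lemma ch_le_two_mul (A B C : H3) : H3.ch A C ≤ 2 * (H3.ch A B * H3.ch B C) := by
  have hA := A.t_pos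
  have hB := B.t_pos
  have hC := C.t_pos
  set a := A.z - B.z with ha
  set c := C.z - B.z with hc
  have hac : A.z - C.z = a - c := by rw [ha, hc]; ring
  have hbc : Complex.normSq (B.z - C.z) = Complex.normSq c := by
    rw [hc, ← Complex.normSq_neg, neg_sub]
  unfold H3.ch
  rw [← ha, hbc, hac]
  have h1 : Complex.normSq (a - c) ≤ Complex.normSq a + Complex.normSq c + 2 * (‖a‖ * ‖c‖) := by
    rw [Complex.normSq_eq_norm_sq, Complex.normSq_eq_norm_sq, Complex.normSq_eq_norm_sq]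
    have : ‖a - c‖ ≤ ‖a‖ + ‖c‖ := norm_sub_le _ _
    nlinarith [norm_nonneg (a - c), norm_nonneg a, norm_nonneg c]
  have hna := Complex.normSq_eq_norm_sq a
  have hnc := Complex.normSq_eq_norm_sq c
  set x := ‖a‖ with hx
  set y := ‖c‖ with hy
  have hx0 : 0 ≤ x := norm_nonneg _
  have hy0 : 0 ≤ y := norm_nonneg _
  rw [hna, hnc]
  rw [hna, hnc] at h1
  set p := A.t
  set q := B.t
  set r := C.t
  have key : (Complex.normSq (a - c) + p ^ 2 + r ^ 2) * (q ^ 2)
      ≤ (x ^ 2 + p ^ 2 + q ^ 2) * (y ^ 2 + q ^ 2 + r ^ 2) := by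
    have h2 : (Complex.normSq (a - c) + p ^ 2 + r ^ 2) * (q ^ 2)
        ≤ (x ^ 2 + y ^ 2 + 2 * (x * y) + p ^ 2 + r ^ 2) * q ^ 2 := by
      gcongr
    refine h2.trans ?_
    nlinarith [sq_nonneg (x * y - q ^ 2), sq_nonneg (x * r), sq_nonneg (p * y), sq_nonneg (p * r),
      mul_nonneg hx0 hy0, sq_nonneg (x * q), sq_nonneg (y * q)]
  rw [div_mul_div_comm, mul_div_assoc', div_le_div_iff₀ (by positivity) (by positivity)]
  have e1 : (Complex.normSq (a - c) + p ^ 2 + r ^ 2) * (2 * p * q * (2 * q * r))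
      = 4 * (p * r) * ((Complex.normSq (a - c) + p ^ 2 + r ^ 2) * q ^ 2) := by ring
  have e2 : 2 * ((x ^ 2 + p ^ 2 + q ^ 2) * (y ^ 2 + q ^ 2 + r ^ 2)) * (2 * p * r)
      = 4 * (p * r) * ((x ^ 2 + p ^ 2 + q ^ 2) * (y ^ 2 + q ^ 2 + r ^ 2)) := by ring
  rw [e1, e2]
  gcongr

lemma ch_shift_le {P P' : H3} {u v : ℂ} (h : ‖u - v‖ ≤ P.t) {V : ℝ}
    (hV : H3.ch (shift v P) P' ≤ V) : H3.ch (shift u P) P' ≤ 3 * V := by
  have h1 := ch_le_two_mul (shift u P) (shift v P) P'
  have ht := P.t_pos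
  have h2 : H3.ch (shift u P) (shift v P) ≤ 3 / 2 := by
    unfold H3.ch
    simp only [shift_z, shift_t, add_sub_add_left_eq_sub]
    rw [Complex.normSq_eq_norm_sq, div_le_iff₀ (by positivity)]
    have : ‖u - v‖ ^ 2 ≤ P.t ^ 2 := by gcongr
    nlinarith
  have h3 := H3.one_le_ch (shift v P) P'
  calc H3.ch (shift u P) P' ≤ 2 * (H3.ch (shift u P) (shift v P) * H3.ch (shift v P) P') := h1
    _ ≤ 2 * (3 / 2 * V) := by gcongr
    _ = 3 * V := by ring

section

variable {ι : Type*} [Fintype ι] {Γ J : Type*} [Fintype J]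

/-- shift a tuple -/
noncomputable def shiftPi (u : ι → ℂ) (P : ι → H3) : ι → H3 := fun i => shift (u i) (P i)

omit [Fintype ι] in
lemma shiftPi_apply (u : ι → ℂ) (P : ι → H3) (i : ι) : shiftPi u P i = shift (u i) (P i) := rfl

/-- The series. -/
noncomputable def pseries (Φ : J → (ι → ℝ) → ℂ) (c : Γ → J → ℂ) (P : ι → H3) (P' : Γ → ι → H3)
    (u : ι → ℂ) : ℂ :=
  ∑ᶠ γ, ∑ j, c γ j * Φ j (fun i => H3.ch (shift (u i) (P i)) (P' γ i))

/-- the set of contributing indices -/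
def contrib (c : Γ → J → ℂ) (P : ι → H3) (P' : Γ → ι → H3) (W : ℝ) (u : ι → ℂ) : Set Γ :=
  {γ | (∃ j, c γ j ≠ 0) ∧ ∀ i, H3.ch (shift (u i) (P i)) (P' γ i) ≤ W}

variable {Φ : J → (ι → ℝ) → ℂ} {c : Γ → J → ℂ} {P : ι → H3} {P' : Γ → ι → H3} {V : ℝ}

omit [Fintype ι] in
/-- Local expression of the series as a finite sum. -/
lemma pseries_eq_sum (hV : ∀ j c, 1 ≤ c → (∃ i, V ≤ c i) → Φ j c = 0)
    {u : ι → ℂ} (hfin : (contrib c P P' (3 * V) u).Finite) {v : ι → ℂ}
    (hv : ∀ i, ‖u i - v i‖ ≤ (P i).t) :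
    pseries Φ c P P' v = ∑ γ ∈ hfin.toFinset, ∑ j, c γ j *
      Φ j (fun i => H3.ch (shift (v i) (P i)) (P' γ i)) := by
  unfold pseries
  refine finsum_eq_finsetSum_of_support_subset _ ?_
  intro γ hγ
  rw [Function.mem_support] at hγ
  obtain ⟨j, -, hj⟩ := Finset.exists_ne_zero_of_sum_ne_zero hγ
  have hcj : c γ j ≠ 0 := left_ne_zero_of_mul hj
  have hΦj := right_ne_zero_of_mul hj
  simp only [Finset.mem_coe, Set.Finite.mem_toFinset]
  refine ⟨⟨j, hcj⟩, fun i => ?_⟩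
  have h1 : H3.ch (shift (v i) (P i)) (P' γ i) ≤ V := by
    by_contra hcon
    exact hΦj (hV j _ (fun _ => H3.one_le_ch _ _) ⟨i, (not_le.1 hcon).le⟩)
  exact ch_shift_le (hv i) h1

omit [Fintype ι] in
lemma continuous_ch_shift (P : ι → H3) (Q : ι → H3) (i : ι) :
    Continuous fun v : ι → ℂ => H3.ch (shift (v i) (P i)) (Q i) := by
  have h1 : Continuous fun v : ι → ℂ => shift (v i) (P i) := by
    rw [H3.continuous_iff]
    exact ⟨continuous_const.add (continuous_apply i), continuous_const⟩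
  have h2 : Continuous fun v : ι → ℂ => ((shift (v i) (P i), Q i) : H3 × H3) :=
    h1.prodMk continuous_const
  have h3 := H3.continuous_ch.comp h2
  have h4 : ((fun p : H3 × H3 => H3.ch p.1 p.2) ∘ fun v : ι → ℂ => ((shift (v i) (P i), Q i)))
      = fun v : ι → ℂ => H3.ch (shift (v i) (P i)) (Q i) := rfl
  rw [← h4]
  exact h3

lemma IsArchTest.continuous_term {Φ : (ι → ℝ) → ℂ} (hΦ : IsArchTest Φ) (P Q : ι → H3) :
    Continuous fun v : ι → ℂ => Φ (fun i => H3.ch (shift (v i) (P i)) (Q i)) := by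
  have h1 : Continuous fun (v : ι → ℂ) (i : ι) => H3.ch (shift (v i) (P i)) (Q i) :=
    continuous_pi fun i => continuous_ch_shift P Q i
  have h2 : ∀ v : ι → ℂ, (fun i : ι => H3.ch (shift (v i) (P i)) (Q i)) ∈ Ici (1 : ι → ℝ) := by
    intro v
    rw [mem_Ici, Pi.le_def]
    intro i
    exact H3.one_le_ch (shift (v i) (P i)) (Q i)
  have h3 := ContinuousOn.comp_continuous hΦ.smooth.continuousOn h1 h2
  exact h3

lemma continuous_pseries (hΦ : ∀ j, IsArchTest (Φ j))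
    (hV : ∀ j c, 1 ≤ c → (∃ i, V ≤ c i) → Φ j c = 0)
    (hfin : ∀ u, (contrib c P P' (3 * V) u).Finite) : Continuous (pseries Φ c P P') := by
  rw [continuous_iff_continuousAt]
  intro u
  have hev : ∀ᶠ v in 𝓝 u, ∀ i, ‖u i - v i‖ ≤ (P i).t := by
    rw [eventually_all]
    intro i
    have hc : Continuous fun v : ι → ℂ => ‖u i - v i‖ := by fun_prop
    have : ‖u i - u i‖ < (P i).t := by simpa using (P i).t_pos
    filter_upwards [hc.continuousAt.eventually (gt_mem_nhds this)] with v hv using hv.le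
  have hcont : Continuous fun v : ι → ℂ => ∑ γ ∈ (hfin u).toFinset, ∑ j, c γ j *
      Φ j (fun i => H3.ch (shift (v i) (P i)) (P' γ i)) := by
    refine continuous_finsetSum _ fun γ _ => continuous_finsetSum _ fun j _ => ?_
    exact continuous_const.mul ((hΦ j).continuous_term P (P' γ))
  refine hcont.continuousAt.congr ?_
  filter_upwards [hev] with v hv
  exact (pseries_eq_sum hV (hfin u) hv).symm

/-- along a line, near `s = 0` -/
lemma pseries_line_eventually (hV : ∀ j c, 1 ≤ c → (∃ i, V ≤ c i) → Φ j c = 0)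
    (u e : ι → ℂ) (hfin : (contrib c P P' (3 * V) u).Finite) :
    (fun s : ℝ => pseries Φ c P P' (u + s • e)) =ᶠ[𝓝 0] fun s => ∑ γ ∈ hfin.toFinset, ∑ j, c γ j *
      lineFun (Φ j) (shiftPi u P) (P' γ) e s := by
  have hev : ∀ᶠ s : ℝ in 𝓝 0, ∀ i, ‖u i - (u + s • e) i‖ ≤ (P i).t := by
    rw [eventually_all]
    intro i
    have hc : Continuous fun s : ℝ => ‖u i - (u + s • e) i‖ := by
      simp only [Pi.add_apply, Pi.smul_apply]
      fun_prop
    have : ‖u i - (u + (0 : ℝ) • e) i‖ < (P i).t := by simpa using (P i).t_pos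
    filter_upwards [hc.continuousAt.eventually (gt_mem_nhds this)] with v hv using hv.le
  filter_upwards [hev] with s hs
  rw [pseries_eq_sum hV hfin hs]
  refine Finset.sum_congr rfl fun γ _ => Finset.sum_congr rfl fun j _ => ?_
  congr 1
  unfold lineFun
  congr 1
  funext i
  rw [shiftPi_apply, shift_shift, Pi.add_apply, Pi.smul_apply, add_comm]

lemma contDiff_pseries_line (hΦ : ∀ j, IsArchTest (Φ j))
    (hV : ∀ j c, 1 ≤ c → (∃ i, V ≤ c i) → Φ j c = 0)
    (hfin : ∀ u, (contrib c P P' (3 * V) u).Finite) (u e : ι → ℂ) :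
    ContDiff ℝ ∞ fun s : ℝ => pseries Φ c P P' (u + s • e) := by
  rw [contDiff_iff_contDiffAt]
  intro s0
  have h0 := pseries_line_eventually hV (u + s0 • e) e (hfin (u + s0 • e))
  have h1 : ContDiffAt ℝ ∞ (fun r : ℝ => pseries Φ c P P' (u + s0 • e + r • e)) 0 := by
    refine ContDiffAt.congr_of_eventuallyEq ?_ h0
    refine ContDiffAt.sum fun γ _ => ContDiffAt.sum fun j _ => ?_
    exact contDiffAt_const.mul (contDiff_lineFun (hΦ j) _ _ _).contDiffAt
  have h2 : (fun s : ℝ => pseries Φ c P P' (u + s • e))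
      = (fun r : ℝ => pseries Φ c P P' (u + s0 • e + r • e)) ∘ fun s => s - s0 := by
    funext s
    simp only [Function.comp]
    congr 1
    rw [add_assoc, ← add_smul]
    congr 2
    ring
  rw [h2]
  refine ContDiffAt.comp s0 (by rwa [sub_self]) ?_
  exact contDiffAt_id.sub contDiffAt_const

/-- The main bound for mean-zero periodic series. -/
theorem exists_pseries_bound (hΦ : ∀ j, IsArchTest (Φ j)) {V : ℝ}
    (hV : ∀ j c, 1 ≤ c → (∃ i, V ≤ c i) → Φ j c = 0) {M : ℕ} (hM : 1 ≤ M) (n : ℕ) :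
    ∃ C, 0 ≤ C ∧ ∀ (Γ : Type) (c : Γ → J → ℂ) (A : ℝ) (P : ι → H3) (P' : Γ → ι → H3) (N : ℕ)
      (b : Fin n → ι → ℂ) (δ : ℝ), 0 ≤ δ → 0 ≤ A → (∀ γ j, ‖c γ j‖ ≤ A) →
      (∀ u, (contrib c P P' (3 * V) u).Finite) →
      (∀ u, ∃ u', (∀ v, pseries Φ c P P' (u + v) = pseries Φ c P P' (u' + v)) ∧
        (contrib c P P' (3 * V) u').ncard ≤ N) →
      (∀ l i, ‖b l i‖ ≤ δ * (P i).t) →
      (∀ l u, pseries Φ c P P' (u + b l) = pseries Φ c P P' u) →
      boxMean b (pseries Φ c P P') 0 = 0 →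
      ‖pseries Φ c P P' 0‖ ≤ C * A * N * δ ^ M := by
  have hb : ∀ j, ∃ C, 0 ≤ C ∧ ∀ (P P' : ι → H3) (e : ι → ℂ) (δ : ℝ), 0 ≤ δ →
      (∀ i, ‖e i‖ ≤ δ * (P i).t) →
      ‖iteratedDeriv M (lineFun (Φ j) P P' e) 0‖ ≤ C * δ ^ M :=
    fun j => (hΦ j).exists_line_bound (hV j) M
  choose C hC0 hC using hb
  have hS : 0 ≤ ∑ j, C j := Finset.sum_nonneg fun j _ => hC0 j
  refine ⟨n * ∑ j, C j, by positivity, ?_⟩
  intro Γ c A P P' N b δ hδ hA0 hA hfin hN hbδ hper hmean
  have hcont := continuous_pseries hΦ hV hfin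
  have hbound : ∀ l u, ‖iteratedDeriv M (fun s : ℝ => pseries Φ c P P' (u + s • b l)) 0‖
      ≤ (∑ j, C j) * A * N * δ ^ M := by
    intro l u0
    obtain ⟨u, hu0, hN⟩ := hN u0
    simp only [hu0]
    have hev := pseries_line_eventually hV u (b l) (hfin u)
    rw [hev.iteratedDeriv_eq M]
    have hsm : ∀ γ ∈ (hfin u).toFinset, ContDiffAt ℝ M (fun s => ∑ j, c γ j *
        lineFun (Φ j) (shiftPi u P) (P' γ) (b l) s) 0 := by
      intro γ _
      refine ContDiffAt.sum fun j _ => ?_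
      exact contDiffAt_const.mul (((contDiff_lineFun (hΦ j) _ _ _).of_le
        (by exact_mod_cast le_top)).contDiffAt)
    rw [iteratedDeriv_fun_sum hsm]
    have hterm : ∀ γ ∈ (hfin u).toFinset, ‖iteratedDeriv M (fun s => ∑ j, c γ j *
        lineFun (Φ j) (shiftPi u P) (P' γ) (b l) s) 0‖ ≤ (∑ j, C j) * A * δ ^ M := by
      intro γ _
      rw [iteratedDeriv_fun_sum (fun j _ => contDiffAt_const.mul
        (((contDiff_lineFun (hΦ j) _ _ _).of_le (by exact_mod_cast le_top)).contDiffAt))]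
      refine (norm_sum_le _ _).trans ?_
      rw [Finset.sum_mul, Finset.sum_mul]
      refine Finset.sum_le_sum fun j _ => ?_
      rw [iteratedDeriv_const_mul_field, norm_mul]
      have h1 := hC j (shiftPi u P) (P' γ) (b l) δ hδ (fun i => hbδ l i)
      calc ‖c γ j‖ * ‖iteratedDeriv M (lineFun (Φ j) (shiftPi u P) (P' γ) (b l)) 0‖
          ≤ A * (C j * δ ^ M) := by
            gcongr
            exact hA γ j
        _ = C j * A * δ ^ M := by ring
    refine (norm_sum_le _ _).trans ((Finset.sum_le_sum hterm).trans ?_)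
    rw [Finset.sum_const, nsmul_eq_mul]
    have h2 : (((hfin u).toFinset.card : ℕ) : ℝ) ≤ N := by
      rw [Set.ncard_eq_toFinset_card _ (hfin u)] at hN
      exact_mod_cast hN
    calc ((hfin u).toFinset.card : ℝ) * ((∑ j, C j) * A * δ ^ M)
        ≤ N * ((∑ j, C j) * A * δ ^ M) := by gcongr
      _ = (∑ j, C j) * A * N * δ ^ M := by ring
  have hmain := norm_sub_boxMean_le hM hcont b (fun l u => hper l u)
    (fun l u => (contDiff_pseries_line hΦ hV hfin u (b l)).of_le (by exact_mod_cast le_top))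
    hbound 0
  rw [hmean, sub_zero] at hmain
  calc ‖pseries Φ c P P' 0‖ ≤ n * ((∑ j, C j) * A * N * δ ^ M) := hmain
    _ = n * (∑ j, C j) * A * N * δ ^ M := by ring

end

end Fermat.Agent.LT.B
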