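import Fermat.Agent.LT.Defs
import Fermat.Agent.LT.A.H3Top
import Fermat.Agent.LT.B.PoincareSeries

/-!
LT piece B (helper31): test kernels on `X D` and their automorphic kernels.
-/

open Set Filter Topology
open scoped ContDiff Nat

namespace Fermat.Agent.LT.B

open Fermat.LT

variable {F : Type} [Field F] [NumberField F] {D : Datum F}

/-- the vector of archimedean point pair invariants -/
noncomputable def chv (x y : X D) : D.I → ℝ := fun i => H3.ch (x.1 i) (y.1 i)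

theorem one_le_chv (x y : X D) : 1 ≤ chv x y := fun _ => H3.one_le_ch _ _

theorem chv_comm (x y : X D) : chv x y = chv y x := funext fun _ => H3.ch_comm _ _

theorem chv_smul (γ : PG F) (x y : X D) : chv (γ • x) (γ • y) = chv x y := by
  obtain ⟨g, rfl⟩ := Matrix.ProjGenLinGroup.mk_surjective γ
  funext i
  exact H3.ch_smul _ _ _

/-- finite test kernels: invariant, finite fibres, bounded. -/
structure IsFinTest {U : Level F} (κ : Y U → Y U → ℂ) : Prop where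
  inv : ∀ (γ : PG F) y y', κ (γ • y) (γ • y') = κ y y'
  fin : ∀ y, {y' | κ y y' ≠ 0}.Finite
  fin' : ∀ y', {y | κ y y' ≠ 0}.Finite
  bdd : ∃ A, ∀ y y', ‖κ y y'‖ ≤ A

/-- Test kernels on `X D`: finite sums of `Φ(chv x y) * κ x.2 y.2`. -/
def IsTestKer (k : X D → X D → ℂ) : Prop :=
  ∃ (J : Type) (_ : Fintype J) (Φ : J → (D.I → ℝ) → ℂ)
    (κ : J → Y D.toLevel → Y D.toLevel → ℂ),
    (∀ j, IsArchTest (Φ j)) ∧ (∀ j, IsFinTest (κ j)) ∧
    ∀ x y, k x y = ∑ j, Φ j (chv x y) * κ j x.2 y.2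

/-- the automorphic kernel `K(x,y) = ∑ γ, k(x, γ y)`. -/
noncomputable def autK (k : X D → X D → ℂ) (x y : X D) : ℂ := ∑' γ : PG F, k x (γ • y)

theorem IsFinTest.flip {U : Level F} {κ : Y U → Y U → ℂ} (h : IsFinTest κ) :
    IsFinTest (fun y y' => κ y' y) :=
  ⟨fun γ y y' => h.inv γ y' y, h.fin', h.fin, by
    obtain ⟨A, hA⟩ := h.bdd
    exact ⟨A, fun y y' => hA y' y⟩⟩

theorem IsFinTest.conj {U : Level F} {κ : Y U → Y U → ℂ} (h : IsFinTest κ) :
    IsFinTest (fun y y' => (starRingEnd ℂ) (κ y y')) := by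
  refine ⟨fun γ y y' => by rw [h.inv], fun y => ?_, fun y => ?_, ?_⟩
  · simpa using h.fin y
  · simpa using h.fin' y
  · obtain ⟨A, hA⟩ := h.bdd
    exact ⟨A, fun y y' => by simpa using hA y y'⟩

theorem IsArchTest.conj {ι : Type*} [Fintype ι] {Φ : (ι → ℝ) → ℂ} (h : IsArchTest Φ) :
    IsArchTest (fun c => (starRingEnd ℂ) (Φ c)) := by
  refine ⟨?_, ?_⟩
  · exact (Complex.conjCLE.contDiff.comp_contDiffOn h.smooth)
  · obtain ⟨V, hV⟩ := h.compact
    exact ⟨V, fun c hc hi => by rw [hV c hc hi, map_zero]⟩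

theorem IsTestKer.flip {k : X D → X D → ℂ} (h : IsTestKer k) :
    IsTestKer (fun x y => k y x) := by
  obtain ⟨J, fJ, Φ, κ, hΦ, hκ, hk⟩ := h
  refine ⟨J, fJ, Φ, fun j y y' => κ j y' y, hΦ, fun j => (hκ j).flip, fun x y => ?_⟩
  show k y x = _
  rw [hk, chv_comm]

theorem IsTestKer.conj {k : X D → X D → ℂ} (h : IsTestKer k) :
    IsTestKer (fun x y => (starRingEnd ℂ) (k x y)) := by
  obtain ⟨J, fJ, Φ, κ, hΦ, hκ, hk⟩ := h
  refine ⟨J, fJ, fun j c => (starRingEnd ℂ) (Φ j c), fun j y y' => (starRingEnd ℂ) (κ j y y'),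
    fun j => (hΦ j).conj, fun j => (hκ j).conj, fun x y => ?_⟩
  show (starRingEnd ℂ) (k x y) = _
  rw [hk, map_sum]
  exact Finset.sum_congr rfl fun j _ => map_mul _ _ _

theorem IsTestKer.inv {k : X D → X D → ℂ} (h : IsTestKer k) (γ : PG F) (x y : X D) :
    k (γ • x) (γ • y) = k x y := by
  obtain ⟨J, fJ, Φ, κ, hΦ, hκ, hk⟩ := h
  rw [hk, hk]
  refine Finset.sum_congr rfl fun j _ => ?_
  rw [chv_smul]
  congr 1
  exact (hκ j).inv γ x.2 y.2

theorem autK_smul_left {k : X D → X D → ℂ} (h : IsTestKer k) (γ : PG F) (x y : X D) :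
    autK k (γ • x) y = autK k x y := by
  unfold autK
  rw [← (Equiv.mulLeft γ).tsum_eq (fun δ : PG F => k (γ • x) (δ • y))]
  refine tsum_congr fun δ => ?_
  rw [Equiv.coe_mulLeft, mul_smul, h.inv]

theorem autK_smul_right (k : X D → X D → ℂ) (γ : PG F) (x y : X D) :
    autK k x (γ • y) = autK k x y := by
  unfold autK
  rw [← (Equiv.mulRight γ).tsum_eq (fun δ : PG F => k x (δ • y))]
  refine tsum_congr fun δ => ?_
  rw [Equiv.coe_mulRight, mul_smul]

theorem autK_flip {k : X D → X D → ℂ} (h : IsTestKer k) (x y : X D) :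
    autK (fun x y => k y x) x y = autK k y x := by
  unfold autK
  rw [← (Equiv.inv (PG F)).tsum_eq (fun δ : PG F => k y (δ • x))]
  refine tsum_congr fun δ => ?_
  show k (δ • y) x = k y (δ⁻¹ • x)
  rw [← h.inv δ y (δ⁻¹ • x), smul_inv_smul]

theorem IsArchTest.add {ι : Type*} [Fintype ι] {Φ Ψ : (ι → ℝ) → ℂ} (h : IsArchTest Φ)
    (h' : IsArchTest Ψ) : IsArchTest (fun c => Φ c + Ψ c) := by
  refine ⟨h.smooth.add h'.smooth, ?_⟩
  obtain ⟨V, hV⟩ := h.compact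
  obtain ⟨V', hV'⟩ := h'.compact
  refine ⟨max V V', fun c hc ⟨i, hi⟩ => ?_⟩
  rw [hV c hc ⟨i, (le_max_left _ _).trans hi⟩, hV' c hc ⟨i, (le_max_right _ _).trans hi⟩, add_zero]

theorem IsArchTest.const_mul {ι : Type*} [Fintype ι] {Φ : (ι → ℝ) → ℂ} (h : IsArchTest Φ)
    (a : ℂ) : IsArchTest (fun c => a * Φ c) := by
  refine ⟨contDiffOn_const.mul h.smooth, ?_⟩
  obtain ⟨V, hV⟩ := h.compact
  exact ⟨V, fun c hc hi => by rw [hV c hc hi, mul_zero]⟩

theorem IsArchTest.zero {ι : Type*} [Fintype ι] : IsArchTest (fun _ : ι → ℝ => (0 : ℂ)) :=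
  ⟨contDiffOn_const, ⟨0, fun _ _ _ => rfl⟩⟩

theorem IsTestKer.add {k k' : X D → X D → ℂ} (h : IsTestKer k) (h' : IsTestKer k') :
    IsTestKer (fun x y => k x y + k' x y) := by
  obtain ⟨J, fJ, Φ, κ, hΦ, hκ, hk⟩ := h
  obtain ⟨J', fJ', Φ', κ', hΦ', hκ', hk'⟩ := h'
  refine ⟨J ⊕ J', inferInstance, Sum.elim Φ Φ', Sum.elim κ κ', ?_, ?_, fun x y => ?_⟩
  · rintro (j | j)
    · exact hΦ j
    · exact hΦ' j
  · rintro (j | j)
    · exact hκ j
    · exact hκ' j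
  · rw [Fintype.sum_sum_type]
    show k x y + k' x y = _
    rw [hk, hk']
    rfl

theorem IsTestKer.const_mul {k : X D → X D → ℂ} (h : IsTestKer k) (a : ℂ) :
    IsTestKer (fun x y => a * k x y) := by
  obtain ⟨J, fJ, Φ, κ, hΦ, hκ, hk⟩ := h
  refine ⟨J, fJ, fun j c => a * Φ j c, κ, fun j => (hΦ j).const_mul a, hκ, fun x y => ?_⟩
  show a * k x y = _
  rw [hk, Finset.mul_sum]
  exact Finset.sum_congr rfl fun j _ => by ring

end Fermat.Agent.LT.B
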