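import Fermat.Agent.LT.A.XMeas
import Fermat.Agent.LT.A.Siegel
import Fermat.Agent.LT.A.Stab
import Fermat.Agent.LT.B.TestKer
import Fermat.Agent.LT.B.Regular
import Fermat.Agent.LT.B.Auto

/-!
# Concrete instantiation of the quotient layer: `Γ = PGL₂(F)`, `X D`

* weights for all subgroups;
* the volume of a Siegel set is finite, hence the quotient measure is finite;
* test kernels are continuous properly supported kernels, Schur bounded.
-/

set_option linter.unusedSectionVars false
set_option linter.unusedVariables false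

open MeasureTheory MulAction Set Filter Topology ProbabilityTheory
open scoped ENNReal NNReal

namespace Fermat.Agent.LT.B

section Proper

variable {Γ X : Type*} [Group Γ] [Countable Γ] [MulAction Γ X] [TopologicalSpace X]
  [T2Space X] [SigmaCompactSpace X] [MeasurableSpace X] [BorelSpace X]
  [ContinuousConstSMul Γ X] [ProperlyDiscontinuousSMul Γ X]

/-- Existence of weights for all subgroups of a properly discontinuous group. -/
theorem exists_isWeight_subgroup (H : Subgroup Γ) : ∃ w : X → ℝ≥0∞, IsWeight H w := by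
  have hmc : MeasurableConstSMul H X := inferInstance
  refine exists_isWeight (Γ := H) (U := fun n => compactCovering X n) (fun n => ?_) (fun x => ?_)
    (fun n x => ?_)
  · exact (isCompact_compactCovering X n).isClosed.measurableSet
  · have : x ∈ ⋃ n, compactCovering X n := by rw [iUnion_compactCovering]; trivial
    obtain ⟨n, hn⟩ := mem_iUnion.1 this
    exact ⟨n, 1, by rwa [one_smul]⟩
  · have h := finite_smul_mem (Γ := Γ) (isCompact_compactCovering X n) x
    exact h.preimage (f := ((↑) : H → Γ)) (Subtype.val_injective.injOn)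

theorem exists_isWeight_of_proper (Γ X : Type*) [Group Γ] [Countable Γ] [MulAction Γ X]
    [TopologicalSpace X] [T2Space X] [SigmaCompactSpace X] [MeasurableSpace X] [BorelSpace X]
    [ContinuousConstSMul Γ X] [ProperlyDiscontinuousSMul Γ X] :
    ∃ w : X → ℝ≥0∞, IsWeight Γ w := by
  refine exists_isWeight (Γ := Γ) (U := fun n => compactCovering X n) (fun n => ?_) (fun x => ?_)
    (fun n x => ?_)
  · exact (isCompact_compactCovering X n).isClosed.measurableSet
  · have : x ∈ ⋃ n, compactCovering X n := by rw [iUnion_compactCovering]; trivial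
    obtain ⟨n, hn⟩ := mem_iUnion.1 this
    exact ⟨n, 1, by rwa [one_smul]⟩
  · exact finite_smul_mem (Γ := Γ) (isCompact_compactCovering X n) x

end Proper

open Fermat.LT

section Covolume

/-- The cuspidal cylinder has finite volume. -/
theorem volume_cylinder_lt_top (C : ℝ) {c : ℝ} (hc : 0 < c) :
    (volume : Measure H3) {P | ‖P.z‖ ≤ C ∧ c ≤ P.t} < ∞ := by
  have hms : MeasurableSet {p : ℂ × ℝ | ‖p.1‖ ≤ C ∧ c ≤ p.2} :=
    (measurableSet_le measurable_fst.norm measurable_const).inter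
      (measurableSet_le measurable_const measurable_snd)
  have hS : MeasurableSet {P : H3 | ‖P.z‖ ≤ C ∧ c ≤ P.t} :=
    (measurableSet_le H3.continuous_z.measurable.norm measurable_const).inter
      (measurableSet_le measurable_const H3.continuous_t.measurable)
  have e1 : (volume : Measure H3) {P | ‖P.z‖ ≤ C ∧ c ≤ P.t}
      = ∫⁻ P : H3, ({p : ℂ × ℝ | ‖p.1‖ ≤ C ∧ c ≤ p.2}.indicator 1 (P.z, P.t) : ℝ≥0∞) := by
    rw [← lintegral_indicator_one hS]
    rfl
  rw [e1, H3.lintegral_eq _ (measurable_one.indicator hms)]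
  have e2 : ∀ t : ℝ, ∫⁻ z : ℂ, ({p : ℂ × ℝ | ‖p.1‖ ≤ C ∧ c ≤ p.2}.indicator 1 (z, t) : ℝ≥0∞)
      ≤ (Ici c).indicator (fun _ => volume (Metric.closedBall (0 : ℂ) C)) t := by
    intro t
    by_cases ht : c ≤ t
    · rw [indicator_of_mem (show t ∈ Ici c from ht), ← lintegral_indicator_one
        Metric.isClosed_closedBall.measurableSet]
      refine lintegral_mono fun z => ?_
      by_cases hz : ‖z‖ ≤ C
      · rw [indicator_of_mem (show (z, t) ∈ {p : ℂ × ℝ | ‖p.1‖ ≤ C ∧ c ≤ p.2} from ⟨hz, ht⟩),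
          indicator_of_mem (show z ∈ Metric.closedBall (0 : ℂ) C by simpa using hz)]
        simp
      · rw [indicator_of_notMem (show (z, t) ∉ {p : ℂ × ℝ | ‖p.1‖ ≤ C ∧ c ≤ p.2} from
          fun h => hz h.1)]
        exact zero_le
    · rw [indicator_of_notMem (show t ∉ Ici c from ht)]
      refine le_of_eq ?_
      rw [lintegral_eq_zero_iff]
      · refine Eventually.of_forall fun z => ?_
        exact indicator_of_notMem (fun h => ht h.2) _
      · exact (measurable_one.indicator hms).comp (measurable_id.prodMk measurable_const)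
  calc ∫⁻ t in Ioi (0 : ℝ), ENNReal.ofReal (t⁻¹ ^ 3) *
        ∫⁻ z : ℂ, ({p : ℂ × ℝ | ‖p.1‖ ≤ C ∧ c ≤ p.2}.indicator 1 (z, t) : ℝ≥0∞)
      ≤ ∫⁻ t in Ioi (0 : ℝ), ENNReal.ofReal (t⁻¹ ^ 3) *
        (Ici c).indicator (fun _ => volume (Metric.closedBall (0 : ℂ) C)) t := by
        refine lintegral_mono fun t => ?_
        gcongr
        exact e2 t
    _ = ∫⁻ t in Ioi (0 : ℝ), (Ici c).indicator
        (fun t => ENNReal.ofReal (t⁻¹ ^ 3) * volume (Metric.closedBall (0 : ℂ) C)) t := by
        congr 1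
        ext t
        by_cases ht : t ∈ Ici c
        · rw [indicator_of_mem ht, indicator_of_mem ht]
        · rw [indicator_of_notMem ht, indicator_of_notMem ht, mul_zero]
    _ ≤ ∫⁻ t, (Ici c).indicator
        (fun t => ENNReal.ofReal (t⁻¹ ^ 3) * volume (Metric.closedBall (0 : ℂ) C)) t :=
        setLIntegral_le_lintegral _ _
    _ = ∫⁻ t in Ici c, ENNReal.ofReal (t⁻¹ ^ 3) * volume (Metric.closedBall (0 : ℂ) C) :=
        lintegral_indicator measurableSet_Ici _
    _ = (∫⁻ t in Ici c, ENNReal.ofReal (t⁻¹ ^ 3)) * volume (Metric.closedBall (0 : ℂ) C) := by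
        rw [lintegral_mul_const]
        exact ENNReal.measurable_ofReal.comp (measurable_id.inv.pow_const 3)
    _ < ∞ := by
        refine ENNReal.mul_lt_top ?_ measure_closedBall_lt_top
        rw [← restrict_Ioi_eq_restrict_Ici]
        have hi : IntegrableOn (fun t : ℝ => t ^ (-3 : ℝ)) (Ioi c) :=
          integrableOn_Ioi_rpow_of_lt (by norm_num) hc
        have h2 := hi.2
        refine lt_of_le_of_lt (le_of_eq ?_) h2
        refine setLIntegral_congr_fun measurableSet_Ioi fun t ht => ?_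
        have ht0 : 0 < t := hc.trans ht
        have : t⁻¹ ^ 3 = t ^ (-3 : ℝ) := by
          rw [Real.rpow_neg ht0.le]
          norm_num
        rw [this, Real.enorm_eq_ofReal (by positivity)]

variable {F : Type} [Field F] [NumberField F] {D : Datum F}

theorem measurableSet_siegelSet (Y₀ : Finset (Y D.toLevel)) (C c : ℝ) :
    MeasurableSet (siegelSet D Y₀ C c) := by
  have hz : ∀ i, Measurable fun x : X D => (x.1 i).z := fun i =>
    H3.continuous_z.measurable.comp ((measurable_pi_apply i).comp measurable_fst)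
  have ht : ∀ i, Measurable fun x : X D => (x.1 i).t := fun i =>
    H3.continuous_t.measurable.comp ((measurable_pi_apply i).comp measurable_fst)
  have h1 : MeasurableSet {x : X D | x.2 ∈ Y₀} := measurable_snd (Y₀.finite_toSet.measurableSet)
  have h2 : MeasurableSet {x : X D | ∀ i, ‖(x.1 i).z‖ ≤ C} := by
    have : {x : X D | ∀ i, ‖(x.1 i).z‖ ≤ C} = ⋂ i, {x : X D | ‖(x.1 i).z‖ ≤ C} := by
      ext x; simp
    rw [this]
    exact MeasurableSet.iInter fun i => measurableSet_le (hz i).norm measurable_const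
  have h3 : MeasurableSet {x : X D | ∀ i j, (x.1 i).t ≤ C * (x.1 j).t} := by
    have : {x : X D | ∀ i j, (x.1 i).t ≤ C * (x.1 j).t}
        = ⋂ i, ⋂ j, {x : X D | (x.1 i).t ≤ C * (x.1 j).t} := by
      ext x; simp
    rw [this]
    exact MeasurableSet.iInter fun i => MeasurableSet.iInter fun j =>
      measurableSet_le (ht i) ((ht j).const_mul C)
  have h4 : MeasurableSet {x : X D | ∀ i, c ≤ (x.1 i).t} := by
    have : {x : X D | ∀ i, c ≤ (x.1 i).t} = ⋂ i, {x : X D | c ≤ (x.1 i).t} := by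
      ext x; simp
    rw [this]
    exact MeasurableSet.iInter fun i => measurableSet_le measurable_const (ht i)
  exact h1.inter (h2.inter (h3.inter h4))

/-- Siegel sets have finite volume. -/
theorem volume_siegelSet_lt_top (Y₀ : Finset (Y D.toLevel)) (C : ℝ) {c : ℝ} (hc : 0 < c) :
    (volume : Measure (X D)) (siegelSet D Y₀ C c) < ∞ := by
  let S1 : Set (XI D.toArch) := {x | ∀ i, ‖(x i).z‖ ≤ C ∧ c ≤ (x i).t}
  have hsub : siegelSet D Y₀ C c ⊆ S1 ×ˢ (Y₀ : Set (Y D.toLevel)) := by
    rintro x ⟨h1, h2, h3, h4⟩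
    exact ⟨fun i => ⟨h2 i, h4 i⟩, h1⟩
  refine lt_of_le_of_lt (measure_mono hsub) ?_
  rw [X_volume, Measure.prod_prod]
  refine ENNReal.mul_lt_top ?_ ?_
  · have h1 : (Measure.pi fun _ : D.I => (volume : Measure H3)) (Set.pi univ
        (fun _ : D.I => {P : H3 | ‖P.z‖ ≤ C ∧ c ≤ P.t}))
        = ∏ _i : D.I, (volume : Measure H3) {P : H3 | ‖P.z‖ ≤ C ∧ c ≤ P.t} :=
      Measure.pi_pi _ _
    have h2 : (volume : Measure (XI D.toArch)) S1
        = (Measure.pi fun _ : D.I => (volume : Measure H3)) (Set.pi univ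
        (fun _ : D.I => {P : H3 | ‖P.z‖ ≤ C ∧ c ≤ P.t})) := by
      have : S1 = (Set.pi univ (fun _ : D.I => {P : H3 | ‖P.z‖ ≤ C ∧ c ≤ P.t})) := by
        ext x
        exact ⟨fun h i _ => h i, fun h i => h i trivial⟩
      rw [this]
      rfl
    rw [h2, h1]
    exact ENNReal.prod_lt_top fun i _ => volume_cylinder_lt_top C hc
  · have : (volume : Measure (Y D.toLevel)) (Y₀ : Set (Y D.toLevel)) = Y₀.card :=
      Measure.count_apply_finset Y₀
    rw [this]
    exact ENNReal.natCast_lt_top _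

/-- Finiteness of the quotient measure. -/
theorem isFiniteMeasure_of_siegel {w : X D → ℝ≥0∞} (hw : IsWeight (PG F) w)
    {Y₀ : Finset (Y D.toLevel)} {C c : ℝ} (hc : 0 < c)
    (hcov : ∀ x : X D, ∃ γ : PG F, γ • x ∈ siegelSet D Y₀ C c) :
    IsFiniteMeasure (qMeas (PG F) (volume : Measure (X D)) w) :=
  isFiniteMeasure_qMeas hw (measurableSet_siegelSet Y₀ C c) hcov
    (volume_siegelSet_lt_top Y₀ C hc).ne

end Covolume

section TestKer

variable {F : Type} [Field F] [NumberField F] {D : Datum F}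

theorem continuous_coordI (A : Arch F) (i : A.I) : Continuous fun x : XI A => x i :=
  continuous_apply (A := fun _ : A.I => H3) i

theorem continuous_coord (i : D.I) : Continuous fun x : X D => x.1 i :=
  (continuous_coordI D.toArch i).comp continuous_fst

theorem continuous_chv : Continuous fun p : X D × X D => chv p.1 p.2 := by
  refine continuous_pi fun i => ?_
  have h1 : Continuous fun p : X D × X D => (p.1.1 i, p.2.1 i) :=
    ((continuous_coord i).comp continuous_fst).prodMk ((continuous_coord i).comp continuous_snd)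
  exact H3.continuous_ch.comp h1

theorem isCompact_boxI (A : Arch F) (P0 : H3) (R : A.I → ℝ) :
    IsCompact {x : XI A | ∀ i, x i ∈ H3.ball P0 (R i)} := by
  have h : IsCompact (Set.pi univ fun i : A.I => H3.ball P0 (R i)) :=
    isCompact_univ_pi fun i => H3.isCompact_ball _ _
  have e : {x : XI A | ∀ i, x i ∈ H3.ball P0 (R i)} = Set.pi univ fun i : A.I => H3.ball P0 (R i) := by
    ext x
    exact ⟨fun h i _ => h i, fun h i => h i trivial⟩
  rw [e]
  exact h

theorem continuous_ch_coord (P0 : H3) (i : D.I) : Continuous fun x : X D => H3.ch P0 (x.1 i) := by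
  have h1 : Continuous fun x : X D => (P0, x.1 i) := continuous_const.prodMk (continuous_coord i)
  exact H3.continuous_ch.comp h1

theorem IsTestKer.continuous {k : X D → X D → ℂ} (h : IsTestKer k) :
    Continuous fun p : X D × X D => k p.1 p.2 := by
  obtain ⟨J, fJ, Φ, κ, hΦ, hκ, hk⟩ := h
  simp_rw [hk]
  refine continuous_finsetSum _ fun j _ => ?_
  refine Continuous.mul ?_ ?_
  · exact (hΦ j).smooth.continuousOn.comp_continuous continuous_chv fun p => one_le_chv _ _
  · have h1 : Continuous (Function.uncurry (κ j)) := continuous_of_discreteTopology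
    exact h1.comp ((continuous_snd.comp continuous_fst).prodMk (continuous_snd.comp continuous_snd))

theorem IsTestKer.supp {k : X D → X D → ℂ} (h : IsTestKer k) (K : Set (X D)) (hK : IsCompact K) :
    ∃ C' : Set (X D), IsCompact C' ∧ ∀ x ∈ K, ∀ y ∉ C', k x y = 0 := by
  classical
  obtain ⟨J, fJ, Φ, κ, hΦ, hκ, hk⟩ := h
  choose V hV using fun j => (hΦ j).compact
  -- a common bound
  obtain ⟨V0, hV0⟩ : ∃ V0 : ℝ, ∀ j, V j ≤ V0 := by
    rcases isEmpty_or_nonempty J with hJ | hJ
    · exact ⟨0, fun j => (hJ.false j).elim⟩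
    · exact ⟨Finset.univ.sup' Finset.univ_nonempty V, fun j =>
        Finset.le_sup' V (Finset.mem_univ j)⟩
  -- archimedean part
  obtain ⟨P0⟩ : Nonempty H3 := inferInstance
  have hM : ∀ i : D.I, ∃ M : ℝ, ∀ x ∈ K, H3.ch P0 (x.1 i) ≤ M := by
    intro i
    have hc := continuous_ch_coord (D := D) P0 i
    obtain ⟨M, hM⟩ := (hK.image hc).bddAbove
    exact ⟨M, fun x hx => hM ⟨x, hx, rfl⟩⟩
  choose M hM using hM
  -- finite part
  have hK2 : ((fun x : X D => x.2) '' K).Finite :=
    (hK.image continuous_snd).finite_of_discrete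
  let S : Set (Y D.toLevel) := ⋃ y ∈ (fun x : X D => x.2) '' K, ⋃ j, {y' | κ j y y' ≠ 0}
  have hS : S.Finite := hK2.biUnion fun y _ => finite_iUnion fun j => (hκ j).fin y
  refine ⟨{x : XI D.toArch | ∀ i, x i ∈ H3.ball P0 (2 * (M i * V0))} ×ˢ S,
    (isCompact_boxI _ _ _).prod hS.isCompact, ?_⟩
  intro x hx y hy
  rw [hk]
  refine Finset.sum_eq_zero fun j _ => ?_
  by_contra hne
  obtain ⟨h1, h2⟩ := mul_ne_zero_iff.1 hne
  apply hy
  refine ⟨fun i => ?_, mem_iUnion₂.2 ⟨x.2, ⟨x, hx, rfl⟩, mem_iUnion.2 ⟨j, h2⟩⟩⟩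
  have h3 : chv x y i < V0 := by
    by_contra hcon
    exact h1 (hV j _ (one_le_chv x y) ⟨i, (hV0 j).trans (not_lt.1 hcon)⟩)
  rw [H3.mem_ball]
  have h4 := ch_le_two_mul P0 (x.1 i) (y.1 i)
  have h5 : H3.ch (x.1 i) (y.1 i) ≤ V0 := h3.le
  have h6 := H3.one_le_ch P0 (x.1 i)
  have h7 := H3.one_le_ch (x.1 i) (y.1 i)
  have h8 := hM i x hx
  calc H3.ch P0 (y.1 i) ≤ 2 * (H3.ch P0 (x.1 i) * H3.ch (x.1 i) (y.1 i)) := h4
    _ ≤ 2 * (M i * V0) := by
      have : H3.ch P0 (x.1 i) * H3.ch (x.1 i) (y.1 i) ≤ M i * V0 :=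
        mul_le_mul h8 h5 (by linarith) (by linarith)
      linarith

/-- Test kernels are continuous properly supported kernels. -/
theorem IsTestKer.cKer {k : X D → X D → ℂ} (h : IsTestKer k) : CKer (PG F) k where
  cont := h.continuous
  inv := h.inv
  supp := h.supp

end TestKer

section Exists

variable {F : Type} [Field F] [NumberField F]

theorem exists_isWeight_PG (D : Datum F) : ∃ w : X D → ℝ≥0∞, IsWeight (PG F) w :=
  exists_isWeight_of_proper (PG F) (X D)

theorem exists_isWeight_sub (D : Datum F) (H : Subgroup (PG F)) :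
    ∃ w : X D → ℝ≥0∞, IsWeight H w :=
  exists_isWeight_subgroup H

/-- The quotient measure is finite. -/
theorem isFiniteMeasure_qMeas_XD {D : Datum F} {w : X D → ℝ≥0∞} (hw : IsWeight (PG F) w) :
    IsFiniteMeasure (qMeas (PG F) (volume : Measure (X D)) w) := by
  obtain ⟨Y₀, C, c, -, hc, hcov⟩ := siegel D
  exact isFiniteMeasure_of_siegel hw hc hcov

theorem exists_smul_eq_H3 (P : H3) : ∃ g : GL (Fin 2) ℂ, g • (H3.mk 0 1 one_pos) = P := by
  let g : GL (Fin 2) ℂ := Matrix.GeneralLinearGroup.mkOfDetNeZero !![(P.t : ℂ), P.z; 0, 1] (by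
    rw [Matrix.det_fin_two]
    simp [P.t_ne_zero])
  have e : ∀ a b, g a b = (!![(P.t : ℂ), P.z; 0, 1] : Matrix (Fin 2) (Fin 2) ℂ) a b :=
    fun a b => rfl
  have h10 : g 1 0 = 0 := by rw [e]; simp
  refine ⟨g, H3.ext ?_ ?_⟩
  · rw [H3.smul_z_of_upper g h10, e, e, e]
    simp
  · rw [H3.smul_t_of_upper g h10, e, e]
    simp [abs_of_pos P.t_pos]

/-- The volume of a ball does not depend on the centre. -/
theorem volume_ball_eq (P P' : H3) (R : ℝ) :
    (volume : Measure H3) (H3.ball P R) = (volume : Measure H3) (H3.ball P' R) := by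
  have key : ∀ P : H3, (volume : Measure H3) (H3.ball P R)
      = (volume : Measure H3) (H3.ball (H3.mk 0 1 one_pos) R) := by
    intro P
    obtain ⟨g, hg⟩ := exists_smul_eq_H3 P
    have h1 := (H3.measurePreserving_smul' g).measure_preimage
      (H3.isClosed_ball P R).measurableSet.nullMeasurableSet
    rw [← h1]
    congr 1
    ext Q
    rw [mem_preimage, ← hg]
    exact H3.smul_mem_ball g
  rw [key P, key P']

variable {D : Datum F}

theorem volume_box_eq (x : XI D.toArch) (P0 : H3) (R : ℝ) :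
    (volume : Measure (XI D.toArch)) {x' | ∀ i, x' i ∈ H3.ball (x i) R}
      = (volume : Measure H3) (H3.ball P0 R) ^ (Fintype.card D.I) := by
  have h1 : (Measure.pi fun _ : D.I => (volume : Measure H3)) (Set.pi univ
      (fun i : D.I => H3.ball (x i) R)) = ∏ i : D.I, (volume : Measure H3) (H3.ball (x i) R) :=
    Measure.pi_pi _ _
  have h2 : (volume : Measure (XI D.toArch)) {x' | ∀ i, x' i ∈ H3.ball (x i) R}
      = (Measure.pi fun _ : D.I => (volume : Measure H3)) (Set.pi univ
      (fun i : D.I => H3.ball (x i) R)) := by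
    have : {x' : XI D.toArch | ∀ i, x' i ∈ H3.ball (x i) R}
        = (Set.pi univ (fun i : D.I => H3.ball (x i) R)) := by
      ext x'
      exact ⟨fun h i _ => h i, fun h i => h i trivial⟩
    rw [this]
    rfl
  rw [h2, h1, Finset.prod_congr rfl fun i _ => volume_ball_eq (x i) P0 R]
  simp

theorem volume_ball_lt_top (P : H3) (R : ℝ) : (volume : Measure H3) (H3.ball P R) < ∞ :=
  (H3.isCompact_ball P R).measure_lt_top

/-- The fibres of a finite test kernel have bounded cardinality. -/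
theorem IsFinTest.exists_ncard_le {U : Level F} {κ : Y U → Y U → ℂ} (h : IsFinTest κ) :
    ∃ n : ℕ, ∀ y, ({y' | κ y y' ≠ 0}).ncard ≤ n := by
  classical
  obtain ⟨S, hS⟩ := borel_finite U
  refine ⟨∑ y ∈ S, ({y' | κ y y' ≠ 0}).ncard, fun y => ?_⟩
  obtain ⟨a, b, hab⟩ := hS y
  set g : PG F := pmk (un b * dg a) with hg
  have e : {y' | κ y y' ≠ 0}.ncard = {y' | κ (g • y) y' ≠ 0}.ncard := by
    have : {y' | κ (g • y) y' ≠ 0} = (fun y' => g • y') '' {y' | κ y y' ≠ 0} := by
      ext y'
      constructor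
      · intro hy'
        refine ⟨g⁻¹ • y', ?_, smul_inv_smul g y'⟩
        show κ y (g⁻¹ • y') ≠ 0
        rw [← h.inv g, smul_inv_smul]
        exact hy'
      · rintro ⟨z, hz, rfl⟩
        show κ (g • y) (g • z) ≠ 0
        rw [h.inv]
        exact hz
    rw [this, Set.ncard_image_of_injective _ (MulAction.injective g)]
  rw [e]
  exact Finset.single_le_sum (f := fun y => ({y' | κ y y' ≠ 0}).ncard) (fun _ _ => Nat.zero_le _)
    hab

/-- Measure of the fibres of a test kernel. -/
theorem IsTestKer.exists_volume_le {k : X D → X D → ℂ} (h : IsTestKer k) :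
    ∃ V : ℝ≥0, ∀ x, (volume : Measure (X D)) {y | k x y ≠ 0} ≤ V := by
  classical
  obtain ⟨J, fJ, Φ, κ, hΦ, hκ, hk⟩ := h
  choose V hV using fun j => (hΦ j).compact
  choose n hn using fun j => (hκ j).exists_ncard_le
  let P0 : H3 := H3.mk 0 1 one_pos
  let B : J → ℝ≥0∞ := fun j =>
    (volume : Measure H3) (H3.ball P0 (V j)) ^ (Fintype.card D.I) * (n j : ℝ≥0∞)
  have hB : ∑ j, B j ≠ ∞ := by
    refine (ENNReal.sum_lt_top.2 fun j _ => ?_).ne
    exact ENNReal.mul_lt_top (ENNReal.pow_lt_top (volume_ball_lt_top _ _))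
      (ENNReal.natCast_lt_top _)
  refine ⟨(∑ j, B j).toNNReal, fun x => ?_⟩
  rw [ENNReal.coe_toNNReal hB]
  have hsub : {y | k x y ≠ 0} ⊆ ⋃ j, ({x' : XI D.toArch | ∀ i, x' i ∈ H3.ball (x.1 i) (V j)}
      ×ˢ {y' | κ j x.2 y' ≠ 0}) := by
    intro y hy
    have hy' : k x y ≠ 0 := hy
    rw [hk] at hy'
    obtain ⟨j, -, hj⟩ := Finset.exists_ne_zero_of_sum_ne_zero hy'
    obtain ⟨h1, h2⟩ := mul_ne_zero_iff.1 hj
    refine mem_iUnion.2 ⟨j, fun i => ?_, h2⟩
    rw [H3.mem_ball]
    by_contra hcon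
    exact h1 (hV j _ (one_le_chv x y) ⟨i, (not_le.1 hcon).le⟩)
  refine (measure_mono hsub).trans ((measure_iUnion_fintype_le _ _).trans ?_)
  refine Finset.sum_le_sum fun j _ => ?_
  rw [X_volume, Measure.prod_prod, volume_box_eq x.1 P0 (V j)]
  have hc : (volume : Measure (Y D.toLevel)) {y' | κ j x.2 y' ≠ 0} ≤ n j := by
    have h3 : (volume : Measure (Y D.toLevel)) {y' | κ j x.2 y' ≠ 0}
        = ((hκ j).fin x.2).toFinset.card := by
      have : (volume : Measure (Y D.toLevel)) = Measure.count := rfl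
      rw [this, Measure.count_apply_finite _ ((hκ j).fin x.2)]
    rw [h3, ← Set.ncard_eq_toFinset_card _ ((hκ j).fin x.2)]
    exact_mod_cast hn j x.2
  exact mul_le_mul le_rfl hc zero_le zero_le

theorem IsTestKer.exists_norm_le {k : X D → X D → ℂ} (h : IsTestKer k) :
    ∃ M : ℝ≥0, ∀ x y, ‖k x y‖ₑ ≤ M := by
  classical
  obtain ⟨J, fJ, Φ, κ, hΦ, hκ, hk⟩ := h
  choose A hA using fun j => (hκ j).bdd
  choose C hC using fun j => (hΦ j).exists_bound 0
  have hb : ∀ x y, ‖k x y‖ ≤ ∑ j, |C j| * |A j| := by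
    intro x y
    rw [hk]
    refine (norm_sum_le _ _).trans (Finset.sum_le_sum fun j _ => ?_)
    rw [norm_mul]
    refine mul_le_mul ?_ ((hA j _ _).trans (le_abs_self _)) (norm_nonneg _) (abs_nonneg _)
    have h1 := (hC j).2 (chv x y) (one_le_chv x y)
    simp only [norm_iteratedFDerivWithin_zero] at h1
    exact h1.trans (le_abs_self _)
  refine ⟨(∑ j, |C j| * |A j|).toNNReal, fun x y => ?_⟩
  rw [← ofReal_norm]
  exact ENNReal.ofReal_le_ofReal (hb x y)

/-- Test kernels are Schur bounded. -/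
theorem IsTestKer.isSchur {k : X D → X D → ℂ} (h : IsTestKer k) :
    ∃ A B : ℝ≥0, IsSchur (PG F) (Kernel.const (X D) (volume : Measure (X D))) k A B := by
  obtain ⟨V, hV⟩ := h.exists_volume_le
  obtain ⟨V', hV'⟩ := h.flip.exists_volume_le
  obtain ⟨M, hM⟩ := h.exists_norm_le
  refine ⟨M * max V V', M * max V V', IsSchur.of_bound h.continuous.stronglyMeasurable h.inv hM
    (fun x => ?_) (fun x => ?_)⟩
  · rw [Kernel.const_apply]
    exact (hV x).trans (by exact_mod_cast le_max_left _ _)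
  · rw [Kernel.const_apply]
    exact (hV' x).trans (by exact_mod_cast le_max_right _ _)

end Exists

end Fermat.Agent.LT.B
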