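import Fermat.Agent.LT.B.TwistDef
import Fermat.Agent.LT.Geo.AvPl

/-!
LT piece B (helper31): the twist attached to a datum for `L` on which `σ` acts.
-/

set_option autoImplicit false
set_option linter.unusedSectionVars false

open NumberField IsDedekindDomain Matrix MeasureTheory Set Filter Topology
open Fermat.Agent.LT.D

namespace Fermat.LT

open Fermat.Agent.LT.B Fermat.Agent.LT.CTree

variable {K L : Type} [Field K] [NumberField K] [Field L] [NumberField L] [Algebra K L]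
  {C : Cub K L}

theorem dn_pl (w : Pl L) (g : G2 L) : dn (pl C w) (C.S g) = dn w g := by
  rw [dn_eq_iff]
  have h := dd_eq_pow w g
  rw [qv_pl, ← h]
  change nm (pl C w) (C.s g.1) * nm (pl C w) ((C.S g)⁻¹).1 = nm w g.1 * nm w (g⁻¹).1
  rw [← map_inv]
  change nm (pl C w) (C.s g.1) * nm (pl C w) (C.s (g⁻¹).1) = _
  rw [nm_pl, nm_pl]

theorem S_un (b : L) : C.S (un b) = un (C.σ b) := by
  refine Units.ext ?_
  ext i j
  change C.σ ((un b) i j) = (un (C.σ b)) i j
  fin_cases i <;> fin_cases j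
  · show C.σ 1 = 1; exact map_one _
  · rfl
  · show C.σ 0 = 0; exact map_zero _
  · show C.σ 1 = 1; exact map_one _

theorem S_dg (a : Lˣ) : C.S (dg a) = dg (Units.map (C.σ : L →* L) a) := by
  refine Units.ext ?_
  ext i j
  change C.σ ((dg a) i j) = (dg (Units.map (C.σ : L →* L) a)) i j
  fin_cases i <;> fin_cases j
  · rfl
  · show C.σ 0 = 0; exact map_zero _
  · show C.σ 0 = 0; exact map_zero _
  · show C.σ 1 = 1; exact map_one _

/-- `σ` on `PGL₂(L)` as an equivalence -/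
noncomputable def pSe (C : Cub K L) : PG L ≃* PG L where
  toFun := C.pS
  invFun x := C.pS (C.pS x)
  left_inv x := C.pS_cube x
  right_inv x := C.pS_cube x
  map_mul' := map_mul C.pS

theorem pSe_apply (x : PG L) : pSe C x = C.pS x := rfl

namespace TwDatum

variable (D : TwDatum C)

theorem σl_surjective_tw {w w' : Pl L} (h : pl C w = w') : Function.Surjective (D.σl h) := by
  intro z
  obtain ⟨g, rfl⟩ := QuotientGroup.mk_surjective z
  refine ⟨((C.S (C.S g) : G2 L) : Yl D.toLevel w), ?_⟩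
  rw [σl_mk, C.S_cube]

theorem dY_σl {w w' : Pl L} (h : pl C w = w') (y z : Yl D.toLevel w) :
    dY w' (D.σl h y) (D.σl h z) = dY w y z := by
  subst h
  obtain ⟨a, rfl⟩ := QuotientGroup.mk_surjective y
  obtain ⟨b, rfl⟩ := QuotientGroup.mk_surjective z
  change dY (pl C w) (D.σl rfl (a : Yl D.toLevel w)) (D.σl rfl (b : Yl D.toLevel w))
    = dY w (a : Yl D.toLevel w) (b : Yl D.toLevel w)
  rw [σl_mk, σl_mk, dY_mk, dY_mk, ← map_inv, ← map_mul, dn_pl]

theorem σY_upd (y : Y D.toLevel) (w : Pl L) (z : Yl D.toLevel w) :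
    D.σY (upd y w z) = upd (D.σY y) (pl C w) (D.σl rfl z) := by
  refine Y.ext' fun v => ?_
  obtain ⟨u, rfl⟩ := (pl C).surjective v
  by_cases h : u = w
  · subst h
    rw [D.σY_apply' _ rfl, upd_same, upd_same]
  · rw [D.σY_apply' _ rfl, upd_ne _ h, upd_ne _ (fun h' => h ((pl C).injective h')),
      D.σY_apply' _ rfl]

/-- The Hecke operators are permuted by `σ`. -/
theorem TY_σY (w : Pl L) (φ : Y D.toLevel → ℂ) (y : Y D.toLevel) :
    TY (pl C w) φ (D.σY y) = TY w (fun y => φ (D.σY y)) y := by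
  unfold TY Tl
  rw [← finsum_comp_equiv (Equiv.ofBijective (D.σl (w := w) rfl)
    ⟨D.σl_injective rfl, D.σl_surjective_tw rfl⟩)]
  refine finsum_congr fun z => ?_
  show δ₁ (dY (pl C w) (D.σY y (pl C w)) (D.σl rfl z)) * φ (upd (D.σY y) (pl C w) (D.σl rfl z))
    = δ₁ (dY w (y w) z) * φ (D.σY (upd y w z))
  rw [D.σY_apply' y rfl, D.dY_σl rfl, D.σY_upd]

/-- `σ` on `Y` as an equivalence -/
noncomputable def σYe : Y D.toLevel ≃ Y D.toLevel where
  toFun := D.σY
  invFun y := D.σY (D.σY y)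
  left_inv y := D.σY_cube y
  right_inv y := D.σY_cube y

theorem twX_symm_eq (x : X D.toDatum) :
    (twX (D := D.toDatum) D.perm D.σYe).symm x = D.σX (D.σX x) := by
  rw [Homeomorph.symm_apply_eq]
  exact (D.σX_cube x).symm

theorem continuous_σX_tw : Continuous D.σX := by
  have h : D.σX = twX (D := D.toDatum) D.perm D.σYe := rfl
  rw [h]
  exact (twX (D := D.toDatum) D.perm D.σYe).continuous

theorem σX_trX (u : D.I → ℂ) (x : X D.toDatum) :
    D.σX (trX u x) = trX (fun i => u (D.perm i)) (D.σX x) := rfl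

theorem σX_pmk_smul (g : G2 L) (x : X D.toDatum) : D.σX (pmk g • x) = pmk (C.S g) • D.σX x :=
  D.σX_smul g x

/-- `σ` preserves `N(𝔸) B(L)`-invariance. -/
theorem isNB_comp_σX {ψ : X D.toDatum → ℂ} (h : IsNB ψ) : IsNB fun x => ψ (D.σX x) where
  cont := h.cont.comp D.continuous_σX_tw
  tr u x := by
    show ψ (D.σX (trX u x)) = ψ (D.σX x)
    rw [D.σX_trX, h.tr]
  fin P y y' hy := by
    show ψ (D.σI P, D.σY y') = ψ (D.σI P, D.σY y)
    refine h.fin _ _ _ fun w => ?_
    obtain ⟨u, rfl⟩ := (pl C).surjective w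
    obtain ⟨β, hβ⟩ := hy u
    refine ⟨C.σ β, ?_⟩
    rw [D.σY_apply' _ rfl, D.σY_apply' _ rfl, hβ, D.σl_smul, S_un]
  dg a x := by
    show ψ (D.σX (pmk (dg a) • x)) = ψ (D.σX x)
    rw [D.σX_pmk_smul, S_dg, h.dg]

/-- **The twist.** -/
noncomputable def twist (P : Set (Pl L)) (hσ : ∀ w, pl C w ∈ P ↔ w ∈ P) :
    Twist D.toDatum P where
  τ := pSe C
  πI := D.perm
  σY := D.σYe
  πP := pl C
  stable := hσ
  smul γ x := D.σX_smul_pg γ x
  hecke w _ φ y := D.TY_σY w φ y
  nb ψ h := by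
    have h1 := D.isNB_comp_σX (D.isNB_comp_σX h)
    have h2 : (fun x : X D.toDatum => ψ ((twX (D := D.toDatum) D.perm D.σYe).symm x))
        = fun x => ψ (D.σX (D.σX x)) := funext fun x => by rw [D.twX_symm_eq]
    rw [h2]
    exact h1

variable (P : Set (Pl L)) (hσ : ∀ w, pl C w ∈ P ↔ w ∈ P)

theorem twist_τ (γ : PG L) : (D.twist P hσ).τ γ = C.pS γ := rfl
theorem twist_πI : (D.twist P hσ).πI = D.perm := rfl
theorem twist_σY (y : Y D.toLevel) : (D.twist P hσ).σY y = D.σY y := rfl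
theorem twist_πP : (D.twist P hσ).πP = pl C := rfl
theorem twist_hX (x : X D.toDatum) : (D.twist P hσ).hX x = D.σX x := rfl

theorem twist_hX_symm (x : X D.toDatum) : (D.twist P hσ).hX.symm x = D.σX (D.σX x) := by
  rw [Homeomorph.symm_apply_eq, twist_hX]
  exact (D.σX_cube x).symm

end TwDatum

end Fermat.LT
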