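import Fermat.Agent.LT.B.Weight

/-!
# The quotient measure space `Q = Γ \ X`
-/

set_option linter.unusedSectionVars false
set_option linter.unusedVariables false

open MeasureTheory MulAction Set
open scoped ENNReal

namespace Fermat.Agent.LT.B

variable {Γ X : Type*} [Group Γ] [MulAction Γ X] [MeasurableSpace X]

/-- The quotient `Γ \ X` (with the quotient σ-algebra). -/
abbrev Qt (Γ X : Type*) [Group Γ] [MulAction Γ X] : Type _ := orbitRel.Quotient Γ X

/-- The projection. -/
def pr (Γ : Type*) {X : Type*} [Group Γ] [MulAction Γ X] (x : X) : Qt Γ X := Quotient.mk _ x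

theorem pr_smul (γ : Γ) (x : X) : pr Γ (γ • x) = pr Γ x :=
  Quotient.sound ⟨γ, rfl⟩

theorem pr_eq_iff {x y : X} : pr Γ x = pr Γ y ↔ ∃ γ : Γ, γ • y = x := by
  unfold pr
  rw [Quotient.eq]
  exact Iff.rfl

theorem pr_surjective : Function.Surjective (pr Γ : X → Qt Γ X) := Quotient.mk_surjective

theorem measurable_pr : Measurable (pr Γ : X → Qt Γ X) := measurable_quotient_mk''

theorem measurable_iff_pr {β : Type*} [MeasurableSpace β] {f : Qt Γ X → β} :
    Measurable f ↔ Measurable (fun x => f (pr Γ x)) :=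
  measurable_from_quotient

theorem measurableSet_iff_pr {A : Set (Qt Γ X)} :
    MeasurableSet A ↔ MeasurableSet (pr Γ ⁻¹' A) :=
  measurableSet_quotient

/-- Descent of an invariant function. -/
def desc {β : Type*} (f : X → β) (h : ∀ (γ : Γ) x, f (γ • x) = f x) : Qt Γ X → β :=
  Quotient.lift f (by rintro a b ⟨γ, rfl⟩; exact h γ b)

@[simp] theorem desc_pr {β : Type*} (f : X → β) (h : ∀ (γ : Γ) x, f (γ • x) = f x) (x : X) :
    desc f h (pr Γ x) = f x := rfl

theorem measurable_desc {β : Type*} [MeasurableSpace β] {f : X → β} (hf : Measurable f)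
    (h : ∀ (γ : Γ) x, f (γ • x) = f x) : Measurable (desc f h) :=
  measurable_iff_pr.2 hf

theorem preimage_image_pr (S : Set X) :
    pr Γ ⁻¹' (pr Γ '' S) = ⋃ γ : Γ, (fun x => γ • x) ⁻¹' S := by
  ext x
  simp only [mem_preimage, mem_image, mem_iUnion]
  constructor
  · rintro ⟨y, hy, hxy⟩
    obtain ⟨γ, hγ⟩ := pr_eq_iff.1 hxy
    exact ⟨γ, by rw [hγ]; exact hy⟩
  · rintro ⟨γ, hγ⟩
    exact ⟨γ • x, hγ, pr_smul γ x⟩

/-- The quotient measure `π_* (w μ)`. -/
noncomputable def qMeas (Γ : Type*) {X : Type*} [Group Γ] [MulAction Γ X] [MeasurableSpace X]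
    (μ : Measure X) (w : X → ℝ≥0∞) : Measure (Qt Γ X) :=
  (μ.withDensity w).map (pr Γ)

/-- Periodization. -/
noncomputable def periodize (Γ : Type*) {X E : Type*} [Group Γ] [MulAction Γ X]
    [AddCommMonoid E] [TopologicalSpace E] (φ : X → E) : Qt Γ X → E :=
  desc (fun x => ∑' γ : Γ, φ (γ • x)) (fun g x => by
    rw [← (Equiv.mulRight g).tsum_eq (fun γ : Γ => φ (γ • x))]
    simp [mul_smul])

theorem periodize_pr {E : Type*} [AddCommMonoid E] [TopologicalSpace E] (φ : X → E) (x : X) :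
    periodize Γ φ (pr Γ x) = ∑' γ : Γ, φ (γ • x) := rfl

section

variable [Countable Γ] [MeasurableConstSMul Γ X]

theorem measurableSet_image_pr {S : Set X} (hS : MeasurableSet S) :
    MeasurableSet (pr Γ '' S) := by
  rw [measurableSet_iff_pr, preimage_image_pr]
  exact MeasurableSet.iUnion fun γ => measurable_const_smul γ hS

variable {μ : Measure X} [SMulInvariantMeasure Γ X μ] {w : X → ℝ≥0∞}

theorem lintegral_qMeas (hw : IsWeight Γ w) {F : Qt Γ X → ℝ≥0∞} (hF : Measurable F) :
    ∫⁻ q, F q ∂qMeas Γ μ w = ∫⁻ x, w x * F (pr Γ x) ∂μ := by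
  unfold qMeas
  rw [lintegral_map hF measurable_pr]
  exact lintegral_withDensity_eq_lintegral_mul _ hw.meas (hF.comp measurable_pr)

theorem qMeas_apply (hw : IsWeight Γ w) {A : Set (Qt Γ X)} (hA : MeasurableSet A) :
    qMeas Γ μ w A = ∫⁻ x in pr Γ ⁻¹' A, w x ∂μ := by
  unfold qMeas
  rw [Measure.map_apply measurable_pr hA, withDensity_apply _ (measurable_pr hA)]

theorem qMeas_congr (hw : IsWeight Γ w) {w' : X → ℝ≥0∞} (hw' : IsWeight Γ w') :
    qMeas Γ μ w = qMeas Γ μ w' := by
  refine Measure.ext_of_lintegral _ fun F hF => ?_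
  rw [lintegral_qMeas hw hF, lintegral_qMeas hw' hF]
  exact hw.lintegral_eq hw' (hF.comp measurable_pr).aemeasurable (fun γ x => by
    simp only [pr_smul])

theorem measurable_periodize_ennreal {φ : X → ℝ≥0∞} (hφ : Measurable φ) :
    Measurable (periodize Γ φ) :=
  measurable_desc (Measurable.tsum fun γ => hφ.comp (measurable_const_smul γ)) _

theorem lintegral_periodize (hw : IsWeight Γ w) {φ : X → ℝ≥0∞} (hφ : Measurable φ) :
    ∫⁻ q, periodize Γ φ q ∂qMeas Γ μ w = ∫⁻ x, φ x ∂μ := by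
  rw [lintegral_qMeas hw (measurable_periodize_ennreal hφ)]
  exact hw.lintegral_unfold hφ.aemeasurable

theorem measure_preimage_eq_zero_iff (hw : IsWeight Γ w) {A : Set (Qt Γ X)}
    (hA : MeasurableSet A) : qMeas Γ μ w A = 0 ↔ μ (pr Γ ⁻¹' A) = 0 := by
  constructor
  · intro h
    rw [qMeas_apply hw hA] at h
    have hA' : MeasurableSet (pr Γ ⁻¹' A) := measurable_pr hA
    rw [← lintegral_indicator hA', lintegral_eq_zero_iff (hw.meas.indicator hA')] at h
    have h2 := hw.lintegral_unfold (μ := μ) (φ := (pr Γ ⁻¹' A).indicator 1)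
      (measurable_one.indicator hA').aemeasurable
    rw [lintegral_indicator_one hA'] at h2
    rw [← h2, lintegral_eq_zero_iff']
    · filter_upwards [h] with x hx
      simp only [Pi.zero_apply, mul_eq_zero]
      by_cases hxA : x ∈ pr Γ ⁻¹' A
      · left
        simpa [indicator_of_mem hxA] using hx
      · right
        refine ENNReal.tsum_eq_zero.2 fun γ => indicator_of_notMem ?_ _
        rw [mem_preimage, pr_smul]
        exact hxA
    · refine hw.meas.aemeasurable.mul (Measurable.tsum fun γ => ?_).aemeasurable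
      exact (measurable_one.indicator hA').comp (measurable_const_smul γ)
  · intro h
    rw [qMeas_apply hw hA]
    exact setLIntegral_measure_zero _ _ h

theorem quasiMeasurePreserving_pr (hw : IsWeight Γ w) :
    Measure.QuasiMeasurePreserving (pr Γ : X → Qt Γ X) μ (qMeas Γ μ w) := by
  refine ⟨measurable_pr, Measure.AbsolutelyContinuous.mk fun A hA h => ?_⟩
  rw [Measure.map_apply measurable_pr hA]
  exact (measure_preimage_eq_zero_iff hw hA).1 h

/-- Null sets of the quotient measure. -/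
theorem ae_qMeas_iff (hw : IsWeight Γ w) {P : Qt Γ X → Prop} :
    (∀ᵐ q ∂qMeas Γ μ w, P q) ↔ ∀ᵐ x ∂μ, P (pr Γ x) := by
  constructor
  · intro h
    exact (quasiMeasurePreserving_pr hw).ae h
  · intro h
    obtain ⟨N, hsub, hN, hN0⟩ := exists_measurable_superset_of_null (ae_iff.1 h)
    have hS : MeasurableSet (pr Γ '' N) := measurableSet_image_pr hN
    have h0 : μ (pr Γ ⁻¹' (pr Γ '' N)) = 0 := by
      rw [preimage_image_pr, measure_iUnion_null_iff]
      intro γ
      rw [(measurePreserving_smul γ μ).measure_preimage hN.nullMeasurableSet]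
      exact hN0
    have h1 := (measure_preimage_eq_zero_iff (μ := μ) hw hS).2 h0
    rw [ae_iff]
    refine measure_mono_null ?_ h1
    intro q hq
    obtain ⟨x, rfl⟩ := pr_surjective q
    exact ⟨x, hsub hq, rfl⟩

theorem qMeas_image_le (hw : IsWeight Γ w) {S : Set X} (hS : MeasurableSet S) :
    qMeas Γ μ w (pr Γ '' S) ≤ μ S := by
  have hS' : MeasurableSet (pr Γ '' S) := measurableSet_image_pr hS
  calc qMeas Γ μ w (pr Γ '' S) = ∫⁻ q, (pr Γ '' S).indicator 1 q ∂qMeas Γ μ w := by
        rw [lintegral_indicator_one hS']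
    _ ≤ ∫⁻ q, periodize Γ (S.indicator (1 : X → ℝ≥0∞)) q ∂qMeas Γ μ w := by
        refine lintegral_mono fun q => ?_
        by_cases hq : q ∈ pr Γ '' S
        · obtain ⟨x, hx, rfl⟩ := hq
          have hm : pr Γ x ∈ pr Γ '' S := ⟨x, hx, rfl⟩
          rw [indicator_of_mem hm, periodize_pr]
          have := ENNReal.le_tsum (f := fun γ : Γ => S.indicator (1 : X → ℝ≥0∞) (γ • x)) 1
          simpa [indicator_of_mem hx] using this
        · rw [indicator_of_notMem hq]
          exact zero_le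
    _ = ∫⁻ x, S.indicator (1 : X → ℝ≥0∞) x ∂μ :=
        lintegral_periodize hw (measurable_one.indicator hS)
    _ = μ S := lintegral_indicator_one hS

/-- If `X = Γ S` with `μ S < ∞` then the quotient measure is finite. -/
theorem isFiniteMeasure_qMeas (hw : IsWeight Γ w) {S : Set X} (hS : MeasurableSet S)
    (hcov : ∀ x, ∃ γ : Γ, γ • x ∈ S) (hfin : μ S ≠ ∞) : IsFiniteMeasure (qMeas Γ μ w) := by
  constructor
  have : (univ : Set (Qt Γ X)) = pr Γ '' S := by
    symm
    rw [eq_univ_iff_forall]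
    intro q
    obtain ⟨x, rfl⟩ := pr_surjective q
    obtain ⟨γ, hγ⟩ := hcov x
    exact ⟨γ • x, hγ, pr_smul γ x⟩
  rw [this]
  exact lt_of_le_of_lt (qMeas_image_le hw hS) hfin.lt_top

theorem sigmaFinite_qMeas [SigmaFinite μ] (hw : IsWeight Γ w) : SigmaFinite (qMeas Γ μ w) := by
  refine ⟨⟨⟨fun n => pr Γ '' (spanningSets μ n), fun n => trivial, fun n => ?_, ?_⟩⟩⟩
  · exact lt_of_le_of_lt (qMeas_image_le hw (measurableSet_spanningSets μ n))
      (measure_spanningSets_lt_top μ n)
  · rw [← image_iUnion, iUnion_spanningSets, image_univ, pr_surjective.range_eq]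

end

section Complex

variable [Countable Γ] [MeasurableConstSMul Γ X]
variable {E : Type*} [NormedAddCommGroup E] [NormedSpace ℝ E] [CompleteSpace E]
  [SecondCountableTopology E]

theorem stronglyMeasurable_periodize {φ : X → E} (hφ : StronglyMeasurable φ) :
    StronglyMeasurable (periodize Γ φ) := by
  borelize E
  refine Measurable.stronglyMeasurable ?_
  refine measurable_desc (Measurable.tsum fun γ => ?_) _
  exact hφ.measurable.comp (measurable_const_smul γ)

variable {μ : Measure X} [SMulInvariantMeasure Γ X μ] {w : X → ℝ≥0∞}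

theorem IsWeight.hasSum_real (hw : IsWeight Γ w) (x : X) :
    HasSum (fun γ : Γ => (w (γ • x)).toReal) 1 := by
  have h := hw.sum_eq x
  have h1 : ∀ γ : Γ, w (γ • x) ≠ ∞ := fun γ => hw.ne_top _
  have h2 : ∑' γ : Γ, w (γ • x) ≠ ∞ := by rw [h]; exact ENNReal.one_ne_top
  have h3 := (ENNReal.summable_toReal h2).hasSum
  rwa [← ENNReal.tsum_toReal_eq h1, h, ENNReal.toReal_one] at h3

/-- Strong measurability can be tested upstairs. -/
theorem aestronglyMeasurable_qMeas_iff (hw : IsWeight Γ w) {f : Qt Γ X → E} :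
    AEStronglyMeasurable f (qMeas Γ μ w) ↔ AEStronglyMeasurable (fun x => f (pr Γ x)) μ := by
  constructor
  · intro h
    exact h.comp_quasiMeasurePreserving (quasiMeasurePreserving_pr hw)
  · intro h
    obtain ⟨g, hg, hfg⟩ := h
    have hwr : StronglyMeasurable (fun x => (w x).toReal) :=
      hw.meas.ennreal_toReal.stronglyMeasurable
    refine ⟨periodize Γ (fun x => (w x).toReal • g x), stronglyMeasurable_periodize
      (hwr.smul hg), ?_⟩
    have hall : ∀ᵐ x ∂μ, ∀ γ : Γ, f (pr Γ (γ • x)) = g (γ • x) := by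
      rw [ae_all_iff]
      intro γ
      exact (measurePreserving_smul γ μ).quasiMeasurePreserving.ae hfg
    rw [Filter.EventuallyEq, ae_qMeas_iff hw]
    filter_upwards [hall] with x hx
    rw [periodize_pr]
    have : ∀ γ : Γ, (w (γ • x)).toReal • g (γ • x) = (w (γ • x)).toReal • f (pr Γ x) := by
      intro γ
      rw [← hx γ, pr_smul]
    simp_rw [this]
    have hs := (hw.hasSum_real x).smul_const (f (pr Γ x))
    rw [hs.tsum_eq, one_smul]

theorem eLpNorm_qMeas (hw : IsWeight Γ w) {f : Qt Γ X → E}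
    (hf : AEStronglyMeasurable f (qMeas Γ μ w)) (p : ℝ≥0∞) :
    eLpNorm f p (qMeas Γ μ w) = eLpNorm (fun x => f (pr Γ x)) p (μ.withDensity w) := by
  unfold qMeas
  exact eLpNorm_map_measure hf measurable_pr.aemeasurable

theorem lintegral_qMeas' (hw : IsWeight Γ w) {F : Qt Γ X → ℝ≥0∞}
    (hF : AEMeasurable F (qMeas Γ μ w)) :
    ∫⁻ q, F q ∂qMeas Γ μ w = ∫⁻ x, w x * F (pr Γ x) ∂μ := by
  obtain ⟨G, hG, hFG⟩ := hF
  rw [lintegral_congr_ae hFG, lintegral_qMeas hw hG]
  refine lintegral_congr_ae ?_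
  have := (quasiMeasurePreserving_pr (μ := μ) hw).ae hFG
  filter_upwards [this] with x hx
  simp only [hx]

theorem integral_qMeas (hw : IsWeight Γ w) (f : Qt Γ X → E)
    (hf : AEStronglyMeasurable f (qMeas Γ μ w)) :
    ∫ q, f q ∂qMeas Γ μ w = ∫ x, (w x).toReal • f (pr Γ x) ∂μ := by
  unfold qMeas
  rw [integral_map measurable_pr.aemeasurable hf,
    integral_withDensity_eq_integral_toReal_smul hw.meas
      (Filter.Eventually.of_forall fun x => (hw.ne_top x).lt_top)]

theorem tsum_enorm_ne_top (hw : IsWeight Γ w) {φ : X → E} (hφ : Integrable φ μ) :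
    ∀ᵐ x ∂μ, ∑' γ : Γ, ‖φ (γ • x)‖ₑ ≠ ∞ := by
  obtain ⟨g, hg, hfg⟩ := hφ.1
  have hall : ∀ᵐ x ∂μ, ∀ γ : Γ, φ (γ • x) = g (γ • x) := by
    rw [ae_all_iff]
    intro γ
    exact (measurePreserving_smul γ μ).quasiMeasurePreserving.ae hfg
  have hm : Measurable (fun x => ‖g x‖ₑ) := hg.enorm
  have h1 : ∫⁻ q, periodize Γ (fun x => ‖g x‖ₑ) q ∂qMeas Γ μ w ≠ ∞ := by
    rw [lintegral_periodize hw hm]
    have : ∫⁻ x, ‖g x‖ₑ ∂μ = ∫⁻ x, ‖φ x‖ₑ ∂μ := by
      refine lintegral_congr_ae ?_
      filter_upwards [hfg] with x hx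
      rw [hx]
    rw [this]
    exact hφ.2.ne
  have h2 := ae_lt_top (measurable_periodize_ennreal (Γ := Γ) hm) h1
  rw [ae_qMeas_iff hw] at h2
  filter_upwards [h2, hall] with x hx hx2
  rw [periodize_pr] at hx
  simp_rw [hx2]
  exact hx.ne

/-- absolute convergence of the periodization -/
theorem summable_norm_periodize (hw : IsWeight Γ w) {φ : X → E} (hφ : Integrable φ μ) :
    ∀ᵐ x ∂μ, Summable (fun γ : Γ => ‖φ (γ • x)‖) := by
  filter_upwards [tsum_enorm_ne_top hw hφ] with x hx using tsum_enorm_ne_top_iff_summable_norm.1 hx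

theorem aestronglyMeasurable_periodize (hw : IsWeight Γ w) {φ : X → E}
    (hφ : AEStronglyMeasurable φ μ) : AEStronglyMeasurable (periodize Γ φ) (qMeas Γ μ w) := by
  borelize E
  rw [aestronglyMeasurable_qMeas_iff hw]
  refine AEMeasurable.aestronglyMeasurable ?_
  refine AEMeasurable.tsum fun γ => ?_
  exact hφ.aemeasurable.comp_quasiMeasurePreserving
    (measurePreserving_smul γ μ).quasiMeasurePreserving

theorem integrable_periodize (hw : IsWeight Γ w) {φ : X → E} (hφ : Integrable φ μ) :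
    Integrable (periodize Γ φ) (qMeas Γ μ w) := by
  refine ⟨aestronglyMeasurable_periodize hw hφ.1, ?_⟩
  unfold HasFiniteIntegral
  rw [lintegral_qMeas' hw (aestronglyMeasurable_periodize hw hφ.1).enorm]
  calc ∫⁻ x, w x * ‖periodize Γ φ (pr Γ x)‖ₑ ∂μ
      ≤ ∫⁻ x, w x * ∑' γ : Γ, ‖φ (γ • x)‖ₑ ∂μ := by
        refine lintegral_mono_ae ?_
        filter_upwards [tsum_enorm_ne_top hw hφ] with x hx
        gcongr
        rw [periodize_pr]
        exact enorm_tsum_le_tsum_enorm
    _ = ∫⁻ x, ‖φ x‖ₑ ∂μ := hw.lintegral_unfold hφ.1.enorm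
    _ < ∞ := hφ.2

/-- Unfolding for integrable functions. -/
theorem integral_periodize (hw : IsWeight Γ w) {φ : X → E} (hφ : Integrable φ μ) :
    ∫ q, periodize Γ φ q ∂qMeas Γ μ w = ∫ x, φ x ∂μ := by
  rw [integral_qMeas hw _ (aestronglyMeasurable_periodize hw hφ.1)]
  have hwr : AEStronglyMeasurable (fun x => (w x).toReal) μ :=
    hw.meas.ennreal_toReal.aestronglyMeasurable
  have hsm : ∀ γ : Γ, AEStronglyMeasurable (fun x => φ (γ • x)) μ := fun γ =>
    hφ.1.comp_quasiMeasurePreserving (measurePreserving_smul γ μ).quasiMeasurePreserving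
  have hwb : ∀ x, ‖(w x).toReal‖ ≤ 1 := fun x => by
    rw [Real.norm_of_nonneg ENNReal.toReal_nonneg]
    exact ENNReal.toReal_le_of_le_ofReal zero_le_one (by simpa using hw.le_one x)
  have hen : ∀ x, ‖(w x).toReal‖ₑ = w x := fun x => by
    rw [Real.enorm_eq_ofReal ENNReal.toReal_nonneg, ENNReal.ofReal_toReal (hw.ne_top x)]
  calc ∫ x, (w x).toReal • periodize Γ φ (pr Γ x) ∂μ
      = ∫ x, ∑' γ : Γ, (w x).toReal • φ (γ • x) ∂μ := by
        refine integral_congr_ae ?_
        filter_upwards [summable_norm_periodize hw hφ] with x hx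
        rw [periodize_pr, (hx.of_norm).tsum_const_smul]
    _ = ∑' γ : Γ, ∫ x, (w x).toReal • φ (γ • x) ∂μ := by
        rw [integral_tsum]
        · intro γ
          exact hwr.smul (hsm γ)
        · have h1 : ∑' γ : Γ, ∫⁻ x, ‖(w x).toReal • φ (γ • x)‖ₑ ∂μ
              = ∫⁻ x, w x * ∑' γ : Γ, ‖φ (γ • x)‖ₑ ∂μ := by
            rw [← lintegral_tsum]
            · congr 1
              ext x
              simp_rw [enorm_smul, hen, ENNReal.tsum_mul_left]
            · intro γ
              exact (hwr.smul (hsm γ)).enorm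
          rw [h1, hw.lintegral_unfold hφ.1.enorm]
          exact hφ.2.ne
    _ = ∑' γ : Γ, ∫ x, (w (γ⁻¹ • x)).toReal • φ x ∂μ := by
        congr 1
        ext γ
        have h := integral_smul_eq_self (μ := μ) (fun x => (w (γ⁻¹ • x)).toReal • φ x) (g := γ)
        rw [← h]
        simp only [inv_smul_smul]
    _ = ∫ x, ∑' γ : Γ, (w (γ⁻¹ • x)).toReal • φ x ∂μ := by
        rw [integral_tsum]
        · intro γ
          exact (hwr.comp_quasiMeasurePreserving
            (measurePreserving_smul γ⁻¹ μ).quasiMeasurePreserving).smul hφ.1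
        · have h1 : ∑' γ : Γ, ∫⁻ x, ‖(w (γ⁻¹ • x)).toReal • φ x‖ₑ ∂μ = ∫⁻ x, ‖φ x‖ₑ ∂μ := by
            rw [← lintegral_tsum]
            · congr 1
              ext x
              simp_rw [enorm_smul, hen, ENNReal.tsum_mul_right, hw.sum_inv, one_mul]
            · intro γ
              exact ((hwr.comp_quasiMeasurePreserving
                (measurePreserving_smul γ⁻¹ μ).quasiMeasurePreserving).smul hφ.1).enorm
          rw [h1]
          exact hφ.2.ne
    _ = ∫ x, φ x ∂μ := by
        congr 1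
        ext x
        have hs : HasSum (fun γ : Γ => (w (γ⁻¹ • x)).toReal) 1 :=
          (Equiv.inv Γ).hasSum_iff.2 (hw.hasSum_real x)
        rw [(hs.smul_const (φ x)).tsum_eq, one_smul]

end Complex

end Fermat.Agent.LT.B
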