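import Fermat.Agent.LT.B.Count
import Fermat.Agent.LT.B.TestKer
import Fermat.Agent.LT.A.Siegel

/-!
LT piece B (helper31): rapid decay of automorphic kernels `K(x,y) = ∑ γ, k(x, γ y)` which are
cuspidal in `x`.
-/

open NumberField Matrix Fermat.LT

namespace Fermat.Agent.LT.B

variable {F : Type} [Field F] [NumberField F] {D : Datum F}

/-- Vanishing constant terms (at `∞`; for invariant functions this gives all cusps). -/
def MeanZero (φ : X D → ℂ) : Prop :=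
  ∀ (x : X D) (n : ℕ) (b : Module.Basis (Fin n) ℝ (D.I → ℂ)), (∀ l, b l ∈ bLat D.toArch x.2) →
    boxMean b (fun u => φ (trX u x)) 0 = 0

theorem trX_apply_fst (u : D.I → ℂ) (x : X D) (i : D.I) :
    (trX u x).1 i = shift (u i) (x.1 i) := rfl

theorem trX_snd (u : D.I → ℂ) (x : X D) : (trX u x).2 = x.2 := rfl

theorem trX_add_embI (u : D.I → ℂ) (x : X D) {β : F} (hβ : β ∈ bY x.2) :
    trX (u + embI D.toArch β) x = pmk (un β) • trX u x := by
  refine Prod.ext ?_ ?_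
  · funext i
    refine H3.ext ?_ ?_
    · have h := un_smul_z (A := D.toArch) β (trX u x).1 i
      refine Eq.trans ?_ h.symm
      show (x.1 i).z + (u i + D.emb i β) = (x.1 i).z + u i + D.emb i β
      ring
    · exact (un_smul_t (A := D.toArch) β (trX u x).1 i).symm
  · exact hβ.symm

section contrib

variable {J : Type} [Fintype J]

/-- count of contributing group elements -/
theorem exists_contrib_count (y0 : Y D.toLevel) (κ : J → Y D.toLevel → Y D.toLevel → ℂ)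
    (hκ : ∀ j, {y' | κ j y0 y' ≠ 0}.Finite) (W : ℝ) : ∃ C : ℝ, 0 ≤ C ∧
    ∀ (y : X D) (P : XI D.toArch) (u : D.I → ℂ) (S : ℝ), 1 ≤ S →
      (∀ i, sz (shift (u i) (P i)) ≤ S) →
      (contrib (fun (γ : PG F) j => κ j y0 (γ • y).2) P (fun γ => (γ • y).1) W u).Finite ∧
      ((contrib (fun (γ : PG F) j => κ j y0 (γ • y).2) P (fun γ => (γ • y).1) W u).ncard : ℝ)
        ≤ C * S ^ (8 * Fintype.card D.I) := by
  classical
  set S0 : Finset (Y D.toLevel) := Finset.univ.biUnion fun j => (hκ j).toFinset with hS0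
  have hmem : ∀ y', (∃ j, κ j y0 y' ≠ 0) → y' ∈ S0 := by
    rintro y' ⟨j, hj⟩
    rw [hS0, Finset.mem_biUnion]
    exact ⟨j, Finset.mem_univ j, by simpa using hj⟩
  choose C hC0 hC using fun s s' : Y D.toLevel => exists_count s s' (2 * (W * W))
  refine ⟨∑ s ∈ S0, ∑ s' ∈ S0, C s s',
    Finset.sum_nonneg fun s _ => Finset.sum_nonneg fun s' _ => hC0 s s', ?_⟩
  intro y P u S hS hsz
  set T := contrib (fun (γ : PG F) j => κ j y0 (γ • y).2) P (fun γ => (γ • y).1) W u with hT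
  have hCS : ∀ s s', 0 ≤ C s s' * S ^ (8 * Fintype.card D.I) := fun s s' =>
    mul_nonneg (hC0 s s') (by positivity)
  by_cases hne : T.Nonempty
  swap
  · rw [Set.not_nonempty_iff_eq_empty] at hne
    rw [hne]
    refine ⟨Set.finite_empty, ?_⟩
    rw [Set.ncard_empty, Nat.cast_zero]
    exact mul_nonneg (Finset.sum_nonneg fun s _ => Finset.sum_nonneg fun s' _ => hC0 s s')
      (by positivity)
  obtain ⟨γ0, hγ0⟩ := hne
  set Q : XI D.toArch := fun i => shift (u i) (P i) with hQ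
  set s0 : Y D.toLevel := (γ0 • y).2 with hs0
  have hs0S : s0 ∈ S0 := hmem _ hγ0.1
  set U : Finset (PG F) := S0.biUnion fun s => (hC s0 s Q S hS hsz).1.toFinset with hU
  have hmaps : ∀ γ ∈ T, γ * γ0⁻¹ ∈ (U : Set (PG F)) := by
    intro γ hγ
    rw [Finset.mem_coe, hU, Finset.mem_biUnion]
    refine ⟨(γ • y).2, hmem _ hγ.1, ?_⟩
    rw [Set.Finite.mem_toFinset]
    have e1 : (γ * γ0⁻¹) • (γ0 • y) = γ • y := by
      rw [mul_smul, inv_smul_smul]
    refine ⟨?_, fun i => ?_⟩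
    · rw [hs0, ← e1]; rfl
    · have h1 := ch_le_two_mul (Q i) ((γ • y).1 i) (((γ * γ0⁻¹) • Q) i)
      have h2 : H3.ch (Q i) ((γ • y).1 i) ≤ W := hγ.2 i
      have h3 : H3.ch ((γ • y).1 i) (((γ * γ0⁻¹) • Q) i) ≤ W := by
        have h4 : H3.ch ((γ • y).1 i) (((γ * γ0⁻¹) • Q) i) = H3.ch ((γ0 • y).1 i) (Q i) := by
          rw [← e1]
          obtain ⟨g, hg⟩ := Matrix.ProjGenLinGroup.mk_surjective (γ * γ0⁻¹)
          rw [← hg]
          exact H3.ch_smul _ _ _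
        rw [h4, H3.ch_comm]
        exact hγ0.2 i
      have h5 := H3.one_le_ch (Q i) ((γ • y).1 i)
      have h6 := H3.one_le_ch ((γ • y).1 i) (((γ * γ0⁻¹) • Q) i)
      refine h1.trans ?_
      gcongr
      linarith
  have hinj : Set.InjOn (fun γ => γ * γ0⁻¹) T := fun a _ b _ h => mul_right_cancel h
  refine ⟨Set.Finite.of_injOn hmaps hinj U.finite_toSet, ?_⟩
  have h1 : T.ncard ≤ (U : Set (PG F)).ncard :=
    Set.ncard_le_ncard_of_injOn (fun γ => γ * γ0⁻¹) hmaps hinj U.finite_toSet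
  rw [Set.ncard_coe_finset] at h1
  have h2 : U.card ≤ ∑ s ∈ S0, (hC s0 s Q S hS hsz).1.toFinset.card := Finset.card_biUnion_le
  calc (T.ncard : ℝ) ≤ (U.card : ℝ) := by exact_mod_cast h1
    _ ≤ ∑ s ∈ S0, ((hC s0 s Q S hS hsz).1.toFinset.card : ℝ) := by exact_mod_cast h2
    _ ≤ ∑ s ∈ S0, C s0 s * S ^ (8 * Fintype.card D.I) := by
        refine Finset.sum_le_sum fun s _ => ?_
        rw [← Set.ncard_eq_toFinset_card _ (hC s0 s Q S hS hsz).1]
        exact (hC s0 s Q S hS hsz).2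
    _ = (∑ s ∈ S0, C s0 s) * S ^ (8 * Fintype.card D.I) := by rw [Finset.sum_mul]
    _ ≤ _ := mul_le_mul_of_nonneg_right
        (Finset.single_le_sum (f := fun s => ∑ s' ∈ S0, C s s')
          (fun s _ => Finset.sum_nonneg fun s' _ => hC0 s s') hs0S) (by positivity)

theorem contrib_finite (y0 : Y D.toLevel) (κ : J → Y D.toLevel → Y D.toLevel → ℂ)
    (hκ : ∀ j, {y' | κ j y0 y' ≠ 0}.Finite) (W : ℝ) (y : X D) (P : XI D.toArch) (u : D.I → ℂ) :
    (contrib (fun (γ : PG F) j => κ j y0 (γ • y).2) P (fun γ => (γ • y).1) W u).Finite := by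
  obtain ⟨C, -, h⟩ := exists_contrib_count y0 κ hκ W
  refine (h y P u (1 + ∑ i, sz (shift (u i) (P i))) ?_ ?_).1
  · have := Finset.sum_nonneg (s := Finset.univ) (f := fun i => sz (shift (u i) (P i)))
      (fun i _ => zero_le_one.trans (one_le_sz _))
    linarith
  · intro i
    have := Finset.single_le_sum (f := fun i => sz (shift (u i) (P i)))
      (fun i _ => zero_le_one.trans (one_le_sz _)) (Finset.mem_univ i)
    linarith

/-- automorphic kernels as Poincaré series -/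
theorem autK_trX {k : X D → X D → ℂ} {Φ : J → (D.I → ℝ) → ℂ}
    {κ : J → Y D.toLevel → Y D.toLevel → ℂ} {V : ℝ}
    (hV : ∀ j c, 1 ≤ c → (∃ i, V ≤ c i) → Φ j c = 0)
    (hk : ∀ x y, k x y = ∑ j, Φ j (chv x y) * κ j x.2 y.2)
    (hκ : ∀ j y, {y' | κ j y y' ≠ 0}.Finite) (x y : X D) (u : D.I → ℂ) :
    autK k (trX u x) y = pseries Φ (fun (γ : PG F) j => κ j x.2 (γ • y).2) x.1
      (fun γ => (γ • y).1) u := by
  have hterm : ∀ γ : PG F, k (trX u x) (γ • y) = ∑ j, κ j x.2 (γ • y).2 *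
      Φ j (fun i => H3.ch (shift (u i) (x.1 i)) ((γ • y).1 i)) := by
    intro γ
    rw [hk]
    exact Finset.sum_congr rfl fun j _ => mul_comm _ _
  unfold autK pseries
  rw [tsum_congr hterm]
  refine tsum_eq_finsum ?_
  refine (contrib_finite x.2 κ (fun j => hκ j x.2) V y x.1 u).subset ?_
  intro γ hγ
  rw [Function.mem_support] at hγ
  obtain ⟨j, -, hj⟩ := Finset.exists_ne_zero_of_sum_ne_zero hγ
  refine ⟨⟨j, left_ne_zero_of_mul hj⟩, fun i => ?_⟩
  by_contra hcon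
  exact right_ne_zero_of_mul hj (hV j _ (fun _ => H3.one_le_ch _ _) ⟨i, (not_le.1 hcon).le⟩)

end contrib

/-- an `ℝ`-basis of `ℂ^I` consisting of periods -/
theorem exists_period_basis (y0 : Y D.toLevel)
    (hB2 : ∃ c : 𝓞 F, c ≠ 0 ∧ ∀ b : 𝓞 F, un ((c * b : 𝓞 F) : F) • y0 = y0) :
    ∃ (n : ℕ) (b : Module.Basis (Fin n) ℝ (D.I → ℂ)), ∀ l, b l ∈ bLat D.toArch y0 := by
  obtain ⟨c, hc, hcb⟩ := hB2
  set m : ℕ := Ideal.absNorm (Ideal.span {c}) with hm
  have hm0 : m ≠ 0 := by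
    rw [hm, Ne, Ideal.absNorm_eq_zero_iff, Ideal.span_singleton_eq_bot]; exact hc
  have hmR : (m : ℝ) ≠ 0 := by exact_mod_cast hm0
  obtain ⟨r, hr⟩ := Ideal.mem_span_singleton.1 (Ideal.absNorm_mem (Ideal.span {c}))
  let e := Fintype.equivFin (Module.Free.ChooseBasisIndex ℤ (𝓞 F))
  let b : Module.Basis _ ℝ (D.I → ℂ) := ((latB D.toArch).map
    (LinearEquiv.smulOfNeZero ℝ (D.I → ℂ) (m : ℝ) hmR)).reindex e
  refine ⟨_, b, fun l => ?_⟩
  set ω : 𝓞 F := RingOfIntegers.basis F (e.symm l) with hω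
  have h1 : b l = (m : ℝ) • latB D.toArch (e.symm l) := by
    simp only [b, Module.Basis.reindex_apply, Module.Basis.map_apply,
      LinearEquiv.smulOfNeZero_apply]
  have h2 : (m : F) = (c : F) * r := by
    have := congrArg (algebraMap (𝓞 F) F) hr
    rw [map_mul, map_natCast] at this
    exact this
  have hb : b l = embI D.toArch ((c * (r * ω) : 𝓞 F) : F) := by
    rw [h1, latB_apply, integralBasis_apply]
    have h3 : ((c * (r * ω) : 𝓞 F) : F) = (m : F) * (ω : F) := by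
      rw [h2]; push_cast; ring
    rw [h3, map_mul, map_natCast]
    funext i
    simp only [Pi.smul_apply, Pi.mul_apply, Pi.natCast_apply, Complex.real_smul,
      Complex.ofReal_natCast]
    rfl
  rw [hb]
  exact ⟨_, hcb (r * ω), rfl⟩

/-- kernel bound on a Siegel set, for a fixed finite component -/
theorem exists_siegel_bound_aux {k : X D → X D → ℂ} (hk : IsTestKer k)
    (hcusp : ∀ y, MeanZero fun x => autK k x y) (y0 : Y D.toLevel)
    (hB2 : ∃ c : 𝓞 F, c ≠ 0 ∧ ∀ b : 𝓞 F, un ((c * b : 𝓞 F) : F) • y0 = y0)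
    {C c : ℝ} (hC : 1 ≤ C) (hc : 0 < c) (M : ℕ) : ∃ B : ℝ, 0 ≤ B ∧ ∀ x : X D, x.2 = y0 →
      (∀ i, ‖(x.1 i).z‖ ≤ C) → (∀ i j, (x.1 i).t ≤ C * (x.1 j).t) → (∀ i, c ≤ (x.1 i).t) →
      ∀ y i0, ‖autK k x y‖ * (x.1 i0).t ^ M ≤ B := by
  classical
  obtain ⟨J, fJ, Φ, κ, hΦ, hκ, hk'⟩ := id hk
  -- a common support bound
  choose V0 hV0 using fun j => (hΦ j).compact
  obtain ⟨V, hVle⟩ : ∃ V : ℝ, ∀ j, V0 j ≤ V :=
    ⟨∑ j, |V0 j|, fun j => (le_abs_self _).trans
      (Finset.single_le_sum (f := fun j => |V0 j|) (fun _ _ => abs_nonneg _) (Finset.mem_univ j))⟩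
  have hV : ∀ j c, 1 ≤ c → (∃ i, V ≤ c i) → Φ j c = 0 := fun j c h1 ⟨i, hi⟩ =>
    hV0 j c h1 ⟨i, (hVle j).trans hi⟩
  -- a common bound for the finite kernels
  choose A0 hA0 using fun j => (hκ j).bdd
  obtain ⟨A, hA0', hA⟩ : ∃ A : ℝ, 0 ≤ A ∧ ∀ j y y', ‖κ j y y'‖ ≤ A :=
    ⟨∑ j, |A0 j|, Finset.sum_nonneg fun _ _ => abs_nonneg _, fun j y y' =>
      (hA0 j y y').trans ((le_abs_self _).trans
      (Finset.single_le_sum (f := fun j => |A0 j|) (fun _ _ => abs_nonneg _) (Finset.mem_univ j)))⟩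
  obtain ⟨n, b, hb⟩ := exists_period_basis y0 hB2
  set r : ℕ := 8 * Fintype.card D.I with hr
  set N : ℕ := r + M + 1 with hN
  obtain ⟨C1, hC10, hC1⟩ := exists_pseries_bound (M := N) hΦ hV (by omega) n
  obtain ⟨C2, hC20, hC2⟩ := exists_contrib_count y0 κ (fun j => (hκ j).fin y0) (3 * V)
  set ρ : ℝ := ∑ l, ‖b l‖ with hρ
  have hρ0 : 0 ≤ ρ := Finset.sum_nonneg fun _ _ => norm_nonneg _
  have hbρ : ∀ l i, ‖b l i‖ ≤ ρ := fun l i => (norm_le_pi_norm (b l) i).trans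
    (Finset.single_le_sum (f := fun l => ‖b l‖) (fun _ _ => norm_nonneg _) (Finset.mem_univ l))
  have hCpos : 0 < C := by linarith
  -- size constant
  set C3 : ℝ := (C + (1 / c + 1) / c) * (1 + C + ρ) ^ 2 with hC3
  have hC30 : 0 ≤ C3 := by positivity
  set C4 : ℝ := max C3 (1 / c) with hC4
  have hC40 : 0 ≤ C4 := hC30.trans (le_max_left _ _)
  refine ⟨C1 * A * (C2 * C4 ^ r + 1 / c ^ r) * (ρ * C) ^ N * (1 / c), by positivity, ?_⟩
  intro x hx hz hcomp hct y i0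
  subst hx
  set T : ℝ := (x.1 i0).t with hT
  have hTpos : 0 < T := (x.1 i0).t_pos
  have hcT : c ≤ T := hct i0
  set F0 : (D.I → ℂ) → ℂ := pseries Φ (fun (γ : PG F) j => κ j x.2 (γ • y).2) x.1
      (fun γ => (γ • y).1) with hF0
  have hF : ∀ u, autK k (trX u x) y = F0 u := fun u =>
    autK_trX hV hk' (fun j y => (hκ j).fin y) x y u
  have htr0 : trX 0 x = x := by
    refine Prod.ext ?_ rfl
    funext i
    exact shift_zero _
  -- periodicity
  have hper : ∀ l u, F0 (u + b l) = F0 u := by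
    intro l u
    obtain ⟨β, hβ, hβe⟩ := hb l
    rw [← hF, ← hF, ← hβe]
    have h1 : (embI D.toArch).toAddMonoidHom β = embI D.toArch β := rfl
    rw [h1, trX_add_embI u x hβ, autK_smul_left hk]
  have hperZ : ∀ (w : D.I → ℂ), w ∈ Submodule.span ℤ (Set.range b) → ∀ u, F0 (u + w) = F0 u := by
    intro w hw
    induction hw using Submodule.span_induction with
    | mem w hw =>
      obtain ⟨l, rfl⟩ := hw
      exact hper l
    | zero => intro u; rw [add_zero]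
    | add w w' _ _ ih ih' => intro u; rw [← add_assoc, ih', ih]
    | smul a w _ ih =>
      intro u
      induction a using Int.induction_on with
      | zero => rw [zero_smul, add_zero]
      | succ n ihn => rw [add_smul, one_smul, ← add_assoc, ih, ihn]
      | pred n ihn =>
        rw [sub_smul, one_smul, ← ihn, ← ih (u + ((-(n : ℤ)) • w - w))]
        congr 1
        abel
  -- sizes
  have hsz : ∀ u : D.I → ℂ, (∀ i, ‖u i‖ ≤ ρ) → ∀ i, sz (shift (u i) (x.1 i)) ≤ C4 * T := by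
    intro u hu i
    have ht1 : (x.1 i).t ≤ C * T := hcomp i i0
    have ht2 := hct i
    have ht3 : 1 / (x.1 i).t ≤ 1 / c := one_div_le_one_div_of_le hc ht2
    have hzz : ‖(x.1 i).z + u i‖ ≤ C + ρ := (norm_add_le _ _).trans (add_le_add (hz i) (hu i))
    unfold sz
    rw [shift_z, shift_t]
    calc ((x.1 i).t + 1 / (x.1 i).t + 1) * (1 + ‖(x.1 i).z + u i‖) ^ 2
        ≤ (C * T + 1 / c + 1) * (1 + (C + ρ)) ^ 2 := by gcongr
      _ ≤ ((C + (1 / c + 1) / c) * T) * (1 + (C + ρ)) ^ 2 := by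
          gcongr
          have h5 : (1 / c + 1) ≤ (1 / c + 1) / c * T := by
            rw [div_mul_eq_mul_div, le_div_iff₀ hc]
            gcongr
          linarith
      _ = C3 * T := by rw [hC3]; ring
      _ ≤ C4 * T := by gcongr; exact le_max_left _ _
  have hS1 : 1 ≤ C4 * T := by
    calc (1 : ℝ) = 1 / c * c := by field_simp
      _ ≤ C4 * T := by
        gcongr
        exact le_max_right _ _
  set N1 : ℕ := ⌊C2 * (C4 * T) ^ r⌋₊ with hN1
  have hmain := hC1 (PG F) (fun (γ : PG F) j => κ j x.2 (γ • y).2) A x.1 (fun γ => (γ • y).1) N1 b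
    (ρ * C / T) (by positivity) hA0' (fun γ j => hA j _ _)
    (fun u => contrib_finite x.2 κ (fun j => (hκ j).fin x.2) (3 * V) y x.1 u) ?_ ?_ hper ?_
  · have h0 : autK k x y = F0 0 := by rw [← hF, htr0]
    rw [h0]
    have hN1le : (N1 : ℝ) ≤ C2 * (C4 * T) ^ r := Nat.floor_le (by positivity)
    have hTr : C2 * (C4 * T) ^ r ≤ (C2 * C4 ^ r + 1 / c ^ r) * T ^ r := by
      rw [mul_pow, ← mul_assoc]
      gcongr
      have : 0 ≤ 1 / c ^ r := by positivity
      linarith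
    calc ‖F0 0‖ * T ^ M ≤ (C1 * A * N1 * (ρ * C / T) ^ N) * T ^ M := by gcongr
      _ ≤ (C1 * A * ((C2 * C4 ^ r + 1 / c ^ r) * T ^ r) * (ρ * C / T) ^ N) * T ^ M := by
          gcongr
          exact hN1le.trans hTr
      _ = C1 * A * (C2 * C4 ^ r + 1 / c ^ r) * (ρ * C) ^ N * (T ^ r * T ^ M / T ^ N) := by
          rw [div_pow]; ring
      _ = C1 * A * (C2 * C4 ^ r + 1 / c ^ r) * (ρ * C) ^ N * (1 / T) := by
          congr 1
          rw [hN, pow_succ, pow_add]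
          field_simp
      _ ≤ _ := by
          gcongr
  · -- count
    intro u
    refine ⟨ZSpan.fract b u, ?_, ?_⟩
    · intro v
      have h1 : u = ZSpan.fract b u + (ZSpan.floor b u : D.I → ℂ) := by
        rw [ZSpan.fract_apply, sub_add_cancel]
      conv_lhs => rw [h1]
      rw [add_right_comm]
      exact hperZ _ (ZSpan.floor b u).2 _
    · have h2 : ∀ i, ‖ZSpan.fract b u i‖ ≤ ρ := fun i =>
        (norm_le_pi_norm _ i).trans (ZSpan.norm_fract_le (K := ℝ) b u)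
      have h3 := (hC2 y x.1 (ZSpan.fract b u) (C4 * T) hS1 (hsz _ h2)).2
      exact Nat.le_floor h3
  · intro l i
    have h4 : T ≤ C * (x.1 i).t := hcomp i0 i
    rw [div_mul_eq_mul_div, le_div_iff₀ hTpos]
    calc ‖b l i‖ * T ≤ ρ * (C * (x.1 i).t) := by
          gcongr
          exact hbρ l i
      _ = ρ * C * (x.1 i).t := by ring
  · have h5 := hcusp y x n b hb
    rw [← h5]
    congr 1
    funext u
    exact (hF u).symm

/-- heights on a Siegel set -/
theorem ht_le_of_siegel (Y₀ : Finset (Y D.toLevel)) {C c : ℝ} (hC : 1 ≤ C) (hc : 0 < c) :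
    ∃ B : ℝ, 0 < B ∧ ∀ x ∈ siegelSet D Y₀ C c, ∀ i0, ∀ v : Fin 2 → F, v ≠ 0 →
      ht v x ≤ B * (x.1 i0).t ^ (2 * Fintype.card D.I) := by
  classical
  set r := Fintype.card D.I with hr
  have hpos : ∀ y : Y D.toLevel, 0 < hfin (e1 : Fin 2 → F) y := fun y => hfin_pos e1_ne y
  set H1 : ℝ := ∑ y ∈ Y₀, hfin (e1 : Fin 2 → F) y with hH1
  set H2 : ℝ := ∑ y ∈ Y₀, (hfin (e1 : Fin 2 → F) y)⁻¹ with hH2
  have hH10 : 0 ≤ H1 := Finset.sum_nonneg fun y _ => (hpos y).le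
  have hH20 : 0 ≤ H2 := Finset.sum_nonneg fun y _ => (inv_pos.2 (hpos y)).le
  refine ⟨C ^ (2 * r) * H1 + H2 * (c ^ (2 * r))⁻¹ * (c ^ (2 * r))⁻¹ + 1, by positivity, ?_⟩
  rintro x ⟨hxY, hz, hcomp, hct⟩ i0 v hv
  set T := (x.1 i0).t with hT
  have hTpos : 0 < T := (x.1 i0).t_pos
  have hcT : c ≤ T := hct i0
  have hCpos : 0 < C := by linarith
  have hht : ht e1 x = (∏ i, (x.1 i).t ^ 2) * hfin e1 x.2 := by
    rw [ht, hinf_e1]
  have h1 : hfin (e1 : Fin 2 → F) x.2 ≤ H1 :=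
    Finset.single_le_sum (f := fun y => hfin (e1 : Fin 2 → F) y) (fun y _ => (hpos y).le) hxY
  have h2 : (hfin (e1 : Fin 2 → F) x.2)⁻¹ ≤ H2 :=
    Finset.single_le_sum (f := fun y => (hfin (e1 : Fin 2 → F) y)⁻¹)
      (fun y _ => (inv_pos.2 (hpos y)).le) hxY
  have hprod_le : ∏ i, (x.1 i).t ^ 2 ≤ C ^ (2 * r) * T ^ (2 * r) := by
    calc ∏ i, (x.1 i).t ^ 2 ≤ ∏ _i : D.I, (C * T) ^ 2 := by
          refine Finset.prod_le_prod (fun i _ => by positivity) fun i _ => ?_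
          have := (x.1 i).t_pos
          gcongr
          exact hcomp i i0
      _ = C ^ (2 * r) * T ^ (2 * r) := by
          rw [Finset.prod_const, Finset.card_univ, ← hr, ← pow_mul, mul_pow]
  have hprod_ge : c ^ (2 * r) ≤ ∏ i, (x.1 i).t ^ 2 := by
    calc c ^ (2 * r) = ∏ _i : D.I, c ^ 2 := by
          rw [Finset.prod_const, Finset.card_univ, ← hr, ← pow_mul]
      _ ≤ ∏ i, (x.1 i).t ^ 2 := by
          refine Finset.prod_le_prod (fun i _ => by positivity) fun i _ => ?_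
          gcongr
          exact hct i
  have hTr : c ^ (2 * r) ≤ T ^ (2 * r) := by gcongr
  have hTr0 : 0 < T ^ (2 * r) := by positivity
  by_cases hd : dt v (e1 : Fin 2 → F) = 0
  · -- `v` is proportional to `e1`
    have hv1 : v 1 = 0 := by
      have h3 : dt v (e1 : Fin 2 → F) = - v 1 := by simp [dt, e1]
      rw [h3, neg_eq_zero] at hd
      exact hd
    have hv0 : v 0 ≠ 0 := by
      intro h0; apply hv; ext j; fin_cases j
      exacts [h0, hv1]
    have hve : v = v 0 • (e1 : Fin 2 → F) := by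
      ext j; fin_cases j
      · simp [e1]
      · simp [e1, hv1]
    rw [hve, ht_smul hv0 e1_ne, hht]
    calc (∏ i, (x.1 i).t ^ 2) * hfin e1 x.2 ≤ (C ^ (2 * r) * T ^ (2 * r)) * H1 := by
          gcongr
          exact (hpos _).le
      _ = (C ^ (2 * r) * H1) * T ^ (2 * r) := by ring
      _ ≤ _ := by
          gcongr
          have : 0 ≤ H2 * (c ^ (2 * r))⁻¹ * (c ^ (2 * r))⁻¹ := by positivity
          linarith
  · have h3 := ht_mul_ht_le hd x
    have h4 : 0 < ht e1 x := ht_pos e1_ne x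
    have h5 : ht v x ≤ (ht e1 x)⁻¹ := by
      rw [← one_div, le_div_iff₀ h4]; exact h3
    calc ht v x ≤ (ht e1 x)⁻¹ := h5
      _ = (∏ i, (x.1 i).t ^ 2)⁻¹ * (hfin e1 x.2)⁻¹ := by rw [hht, mul_inv]
      _ ≤ (c ^ (2 * r))⁻¹ * H2 := by
          have := (inv_pos.2 (hpos x.2)).le
          gcongr
      _ = (H2 * (c ^ (2 * r))⁻¹ * (c ^ (2 * r))⁻¹) * c ^ (2 * r) := by
          field_simp
      _ ≤ (H2 * (c ^ (2 * r))⁻¹ * (c ^ (2 * r))⁻¹) * T ^ (2 * r) := by gcongr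
      _ ≤ _ := by
          gcongr
          have : 0 ≤ C ^ (2 * r) * H1 := by positivity
          linarith

/-- **Rapid decay of automorphic kernels which are cuspidal in the first variable.** -/
theorem exists_autK_bound {Y₀ : Finset (Y D.toLevel)} {C c : ℝ} (hC : 1 ≤ C) (hc : 0 < c)
    (hsieg : ∀ x : X D, ∃ γ : PG F, γ • x ∈ siegelSet D Y₀ C c)
    (hB2 : ∀ y : Y D.toLevel, ∃ c : 𝓞 F, c ≠ 0 ∧ ∀ b : 𝓞 F, un ((c * b : 𝓞 F) : F) • y = y)
    {k : X D → X D → ℂ} (hk : IsTestKer k) (hcusp : ∀ y, MeanZero fun x => autK k x y) (M : ℕ) :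
    ∃ B : ℝ, 0 ≤ B ∧ ∀ x y, ‖autK k x y‖ ≤ B ∧
      ∀ v : Fin 2 → F, v ≠ 0 → ‖autK k x y‖ * ht v x ^ M ≤ B := by
  classical
  have hne := Arch.nonempty D.toArch
  obtain ⟨i0⟩ := hne
  choose B hB0 hB using fun (y0 : Y D.toLevel) (M : ℕ) =>
    exists_siegel_bound_aux hk hcusp y0 (hB2 y0) hC hc M
  obtain ⟨H, hH0, hH⟩ := ht_le_of_siegel Y₀ hC hc
  set r := Fintype.card D.I with hr
  refine ⟨∑ y ∈ Y₀, B y 0 + H ^ M * ∑ y ∈ Y₀, B y (2 * r * M), ?_, ?_⟩
  · have h1 := Finset.sum_nonneg (s := Y₀) fun y _ => hB0 y 0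
    have h2 := Finset.sum_nonneg (s := Y₀) fun y _ => hB0 y (2 * r * M)
    positivity
  intro x y
  have h1 := Finset.sum_nonneg (s := Y₀) fun y _ => hB0 y 0
  have h2 := Finset.sum_nonneg (s := Y₀) fun y _ => hB0 y (2 * r * M)
  obtain ⟨γ, hγ⟩ := hsieg x
  have hinv : autK k x y = autK k (γ • x) y := (autK_smul_left hk γ x y).symm
  obtain ⟨hxY, hz, hcomp, hct⟩ := id hγ
  constructor
  · have h3 := hB (γ • x).2 0 (γ • x) rfl hz hcomp hct y i0
    rw [pow_zero, mul_one] at h3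
    rw [hinv]
    have h4 : B (γ • x).2 0 ≤ ∑ y ∈ Y₀, B y 0 :=
      Finset.single_le_sum (f := fun y => B y 0) (fun y _ => hB0 y 0) hxY
    have h5 : 0 ≤ H ^ M * ∑ y ∈ Y₀, B y (2 * r * M) := by positivity
    linarith
  · intro v hv
    obtain ⟨g, rfl⟩ := Matrix.ProjGenLinGroup.mk_surjective γ
    have h3 := hB (g • x).2 (2 * r * M) (g • x) rfl hz hcomp hct y i0
    have h4 : B (g • x).2 (2 * r * M) ≤ ∑ y ∈ Y₀, B y (2 * r * M) :=
      Finset.single_le_sum (f := fun y => B y (2 * r * M)) (fun y _ => hB0 y _) hxY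
    have h5 : ht v x ≤ H * ((g • x).1 i0).t ^ (2 * r) := by
      rw [← ht_equiv g hv x]
      exact hH (g • x) hγ i0 _ (mulVec_ne hv g)
    have hT := ((g • x).1 i0).t_pos
    have h6 : 0 < ht v x := ht_pos hv x
    rw [hinv]
    calc ‖autK k (g • x) y‖ * ht v x ^ M
        ≤ ‖autK k (g • x) y‖ * (H * ((g • x).1 i0).t ^ (2 * r)) ^ M := by gcongr
      _ = H ^ M * (‖autK k (g • x) y‖ * ((g • x).1 i0).t ^ (2 * r * M)) := by
          rw [mul_pow, pow_mul _ (2 * r) M]; ring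
      _ ≤ H ^ M * ∑ y ∈ Y₀, B y (2 * r * M) := by
          gcongr
          exact h3.trans h4
      _ ≤ _ := by linarith

end Fermat.Agent.LT.B
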