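import Fermat.Agent.LT.CTree.Hecke
import Fermat.Agent.LT.CArch.OnH3
import Fermat.Agent.LT.B.Decay

/-!
# LT, piece B: cusp forms on `X D`, Hecke operators and archimedean operators (definitions)

* `upd y w z` : replace the component of `y` at `w` by `z`;
* `TY w`, `TX w` : the Hecke operator at `w` (sum over the neighbours) on functions on `Y U`, `X D`;
* `RX i g` : the archimedean operator with kernel `kfun g (ch P R)` in the variable `i`;
* `IsCusp φ` : continuous, invariant, rapidly decreasing, vanishing constant terms;
* `IsEig P lam s φ` : joint eigenfunction of `TX w`, `w ∈ P` (eigenvalue `√q_w · lam w`) and of all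
  `RX i g` (eigenvalue `hat g (s i)`).
-/

set_option autoImplicit false

open NumberField IsDedekindDomain Matrix MeasureTheory
open Fermat.LT Fermat.Agent.LT.CTree Fermat.Agent.LT.CArch

namespace Fermat.Agent.LT.B

variable {F : Type} [Field F] [NumberField F]

open Classical in
/-- Replace the component at `w`. -/
noncomputable def upd {U : Level F} (y : Y U) (w : Pl F) (z : Yl U w) : Y U where
  val := Function.update y.val w z
  fin := by
    refine (y.fin.insert w).subset ?_
    intro v hv
    by_cases h : v = w
    · exact Or.inl h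
    · refine Or.inr ?_
      have hv' : Function.update y.val w z v ≠ ((1 : G2 F) : Yl U v) := hv
      rwa [Function.update_of_ne h] at hv'

/-- The Hecke operator at `w` on functions on `Y U`: the sum over all points whose component at `w`
is at distance one from that of `y`. -/
noncomputable def TY {U : Level F} (w : Pl F) (φ : Y U → ℂ) (y : Y U) : ℂ :=
  Tl w δ₁ (fun z => φ (upd y w z)) (y w)

/-- The Hecke operator at `w` on functions on `X D`. -/
noncomputable def TX {D : Datum F} (w : Pl F) (φ : X D → ℂ) (x : X D) : ℂ :=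
  TY w (fun y => φ (x.1, y)) x.2

/-- Replace the component at the archimedean place `i`. -/
noncomputable def updI {D : Datum F} (x : X D) (i : D.I) (R : H3) : X D :=
  (Function.update x.1 i R, x.2)

/-- The archimedean operator with kernel `kfun g` in the variable `i`. -/
noncomputable def RX {D : Datum F} (i : D.I) (g : ℝ → ℂ) (φ : X D → ℂ) (x : X D) : ℂ :=
  kopH g (fun R => φ (updI x i R)) (x.1 i)

/-- Cusp forms (of some level, no eigenvalue condition). -/
structure IsCusp {D : Datum F} (φ : X D → ℂ) : Prop where
  cont : Continuous φ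
  inv : ∀ (γ : PG F) x, φ (γ • x) = φ x
  decay : ∀ M : ℕ, ∃ C : ℝ, ∀ (x) (v : Fin 2 → F), v ≠ 0 → ‖φ x‖ * ht v x ^ M ≤ C
  mean : MeanZero φ

/-- Joint eigenfunctions of the Hecke operators at the places in `P` and of all archimedean
operators. -/
structure IsEig {D : Datum F} (P : Set (Pl F)) (lam : Pl F → ℂ) (s : D.I → ℂ) (φ : X D → ℂ) :
    Prop where
  hecke : ∀ w ∈ P, ∀ x, TX w φ x = (sq w : ℂ) * lam w * φ x
  arch : ∀ i g, IsTest g → ∀ x, RX i g φ x = hat g (s i) * φ x

theorem IsCusp.bounded {D : Datum F} {φ : X D → ℂ} (h : IsCusp φ) : ∃ C : ℝ, ∀ x, ‖φ x‖ ≤ C := by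
  obtain ⟨C, hC⟩ := h.decay 0
  have he : (Fermat.LT.e1 : Fin 2 → F) ≠ 0 := fun h0 => by
    have := congrFun h0 0
    simp [Fermat.LT.e1] at this
  exact ⟨C, fun x => by simpa using hC x Fermat.LT.e1 he⟩

end Fermat.Agent.LT.B
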