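import Fermat.Agent.LT.B.KilledKer
import Fermat.Agent.LT.B.Cusp
import Fermat.Agent.LT.CArch.Param

/-!
LT piece B (helper31): eigenfunctions of killed test kernels are cusp forms; trivial bounds for
Hecke and archimedean eigenvalues.
-/

set_option linter.unusedSectionVars false

open NumberField Matrix Fermat.LT MeasureTheory Set Filter Topology
open Fermat.Agent.LT.CTree Fermat.Agent.LT.CArch
open scoped ENNReal ComplexConjugate

namespace Fermat.Agent.LT.B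

variable {F : Type} [Field F] [NumberField F] {D : Datum F}

/-! ### eigenfunctions of killed kernels -/

theorem norm_appK_le_of_autK {k : X D → X D → ℂ} (hk : IsTestKer k) {w : X D → ℝ≥0∞}
    (hw : IsWeight (PG F) w) {φ : X D → ℂ} (hφ : IsAut φ) {B : ℝ} (hB : ∀ x, ‖φ x‖ ≤ B)
    (x : X D) {A : ℝ} (hA : ∀ y, ‖autK k x y‖ ≤ A) :
    ‖appK volume k φ x‖ ≤ A * B * (qMeas (PG F) (volume : Measure (X D)) w).real univ := by
  have hfm := isFiniteMeasure_qMeas_XD hw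
  set v : Qt (PG F) (X D) → ℂ := desc φ hφ.inv with hv
  have hvm : Measurable v := measurable_desc hφ.cont.measurable hφ.inv
  have hvb : ∀ q, ‖v q‖ ≤ B := by
    intro q
    obtain ⟨y, rfl⟩ := pr_surjective (Γ := PG F) q
    rw [hv, desc_pr]
    exact hB y
  have hv2 : MemLp v 2 (qMeas (PG F) (volume : Measure (X D)) w) :=
    MemLp.of_bound hvm.aestronglyMeasurable B (Eventually.of_forall hvb)
  have h1 := hk.cKer.appK_eq_integral hw hv2 x
  have h2 : (fun y => v (pr (PG F) y)) = φ := by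
    funext y
    rw [hv, desc_pr]
  rw [h2] at h1
  rw [h1]
  refine norm_integral_le_of_norm_le_const (Eventually.of_forall fun q => ?_)
  rw [norm_mul]
  have hA0 : 0 ≤ A := (norm_nonneg _).trans (hA x)
  refine mul_le_mul ?_ (hvb q) (norm_nonneg _) hA0
  obtain ⟨y, rfl⟩ := pr_surjective (Γ := PG F) q
  exact hA y

/-- **Eigenfunctions of killed test kernels (nonzero eigenvalue) are cusp forms.** -/
theorem isCusp_of_killed {k : X D → X D → ℂ} (hk : IsTestKer k) (hkill : Killed k) {φ : X D → ℂ}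
    (hφ : IsAut φ) (hb : ∃ B : ℝ, ∀ x, ‖φ x‖ ≤ B) {c : ℂ} (hc : c ≠ 0)
    (h : ∀ x, appK volume k φ x = c * φ x) : IsCusp φ where
  cont := hφ.cont
  inv := hφ.inv
  decay M := by
    obtain ⟨B, hB⟩ := hb
    obtain ⟨w, hw⟩ := exists_isWeight_PG D
    obtain ⟨A, hA0, hA⟩ := hkill.autK_decay hk M
    refine ⟨‖c‖⁻¹ * (A * B * (qMeas (PG F) (volume : Measure (X D)) w).real univ), fun x v hv => ?_⟩
    have hc' : 0 < ‖c‖ := norm_pos_iff.2 hc
    have h1 : ‖c‖ * ‖φ x‖ = ‖appK volume k φ x‖ := by rw [h, norm_mul]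
    have h0 : 0 < ht v x := ht_pos hv x
    have h0' : 0 < ht v x ^ M := pow_pos h0 M
    have h2 := norm_appK_le_of_autK hk hw hφ hB x (A := A / ht v x ^ M) (fun y => by
      rw [le_div_iff₀ h0']
      exact (hA x y).2 v hv)
    rw [← h1] at h2
    rw [le_inv_mul_iff₀ hc']
    calc ‖c‖ * (‖φ x‖ * ht v x ^ M) = (‖c‖ * ‖φ x‖) * ht v x ^ M := by ring
      _ ≤ (A / ht v x ^ M * B * (qMeas (PG F) (volume : Measure (X D)) w).real univ) * ht v x ^ M :=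
          mul_le_mul_of_nonneg_right h2 h0'.le
      _ = _ := by field_simp
  mean := by
    have h1 := hkill.meanZero hk hφ
    have h2 : φ = fun x => c⁻¹ * appK volume k φ x := by
      funext x
      rw [h, ← mul_assoc, inv_mul_cancel₀ hc, one_mul]
    intro x n b hb'
    have h3 := h1 x n b hb'
    rw [h2]
    unfold boxMean at h3 ⊢
    rw [integral_const_mul, h3, mul_zero]

/-! ### trivial bounds for eigenvalues -/

theorem norm_le_of_eig {X : Type*} {φ : X → ℂ} {a : ℂ} {C : ℝ} (hb : ∃ B : ℝ, ∀ x, ‖φ x‖ ≤ B)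
    (h0 : φ ≠ 0) (h : ∀ B : ℝ, (∀ x, ‖φ x‖ ≤ B) → ∀ x, ‖a * φ x‖ ≤ C * B) : ‖a‖ ≤ C := by
  obtain ⟨x0, hx0⟩ := Function.ne_iff.mp h0
  obtain ⟨B, hB⟩ := hb
  have hbdd : BddAbove (range fun x => ‖φ x‖) := ⟨B, by rintro _ ⟨x, rfl⟩; exact hB x⟩
  set S : ℝ := ⨆ x, ‖φ x‖ with hS
  have hle : ∀ x, ‖φ x‖ ≤ S := fun x => le_ciSup hbdd x
  have hS0 : 0 < S := lt_of_lt_of_le (norm_pos_iff.mpr hx0) (hle x0)
  rcases (norm_nonneg a).eq_or_lt with ha | ha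
  · rw [← ha]
    have h1 := h S hle x0
    by_contra hC
    push Not at hC
    have : C * S < 0 := mul_neg_of_neg_of_pos hC hS0
    exact absurd ((norm_nonneg _).trans h1) (not_le.2 this)
  · have h2 : S ≤ C * S / ‖a‖ := by
      have : Nonempty X := ⟨x0⟩
      refine ciSup_le fun x => ?_
      rw [le_div_iff₀ ha, mul_comm, ← norm_mul]
      exact h S hle x
    rw [le_div_iff₀ ha, mul_comm S] at h2
    exact le_of_mul_le_mul_right h2 hS0

theorem norm_TX_le {w : Pl F} (hw : D.n w = 0) {φ : X D → ℂ} {B : ℝ} (hB : ∀ x, ‖φ x‖ ≤ B)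
    (x : X D) : ‖TX w φ x‖ ≤ (qn w + 1) * B := by
  unfold TX TY
  obtain ⟨g, hg⟩ := QuotientGroup.mk_surjective (x.2 w)
  have hg' : x.2 w = (g : Yl D.toLevel w) := hg.symm
  rw [hg', Tl_one hw]
  refine (norm_sum_le _ _).trans ?_
  refine (Finset.sum_le_card_nsmul _ _ B fun o _ => hB _).trans (le_of_eq ?_)
  rw [Finset.card_univ, Fintype.card_option, nsmul_eq_mul]
  have : ((Fintype.card (𝓞 F ⧸ w.asIdeal) : ℕ) : ℂ) = (qn w : ℂ) := card_res'
  have h2 : (Fintype.card (𝓞 F ⧸ w.asIdeal) : ℕ) = qn w := by exact_mod_cast this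
  rw [h2]
  push_cast
  ring

/-- bound for Hecke eigenvalues -/
theorem norm_hecke_le {w : Pl F} (hw : D.n w = 0) {φ : X D → ℂ} (hb : ∃ B : ℝ, ∀ x, ‖φ x‖ ≤ B)
    (h0 : φ ≠ 0) {a : ℂ} (h : ∀ x, TX w φ x = a * φ x) : ‖a‖ ≤ qn w + 1 :=
  norm_le_of_eig hb h0 fun B hB x => by rw [← h]; exact norm_TX_le hw hB x

/-- the `L¹` norm of the archimedean kernel -/
noncomputable def kL1 (g : ℝ → ℂ) : ℝ := ∫ R : H3, ‖kfun g (H3.ch (H3.mk 0 1 one_pos) R)‖

theorem integral_norm_kfun_ch (g : ℝ → ℂ) (P : H3) :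
    ∫ R : H3, ‖kfun g (H3.ch P R)‖ = kL1 g := by
  obtain ⟨γ, hγ⟩ := exists_smul_eq_H3 P
  have h1 := (H3.measurePreserving_smul' γ).integral_comp
    (MeasurableEquiv.smul γ).measurableEmbedding (fun R : H3 => ‖kfun g (H3.ch P R)‖)
  rw [← h1]
  unfold kL1
  rw [← hγ]
  simp only [H3.ch_smul]

theorem norm_kopH_le {g : ℝ → ℂ} (hg : IsTest g) {φ : H3 → ℂ} {B : ℝ} (hB : ∀ P, ‖φ P‖ ≤ B)
    (P : H3) : ‖kopH g φ P‖ ≤ kL1 g * B := by
  have hi : Integrable fun R : H3 => kfun g (H3.ch P R) := by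
    have := integrable_kopH hg (φ := fun _ => 1) continuous_const P
    simpa using this
  rw [← integral_norm_kfun_ch g P, ← integral_mul_const]
  unfold kopH
  refine norm_integral_le_of_norm_le (hi.norm.mul_const B) (Eventually.of_forall fun R => ?_)
  rw [norm_mul]
  exact mul_le_mul_of_nonneg_left (hB R) (norm_nonneg _)

theorem norm_RX_le {i : D.I} {g : ℝ → ℂ} (hg : IsTest g) {φ : X D → ℂ} {B : ℝ}
    (hB : ∀ x, ‖φ x‖ ≤ B) (x : X D) : ‖RX i g φ x‖ ≤ kL1 g * B :=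
  norm_kopH_le hg (fun _ => hB _) _

/-- bound for archimedean eigenvalues -/
theorem norm_arch_le {i : D.I} {g : ℝ → ℂ} (hg : IsTest g) {φ : X D → ℂ}
    (hb : ∃ B : ℝ, ∀ x, ‖φ x‖ ≤ B) (h0 : φ ≠ 0) {a : ℂ} (h : ∀ x, RX i g φ x = a * φ x) :
    ‖a‖ ≤ kL1 g :=
  norm_le_of_eig hb h0 fun B hB x => by rw [← h]; exact norm_RX_le hg hB x

theorem IsEig.norm_lam_le {P : Set (Pl F)} {lam : Pl F → ℂ} {s : D.I → ℂ} {φ : X D → ℂ}
    (h : IsEig P lam s φ) (hb : ∃ B : ℝ, ∀ x, ‖φ x‖ ≤ B) (h0 : φ ≠ 0) {w : Pl F} (hw : w ∈ P)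
    (hn : D.n w = 0) : ‖(sq w : ℂ) * lam w‖ ≤ qn w + 1 :=
  norm_hecke_le hn hb h0 (h.hecke w hw)

theorem IsEig.norm_lam_le' {P : Set (Pl F)} {lam : Pl F → ℂ} {s : D.I → ℂ} {φ : X D → ℂ}
    (h : IsEig P lam s φ) (hb : ∃ B : ℝ, ∀ x, ‖φ x‖ ≤ B) (h0 : φ ≠ 0) {w : Pl F} (hw : w ∈ P)
    (hn : D.n w = 0) : ‖lam w‖ ≤ (qn w + 1) / sq w := by
  have h1 := h.norm_lam_le hb h0 hw hn
  rw [norm_mul, Complex.norm_real, Real.norm_eq_abs, abs_of_pos (sq_pos w)] at h1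
  rw [le_div_iff₀ (sq_pos w), mul_comm]
  exact h1

theorem IsEig.norm_hat_le {P : Set (Pl F)} {lam : Pl F → ℂ} {s : D.I → ℂ} {φ : X D → ℂ}
    (h : IsEig P lam s φ) (hb : ∃ B : ℝ, ∀ x, ‖φ x‖ ≤ B) (h0 : φ ≠ 0) (i : D.I) {g : ℝ → ℂ}
    (hg : IsTest g) : ‖hat g (s i)‖ ≤ kL1 g :=
  norm_arch_le hg hb h0 (h.arch i g hg)

/-! ### slices -/

theorem updI_updI (x : X D) (i : D.I) (R R' : H3) : updI (updI x i R) i R' = updI x i R' :=
  Prod.ext (Function.update_idem (β := fun _ : D.I => H3) _ _ _) rfl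

theorem updI_self (x : X D) (i : D.I) : updI x i (x.1 i) = x :=
  Prod.ext (Function.update_eq_self (β := fun _ : D.I => H3) _ _) rfl

theorem RX_updI (i : D.I) (g : ℝ → ℂ) (φ : X D → ℂ) (x : X D) (R : H3) :
    RX i g φ (updI x i R) = kopH g (fun R' => φ (updI x i R')) R := by
  have h : (updI x i R).1 i = R := Function.update_self (β := fun _ : D.I => H3) _ _ _
  unfold RX
  simp only [updI_updI]
  rw [h]

/-- For bounded nonzero joint eigenfunctions with real archimedean eigenvalues, `(s i)²` is real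
and at most one. -/
theorem IsEig.sq_le_one {P : Set (Pl F)} {lam : Pl F → ℂ} {s : D.I → ℂ} {φ : X D → ℂ}
    (h : IsEig P lam s φ) (hb : ∃ B : ℝ, ∀ x, ‖φ x‖ ≤ B) (h0 : φ ≠ 0) (i : D.I) {σ : ℝ}
    (hs : s i ^ 2 = (σ : ℂ)) : σ ≤ 1 := by
  obtain ⟨x0, hx0⟩ := Function.ne_iff.mp h0
  obtain ⟨B, hB⟩ := hb
  refine sq_le_one_of_bounded (φ := fun R => φ (updI x0 i R)) ⟨B, fun R => hB _⟩ ?_ (s := s i) ?_ hs
  · intro h1
    have := congrFun h1 (x0.1 i)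
    simp only [updI_self] at this
    exact hx0 this
  · intro g hg R
    rw [← RX_updI, h.arch i g hg]

theorem IsEig.exists_sq {P : Set (Pl F)} {lam : Pl F → ℂ} {s : D.I → ℂ} {φ : X D → ℂ}
    (h : IsEig P lam s φ) (hb : ∃ B : ℝ, ∀ x, ‖φ x‖ ≤ B) (h0 : φ ≠ 0) (i : D.I)
    (hreal : ∀ g, IsRealTest g → conj (hat g (s i)) = hat g (s i)) :
    ∃ σ : ℝ, σ ≤ 1 ∧ s i ^ 2 = (σ : ℂ) := by
  obtain ⟨σ, hσ⟩ := exists_sq_eq_ofReal hreal
  exact ⟨σ, h.sq_le_one hb h0 i hσ, hσ⟩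

end Fermat.Agent.LT.B
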