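import Fermat.Agent.LT.B.ConstTerm
import Fermat.Agent.LT.B.XInst

/-!
LT piece B (helper31): the constant term commutes with the operators `R(k)`; killed kernels have
vanishing constant terms.
-/

open NumberField Matrix Fermat.LT MeasureTheory Set Filter Topology

namespace Fermat.Agent.LT.B

variable {F : Type} [Field F] [NumberField F] {D : Datum F}

/-! ### common period bases -/

theorem exists_period_nat {U : Level F} (y : Y U) : ∃ m : ℕ, m ≠ 0 ∧
    ∀ b : 𝓞 F, un ((m : F) * b) • y = y := by
  obtain ⟨c, hc, hcb⟩ := trans_fix y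
  refine ⟨Ideal.absNorm (Ideal.span {c}), ?_, ?_⟩
  · rw [Ne, Ideal.absNorm_eq_zero_iff, Ideal.span_singleton_eq_bot]; exact hc
  · intro b
    obtain ⟨r, hr⟩ := Ideal.mem_span_singleton.1 (Ideal.absNorm_mem (Ideal.span {c}))
    have h2 : (Ideal.absNorm (Ideal.span {c}) : F) = (c : F) * r := by
      have := congrArg (algebraMap (𝓞 F) F) hr
      rw [map_mul, map_natCast] at this
      exact this
    have h3 := hcb (r * b)
    have h4 : ((c * (r * b) : 𝓞 F) : F) = (Ideal.absNorm (Ideal.span {c}) : F) * b := by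
      rw [h2]; push_cast; ring
    rwa [h4] at h3

theorem exists_common_basis (A : Arch F) {U : Level F} (S : Finset (Y U)) :
    ∃ (n : ℕ) (b : Module.Basis (Fin n) ℝ (A.I → ℂ)), ∀ y ∈ S, ∀ l, b l ∈ bLat A y := by
  classical
  choose m hm0 hm using fun y : Y U => exists_period_nat y
  set M : ℕ := ∏ y ∈ S, m y with hM
  have hM0 : M ≠ 0 := Finset.prod_ne_zero_iff.2 fun y _ => hm0 y
  have hMR : (M : ℝ) ≠ 0 := by exact_mod_cast hM0
  let e := Fintype.equivFin (Module.Free.ChooseBasisIndex ℤ (𝓞 F))
  let b : Module.Basis _ ℝ (A.I → ℂ) := ((latB A).map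
    (LinearEquiv.smulOfNeZero ℝ (A.I → ℂ) (M : ℝ) hMR)).reindex e
  refine ⟨_, b, fun y hy l => ?_⟩
  set ω : 𝓞 F := RingOfIntegers.basis F (e.symm l) with hω
  have h1 : b l = (M : ℝ) • latB A (e.symm l) := by
    simp only [b, Module.Basis.reindex_apply, Module.Basis.map_apply,
      LinearEquiv.smulOfNeZero_apply]
  have hb : b l = embI A ((M : F) * ω) := by
    rw [h1, latB_apply, integralBasis_apply, map_mul, map_natCast]
    funext i
    simp only [Pi.smul_apply, Pi.mul_apply, Pi.natCast_apply, Complex.real_smul,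
      Complex.ofReal_natCast]
    rfl
  rw [hb]
  refine ⟨_, ?_, rfl⟩
  show un ((M : F) * ω) • y = y
  have h2 : (M : F) * ω = (m y : F) * (((∏ y' ∈ S.erase y, m y' : ℕ) : 𝓞 F) * ω : 𝓞 F) := by
    rw [hM, ← Finset.mul_prod_erase S m hy]
    push_cast
    ring
  rw [h2]
  exact hm y _

/-! ### translations preserve the measure -/

theorem measurePreserving_shift (u : ℂ) :
    MeasurePreserving (shift u) (volume : Measure H3) volume := by
  have hg : ∃ g : GL (Fin 2) ℂ, ∀ P : H3, g • P = shift u P := by
    let g : GL (Fin 2) ℂ := Matrix.GeneralLinearGroup.mkOfDetNeZero !![1, u; 0, 1] (by simp)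
    have e : ∀ a b, g a b = (!![1, u; 0, 1] : Matrix (Fin 2) (Fin 2) ℂ) a b := fun a b => rfl
    have h10 : g 1 0 = 0 := by rw [e]; simp
    refine ⟨g, fun P => H3.ext ?_ ?_⟩
    · rw [H3.smul_z_of_upper g h10, e, e, e]
      simp
    · rw [H3.smul_t_of_upper g h10, e, e]
      simp
  obtain ⟨g, hg⟩ := hg
  have : shift u = fun P : H3 => g • P := funext fun P => (hg P).symm
  rw [this]
  exact H3.measurePreserving_smul' g

theorem measurePreserving_trI (u : D.I → ℂ) :
    MeasurePreserving (trI (A := D.toArch) u) volume volume :=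
  measurePreserving_pi (fun _ : D.I => (volume : Measure H3)) (fun _ => volume)
    fun i => measurePreserving_shift (u i)

theorem measurePreserving_trX (u : D.I → ℂ) :
    MeasurePreserving (trX (D := D) u) (volume : Measure (X D)) volume :=
  (measurePreserving_trI u).prod (MeasurePreserving.id (volume : Measure (Y D.toLevel)))

theorem continuous_trX_right (u : D.I → ℂ) : Continuous (trX (D := D) u) :=
  continuous_trX.comp (by fun_prop : Continuous fun x : X D => ((u, x) : (D.I → ℂ) × X D))

/-- translation as a measurable equivalence -/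
noncomputable def trEquiv (u : D.I → ℂ) : X D ≃ᵐ X D where
  toFun := trX u
  invFun := trX (-u)
  left_inv x := by rw [trX_trX, neg_add_cancel, trX_zero]
  right_inv x := by rw [trX_trX, add_neg_cancel, trX_zero]
  measurable_toFun := (continuous_trX_right u).measurable
  measurable_invFun := (continuous_trX_right (-u)).measurable

theorem integral_trX (u : D.I → ℂ) (f : X D → ℂ) : ∫ z, f (trX u z) = ∫ z, f z :=
  (measurePreserving_trX u).integral_comp (trEquiv u).measurableEmbedding f

/-! ### kernels -/

/-- The class of kernels considered here. -/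
structure TKer (k : X D → X D → ℂ) : Prop extends CKer (PG F) k where
  tr : ∀ u x z, k (trX u x) (trX u z) = k x z
  fib : ∀ y : Y D.toLevel, {y' | ∃ P P', k (P, y) (P', y') ≠ 0}.Finite

theorem IsTestKer.tKer {k : X D → X D → ℂ} (h : IsTestKer k) : TKer k where
  toCKer := h.cKer
  tr u x z := by
    obtain ⟨J, fJ, Φ, κ, hΦ, hκ, hk⟩ := h
    have e : chv (trX u x) (trX u z) = chv x z := by
      funext i
      show H3.ch (shift (u i) (x.1 i)) (shift (u i) (z.1 i)) = H3.ch (x.1 i) (z.1 i)
      unfold H3.ch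
      simp
    rw [hk, hk, e]
    rfl
  fib y := by
    classical
    obtain ⟨J, fJ, Φ, κ, hΦ, hκ, hk⟩ := h
    refine (Set.finite_iUnion fun j : J => (hκ j).fin y).subset ?_
    rintro y' ⟨P, P', hne⟩
    rw [hk] at hne
    obtain ⟨j, -, hj⟩ := Finset.exists_ne_zero_of_sum_ne_zero hne
    exact Set.mem_iUnion.2 ⟨j, right_ne_zero_of_mul hj⟩

/-- continuity of constant terms -/
theorem continuous_constTerm {φ : X D → ℂ} (h : IsAut φ) : Continuous (constTerm φ) := by
  rw [continuous_prod_of_discrete_right]
  intro y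
  show Continuous fun P => boxMean (pb D.toArch y) (fun u => φ (trX u (P, y))) 0
  unfold boxMean
  have h1 : Continuous (Function.uncurry fun (P : XI D.toArch) (s : Fin (pbn D.toArch y) → ℝ) =>
      φ (trX (0 + ∑ i, s i • pb D.toArch y i) (P, y))) := by
    have h2 : Continuous fun p : XI D.toArch × (Fin (pbn D.toArch y) → ℝ) =>
        (((0 : D.I → ℂ) + ∑ i, p.2 i • pb D.toArch y i, ((p.1, y) : X D)) : (D.I → ℂ) × X D) := by
      refine Continuous.prodMk ?_ (continuous_fst.prodMk continuous_const)
      fun_prop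
    exact h.cont.comp (continuous_trX.comp h2)
  exact continuous_parametric_integral_of_continuous h1 isCompact_Icc

theorem IsAut.locallyIntegrable {φ : X D → ℂ} (h : IsAut φ) :
    LocallyIntegrable φ (volume : Measure (X D)) := h.cont.locallyIntegrable

theorem TKer.isAut_appK {k : X D → X D → ℂ} (hk : TKer k) {φ : X D → ℂ} (h : IsAut φ) :
    IsAut (appK volume k φ) :=
  ⟨hk.toCKer.continuous_appK h.locallyIntegrable, fun γ x => hk.toCKer.appK_smul h.inv γ x⟩

/-- **The constant term commutes with `R(k)`.** -/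
theorem TKer.constTerm_appK {k : X D → X D → ℂ} (hk : TKer k) {φ : X D → ℂ} (h : IsAut φ)
    (x : X D) : constTerm (appK volume k φ) x = appK volume k (constTerm φ) x := by
  classical
  set S : Finset (Y D.toLevel) := insert x.2 (hk.fib x.2).toFinset with hS
  obtain ⟨n, b, hb⟩ := exists_common_basis D.toArch S
  rw [constTerm_eq (hk.isAut_appK h) x b (hb x.2 (Finset.mem_insert_self _ _))]
  obtain ⟨C', hC', hsupp⟩ := hk.supp {x} isCompact_singleton
  have e1 : boxMean b (fun u => appK volume k φ (trX u x)) 0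
      = ∫ s in Icc (0 : Fin n → ℝ) 1, ∫ z, k x z * φ (trX (0 + ∑ i, s i • b i) z) := by
    unfold boxMean
    refine integral_congr_ae (Filter.Eventually.of_forall fun s => ?_)
    show appK volume k φ (trX (0 + ∑ i, s i • b i) x) = _
    unfold appK
    rw [← integral_trX (0 + ∑ i, s i • b i)]
    simp only [hk.tr]
  have hcont : Continuous (Function.uncurry fun (s : Fin n → ℝ) (z : X D) =>
      k x z * φ (trX (0 + ∑ i, s i • b i) z)) := by
    have h1 : Continuous fun p : (Fin n → ℝ) × X D => k x p.2 :=
      hk.cont.comp (continuous_const.prodMk continuous_snd)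
    have h2 : Continuous fun p : (Fin n → ℝ) × X D =>
        (((0 : D.I → ℂ) + ∑ i, p.1 i • b i, p.2) : (D.I → ℂ) × X D) := by
      refine Continuous.prodMk ?_ continuous_snd
      fun_prop
    exact h1.mul (h.cont.comp (continuous_trX.comp h2))
  rw [e1, integral_integral_swap]
  · unfold appK
    refine integral_congr_ae (Filter.Eventually.of_forall fun z => ?_)
    show ∫ s in Icc (0 : Fin n → ℝ) 1, k x z * φ (trX (0 + ∑ i, s i • b i) z)
      = k x z * constTerm φ z
    rw [integral_const_mul]
    by_cases hz : k x z = 0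
    · rw [hz, zero_mul, zero_mul]
    · congr 1
      have hzS : z.2 ∈ S := by
        rw [hS, Finset.mem_insert]
        right
        rw [Set.Finite.mem_toFinset]
        exact ⟨x.1, z.1, hz⟩
      rw [constTerm_eq h z b (hb z.2 hzS)]
      rfl
  · rw [← Measure.restrict_univ (μ := (volume : Measure (X D))), Measure.prod_restrict]
    have hI : IntegrableOn (Function.uncurry fun (s : Fin n → ℝ) (z : X D) =>
        k x z * φ (trX (0 + ∑ i, s i • b i) z)) (Icc (0 : Fin n → ℝ) 1 ×ˢ C')
        ((volume : Measure (Fin n → ℝ)).prod (volume : Measure (X D))) :=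
      hcont.continuousOn.integrableOn_compact (isCompact_Icc.prod hC')
    refine IntegrableOn.of_forall_sdiff_eq_zero hI (measurableSet_Icc.prod MeasurableSet.univ) ?_
    rintro ⟨s, z⟩ ⟨⟨hs, -⟩, hn⟩
    have hz : z ∉ C' := fun hz => hn ⟨hs, hz⟩
    show k x z * _ = 0
    rw [hsupp x rfl z hz, zero_mul]

/-- Functions on `X` invariant under the adelic unipotent group and the rational Borel group. -/
structure IsNB (ψ : X D → ℂ) : Prop where
  cont : Continuous ψ
  tr : ∀ u x, ψ (trX u x) = ψ x
  fin : ∀ (P : XI D.toArch) (y y' : Y D.toLevel), (∀ w, ∃ β : F, y' w = un β • y w) →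
    ψ (P, y') = ψ (P, y)
  dg : ∀ (a : Fˣ) x, ψ (pmk (dg a) • x) = ψ x

theorem isNB_constTerm {φ : X D → ℂ} (h : IsAut φ) : IsNB (constTerm φ) :=
  ⟨continuous_constTerm h, constTerm_trX h, constTerm_fin h, constTerm_dg h⟩

/-- A kernel is killed if it annihilates all `N(𝔸) B(F)`-invariant functions. -/
def Killed (k : X D → X D → ℂ) : Prop := ∀ ψ : X D → ℂ, IsNB ψ → ∀ x, appK volume k ψ x = 0

theorem TKer.meanZero_appK {k : X D → X D → ℂ} (hk : TKer k) (hkill : Killed k) {φ : X D → ℂ}
    (h : IsAut φ) : MeanZero (appK volume k φ) := by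
  rw [meanZero_iff (hk.isAut_appK h)]
  intro x
  rw [hk.constTerm_appK h]
  exact hkill _ (isNB_constTerm h) x

end Fermat.Agent.LT.B
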