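import Fermat.Agent.LT.B.Torus

/-!
LT piece B (helper31): box means of periodic functions do not depend on the point nor on the basis.
-/

open MeasureTheory Set

namespace Fermat.Agent.LT.B

section

variable {V : Type*} [AddCommGroup V] [Module ℝ V] [TopologicalSpace V] [ContinuousAdd V]
  [ContinuousSMul ℝ V]

omit [TopologicalSpace V] [ContinuousAdd V] [ContinuousSMul ℝ V] in
lemma boxMean_zero_dim (b : Fin 0 → V) (f : V → ℂ) (v : V) : boxMean b f v = f v := by
  unfold boxMean
  simp [measureReal_def]

lemma continuous_mean_one {f : V → ℂ} (hf : Continuous f) (e : V) :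
    Continuous fun w => ∫ t in (0 : ℝ)..1, f (w + t • e) := by
  refine intervalIntegral.continuous_parametric_intervalIntegral_of_continuous' ?_ 0 1
  exact hf.comp (by fun_prop)

omit [TopologicalSpace V] [ContinuousAdd V] [ContinuousSMul ℝ V] in
lemma mean_one_add_smul {f : V → ℂ} (e : V) (hper : ∀ v, f (v + e) = f v) (w : V) (s : ℝ) :
    ∫ t in (0 : ℝ)..1, f (w + s • e + t • e) = ∫ t in (0 : ℝ)..1, f (w + t • e) := by
  have hp : Function.Periodic (fun t : ℝ => f (w + t • e)) 1 := by
    intro t
    show f (w + (t + 1) • e) = f (w + t • e)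
    rw [add_smul, one_smul, ← add_assoc, hper]
  have h1 : ∀ t : ℝ, f (w + s • e + t • e) = (fun t : ℝ => f (w + t • e)) (t + s) := by
    intro t
    show f (w + s • e + t • e) = f (w + (t + s) • e)
    rw [add_smul, add_comm (t • e), add_assoc]
  simp_rw [h1]
  rw [intervalIntegral.integral_comp_add_right (fun t : ℝ => f (w + t • e)) s]
  have := hp.intervalIntegral_add_eq s 0
  rw [zero_add, add_comm] at *
  simpa [add_comm] using this

/-- translation invariance along the period directions -/
lemma boxMean_add_smul : ∀ {n : ℕ} (b : Fin n → V) {f : V → ℂ} (_ : Continuous f)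
    (_ : ∀ l v, f (v + b l) = f v) (l : Fin n) (s : ℝ) (v : V),
    boxMean b f (v + s • b l) = boxMean b f v := by
  intro n
  induction n with
  | zero => intro b f _ _ l; exact l.elim0
  | succ n ih =>
    intro b f hf hper l s v
    rw [boxMean_succ b hf, boxMean_succ b hf]
    refine Fin.cases ?_ (fun j => ?_) l
    · unfold boxMean
      refine integral_congr_ae (Filter.Eventually.of_forall fun t => ?_)
      show ∫ r in (0 : ℝ)..1, f (v + s • b 0 + ∑ i, t i • b (Fin.succ i) + r • b 0)
        = ∫ r in (0 : ℝ)..1, f (v + ∑ i, t i • b (Fin.succ i) + r • b 0)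
      have h1 : v + s • b 0 + ∑ i, t i • b (Fin.succ i)
          = (v + ∑ i, t i • b (Fin.succ i)) + s • b 0 := by abel
      rw [h1]
      exact mean_one_add_smul (b 0) (hper 0) _ s
    · refine ih (fun i => b i.succ) (continuous_mean_one hf (b 0)) ?_ j s v
      intro l' v'
      refine intervalIntegral.integral_congr fun t _ => ?_
      show f (v' + b l'.succ + t • b 0) = f (v' + t • b 0)
      rw [add_right_comm, hper]

/-- box means are constant -/
lemma boxMean_eq_zero_point {n : ℕ} (b : Module.Basis (Fin n) ℝ V) {f : V → ℂ}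
    (hf : Continuous f) (hper : ∀ l v, f (v + b l) = f v) (v : V) :
    boxMean b f v = boxMean b f 0 := by
  classical
  have key : ∀ (s : Finset (Fin n)) (r : Fin n → ℝ) (w : V),
      boxMean b f (w + ∑ l ∈ s, r l • b l) = boxMean b f w := by
    intro s r
    induction s using Finset.induction_on with
    | empty => intro w; simp
    | insert a s ha ih =>
      intro w
      rw [Finset.sum_insert ha, ← add_assoc, ih, boxMean_add_smul b hf hper]
  have h := key Finset.univ (b.repr v) 0
  rw [b.sum_repr, zero_add] at h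
  exact h

lemma continuous_box_arg₂ {ι κ : Type*} [Fintype ι] [Fintype κ] (b : ι → V) (b' : κ → V) :
    Continuous fun p : (ι → ℝ) × (κ → ℝ) => ∑ i, p.1 i • b i + ∑ i, p.2 i • b' i := by
  fun_prop

/-- independence of the basis -/
lemma boxMean_indep {n m : ℕ} (b : Module.Basis (Fin n) ℝ V) (b' : Module.Basis (Fin m) ℝ V)
    {f : V → ℂ} (hf : Continuous f) (hper : ∀ l v, f (v + b l) = f v)
    (hper' : ∀ l v, f (v + b' l) = f v) : boxMean b f 0 = boxMean b' f 0 := by
  have h1 : ∀ v, boxMean b f v = boxMean b f 0 := boxMean_eq_zero_point b hf hper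
  have h2 : ∀ v, boxMean b' f v = boxMean b' f 0 := boxMean_eq_zero_point b' hf hper'
  have hvol : ∀ (k : ℕ) (c : ℂ), ∫ _s in Icc (0 : Fin k → ℝ) 1, c = c := by
    intro k c
    rw [setIntegral_const]
    simp [measureReal_def, volume_real_box]
  have e1 : boxMean b f 0 = ∫ s' in Icc (0 : Fin m → ℝ) 1, ∫ s in Icc (0 : Fin n → ℝ) 1,
      f (∑ i, s' i • b' i + ∑ i, s i • b i) := by
    rw [← hvol m (boxMean b f 0)]
    refine integral_congr_ae (Filter.Eventually.of_forall fun s' => ?_)
    exact (h1 (∑ i, s' i • b' i)).symm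
  have e2 : boxMean b' f 0 = ∫ s in Icc (0 : Fin n → ℝ) 1, ∫ s' in Icc (0 : Fin m → ℝ) 1,
      f (∑ i, s' i • b' i + ∑ i, s i • b i) := by
    rw [← hvol n (boxMean b' f 0)]
    refine integral_congr_ae (Filter.Eventually.of_forall fun s => ?_)
    show boxMean b' f 0 = ∫ s' in Icc (0 : Fin m → ℝ) 1, f (∑ i, s' i • b' i + ∑ i, s i • b i)
    rw [← h2 (∑ i, s i • b i)]
    unfold boxMean
    refine integral_congr_ae (Filter.Eventually.of_forall fun s' => ?_)
    show f (_ + _) = f (_ + _)
    rw [add_comm]
  rw [e1, e2, integral_integral_swap]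
  rw [Measure.prod_restrict]
  have hc : Continuous (Function.uncurry fun (s' : Fin m → ℝ) (s : Fin n → ℝ) =>
      f (∑ i, s' i • b' i + ∑ i, s i • b i)) := by
    have := hf.comp (continuous_box_arg₂ b' b)
    exact this
  exact hc.continuousOn.integrableOn_compact (isCompact_Icc.prod isCompact_Icc)

end

end Fermat.Agent.LT.B
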