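import Fermat.Agent.LT.B.Decay
import Fermat.Agent.LT.A.Stab

/-!
LT piece B (helper31): unconditional form of the kernel bound.
-/

open NumberField Matrix Fermat.LT

namespace Fermat.Agent.LT.B

variable {F : Type} [Field F] [NumberField F] {D : Datum F}

/-- **Rapid decay of automorphic kernels which are cuspidal in the first variable.** -/
theorem autK_decay {k : X D → X D → ℂ} (hk : IsTestKer k)
    (hcusp : ∀ y, MeanZero fun x => autK k x y) (M : ℕ) :
    ∃ B : ℝ, 0 ≤ B ∧ ∀ x y, ‖autK k x y‖ ≤ B ∧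
      ∀ v : Fin 2 → F, v ≠ 0 → ‖autK k x y‖ * ht v x ^ M ≤ B := by
  obtain ⟨Y₀, C, c, hC, hc, h⟩ := siegel D
  exact exists_autK_bound hC hc h trans_fix hk hcusp M

/-- boundedness in both variables only needs cuspidality in one of them. -/
theorem autK_bounded {k : X D → X D → ℂ} (hk : IsTestKer k)
    (hcusp : ∀ y, MeanZero fun x => autK k x y) : ∃ B : ℝ, 0 ≤ B ∧ ∀ x y, ‖autK k x y‖ ≤ B := by
  obtain ⟨B, hB, h⟩ := autK_decay hk hcusp 0
  exact ⟨B, hB, fun x y => (h x y).1⟩

end Fermat.Agent.LT.B
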