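import Fermat.Agent.LT.B.BoxMean
import Fermat.Agent.LT.B.DecayFinal

/-!
LT piece B (helper31): constant terms of automorphic functions.
-/

open NumberField Matrix Fermat.LT MeasureTheory Set

namespace Fermat.Agent.LT.B

variable {F : Type} [Field F] [NumberField F] {D : Datum F}

/-! ### strong approximation for the unipotent group -/

theorem exists_un_eq {U : Level F} (y y' : Y U) (h : ∀ w, ∃ β : F, y' w = un β • y w) :
    ∃ β : F, y' = un β • y := by
  classical
  obtain ⟨T, g, e, hg, hT, he⟩ := exists_local_data y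
  choose β hβ using h
  set T' : Finset (Pl F) := T ∪ y'.fin.toFinset with hT'
  obtain ⟨x, hx1, hx2⟩ := strong_approx T' β (fun w => (qv w)⁻¹ ^ e w)
    (fun w => pow_pos (inv_pos.mpr (qv_pos w)) _)
  have hfix : ∀ w (b : F), av w b ≤ (qv w)⁻¹ ^ e w → un b • y w = y w := by
    intro w b hb
    rw [← hg w]
    change ((un b * g w : G2 F) : Yl U w) = (g w : Yl U w)
    symm
    rw [QuotientGroup.eq, ← mul_assoc]
    apply U.cong_le w
    apply conj_mem_congGL w _ (g w) _ ((qv w)⁻¹ ^ e w) (he w)
    · rw [nm_un_sub]; exact hb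
    · rw [← un_neg, nm_un_sub, (av w).map_neg]; exact hb
  refine ⟨x, Y.ext' fun w => ?_⟩
  rw [G2_smul_apply]
  by_cases hw : w ∈ T'
  · have h1 : un x = un (β w) * un (x - β w) := by
      rw [← un_add]; congr 1; ring
    rw [h1, mul_smul, hfix w _ (hx1 w hw), hβ w]
  · have hwT : w ∉ T := fun h => hw (Finset.mem_union_left _ h)
    have hwy : y' w = ((1 : G2 F) : Yl U w) := by
      by_contra h
      exact hw (Finset.mem_union_right _ ((Set.Finite.mem_toFinset _).mpr h))
    obtain ⟨h1, h2⟩ := hT w hwT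
    have hy : y w = ((1 : G2 F) : Yl U w) := by rw [← hg w, h1]
    rw [hwy, hy]
    symm
    apply intGL_smul_one U h2
    have := un_mem_congGL w 0 (b := x) (by rw [pow_zero]; exact hx2 w hw)
    rwa [congGL_zero] at this

/-! ### translation maps -/

theorem continuous_trX : Continuous fun p : (D.I → ℂ) × X D => trX p.1 p.2 := by
  refine Continuous.prodMk ?_ (continuous_snd.comp continuous_snd)
  refine continuous_pi fun i => ?_
  rw [H3.continuous_iff]
  constructor
  · have h1 : Continuous fun p : (D.I → ℂ) × X D => (p.2.1 i).z := by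
      have h2 : Continuous fun p : (D.I → ℂ) × X D => p.2.1 := continuous_fst.comp continuous_snd
      exact H3.continuous_z.comp ((continuous_apply i).comp h2)
    have h3 : Continuous fun p : (D.I → ℂ) × X D => p.1 i :=
      (continuous_apply i).comp continuous_fst
    exact h1.add h3
  · have h2 : Continuous fun p : (D.I → ℂ) × X D => p.2.1 := continuous_fst.comp continuous_snd
    have h3 : Continuous fun p : (D.I → ℂ) × X D => (p.2.1 i).t :=
      H3.continuous_t.comp ((continuous_apply i).comp h2)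
    exact h3

theorem trX_zero (x : X D) : trX 0 x = x := by
  refine Prod.ext ?_ rfl
  funext i
  exact shift_zero _

theorem trX_trX (u v : D.I → ℂ) (x : X D) : trX u (trX v x) = trX (u + v) x := by
  refine Prod.ext ?_ rfl
  funext i
  exact shift_shift _ _ _

/-- `un β` as a translation on the archimedean part -/
theorem un_smul_XI (β : F) (P : XI D.toArch) : un β • P = trI (embI D.toArch β) P := by
  funext i
  exact H3.ext (un_smul_z β P i) (un_smul_t β P i)

theorem pmk_un_smul (β : F) (x : X D) : pmk (un β) • x = (trI (embI D.toArch β) x.1, un β • x.2) :=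
  Prod.ext (un_smul_XI β x.1) rfl

/-- pointwise multiplication by `embI a` -/
noncomputable def mulE (A : Arch F) (a : Fˣ) : (A.I → ℂ) ≃ₗ[ℝ] (A.I → ℂ) :=
  LinearEquiv.ofLinearMap (LinearMap.mulLeft ℝ (embI A a))
    (LinearMap.mulLeft ℝ (embI A ((a⁻¹ : Fˣ) : F)))
    (LinearMap.ext fun u => by
      show embI A a * (embI A ((a⁻¹ : Fˣ) : F) * u) = u
      rw [← mul_assoc, ← map_mul, ← Units.val_mul, mul_inv_cancel, Units.val_one, map_one, one_mul])
    (LinearMap.ext fun u => by
      show embI A ((a⁻¹ : Fˣ) : F) * (embI A a * u) = u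
      rw [← mul_assoc, ← map_mul, ← Units.val_mul, inv_mul_cancel, Units.val_one, map_one, one_mul])

theorem mulE_apply (A : Arch F) (a : Fˣ) (u : A.I → ℂ) : mulE A a u = embI A a * u := rfl

theorem dg_smul_XI (a : Fˣ) (u : D.I → ℂ) (P : XI D.toArch) :
    dg a • trI u P = trI (mulE D.toArch a u) (dg a • P) := by
  funext i
  refine H3.ext ?_ ?_
  · rw [dg_smul_z]
    show D.emb i a * ((P i).z + u i) = ((dg a • P) i).z + D.emb i a * u i
    rw [dg_smul_z]; ring
  · rw [dg_smul_t]
    show ‖D.emb i a‖ * (P i).t = ((dg a • P) i).t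
    rw [dg_smul_t]

theorem dg_smul_trX (a : Fˣ) (u : D.I → ℂ) (x : X D) :
    pmk (dg a) • trX u x = trX (mulE D.toArch a u) (pmk (dg a) • x) :=
  Prod.ext (dg_smul_XI a u x.1) rfl

/-! ### automorphic functions and constant terms -/

/-- continuous `PGL₂(F)`-invariant functions -/
structure IsAut (φ : X D → ℂ) : Prop where
  cont : Continuous φ
  inv : ∀ (γ : PG F) x, φ (γ • x) = φ x

theorem IsAut.continuous_tr {φ : X D → ℂ} (h : IsAut φ) (x : X D) :
    Continuous fun u => φ (trX u x) :=
  h.cont.comp (continuous_trX.comp (by fun_prop : Continuous fun u => ((u, x) : (D.I → ℂ) × X D)))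

theorem IsAut.periodic {φ : X D → ℂ} (h : IsAut φ) (x : X D) {w : D.I → ℂ}
    (hw : w ∈ bLat D.toArch x.2) (u : D.I → ℂ) : φ (trX (u + w) x) = φ (trX u x) := by
  obtain ⟨β, hβ, rfl⟩ := hw
  have h1 : (embI D.toArch).toAddMonoidHom β = embI D.toArch β := rfl
  rw [h1, trX_add_embI u x hβ, h.inv]

/-- size of the chosen period basis -/
noncomputable def pbn {U : Level F} (A : Arch F) (y : Y U) : ℕ :=
  (exists_period_basis (D := { A with toLevel := U }) y (trans_fix y)).choose

/-- the chosen period basis -/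
noncomputable def pb {U : Level F} (A : Arch F) (y : Y U) :
    Module.Basis (Fin (pbn A y)) ℝ (A.I → ℂ) :=
  (exists_period_basis (D := { A with toLevel := U }) y (trans_fix y)).choose_spec.choose

theorem pb_mem {U : Level F} (A : Arch F) (y : Y U) (l) : pb A y l ∈ bLat A y :=
  (exists_period_basis (D := { A with toLevel := U }) y (trans_fix y)).choose_spec.choose_spec l

/-- The constant term at the cusp `∞`. -/
noncomputable def constTerm (φ : X D → ℂ) (x : X D) : ℂ :=
  boxMean (pb D.toArch x.2) (fun u => φ (trX u x)) 0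

theorem constTerm_eq {φ : X D → ℂ} (h : IsAut φ) (x : X D) {n : ℕ}
    (b : Module.Basis (Fin n) ℝ (D.I → ℂ)) (hb : ∀ l, b l ∈ bLat D.toArch x.2) :
    constTerm φ x = boxMean b (fun u => φ (trX u x)) 0 :=
  boxMean_indep _ b (h.continuous_tr x) (fun l v => h.periodic x (pb_mem _ _ l) v)
    (fun l v => h.periodic x (hb l) v)

theorem meanZero_iff {φ : X D → ℂ} (h : IsAut φ) : MeanZero φ ↔ ∀ x, constTerm φ x = 0 := by
  constructor
  · intro h' x
    exact h' x _ (pb D.toArch x.2) (pb_mem _ _)
  · intro h' x n b hb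
    rw [← constTerm_eq h x b hb, h' x]

/-- invariance under real translations -/
theorem constTerm_trX {φ : X D → ℂ} (h : IsAut φ) (u : D.I → ℂ) (x : X D) :
    constTerm φ (trX u x) = constTerm φ x := by
  have h1 := boxMean_eq_zero_point (pb D.toArch x.2) (h.continuous_tr x)
    (fun l v => h.periodic x (pb_mem _ _ l) v) u
  unfold constTerm
  rw [← h1]
  unfold boxMean
  refine integral_congr_ae (Filter.Eventually.of_forall fun s => ?_)
  show φ (trX (0 + _) (trX u x)) = φ (trX (u + _) x)
  rw [trX_trX, zero_add, add_comm u]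
  rfl

theorem bLat_un (A : Arch F) {U : Level F} (β : F) (y : Y U) : bLat A (un β • y) = bLat A y := by
  have h1 : bY (un β • y) = bY y := by
    ext b
    show un b • un β • y = un β • y ↔ un b • y = y
    rw [← mul_smul, ← un_add, add_comm, un_add, mul_smul]
    exact (MulAction.injective (un β)).eq_iff
  rw [bLat, bLat, h1]

/-- invariance under `un β` -/
theorem constTerm_un {φ : X D → ℂ} (h : IsAut φ) (β : F) (x : X D) :
    constTerm φ (pmk (un β) • x) = constTerm φ x := by
  have h2 : (pmk (un β) • x).2 = un β • x.2 := rfl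
  rw [constTerm_eq h (pmk (un β) • x) (pb D.toArch x.2) (fun l => by
    rw [h2, bLat_un]; exact pb_mem _ _ l)]
  unfold constTerm
  congr 1
  funext u
  have h3 : trX u (pmk (un β) • x) = pmk (un β) • trX u x := by
    rw [pmk_un_smul, pmk_un_smul]
    refine Prod.ext ?_ rfl
    funext i
    refine H3.ext ?_ rfl
    show (x.1 i).z + D.emb i β + u i = (x.1 i).z + u i + D.emb i β
    ring
  rw [h3, h.inv]

/-- `constTerm` only depends on the finite component up to unipotents (local at every place). -/
theorem constTerm_fin {φ : X D → ℂ} (h : IsAut φ) (P : XI D.toArch) (y y' : Y D.toLevel)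
    (hy : ∀ w, ∃ β : F, y' w = un β • y w) : constTerm φ (P, y') = constTerm φ (P, y) := by
  obtain ⟨β, rfl⟩ := exists_un_eq y y' hy
  have h1 : ((P, un β • y) : X D) = pmk (un β) • trX (-(embI D.toArch β)) (P, y) := by
    rw [pmk_un_smul]
    refine Prod.ext ?_ rfl
    funext i
    refine H3.ext ?_ rfl
    show (P i).z = (P i).z + -(D.emb i β) + D.emb i β
    ring
  rw [h1, constTerm_un h, constTerm_trX h]

omit [NumberField F] in
theorem dg_mul_un (a : Fˣ) (b : F) : dg a * un b = un (a * b) * dg a := by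
  ext i j
  fin_cases i <;> fin_cases j <;>
    simp [dg, un, Matrix.GeneralLinearGroup.mkOfDetNeZero, Matrix.mul_apply, Fin.sum_univ_two]

theorem mulE_symm_mem (A : Arch F) {U : Level F} (a : Fˣ) (y : Y U) {w : A.I → ℂ}
    (hw : w ∈ bLat A (dg a • y)) : (mulE A a).symm w ∈ bLat A y := by
  obtain ⟨β, hβ, rfl⟩ := hw
  refine ⟨(a⁻¹ : Fˣ) * β, ?_, ?_⟩
  · show un (((a⁻¹ : Fˣ) : F) * β) • y = y
    have h1 : un β • dg a • y = dg a • y := hβ
    have h2 : dg a * un (((a⁻¹ : Fˣ) : F) * β) = un β * dg a := by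
      rw [dg_mul_un, ← mul_assoc, ← Units.val_mul, mul_inv_cancel, Units.val_one, one_mul]
    have h3 : dg a • un (((a⁻¹ : Fˣ) : F) * β) • y = dg a • y := by
      rw [← mul_smul, h2, mul_smul, h1]
    exact MulAction.injective _ h3
  · rw [LinearEquiv.eq_symm_apply, mulE_apply]
    show embI A a * embI A (((a⁻¹ : Fˣ) : F) * β) = embI A β
    rw [← map_mul, ← mul_assoc, ← Units.val_mul, mul_inv_cancel, Units.val_one, one_mul]

theorem boxMean_map {V : Type*} [AddCommGroup V] [Module ℝ V] {ι : Type*} [Fintype ι] (b : ι → V)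
    (e : V →ₗ[ℝ] V) (f : V → ℂ) : boxMean b (fun u => f (e u)) 0 = boxMean (fun l => e (b l)) f 0 := by
  unfold boxMean
  refine integral_congr_ae (Filter.Eventually.of_forall fun s => ?_)
  show f (e (0 + _)) = f (0 + _)
  rw [zero_add, zero_add, map_sum]
  simp_rw [map_smul]

/-- invariance under the diagonal torus -/
theorem constTerm_dg {φ : X D → ℂ} (h : IsAut φ) (a : Fˣ) (x : X D) :
    constTerm φ (pmk (dg a) • x) = constTerm φ x := by
  have h2 : (pmk (dg a) • x).2 = dg a • x.2 := rfl
  set b := pb D.toArch (dg a • x.2) with hb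
  have hbm : ∀ l, b l ∈ bLat D.toArch (dg a • x.2) := pb_mem _ _
  set b' : Module.Basis (Fin (pbn D.toArch (dg a • x.2))) ℝ (D.I → ℂ) :=
    b.map (mulE D.toArch a).symm with hb'
  have hb'm : ∀ l, b' l ∈ bLat D.toArch x.2 := by
    intro l
    rw [hb', Module.Basis.map_apply]
    exact mulE_symm_mem _ a _ (hbm l)
  rw [constTerm_eq h (pmk (dg a) • x) b (fun l => by rw [h2]; exact hbm l),
    constTerm_eq h x b' hb'm]
  have h3 : (⇑b' : _ → D.I → ℂ) = fun l => (mulE D.toArch a).symm.toLinearMap (b l) := by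
    funext l
    rw [hb', Module.Basis.map_apply]; rfl
  rw [h3, ← boxMean_map]
  congr 1
  funext u
  have h4 : trX u (pmk (dg a) • x) = pmk (dg a) • trX ((mulE D.toArch a).symm u) x := by
    rw [dg_smul_trX, LinearEquiv.apply_symm_apply]
  rw [h4, h.inv]
  rfl

end Fermat.Agent.LT.B
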