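import Fermat.Agent.LT.B.Rep
import Fermat.Agent.LT.B.PoincareSeries
import Fermat.Agent.LT.A.H3Top

/-!
LT piece B (helper31): polynomial bound for the number of `γ ∈ PGL₂(F)` with `γ y = y'` moving a
point of `(H³)^I` by a bounded distance.
-/

open NumberField IsDedekindDomain Matrix Fermat.LT

namespace Fermat.Agent.LT.B

/-! ### archimedean estimates -/

/-- comparison of the forms of two points -/
theorem Q_le_two_ch_mul (P P' : H3) (x y : ℂ) : P.Q x y ≤ 2 * H3.ch P P' * P'.Q x y := by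
  have h1 := P.t_pos
  have h2 := P'.t_pos
  set w := P.z - P'.z with hw
  set u := x - P'.z * y with hu
  have e1 : x - P.z * y = u - w * y := by rw [hu, hw]; ring
  unfold H3.Q H3.ch
  rw [← hw, ← hu, e1]
  have h3 : Complex.normSq (u - w * y)
      ≤ Complex.normSq u + Complex.normSq w * Complex.normSq y + 2 * (‖u‖ * (‖w‖ * ‖y‖)) := by
    rw [Complex.normSq_eq_norm_sq, Complex.normSq_eq_norm_sq, Complex.normSq_eq_norm_sq,
      Complex.normSq_eq_norm_sq]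
    have h4 : ‖u - w * y‖ ≤ ‖u‖ + ‖w‖ * ‖y‖ := by
      refine (norm_sub_le _ _).trans ?_
      rw [norm_mul]
    have h5 : ‖u - w * y‖ ^ 2 ≤ (‖u‖ + ‖w‖ * ‖y‖) ^ 2 := by gcongr
    nlinarith [norm_nonneg u, norm_nonneg w, norm_nonneg y]
  rw [Complex.normSq_eq_norm_sq u, Complex.normSq_eq_norm_sq w, Complex.normSq_eq_norm_sq y] at h3
  rw [Complex.normSq_eq_norm_sq u, Complex.normSq_eq_norm_sq w, Complex.normSq_eq_norm_sq y]
  have hu0 := norm_nonneg u
  have hw0 := norm_nonneg w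
  have hy0 := norm_nonneg y
  set a := ‖u‖
  set b := ‖w‖
  set c := ‖y‖
  set t := P.t
  set s := P'.t
  have e2 : 2 * ((b ^ 2 + t ^ 2 + s ^ 2) / (2 * t * s)) * ((a ^ 2 + s ^ 2 * c ^ 2) / s)
      = 2 * (b ^ 2 + t ^ 2 + s ^ 2) * (a ^ 2 + s ^ 2 * c ^ 2) / (2 * t * s * s) := by
    field_simp
  rw [e2, div_le_div_iff₀ h1 (by positivity)]
  have key : (Complex.normSq (u - w * y) + t ^ 2 * c ^ 2) * s ^ 2
      ≤ (b ^ 2 + t ^ 2 + s ^ 2) * (a ^ 2 + s ^ 2 * c ^ 2) := by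
    have h6 : (Complex.normSq (u - w * y) + t ^ 2 * c ^ 2) * s ^ 2
        ≤ (a ^ 2 + b ^ 2 * c ^ 2 + 2 * (a * (b * c)) + t ^ 2 * c ^ 2) * s ^ 2 := by gcongr
    refine h6.trans ?_
    nlinarith [sq_nonneg (a * b - s ^ 2 * c), sq_nonneg (t * a), mul_nonneg (mul_nonneg hu0 hw0) hy0]
  calc (Complex.normSq (u - w * y) + t ^ 2 * c ^ 2) * (2 * t * s * s)
      = 2 * t * ((Complex.normSq (u - w * y) + t ^ 2 * c ^ 2) * s ^ 2) := by ring
    _ ≤ 2 * t * ((b ^ 2 + t ^ 2 + s ^ 2) * (a ^ 2 + s ^ 2 * c ^ 2)) := by gcongr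
    _ = 2 * (b ^ 2 + t ^ 2 + s ^ 2) * (a ^ 2 + s ^ 2 * c ^ 2) * t := by ring

/-- the size function -/
noncomputable def sz (P : H3) : ℝ := (P.t + 1 / P.t + 1) * (1 + ‖P.z‖) ^ 2

theorem one_le_sz (P : H3) : 1 ≤ sz P := by
  have h1 := P.t_pos
  have h2 : 0 < 1 / P.t := by positivity
  have h3 := norm_nonneg P.z
  have h4 : 1 ≤ P.t + 1 / P.t + 1 := by linarith
  have h5 : 1 ≤ (1 + ‖P.z‖) ^ 2 := by nlinarith
  calc (1 : ℝ) = 1 * 1 := (one_mul 1).symm
    _ ≤ _ := mul_le_mul h4 h5 zero_le_one (by linarith)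

/-- bound for the entries -/
theorem norm_entry_le (g : GL (Fin 2) ℂ) (P : H3) {R ρ : ℝ} (hρ : 0 ≤ ρ)
    (h : H3.ch P (g • P) ≤ R)
    (hρR : 2 * R * ‖(g : Matrix (Fin 2) (Fin 2) ℂ).det‖ ≤ ρ ^ 2) (i j : Fin 2) :
    ‖g i j‖ ≤ ρ * sz P := by
  have ht := P.t_pos
  set a := g 0 0 with ha
  set b := g 0 1 with hb
  set c := g 1 0 with hc
  set d := g 1 1 with hd
  set t := P.t with htdef
  set z := P.z with hz
  have hR1 : 0 ≤ 2 * R := by
    have := (H3.one_le_ch P (g • P)).trans h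
    linarith
  have key : ∀ x y, P.Q (a * x + b * y) (c * x + d * y) ≤ ρ ^ 2 * P.Q x y := by
    intro x y
    calc P.Q (a * x + b * y) (c * x + d * y)
        ≤ 2 * H3.ch P (g • P) * (g • P).Q (a * x + b * y) (c * x + d * y) :=
          Q_le_two_ch_mul _ _ _ _
      _ ≤ 2 * R * (g • P).Q (a * x + b * y) (c * x + d * y) := by
          gcongr
          exact (g • P).Q_nonneg _ _
      _ = (2 * R * ‖(g : Matrix (Fin 2) (Fin 2) ℂ).det‖) * P.Q x y := by
          rw [H3.Q_smul_apply]; ring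
      _ ≤ ρ ^ 2 * P.Q x y := by
          gcongr
          exact P.Q_nonneg _ _
  have k1 := key 1 0
  have k2 := key z 1
  simp only [mul_one, mul_zero, add_zero] at k1 k2
  unfold H3.Q at k1 k2
  rw [← hz, ← htdef] at k1 k2
  simp only [Complex.normSq_eq_norm_sq] at k1 k2
  simp only [mul_zero, sub_zero, norm_one, one_pow, norm_zero, mul_one, sub_self] at k1 k2
  have e0 : (0 : ℝ) ^ 2 = 0 := by norm_num
  rw [e0] at k1 k2
  simp only [mul_zero, add_zero, zero_add] at k1 k2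
  rw [mul_one_div, div_le_div_iff_of_pos_right ht] at k1
  rw [mul_div_assoc', div_le_div_iff_of_pos_right ht] at k2
  have hc1 : ‖c‖ ≤ ρ / t := by
    rw [le_div_iff₀ ht]
    refine le_of_sq_le_sq ?_ hρ
    nlinarith [sq_nonneg ‖a - z * c‖]
  have ha1 : ‖a - z * c‖ ≤ ρ := by
    refine le_of_sq_le_sq ?_ hρ
    nlinarith [sq_nonneg (t * ‖c‖)]
  have hd1 : ‖c * z + d‖ ≤ ρ := by
    refine le_of_sq_le_sq ?_ hρ
    have : t ^ 2 * ‖c * z + d‖ ^ 2 ≤ t ^ 2 * ρ ^ 2 := by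
      nlinarith [sq_nonneg ‖a * z + b - z * (c * z + d)‖]
    exact le_of_mul_le_mul_left this (by positivity)
  have hb1 : ‖a * z + b - z * (c * z + d)‖ ≤ ρ * t := by
    refine le_of_sq_le_sq ?_ (by positivity)
    nlinarith [sq_nonneg (t * ‖c * z + d‖)]
  set ζ := ‖z‖ with hζ
  have hζ0 : 0 ≤ ζ := norm_nonneg z
  have hti : 0 < 1 / t := by positivity
  have hcc : ‖c‖ ≤ ρ * (1 / t) := by rw [mul_one_div]; exact hc1
  have haa : ‖a‖ ≤ ρ + ζ * (ρ * (1 / t)) := by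
    have : a = (a - z * c) + z * c := by ring
    rw [this]
    refine (norm_add_le _ _).trans ?_
    rw [norm_mul]
    gcongr
  have hdd : ‖d‖ ≤ ρ + ζ * (ρ * (1 / t)) := by
    have : d = (c * z + d) - z * c := by ring
    rw [this]
    refine (norm_sub_le _ _).trans ?_
    rw [norm_mul]
    gcongr
  have hbb : ‖b‖ ≤ ρ * t + ζ * ρ + ζ * (ρ + ζ * (ρ * (1 / t))) := by
    have : b = (a * z + b - z * (c * z + d)) + z * (c * z + d) - z * a := by ring
    rw [this]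
    refine (norm_sub_le _ _).trans ?_
    rw [norm_mul z a]
    refine add_le_add ((norm_add_le _ _).trans ?_) (by gcongr)
    rw [norm_mul]
    gcongr
  have e1 : ρ * sz P = ρ * (t + 1 / t + 1) * (1 + ζ) ^ 2 := by
    rw [sz]; ring
  rw [e1]
  set q := 1 / t with hq
  have hall : ∀ x : ℝ, (x ≤ ρ * q ∨ x ≤ ρ + ζ * (ρ * q) ∨ x ≤ ρ * t + ζ * ρ + ζ * (ρ + ζ * (ρ * q)))
      → x ≤ ρ * (t + q + 1) * (1 + ζ) ^ 2 := by
    intro x hx
    have p1 : 0 ≤ ρ * t := by positivity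
    have p2 : 0 ≤ ρ * q := by positivity
    have p3 : 0 ≤ ρ * ζ := by positivity
    have p4 : 0 ≤ ρ * t * ζ := by positivity
    have p5 : 0 ≤ ρ * q * ζ := by positivity
    have p6 : 0 ≤ ρ * t * ζ ^ 2 := by positivity
    have p7 : 0 ≤ ρ * q * ζ ^ 2 := by positivity
    have p8 : 0 ≤ ρ * ζ ^ 2 := by positivity
    have e2 : ρ * (t + q + 1) * (1 + ζ) ^ 2 = ρ * t + ρ * q + ρ + 2 * (ρ * t * ζ) + 2 * (ρ * q * ζ)
        + 2 * (ρ * ζ) + ρ * t * ζ ^ 2 + ρ * q * ζ ^ 2 + ρ * ζ ^ 2 := by ring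
    rw [e2]
    rcases hx with h | h | h
    · linarith
    · linarith [show ζ * (ρ * q) = ρ * q * ζ by ring]
    · linarith [show ζ * (ρ * q) = ρ * q * ζ by ring, show ζ * ρ = ρ * ζ by ring,
        show ζ * (ρ + ζ * (ρ * q)) = ρ * ζ + ρ * q * ζ ^ 2 by ring]
  fin_cases i <;> fin_cases j
  · exact hall _ (Or.inr (Or.inl haa))
  · exact hall _ (Or.inr (Or.inr hbb))
  · exact hall _ (Or.inl hcc)
  · exact hall _ (Or.inr (Or.inl hdd))

/-! ### lattice points -/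

section lattice

variable {F : Type} [Field F] [NumberField F] (A : Arch F)

theorem exists_one_le_norm_emb {a : 𝓞 F} (ha : a ≠ 0) : ∃ i, 1 ≤ ‖A.emb i a‖ := by
  by_contra hcon
  push Not at hcon
  have ha' : (a : F) ≠ 0 := by exact_mod_cast ha
  have h := prod_formula A ha'
  have hle : ∏ᶠ w : Pl F, av w (a : F) ≤ 1 := by
    rw [finprod_eq_prod_of_mulSupport_subset (s := (av_finite ha').toFinset)]
    · exact Finset.prod_le_one (fun w _ => (av w).nonneg _) (fun w _ => av_int_le_one w a)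
    · intro w hw; simpa using hw
  have hpos : 0 ≤ ∏ᶠ w : Pl F, av w (a : F) := finprod_nonneg fun w => (av w).nonneg _
  have hne : Nonempty A.I := by
    obtain ⟨v⟩ : Nonempty (InfinitePlace F) := inferInstance
    exact ⟨(A.bij.2 v).choose⟩
  have hlt : ∏ i, ‖A.emb i a‖ ^ 2 < 1 := by
    obtain ⟨i0⟩ := hne
    rw [← Finset.mul_prod_erase _ _ (Finset.mem_univ i0)]
    have h1 : ‖A.emb i0 a‖ ^ 2 < 1 := by
      have := hcon i0
      have h0 := norm_nonneg (A.emb i0 a)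
      nlinarith
    have h2 : ∏ i ∈ Finset.univ.erase i0, ‖A.emb i a‖ ^ 2 ≤ 1 :=
      Finset.prod_le_one (fun i _ => by positivity) (fun i _ => by
        have := hcon i
        have h0 := norm_nonneg (A.emb i a)
        nlinarith)
    calc ‖A.emb i0 a‖ ^ 2 * ∏ i ∈ Finset.univ.erase i0, ‖A.emb i a‖ ^ 2
        ≤ ‖A.emb i0 a‖ ^ 2 * 1 := by gcongr
      _ < 1 := by rw [mul_one]; exact h1
  have h3 : 0 ≤ ∏ i, ‖A.emb i a‖ ^ 2 := Finset.prod_nonneg fun i _ => by positivity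
  nlinarith

/-- counting integers of bounded size -/
theorem count_int {B : ℝ} (hB : 0 ≤ B) : {a : 𝓞 F | ∀ i, ‖A.emb i a‖ ≤ B}.Finite ∧
    ({a : 𝓞 F | ∀ i, ‖A.emb i a‖ ≤ B}.ncard : ℝ) ≤ (4 * B + 5) ^ (2 * Fintype.card A.I) := by
  classical
  set N : ℤ := ⌈2 * B⌉ with hN
  have hN0 : 0 ≤ N := Int.ceil_nonneg (by positivity)
  let T : Finset (A.I → ℤ × ℤ) := Fintype.piFinset fun _ =>
    (Finset.Icc (-N-1) N) ×ˢ (Finset.Icc (-N-1) N)
  let f : 𝓞 F → (A.I → ℤ × ℤ) := fun a i => (⌊2 * (A.emb i a).re⌋, ⌊2 * (A.emb i a).im⌋)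
  have hmaps : ∀ a ∈ {a : 𝓞 F | ∀ i, ‖A.emb i a‖ ≤ B}, f a ∈ (T : Set (A.I → ℤ × ℤ)) := by
    intro a ha
    rw [Finset.mem_coe, Fintype.mem_piFinset]
    intro i
    have h1 := ha i
    have h2 := (Complex.abs_re_le_norm (A.emb i a)).trans h1
    have h3 := (Complex.abs_im_le_norm (A.emb i a)).trans h1
    rw [abs_le] at h2 h3
    have hceil := Int.le_ceil (2 * B)
    simp only [f, Finset.mem_product, Finset.mem_Icc]
    refine ⟨⟨?_, ?_⟩, ?_, ?_⟩
    · rw [Int.le_floor]; push_cast; linarith [h2.1]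
    · have : ⌊2 * (A.emb i a).re⌋ ≤ ⌈2 * B⌉ := (Int.floor_mono (by linarith [h2.2])).trans (Int.floor_le_ceil _)
      exact this
    · rw [Int.le_floor]; push_cast; linarith [h3.1]
    · have : ⌊2 * (A.emb i a).im⌋ ≤ ⌈2 * B⌉ := (Int.floor_mono (by linarith [h3.2])).trans (Int.floor_le_ceil _)
      exact this
  have hinj : Set.InjOn f {a : 𝓞 F | ∀ i, ‖A.emb i a‖ ≤ B} := by
    intro a _ b _ hab
    by_contra hne
    obtain ⟨i, hi⟩ := exists_one_le_norm_emb A (sub_ne_zero.2 hne)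
    have h1 := congrFun hab i
    simp only [f, Prod.mk.injEq] at h1
    have h2 := Int.abs_sub_lt_one_of_floor_eq_floor h1.1
    have h3 := Int.abs_sub_lt_one_of_floor_eq_floor h1.2
    have e1 : A.emb i ((a - b : 𝓞 F) : F) = A.emb i a - A.emb i b := by
      push_cast
      rw [map_sub]
    rw [e1] at hi
    have h4 : ‖A.emb i a - A.emb i b‖ ^ 2 < 1 := by
      rw [← Complex.normSq_eq_norm_sq, Complex.normSq_apply, Complex.sub_re, Complex.sub_im]
      rw [abs_lt] at h2 h3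
      nlinarith
    nlinarith [norm_nonneg (A.emb i a - A.emb i b)]
  refine ⟨Set.Finite.of_injOn hmaps hinj T.finite_toSet, ?_⟩
  have h1 : {a : 𝓞 F | ∀ i, ‖A.emb i a‖ ≤ B}.ncard ≤ (T : Set (A.I → ℤ × ℤ)).ncard :=
    Set.ncard_le_ncard_of_injOn f hmaps hinj T.finite_toSet
  rw [Set.ncard_coe_finset] at h1
  have h2 : (T.card : ℝ) ≤ (4 * B + 5) ^ (2 * Fintype.card A.I) := by
    rw [Fintype.card_piFinset]
    simp only [Finset.card_product, Int.card_Icc, Finset.prod_const, Finset.card_univ]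
    push_cast
    rw [← sq, ← pow_mul]
    have h3 : (((N + 1 - (-N - 1)).toNat : ℕ) : ℝ) ≤ 4 * B + 5 := by
      have h4 : (((N + 1 - (-N - 1)).toNat : ℕ) : ℝ) = (2 * N + 2 : ℤ) := by
        have : (((N + 1 - (-N - 1)).toNat : ℕ) : ℤ) = 2 * N + 2 := by
          rw [Int.toNat_of_nonneg (by linarith)]; ring
        exact_mod_cast this
      rw [h4]
      have h5 := Int.ceil_lt_add_one (2 * B)
      push_cast
      rw [← hN] at h5
      linarith
    gcongr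
  calc ({a : 𝓞 F | ∀ i, ‖A.emb i a‖ ≤ B}.ncard : ℝ) ≤ (T.card : ℝ) := by exact_mod_cast h1
    _ ≤ _ := h2

end lattice

section count

variable {F : Type} [Field F] [NumberField F] {D : Datum F}

/-- **[A-count]**: polynomial bound for the number of elements `γ` with `γ y = y'` moving `P`
by a bounded distance. -/
theorem exists_count (y y' : Y D.toLevel) (R : ℝ) : ∃ C : ℝ, 0 ≤ C ∧
    ∀ (P : XI D.toArch) (S : ℝ), 1 ≤ S → (∀ i, sz (P i) ≤ S) →
      {γ : PG F | γ • y = y' ∧ ∀ i, H3.ch (P i) ((γ • P) i) ≤ R}.Finite ∧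
      ({γ : PG F | γ • y = y' ∧ ∀ i, H3.ch (P i) ((γ • P) i) ≤ R}.ncard : ℝ)
        ≤ C * S ^ (8 * Fintype.card D.I) := by
  classical
  obtain ⟨𝒟, h𝒟, -, hrep⟩ := exists_rep y y'
  -- a bound for the determinants
  have hbd : ∃ ρ : ℝ, 0 ≤ ρ ∧ ∀ d ∈ 𝒟, ∀ i, 2 * R * ‖D.emb i (d : F)‖ ≤ ρ ^ 2 := by
    set T : ℝ := ∑ d ∈ h𝒟.toFinset, ∑ i, |2 * R * ‖D.emb i (d : F)‖| with hT
    have hT0 : 0 ≤ T := Finset.sum_nonneg fun d _ => Finset.sum_nonneg fun i _ => abs_nonneg _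
    refine ⟨T + 1, by positivity, fun d hd i => ?_⟩
    have h1 : |2 * R * ‖D.emb i (d : F)‖| ≤ ∑ i, |2 * R * ‖D.emb i (d : F)‖| :=
      Finset.single_le_sum (f := fun i => |2 * R * ‖D.emb i (d : F)‖|)
        (fun i _ => abs_nonneg _) (Finset.mem_univ i)
    have h2 : ∑ i, |2 * R * ‖D.emb i (d : F)‖| ≤ T :=
      Finset.single_le_sum (f := fun d : 𝓞 F => ∑ i, |2 * R * ‖D.emb i (d : F)‖|)
        (fun d _ => Finset.sum_nonneg fun i _ => abs_nonneg _) (by simpa using hd)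
    have h3 := le_abs_self (2 * R * ‖D.emb i (d : F)‖)
    nlinarith
  obtain ⟨ρ, hρ0, hρ⟩ := hbd
  refine ⟨(4 * ρ + 5) ^ (8 * Fintype.card D.I), by positivity, fun P S hS hPS => ?_⟩
  set B : ℝ := ρ * S with hB
  have hB0 : 0 ≤ B := by positivity
  obtain ⟨hfin, hcard⟩ := count_int D.toArch hB0
  set T : Set (PG F) := {γ : PG F | γ • y = y' ∧ ∀ i, H3.ch (P i) ((γ • P) i) ≤ R} with hT
  -- representatives
  have hex : ∀ γ : PG F, ∃ a : Fin 2 × Fin 2 → 𝓞 F, γ ∈ T →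
      (∃ g : G2 F, pmk g = γ ∧ (∀ p, (a p : F) = g.1 p.1 p.2) ∧
        ∀ p i, ‖D.emb i (a p : F)‖ ≤ B) := by
    intro γ
    by_cases hγ : γ ∈ T
    · obtain ⟨g, hg, hint, d, hd, hdet⟩ := hrep γ hγ.1
      choose a ha using hint
      refine ⟨fun p => a p.1 p.2, fun _ => ⟨g, hg, fun p => ha p.1 p.2, ?_⟩⟩
      intro p i
      rw [ha]
      set g' := Matrix.GeneralLinearGroup.map (n := Fin 2) (D.emb i) g with hg'
      have e1 : ∀ a b, g' a b = D.emb i (g.1 a b) := fun a b => rfl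
      have e2 : (γ • P) i = g' • (P i) := by
        rw [← hg]
        rfl
      have h1 : H3.ch (P i) (g' • P i) ≤ R := by
        rw [← e2]; exact hγ.2 i
      have hdet' : (g' : Matrix (Fin 2) (Fin 2) ℂ).det = D.emb i (d : F) := by
        rw [hdet, Matrix.det_fin_two, Matrix.det_fin_two, map_sub, map_mul, map_mul]
        rfl
      have h2 := norm_entry_le g' (P i) hρ0 h1 (by rw [hdet']; exact hρ d hd i) p.1 p.2
      rw [e1] at h2
      refine h2.trans ?_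
      rw [hB]
      exact mul_le_mul_of_nonneg_left (hPS i) hρ0
    · exact ⟨0, fun h => absurd h hγ⟩
  choose a ha using hex
  let E : Finset (Fin 2 × Fin 2 → 𝓞 F) := Fintype.piFinset fun _ => hfin.toFinset
  have hmaps : ∀ γ ∈ T, a γ ∈ (E : Set (Fin 2 × Fin 2 → 𝓞 F)) := by
    intro γ hγ
    obtain ⟨g, -, -, h3⟩ := ha γ hγ
    rw [Finset.mem_coe, Fintype.mem_piFinset]
    intro p
    rw [Set.Finite.mem_toFinset]
    exact fun i => h3 p i
  have hinj : Set.InjOn a T := by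
    intro γ hγ γ' hγ' haa
    obtain ⟨g, hg, h2, -⟩ := ha γ hγ
    obtain ⟨g', hg', h2', -⟩ := ha γ' hγ'
    have : g = g' := by
      apply Units.ext
      ext i j
      rw [← h2 (i, j), ← h2' (i, j), haa]
    rw [← hg, ← hg', this]
  refine ⟨Set.Finite.of_injOn hmaps hinj E.finite_toSet, ?_⟩
  have h1 : T.ncard ≤ (E : Set (Fin 2 × Fin 2 → 𝓞 F)).ncard :=
    Set.ncard_le_ncard_of_injOn a hmaps hinj E.finite_toSet
  rw [Set.ncard_coe_finset] at h1
  have h2 : (E.card : ℝ) ≤ ((4 * B + 5) ^ (2 * Fintype.card D.I)) ^ 4 := by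
    rw [Fintype.card_piFinset]
    simp only [Finset.prod_const, Finset.card_univ, Fintype.card_prod, Fintype.card_fin]
    push_cast
    have h3 : (hfin.toFinset.card : ℝ) ≤ (4 * B + 5) ^ (2 * Fintype.card D.I) := by
      rw [Set.ncard_eq_toFinset_card _ hfin] at hcard
      exact hcard
    exact pow_le_pow_left₀ (Nat.cast_nonneg _) h3 4
  calc (T.ncard : ℝ) ≤ (E.card : ℝ) := by exact_mod_cast h1
    _ ≤ ((4 * B + 5) ^ (2 * Fintype.card D.I)) ^ 4 := h2
    _ = (4 * B + 5) ^ (8 * Fintype.card D.I) := by rw [← pow_mul]; congr 1; ring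
    _ ≤ ((4 * ρ + 5) * S) ^ (8 * Fintype.card D.I) := by
        gcongr
        rw [hB]
        nlinarith
    _ = _ := mul_pow _ _ _

end count

end Fermat.Agent.LT.B
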