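import Fermat.Agent.LT.B.Regular

set_option autoImplicit false

/-!
# LT, piece B: joint eigenspaces as spaces of continuous functions

`eigSpace`: the space of continuous bounded `Γ`-invariant functions `φ` on `X` with
`∫ k_j(x,y) φ(y) dμ(y) = c_j φ(x)` for all `j`, `x`. If some `c_j ≠ 0` this is isomorphic to the
joint eigenspace in `L²(Γ\X)`.
-/

set_option linter.unusedSectionVars false

open MeasureTheory MulAction Set Filter Topology
open scoped ENNReal ComplexConjugate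

namespace Fermat.Agent.LT.B

variable {Γ X : Type*} [Group Γ] [MulAction Γ X] [TopologicalSpace X] [MeasurableSpace X]

/-- Continuous bounded `Γ`-invariant functions. -/
def autFun (Γ X : Type*) [Group Γ] [MulAction Γ X] [TopologicalSpace X] : Submodule ℂ (X → ℂ) where
  carrier := {φ | Continuous φ ∧ (∀ (γ : Γ) x, φ (γ • x) = φ x) ∧ ∃ B : ℝ, ∀ x, ‖φ x‖ ≤ B}
  add_mem' := by
    rintro φ ψ ⟨h1, h2, B, h3⟩ ⟨h1', h2', B', h3'⟩
    refine ⟨h1.add h1', fun γ x => by rw [Pi.add_apply, Pi.add_apply, h2, h2'], B + B', fun x => ?_⟩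
    exact (norm_add_le _ _).trans (add_le_add (h3 x) (h3' x))
  zero_mem' := ⟨continuous_const, fun _ _ => rfl, 0, fun x => by simp⟩
  smul_mem' := by
    rintro c φ ⟨h1, h2, B, h3⟩
    refine ⟨h1.const_smul c, fun γ x => by rw [Pi.smul_apply, Pi.smul_apply, h2], ‖c‖ * B,
      fun x => ?_⟩
    rw [Pi.smul_apply, norm_smul]
    exact mul_le_mul_of_nonneg_left (h3 x) (norm_nonneg _)

theorem mem_autFun {φ : X → ℂ} : φ ∈ autFun Γ X ↔
    Continuous φ ∧ (∀ (γ : Γ) x, φ (γ • x) = φ x) ∧ ∃ B : ℝ, ∀ x, ‖φ x‖ ≤ B := Iff.rfl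

/-- Joint eigenfunctions. -/
def eigSpace (Γ : Type*) {X J : Type*} [Group Γ] [MulAction Γ X] [TopologicalSpace X]
    [MeasurableSpace X] (μ : Measure X) (k : J → X → X → ℂ) (c : J → ℂ) : Set (X → ℂ) :=
  {φ | φ ∈ autFun Γ X ∧ ∀ j x, appK μ (k j) φ x = c j * φ x}

section lin

variable [T2Space X] [LocallyCompactSpace X] [SecondCountableTopology X] [BorelSpace X]
  {μ : Measure X} [IsFiniteMeasureOnCompacts μ] {k : X → X → ℂ}

theorem CKer.appK_add (hk : CKer Γ k) {φ ψ : X → ℂ} (hφ : Continuous φ) (hψ : Continuous ψ)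
    (x : X) : appK μ k (φ + ψ) x = appK μ k φ x + appK μ k ψ x := by
  unfold appK
  rw [← integral_add (hk.integrable hφ.locallyIntegrable x)
    (hk.integrable hψ.locallyIntegrable x)]
  refine integral_congr_ae (Eventually.of_forall fun y => ?_)
  simp only [Pi.add_apply]; ring

theorem appK_smul_fun (c : ℂ) (φ : X → ℂ) (x : X) :
    appK μ k (c • φ) x = c * appK μ k φ x := by
  unfold appK
  rw [← integral_const_mul]
  refine integral_congr_ae (Eventually.of_forall fun y => ?_)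
  simp only [Pi.smul_apply, smul_eq_mul]; ring

end lin

section equiv

variable [Countable Γ] [T2Space X]
  [LocallyCompactSpace X] [SecondCountableTopology X]
  [BorelSpace X] [ProperlyDiscontinuousSMul Γ X] [ContinuousConstSMul Γ X]
  {μ : Measure X} [SMulInvariantMeasure Γ X μ] [IsFiniteMeasureOnCompacts μ]
  [μ.IsOpenPosMeasure] {w : X → ℝ≥0∞} {J : Type*} {k : J → X → X → ℂ}
  {T : J → Lp ℂ 2 (qMeas Γ μ w) →L[ℂ] Lp ℂ 2 (qMeas Γ μ w)}

/-- `eigSpace` as a submodule. -/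
def eigSub (Γ : Type*) {X J : Type*} [Group Γ] [MulAction Γ X] [TopologicalSpace X]
    [MeasurableSpace X] [T2Space X] [LocallyCompactSpace X] [SecondCountableTopology X]
    [BorelSpace X] (μ : Measure X) [IsFiniteMeasureOnCompacts μ] {k : J → X → X → ℂ}
    (hk : ∀ j, CKer Γ (k j)) (c : J → ℂ) : Submodule ℂ (X → ℂ) where
  carrier := eigSpace Γ μ k c
  add_mem' := by
    rintro φ ψ ⟨h1, h2⟩ ⟨h1', h2'⟩
    refine ⟨Submodule.add_mem _ h1 h1', fun j x => ?_⟩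
    rw [(hk j).appK_add h1.1 h1'.1, h2, h2', Pi.add_apply]; ring
  zero_mem' := ⟨Submodule.zero_mem _, fun j x => by simp [appK]⟩
  smul_mem' := by
    rintro a φ ⟨h1, h2⟩
    refine ⟨Submodule.smul_mem _ a h1, fun j x => ?_⟩
    rw [appK_smul_fun, h2, Pi.smul_apply, smul_eq_mul]; ring

theorem mem_eigSub {hk : ∀ j, CKer Γ (k j)} {c : J → ℂ} {φ : X → ℂ} :
    φ ∈ eigSub Γ μ hk c ↔ φ ∈ autFun Γ X ∧ ∀ j x, appK μ (k j) φ x = c j * φ x := Iff.rfl

/-- The class in `L²(Γ\X)` of a continuous bounded invariant function. -/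
theorem memLp_desc [IsFiniteMeasure (qMeas Γ μ w)] {φ : X → ℂ} (hφ : φ ∈ autFun Γ X) :
    MemLp (desc φ hφ.2.1) 2 (qMeas Γ μ w) := by
  obtain ⟨h1, h2, B, h3⟩ := hφ
  have hm : Measurable (desc φ h2) := measurable_desc h1.measurable h2
  refine MemLp.of_bound hm.aestronglyMeasurable B (Eventually.of_forall fun q => ?_)
  obtain ⟨x, rfl⟩ := pr_surjective (Γ := Γ) q
  exact h3 x

/-- the inclusion `autFun → L²(Γ\X)` -/
noncomputable def toL2 (w : X → ℝ≥0∞) [IsFiniteMeasure (qMeas Γ μ w)] :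
    autFun Γ X →ₗ[ℂ] Lp ℂ 2 (qMeas Γ μ w) where
  toFun φ := (memLp_desc (μ := μ) (w := w) φ.2).toLp _
  map_add' φ ψ := by
    rw [← MemLp.toLp_add]
    congr 1
    funext q
    obtain ⟨x, rfl⟩ := pr_surjective (Γ := Γ) q
    rfl
  map_smul' c φ := by
    rw [RingHom.id_apply, ← MemLp.toLp_const_smul]
    congr 1
    funext q
    obtain ⟨x, rfl⟩ := pr_surjective (Γ := Γ) q
    rfl

theorem toL2_ae (hw : IsWeight Γ w) [IsFiniteMeasure (qMeas Γ μ w)] (φ : autFun Γ X) :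
    ∀ᵐ x ∂μ, toL2 (μ := μ) w φ (pr Γ x) = φ.1 x := by
  have h1 := (memLp_desc (μ := μ) (w := w) φ.2).coeFn_toLp
  have h2 := (quasiMeasurePreserving_pr (μ := μ) hw).ae h1
  exact h2

theorem eq_toL2_of_ae (hw : IsWeight Γ w) [IsFiniteMeasure (qMeas Γ μ w)] (φ : autFun Γ X)
    {v : Lp ℂ 2 (qMeas Γ μ w)} (h : ∀ᵐ x ∂μ, v (pr Γ x) = φ.1 x) : v = toL2 w φ := by
  refine Lp.ext ?_
  rw [Filter.EventuallyEq, ae_qMeas_iff hw]
  filter_upwards [h, toL2_ae (μ := μ) hw φ] with x hx hx2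
  rw [hx, hx2]

theorem toL2_injective (hw : IsWeight Γ w) [IsFiniteMeasure (qMeas Γ μ w)] :
    Function.Injective (toL2 (μ := μ) (Γ := Γ) w) := by
  intro φ ψ h
  refine Subtype.ext ?_
  refine rep_unique (v := toL2 (μ := μ) w φ) φ.2.1 ψ.2.1 (toL2_ae hw φ) ?_
  rw [h]
  exact toL2_ae hw ψ

/-- **Joint eigenspaces in `L²(Γ\X)` are spaces of continuous functions.** -/
theorem exists_equiv_jointSpace (hw : IsWeight Γ w) [IsFiniteMeasure (qMeas Γ μ w)]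
    (hk : ∀ j, CKer Γ (k j)) (hT : ∀ j, HasXKernel μ w (T j) (k j)) {c : J → ℂ}
    (hc : ∃ j, c j ≠ 0 ∧ ∃ B : ℝ, ∀ x y, ‖∑' γ : Γ, k j x (γ • y)‖ ≤ B) :
    ∃ e : eigSub Γ μ hk c ≃ₗ[ℂ] jointSpace T c,
      ∀ φ, ∀ᵐ x ∂μ, ((e φ : Lp ℂ 2 (qMeas Γ μ w)) (pr Γ x)) = φ.1 x := by
  obtain ⟨j₀, hj₀, B, hB⟩ := hc
  have hsub : ∀ φ : eigSub Γ μ hk c, toL2 (μ := μ) w ⟨φ.1, φ.2.1⟩ ∈ jointSpace T c := by
    intro φ
    rw [mem_jointSpace]
    intro j
    refine Lp.ext ?_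
    rw [Filter.EventuallyEq, ae_qMeas_iff hw]
    have h1 := hT j (toL2 (μ := μ) w ⟨φ.1, φ.2.1⟩)
    have h2 := toL2_ae (μ := μ) hw ⟨φ.1, φ.2.1⟩
    have h3 : ∀ᵐ x ∂μ, (c j • toL2 (μ := μ) w ⟨φ.1, φ.2.1⟩ : Lp ℂ 2 (qMeas Γ μ w)) (pr Γ x)
        = c j • toL2 (μ := μ) w ⟨φ.1, φ.2.1⟩ (pr Γ x) :=
      (quasiMeasurePreserving_pr (μ := μ) hw).ae (Lp.coeFn_smul _ _)
    filter_upwards [h1, h2, h3] with x hx1 hx2 hx3
    rw [hx1, hx3, hx2, appK_congr h2, φ.2.2 j x, smul_eq_mul]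
  let f : eigSub Γ μ hk c →ₗ[ℂ] jointSpace T c :=
    { toFun := fun φ => ⟨toL2 (μ := μ) w ⟨φ.1, φ.2.1⟩, hsub φ⟩
      map_add' := fun φ ψ => Subtype.ext
        ((toL2 (μ := μ) w).map_add ⟨φ.1, φ.2.1⟩ ⟨ψ.1, ψ.2.1⟩)
      map_smul' := fun a φ => Subtype.ext ((toL2 (μ := μ) w).map_smul a ⟨φ.1, φ.2.1⟩) }
  have hinj : Function.Injective f := by
    intro φ ψ h
    have h1 := toL2_injective hw (congrArg Subtype.val h)
    exact Subtype.ext (congrArg (fun z : autFun Γ X => z.1) h1)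
  have hsurj : Function.Surjective f := by
    rintro ⟨v, hv⟩
    have hv' := mem_jointSpace.1 hv
    obtain ⟨φ, h1, h2, h3, h4⟩ := exists_continuous_rep hw (hk j₀) (hT j₀) hj₀ (hv' j₀)
    have h5 : φ ∈ autFun Γ X := ⟨h1, h2, _, fun x =>
      norm_rep_le hw (hk j₀) hj₀ h3 h4 (fun y => hB x y)⟩
    have h6 : φ ∈ eigSub Γ μ hk c :=
      ⟨h5, fun j x => appK_eq_of_ae hw (hk j) (hT j) (hv' j) h1 h3 x⟩
    refine ⟨⟨φ, h6⟩, Subtype.ext ?_⟩
    exact (eq_toL2_of_ae hw ⟨φ, h5⟩ h3).symm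
  refine ⟨LinearEquiv.ofBijective f ⟨hinj, hsurj⟩, fun φ => ?_⟩
  exact toL2_ae (μ := μ) hw ⟨φ.1, φ.2.1⟩

end equiv

/-! ### Traces on function spaces -/

section trace

variable {H V : Type*} [NormedAddCommGroup H] [InnerProductSpace ℂ H] [CompleteSpace H]
  [AddCommGroup V] [Module ℂ V]

theorem trOn_eq_trace {W : Submodule ℂ H} [FiniteDimensional ℂ W] (e : V ≃ₗ[ℂ] W) {R : H →L[ℂ] H}
    (L : V →ₗ[ℂ] V) (h : ∀ φ, R (e φ : H) = (e (L φ) : H)) :
    trOn W R = LinearMap.trace ℂ V L := by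
  have hst : ∀ v ∈ W, R v ∈ W := by
    intro v hv
    have h1 := h (e.symm ⟨v, hv⟩)
    rw [LinearEquiv.apply_symm_apply] at h1
    rw [h1]
    exact (e _).2
  rw [trOn_eq_trace_restrict W hst, ← LinearMap.trace_conj' L e]
  congr 1
  refine LinearMap.ext fun v => Subtype.ext ?_
  simp only [LinearEquiv.conj_apply, LinearMap.comp_apply, LinearEquiv.coe_coe]
  rw [← h]
  simp

end trace

end Fermat.Agent.LT.B
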