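import Mathlib

set_option autoImplicit false

/-!
# LT, piece B: Hilbert–Schmidt kernels (abstract layer)

`HasKernel μ T K`: the bounded operator `T` of `L²(X, μ)` is the integral operator with kernel `K`.
`SqInt μ K`: the kernel is square integrable on `X × X`.
-/

set_option linter.unusedSectionVars false

namespace Fermat.Agent.LT.B

open MeasureTheory ENNReal NNReal ComplexConjugate
open scoped InnerProductSpace

section sq

variable {X : Type*} [MeasurableSpace X] {μ : Measure X}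

theorem memLp_two_iff_lintegral {f : X → ℂ} (hf : AEStronglyMeasurable f μ) :
    MemLp f 2 μ ↔ ∫⁻ x, ‖f x‖ₑ ^ 2 ∂μ < ∞ := by
  have h := eLpNorm_lt_top_iff_lintegral_rpow_enorm_lt_top (f := f) (μ := μ)
    (p := (2 : ℝ≥0∞)) (by norm_num) (by norm_num)
  simp only [ENNReal.toReal_ofNat] at h
  have e : ∀ x, ‖f x‖ₑ ^ (2 : ℝ) = ‖f x‖ₑ ^ 2 := fun x => by
    rw [← ENNReal.rpow_natCast]; norm_num
  simp only [e] at h
  rw [← h]
  exact ⟨fun h => h.2, fun h => ⟨hf, h⟩⟩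

theorem lintegral_sq_lt_top {f : X → ℂ} (hf : MemLp f 2 μ) : ∫⁻ x, ‖f x‖ₑ ^ 2 ∂μ < ∞ :=
  (memLp_two_iff_lintegral hf.1).1 hf

theorem eLpNorm_two_sq (f : X → ℂ) : eLpNorm f 2 μ ^ 2 = ∫⁻ x, ‖f x‖ₑ ^ 2 ∂μ := by
  have h := eLpNorm_eq_lintegral_rpow_enorm_toReal (f := f) (μ := μ)
    (p := (2 : ℝ≥0∞)) (by norm_num) (by norm_num)
  simp only [ENNReal.toReal_ofNat] at h
  have e : ∀ x, ‖f x‖ₑ ^ (2 : ℝ) = ‖f x‖ₑ ^ 2 := fun x => by
    rw [← ENNReal.rpow_natCast]; norm_num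
  simp only [e] at h
  rw [h, ← ENNReal.rpow_natCast, ← ENNReal.rpow_mul]
  norm_num

theorem enorm_Lp_sq (f : Lp ℂ 2 μ) : ‖f‖ₑ ^ 2 = ∫⁻ x, ‖f x‖ₑ ^ 2 ∂μ := by
  rw [← eLpNorm_two_sq]
  simp [Lp.enorm_def]

/-- Cauchy–Schwarz for lower integrals. -/
theorem lintegral_mul_sq_le {f g : X → ℂ} (hf : AEStronglyMeasurable f μ)
    (hg : AEStronglyMeasurable g μ) :
    (∫⁻ x, ‖f x‖ₑ * ‖g x‖ₑ ∂μ) ^ 2 ≤ (∫⁻ x, ‖f x‖ₑ ^ 2 ∂μ) * ∫⁻ x, ‖g x‖ₑ ^ 2 ∂μ := by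
  have h := ENNReal.lintegral_mul_le_Lp_mul_Lq μ (p := 2) (q := 2) (by norm_num [Real.holderConjugate_iff])
    hf.enorm hg.enorm
  have e : ∀ (F : X → ℂ) x, ‖F x‖ₑ ^ (2 : ℝ) = ‖F x‖ₑ ^ 2 := fun F x => by
    rw [← ENNReal.rpow_natCast]; norm_num
  simp only [Pi.mul_apply, e] at h
  calc (∫⁻ x, ‖f x‖ₑ * ‖g x‖ₑ ∂μ) ^ 2
      ≤ ((∫⁻ x, ‖f x‖ₑ ^ 2 ∂μ) ^ (1 / 2 : ℝ) * (∫⁻ x, ‖g x‖ₑ ^ 2 ∂μ) ^ (1 / 2 : ℝ)) ^ 2 := by
        gcongr
    _ = (∫⁻ x, ‖f x‖ₑ ^ 2 ∂μ) * ∫⁻ x, ‖g x‖ₑ ^ 2 ∂μ := by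
        rw [mul_pow, ← ENNReal.rpow_natCast, ← ENNReal.rpow_mul, ← ENNReal.rpow_natCast,
          ← ENNReal.rpow_mul]
        norm_num

theorem integrable_mul_of_memLp_two {f g : X → ℂ} (hf : MemLp f 2 μ) (hg : MemLp g 2 μ) :
    Integrable (fun x => f x * g x) μ := hf.integrable_mul hg

theorem enorm_integral_mul_sq_le {f g : X → ℂ} (hf : AEStronglyMeasurable f μ)
    (hg : AEStronglyMeasurable g μ) :
    ‖∫ x, f x * g x ∂μ‖ₑ ^ 2 ≤ (∫⁻ x, ‖f x‖ₑ ^ 2 ∂μ) * ∫⁻ x, ‖g x‖ₑ ^ 2 ∂μ := by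
  refine le_trans ?_ (lintegral_mul_sq_le hf hg)
  gcongr
  refine (enorm_integral_le_lintegral_enorm _).trans (le_of_eq ?_)
  simp [enorm_mul]

end sq

variable {X : Type*} [MeasurableSpace X] {μ : Measure X}

/-- `T` is the integral operator with kernel `K`. -/
def HasKernel (μ : Measure X) (T : Lp ℂ 2 μ →L[ℂ] Lp ℂ 2 μ) (K : X → X → ℂ) : Prop :=
  ∀ f : Lp ℂ 2 μ, T f =ᵐ[μ] fun x => ∫ y, K x y * f y ∂μ

/-- Square integrable kernels. -/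
def SqInt (μ : Measure X) (K : X → X → ℂ) : Prop :=
  MemLp (fun p : X × X => K p.1 p.2) 2 (μ.prod μ)

/-- The square of the Hilbert–Schmidt norm. -/
noncomputable def hsq (μ : Measure X) (K : X → X → ℂ) : ℝ≥0∞ :=
  ∫⁻ x, ∫⁻ y, ‖K x y‖ₑ ^ 2 ∂μ ∂μ

section basic

variable [SFinite μ] {K : X → X → ℂ}

theorem SqInt.hsq_eq (hK : SqInt μ K) :
    hsq μ K = ∫⁻ p, ‖K p.1 p.2‖ₑ ^ 2 ∂(μ.prod μ) := by
  rw [hsq, lintegral_prod]
  exact (hK.1.enorm.pow_const _)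

theorem SqInt.hsq_lt_top (hK : SqInt μ K) : hsq μ K < ∞ := by
  rw [hK.hsq_eq]
  exact lintegral_sq_lt_top hK

theorem SqInt.aesm_ae (hK : SqInt μ K) : ∀ᵐ x ∂μ, AEStronglyMeasurable (K x) μ :=
  hK.1.prodMk_left

theorem SqInt.memLp_ae (hK : SqInt μ K) : ∀ᵐ x ∂μ, MemLp (K x) 2 μ := by
  have h1 := hK.aesm_ae
  have h2 : ∀ᵐ x ∂μ, ∫⁻ y, ‖K x y‖ₑ ^ 2 ∂μ < ∞ := by
    refine ae_lt_top' ?_ hK.hsq_lt_top.ne
    exact (hK.1.enorm.pow_const 2).lintegral_prod_right'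
  filter_upwards [h1, h2] with x hx hx'
  exact (memLp_two_iff_lintegral hx).2 hx'

theorem SqInt.integrable_ae (hK : SqInt μ K) {f : X → ℂ} (hf : MemLp f 2 μ) :
    ∀ᵐ x ∂μ, Integrable (fun y => K x y * f y) μ := by
  filter_upwards [hK.memLp_ae] with x hx
  exact integrable_mul_of_memLp_two hx hf

theorem SqInt.aesm_apply (hK : SqInt μ K) {f : X → ℂ} (hf : AEStronglyMeasurable f μ) :
    AEStronglyMeasurable (fun x => ∫ y, K x y * f y ∂μ) μ := by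
  have : AEStronglyMeasurable (fun p : X × X => K p.1 p.2 * f p.2) (μ.prod μ) :=
    hK.1.mul hf.comp_snd
  exact this.integral_prod_right'

theorem SqInt.lintegral_apply_le (hK : SqInt μ K) {f : X → ℂ} (hf : AEStronglyMeasurable f μ) :
    ∫⁻ x, ‖∫ y, K x y * f y ∂μ‖ₑ ^ 2 ∂μ ≤ hsq μ K * ∫⁻ x, ‖f x‖ₑ ^ 2 ∂μ := by
  calc ∫⁻ x, ‖∫ y, K x y * f y ∂μ‖ₑ ^ 2 ∂μ
      ≤ ∫⁻ x, (∫⁻ y, ‖K x y‖ₑ ^ 2 ∂μ) * ∫⁻ y, ‖f y‖ₑ ^ 2 ∂μ ∂μ := by
        refine lintegral_mono_ae ?_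
        filter_upwards [hK.aesm_ae] with x hx
        exact enorm_integral_mul_sq_le hx hf
    _ = hsq μ K * ∫⁻ x, ‖f x‖ₑ ^ 2 ∂μ := by
        rw [lintegral_mul_const'']
        · rfl
        · exact (hK.1.enorm.pow_const 2).lintegral_prod_right'

theorem SqInt.memLp_apply (hK : SqInt μ K) {f : X → ℂ} (hf : MemLp f 2 μ) :
    MemLp (fun x => ∫ y, K x y * f y ∂μ) 2 μ := by
  rw [memLp_two_iff_lintegral (hK.aesm_apply hf.1)]
  exact (hK.lintegral_apply_le hf.1).trans_lt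
    (ENNReal.mul_lt_top hK.hsq_lt_top (lintegral_sq_lt_top hf))

/-- Existence of the integral operator with square integrable kernel. -/
theorem SqInt.exists_hasKernel (hK : SqInt μ K) :
    ∃ T : Lp ℂ 2 μ →L[ℂ] Lp ℂ 2 μ, HasKernel μ T K := by
  classical
  let S : Lp ℂ 2 μ → Lp ℂ 2 μ := fun f => (hK.memLp_apply (Lp.memLp f)).toLp _
  have hS : ∀ f, S f =ᵐ[μ] fun x => ∫ y, K x y * f y ∂μ := fun f => MemLp.coeFn_toLp _
  have hadd : ∀ f g, S (f + g) = S f + S g := by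
    intro f g
    refine Lp.ext ?_
    filter_upwards [hS (f + g), hS f, hS g, Lp.coeFn_add (S f) (S g),
      hK.integrable_ae (Lp.memLp f), hK.integrable_ae (Lp.memLp g)] with x h1 h2 h3 h4 h5 h6
    rw [h1, h4, Pi.add_apply, h2, h3, ← integral_add h5 h6]
    refine integral_congr_ae ?_
    filter_upwards [Lp.coeFn_add f g] with y hy
    rw [hy, Pi.add_apply, mul_add]
  have hsmul : ∀ (c : ℂ) f, S (c • f) = c • S f := by
    intro c f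
    refine Lp.ext ?_
    filter_upwards [hS (c • f), hS f, Lp.coeFn_smul c (S f)] with x h1 h2 h4
    rw [h1, h4, Pi.smul_apply, h2, ← integral_smul]
    refine integral_congr_ae ?_
    filter_upwards [Lp.coeFn_smul c f] with y hy
    rw [hy, Pi.smul_apply]
    simp only [smul_eq_mul]; ring
  let L : Lp ℂ 2 μ →ₗ[ℂ] Lp ℂ 2 μ :=
    { toFun := S, map_add' := hadd, map_smul' := hsmul }
  refine ⟨L.mkContinuous (Real.sqrt (hsq μ K).toReal) ?_, fun f => hS f⟩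
  intro f
  have h1 : ‖S f‖ₑ ^ 2 ≤ hsq μ K * ‖f‖ₑ ^ 2 := by
    rw [enorm_Lp_sq, enorm_Lp_sq]
    refine le_trans (le_of_eq ?_) (hK.lintegral_apply_le (Lp.aestronglyMeasurable f))
    refine lintegral_congr_ae ?_
    filter_upwards [hS f] with x hx
    rw [hx]
  have h2 : ‖S f‖ ^ 2 ≤ (hsq μ K).toReal * ‖f‖ ^ 2 := by
    have := ENNReal.toReal_mono (ENNReal.mul_ne_top hK.hsq_lt_top.ne (by simp)) h1
    simpa using this
  have h3 : ‖S f‖ ≤ Real.sqrt ((hsq μ K).toReal * ‖f‖ ^ 2) := by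
    rw [← Real.sqrt_sq (norm_nonneg (S f))]
    exact Real.sqrt_le_sqrt h2
  rw [Real.sqrt_mul' _ (by positivity), Real.sqrt_sq (norm_nonneg f)] at h3
  exact h3

/-- Two operators with the same kernel are equal. -/
theorem HasKernel.eq {T T' : Lp ℂ 2 μ →L[ℂ] Lp ℂ 2 μ} (h : HasKernel μ T K)
    (h' : HasKernel μ T' K) : T = T' := by
  refine ContinuousLinearMap.ext fun f => Lp.ext ?_
  filter_upwards [h f, h' f] with x hx hx'
  rw [hx, hx']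

theorem HasKernel.congr {T : Lp ℂ 2 μ →L[ℂ] Lp ℂ 2 μ} {K' : X → X → ℂ} (h : HasKernel μ T K)
    (hKK : ∀ᵐ x ∂μ, K x =ᵐ[μ] K' x) : HasKernel μ T K' := by
  intro f
  filter_upwards [h f, hKK] with x hx hx'
  rw [hx]
  refine integral_congr_ae ?_
  filter_upwards [hx'] with y hy
  rw [hy]

theorem SqInt.conjTranspose (hK : SqInt μ K) : SqInt μ (fun x y => conj (K y x)) := by
  have h1 : MemLp (fun p : X × X => K p.2 p.1) 2 (μ.prod μ) :=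
    hK.comp_measurePreserving (Measure.measurePreserving_swap (μ := μ) (ν := μ))
  exact h1.star

theorem MemLp.tensor {f g : X → ℂ} (hf : MemLp f 2 μ) (hg : MemLp g 2 μ) :
    MemLp (fun p : X × X => f p.1 * g p.2) 2 (μ.prod μ) := by
  have hm : AEStronglyMeasurable (fun p : X × X => f p.1 * g p.2) (μ.prod μ) :=
    hf.1.comp_fst.mul hg.1.comp_snd
  rw [memLp_two_iff_lintegral hm]
  have e : ∀ p : X × X, ‖f p.1 * g p.2‖ₑ ^ 2 = ‖f p.1‖ₑ ^ 2 * ‖g p.2‖ₑ ^ 2 := fun p => by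
    rw [enorm_mul, mul_pow]
  simp only [e]
  rw [lintegral_prod_mul (hf.1.enorm.pow_const 2) (hg.1.enorm.pow_const 2)]
  exact ENNReal.mul_lt_top (lintegral_sq_lt_top hf) (lintegral_sq_lt_top hg)

theorem SqInt.integrable_tensor (hK : SqInt μ K) {f g : X → ℂ} (hf : MemLp f 2 μ)
    (hg : MemLp g 2 μ) :
    Integrable (fun p : X × X => f p.1 * K p.1 p.2 * g p.2) (μ.prod μ) := by
  have h := integrable_mul_of_memLp_two (MemLp.tensor hf hg) hK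
  refine h.congr (Filter.Eventually.of_forall fun p => ?_)
  simp only; ring

theorem HasKernel.inner_eq {T : Lp ℂ 2 μ →L[ℂ] Lp ℂ 2 μ} (h : HasKernel μ T K)
    (f g : Lp ℂ 2 μ) : ⟪f, T g⟫_ℂ = ∫ x, ∫ y, conj (f x) * K x y * g y ∂μ ∂μ := by
  rw [L2.inner_def]
  refine integral_congr_ae ?_
  filter_upwards [h g] with x hx
  rw [hx, RCLike.inner_apply, mul_comm, ← integral_const_mul]
  refine integral_congr_ae (Filter.Eventually.of_forall fun y => ?_)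
  simp only; ring

/-- The adjoint of an integral operator. -/
theorem HasKernel.adjoint {T : Lp ℂ 2 μ →L[ℂ] Lp ℂ 2 μ} (h : HasKernel μ T K)
    (hK : SqInt μ K) :
    HasKernel μ (ContinuousLinearMap.adjoint T) (fun x y => conj (K y x)) := by
  obtain ⟨S, hS⟩ := hK.conjTranspose.exists_hasKernel
  have key : S = ContinuousLinearMap.adjoint T := by
    rw [ContinuousLinearMap.eq_adjoint_iff]
    intro f g
    have h1 : ⟪S f, g⟫_ℂ = conj ⟪g, S f⟫_ℂ := (inner_conj_symm _ _).symm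
    rw [h1, hS.inner_eq, h.inner_eq, ← integral_conj]
    have e1 : ∀ x, conj (∫ y, conj (g x) * conj (K y x) * f y ∂μ)
        = ∫ y, conj (f y) * K y x * g x ∂μ := by
      intro x
      rw [← integral_conj]
      refine integral_congr_ae (Filter.Eventually.of_forall fun y => ?_)
      simp only [map_mul, Complex.conj_conj]; ring
    simp only [e1]
    have hint : Integrable (Function.uncurry fun x y => conj (f x) * K x y * g y) (μ.prod μ) :=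
      hK.integrable_tensor (Lp.memLp f).star (Lp.memLp g)
    rw [integral_integral_swap hint]
  rw [← key]
  exact hS

end basic

/-! ### The Hilbert–Schmidt identity -/

section trace

variable [SFinite μ] {K K' : X → X → ℂ} {ι : Type*}

theorem HilbertBasis.hasSum_sq (b : HilbertBasis ι ℂ (Lp ℂ 2 μ)) (f : Lp ℂ 2 μ) :
    HasSum (fun i => ‖⟪f, b i⟫_ℂ‖ ^ 2) (‖f‖ ^ 2) := by
  have h := b.hasSum_inner_mul_inner f f
  rw [inner_self_eq_norm_sq_to_K] at h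
  have e : ∀ i, ⟪f, b i⟫_ℂ * ⟪b i, f⟫_ℂ = ((‖⟪f, b i⟫_ℂ‖ ^ 2 : ℝ) : ℂ) := by
    intro i
    rw [← inner_conj_symm (b i) f, RCLike.mul_conj]
    push_cast; rfl
  simp only [e] at h
  have h2 : (((‖f‖ : ℝ) : ℂ) ^ 2) = ((‖f‖ ^ 2 : ℝ) : ℂ) := by push_cast; rfl
  have h3 : HasSum (fun i => ((‖⟪f, b i⟫_ℂ‖ ^ 2 : ℝ) : ℂ)) ((‖f‖ ^ 2 : ℝ) : ℂ) := by
    rw [← h2]; exact h
  exact_mod_cast h3

theorem HilbertBasis.tsum_enorm_sq (b : HilbertBasis ι ℂ (Lp ℂ 2 μ)) (f : Lp ℂ 2 μ) :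
    ∑' i, ‖⟪f, b i⟫_ℂ‖ₑ ^ 2 = ‖f‖ₑ ^ 2 := by
  have h := HilbertBasis.hasSum_sq b f
  have e : ∀ z : ℂ, ‖z‖ₑ ^ 2 = ENNReal.ofReal (‖z‖ ^ 2) := by
    intro z
    rw [ENNReal.ofReal_pow (norm_nonneg _), ofReal_norm]
  have e' : ‖f‖ₑ ^ 2 = ENNReal.ofReal (‖f‖ ^ 2) := by
    rw [ENNReal.ofReal_pow (norm_nonneg _), ofReal_norm]
  simp only [e, e']
  rw [← h.tsum_eq, ENNReal.ofReal_tsum_of_nonneg (fun i => by positivity) h.summable]

/-- the conjugated section of the kernel, as an element of `L²`. -/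
theorem integral_mul_eq_inner {f : X → ℂ} (hf : MemLp f 2 μ) (g : Lp ℂ 2 μ) :
    ∫ y, f y * g y ∂μ = ⟪(hf.star.toLp _ : Lp ℂ 2 μ), g⟫_ℂ := by
  rw [L2.inner_def]
  refine integral_congr_ae ?_
  filter_upwards [hf.star.coeFn_toLp] with y hy
  rw [hy, RCLike.inner_apply]
  simp [mul_comm]

theorem enorm_toLp_sq {f : X → ℂ} (hf : MemLp f 2 μ) :
    ‖(hf.toLp _ : Lp ℂ 2 μ)‖ₑ ^ 2 = ∫⁻ y, ‖f y‖ₑ ^ 2 ∂μ := by
  rw [enorm_Lp_sq]
  refine lintegral_congr_ae ?_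
  filter_upwards [hf.coeFn_toLp] with y hy
  rw [hy]

/-- `Σ_i ‖T e_i‖² = ‖K‖²`, in `[0, ∞]`. -/
theorem HasKernel.tsum_enorm_sq [Countable ι] (b : HilbertBasis ι ℂ (Lp ℂ 2 μ))
    {T : Lp ℂ 2 μ →L[ℂ] Lp ℂ 2 μ} (h : HasKernel μ T K) (hK : SqInt μ K) :
    ∑' i, ‖T (b i)‖ₑ ^ 2 = hsq μ K := by
  have e1 : ∀ i, ‖T (b i)‖ₑ ^ 2 = ∫⁻ x, ‖∫ y, K x y * b i y ∂μ‖ₑ ^ 2 ∂μ := by
    intro i
    rw [enorm_Lp_sq]
    refine lintegral_congr_ae ?_
    filter_upwards [h (b i)] with x hx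
    rw [hx]
  simp only [e1]
  rw [← lintegral_tsum]
  · refine lintegral_congr_ae ?_
    filter_upwards [hK.memLp_ae] with x hx
    simp only [integral_mul_eq_inner hx]
    rw [HilbertBasis.tsum_enorm_sq, enorm_toLp_sq]
    refine lintegral_congr_ae (Filter.Eventually.of_forall fun y => ?_)
    simp [enorm_eq_nnnorm]
  · intro i
    exact ((hK.aesm_apply (Lp.aestronglyMeasurable (b i))).enorm.pow_const 2)

theorem HasKernel.summable_norm_sq [Countable ι] (b : HilbertBasis ι ℂ (Lp ℂ 2 μ))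
    {T : Lp ℂ 2 μ →L[ℂ] Lp ℂ 2 μ} (h : HasKernel μ T K) (hK : SqInt μ K) :
    Summable fun i => ‖T (b i)‖ ^ 2 := by
  have h1 := h.tsum_enorm_sq b hK
  have h2 : ∑' i, ENNReal.ofReal (‖T (b i)‖ ^ 2) ≠ ∞ := by
    have e : ∀ i, ENNReal.ofReal (‖T (b i)‖ ^ 2) = ‖T (b i)‖ₑ ^ 2 := fun i => by
      rw [ENNReal.ofReal_pow (norm_nonneg _), ofReal_norm]
    simp only [e, h1]
    exact hK.hsq_lt_top.ne
  have := ENNReal.summable_toReal h2
  refine this.congr fun i => ?_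
  rw [ENNReal.toReal_ofReal (by positivity)]

/-- **The Hilbert–Schmidt pairing** `Σ_i ⟪T e_i, T' e_i⟫ = ∬ conj K · K'`. -/
theorem HasKernel.hasSum_inner [Countable ι] (b : HilbertBasis ι ℂ (Lp ℂ 2 μ))
    {T T' : Lp ℂ 2 μ →L[ℂ] Lp ℂ 2 μ} (h : HasKernel μ T K) (hK : SqInt μ K)
    (h' : HasKernel μ T' K') (hK' : SqInt μ K') :
    HasSum (fun i => ⟪T (b i), T' (b i)⟫_ℂ) (∫ x, ∫ y, conj (K x y) * K' x y ∂μ ∂μ) := by
  have hs : Summable fun i => ∫ x, ‖⟪T (b i) x, T' (b i) x⟫_ℂ‖ ∂μ := by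
    refine Summable.of_nonneg_of_le (fun i => integral_nonneg fun x => norm_nonneg _) (fun i => ?_)
      (((h.summable_norm_sq b hK).add (h'.summable_norm_sq b hK')))
    have hi1 : Integrable (fun x => ‖T (b i) x‖ ^ 2) μ :=
      (Lp.memLp (T (b i))).integrable_norm_pow (by norm_num)
    have hi2 : Integrable (fun x => ‖T' (b i) x‖ ^ 2) μ :=
      (Lp.memLp (T' (b i))).integrable_norm_pow (by norm_num)
    have hn : ∀ f : Lp ℂ 2 μ, ‖f‖ ^ 2 = ∫ x, ‖f x‖ ^ 2 ∂μ := by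
      intro f
      have h1 := L2.inner_def (𝕜 := ℂ) f f
      rw [inner_self_eq_norm_sq_to_K] at h1
      have h2 : (∫ x, ⟪f x, f x⟫_ℂ ∂μ) = ((∫ x, ‖f x‖ ^ 2 ∂μ : ℝ) : ℂ) := by
        rw [← integral_complex_ofReal]
        refine integral_congr_ae (Filter.Eventually.of_forall fun x => ?_)
        simp only [inner_self_eq_norm_sq_to_K]
        push_cast; rfl
      rw [h2] at h1
      refine Complex.ofReal_injective ?_
      rw [← h1]
      push_cast; rfl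
    rw [hn, hn, ← integral_add hi1 hi2]
    refine integral_mono (Integrable.norm (L2.integrable_inner _ _)) (hi1.add hi2) fun x => ?_
    have h3 := norm_inner_le_norm (𝕜 := ℂ) (T (b i) x) (T' (b i) x)
    have h4 := two_mul_le_add_sq ‖T (b i) x‖ ‖T' (b i) x‖
    have h5 : 0 ≤ ‖T (b i) x‖ * ‖T' (b i) x‖ := by positivity
    linarith
  have main := hasSum_integral_of_summable_integral_norm
    (F := fun i x => ⟪T (b i) x, T' (b i) x⟫_ℂ) (μ := μ)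
    (fun i => L2.integrable_inner _ _) hs
  have e1 : (fun i => ∫ x, ⟪T (b i) x, T' (b i) x⟫_ℂ ∂μ) = fun i => ⟪T (b i), T' (b i)⟫_ℂ := by
    funext i; rw [L2.inner_def]
  rw [e1] at main
  suffices hsuff : (∫ x, ∫ y, conj (K x y) * K' x y ∂μ ∂μ)
      = ∫ x, ∑' i, ⟪T (b i) x, T' (b i) x⟫_ℂ ∂μ by
    rw [hsuff]; exact main
  have hall : ∀ᵐ x ∂μ, ∀ i, T (b i) x = ∫ y, K x y * b i y ∂μ :=
    ae_all_iff.2 fun i => h (b i)
  have hall' : ∀ᵐ x ∂μ, ∀ i, T' (b i) x = ∫ y, K' x y * b i y ∂μ :=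
    ae_all_iff.2 fun i => h' (b i)
  refine integral_congr_ae ?_
  filter_upwards [hall, hall', hK.memLp_ae, hK'.memLp_ae] with x h1 h2 h3 h4
  have e2 : ∀ i, ⟪T (b i) x, T' (b i) x⟫_ℂ =
      ⟪(h4.star.toLp _ : Lp ℂ 2 μ), b i⟫_ℂ * ⟪b i, (h3.star.toLp _ : Lp ℂ 2 μ)⟫_ℂ := by
    intro i
    rw [h1, h2, integral_mul_eq_inner h3, integral_mul_eq_inner h4, RCLike.inner_apply,
      inner_conj_symm]
  simp only [e2]
  rw [b.tsum_inner_mul_inner, L2.inner_def]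
  refine integral_congr_ae ?_
  filter_upwards [h3.star.coeFn_toLp, h4.star.coeFn_toLp] with y hy hy'
  rw [hy, hy', RCLike.inner_apply]
  simp

end trace

end Fermat.Agent.LT.B
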