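import Fermat.Agent.LT.B.Trace

set_option autoImplicit false

/-!
# LT, piece B: joint eigenspaces of a commuting family of symmetric operators, some of which are
compact

For a commuting family `T : J → H →L[ℂ] H` of symmetric bounded operators and a subset `J₀ ⊆ J`
of indices with `T j` compact, the joint eigenspaces `jointSpace T χ` with `χ j ≠ 0` for some
`j ∈ J₀` are finite dimensional, pairwise orthogonal and the orthogonal complement of their sum is
`⋂_{j ∈ J₀} ker (T j)`.
-/

set_option linter.unusedSectionVars false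

namespace Fermat.Agent.LT.B

open MeasureTheory ENNReal NNReal ComplexConjugate Filter Topology Module End
open scoped InnerProductSpace

section countable

variable {H : Type*} [NormedAddCommGroup H] [InnerProductSpace ℂ H]

theorem countable_of_orthonormal [TopologicalSpace.SeparableSpace H] {ι : Type*} {v : ι → H}
    (hv : Orthonormal ℂ v) : Countable ι := by
  have h1 : (Set.univ : Set ι).PairwiseDisjoint (fun i => Metric.ball (v i) (1 / 2)) := by
    intro i _ j _ hij
    refine Metric.ball_disjoint_ball ?_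
    have h2 : ‖v i - v j‖ ^ 2 = 2 := by
      have h3 := @norm_sub_sq ℂ _ _ _ _ (v i) (v j)
      rw [h3, hv.1 i, hv.1 j, hv.2 hij]
      simp; norm_num
    rw [dist_eq_norm]
    by_contra hcon
    push Not at hcon
    have h4 : 0 ≤ ‖v i - v j‖ := norm_nonneg _
    nlinarith
  have h2 : (Set.univ : Set ι).Countable :=
    h1.countable_of_isOpen (fun i _ => Metric.isOpen_ball)
      (fun i _ => ⟨v i, Metric.mem_ball_self (by norm_num)⟩)
  exact Set.countable_univ_iff.1 h2

theorem HilbertBasis.countable [TopologicalSpace.SeparableSpace H] {ι : Type*}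
    (b : HilbertBasis ι ℂ H) : Countable ι :=
  countable_of_orthonormal b.orthonormal

end countable

section sigma

variable {H : Type*} [NormedAddCommGroup H] [InnerProductSpace ℂ H] [CompleteSpace H]
  {O : Type*}

/-- A Hilbert basis adapted to an orthogonal family of complete subspaces with trivial common
orthogonal complement. -/
theorem exists_hilbertBasis_sigma (G : O → Submodule ℂ H) [∀ o, CompleteSpace (G o)]
    (hG : OrthogonalFamily ℂ (fun o => G o) fun o => (G o).subtypeₗᵢ)
    (hbot : (⨆ o, G o)ᗮ = ⊥) :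
    ∃ (w : ∀ o, Set (G o)) (b : ∀ o, HilbertBasis (w o) ℂ (G o))
      (B : HilbertBasis (Σ o, w o) ℂ H), ∀ o (i : w o), B ⟨o, i⟩ = (b o i : H) := by
  choose w b hb using fun o => exists_hilbertBasis ℂ (G o)
  have hon : Orthonormal ℂ (fun p : Σ o, w o => ((b p.1 p.2 : G p.1) : H)) := by
    have := hG.orthonormal_sigma_orthonormal (v_family := fun o => (b o : w o → G o))
      (fun o => (b o).orthonormal)
    exact this
  have hsp : (Submodule.span ℂ (Set.range fun p : Σ o, w o => ((b p.1 p.2 : G p.1) : H)))ᗮ = ⊥ := by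
    rw [Submodule.eq_bot_iff]
    intro x hx
    have hx' : x ∈ (⨆ o, G o)ᗮ := by
      rw [← Submodule.iInf_orthogonal, Submodule.mem_iInf]
      intro o
      rw [Submodule.mem_orthogonal]
      intro u hu
      have h1 : ∀ i : w o, ⟪((b o i : G o) : H), x⟫_ℂ = 0 := fun i =>
        (Submodule.mem_orthogonal _ _).1 hx _ (Submodule.subset_span ⟨⟨o, i⟩, rfl⟩)
      have h2 : (G o).orthogonalProjectionOnto x = 0 := by
        apply (b o).repr.injective
        ext i
        rw [(b o).repr_apply_apply, map_zero, Submodule.inner_orthogonalProjectionOnto_eq_of_mem_left,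
          h1 i]
        rfl
      exact (Submodule.mem_orthogonal _ _).1
        (Submodule.orthogonalProjectionOnto_eq_zero_iff.1 h2) u hu
    rw [hbot] at hx'
    simpa using hx'
  refine ⟨w, b, HilbertBasis.mkOfOrthogonalEqBot hon hsp, fun o i => ?_⟩
  simp

end sigma

/-! ### Compressions and their traces -/

section compression

variable {H : Type*} [NormedAddCommGroup H] [InnerProductSpace ℂ H] [CompleteSpace H]

/-- The trace of the compression of `R` to the finite dimensional subspace `V`. -/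
noncomputable def trOn (V : Submodule ℂ H) [V.HasOrthogonalProjection] (R : H →L[ℂ] H) : ℂ :=
  LinearMap.trace ℂ V
    ((V.orthogonalProjectionOnto : H →L[ℂ] V).toLinearMap ∘ₗ R.toLinearMap ∘ₗ V.subtype)

theorem trOn_eq_sum (V : Submodule ℂ H) [FiniteDimensional ℂ V] (R : H →L[ℂ] H)
    {ι : Type*} [Fintype ι] (b : OrthonormalBasis ι ℂ V) :
    trOn V R = ∑ i, ⟪(b i : H), R (b i)⟫_ℂ := by
  rw [trOn, LinearMap.trace_eq_sum_inner _ b]
  refine Finset.sum_congr rfl fun i _ => ?_
  simp only [LinearMap.comp_apply, Submodule.subtype_apply, ContinuousLinearMap.coe_coe,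
    Submodule.inner_orthogonalProjectionOnto_eq_of_mem_left]

theorem trOn_eq_hilbert (V : Submodule ℂ H) [FiniteDimensional ℂ V] (R : H →L[ℂ] H)
    {ι : Type*} [Fintype ι] (b : HilbertBasis ι ℂ V) :
    trOn V R = ∑ i, ⟪(b i : H), R (b i)⟫_ℂ := by
  rw [trOn_eq_sum V R b.toOrthonormalBasis]
  simp

theorem trOn_eq_zero (V : Submodule ℂ H) [FiniteDimensional ℂ V] {R : H →L[ℂ] H}
    (h : ∀ v ∈ V, ∀ u ∈ V, ⟪u, R v⟫_ℂ = 0) : trOn V R = 0 := by
  rw [trOn_eq_sum V R (stdOrthonormalBasis ℂ V)]
  exact Finset.sum_eq_zero fun i _ => h _ (Subtype.mem _) _ (Subtype.mem _)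

theorem trOn_congr (V : Submodule ℂ H) [FiniteDimensional ℂ V] {R R' : H →L[ℂ] H}
    (h : ∀ v ∈ V, R v = R' v) : trOn V R = trOn V R' := by
  rw [trOn_eq_sum V R (stdOrthonormalBasis ℂ V), trOn_eq_sum V R' (stdOrthonormalBasis ℂ V)]
  exact Finset.sum_congr rfl fun i _ => by rw [h _ (Subtype.mem _)]

theorem trOn_smul (V : Submodule ℂ H) [FiniteDimensional ℂ V] (c : ℂ) (R : H →L[ℂ] H) :
    trOn V (c • R) = c * trOn V R := by
  rw [trOn_eq_sum V _ (stdOrthonormalBasis ℂ V), trOn_eq_sum V R (stdOrthonormalBasis ℂ V),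
    Finset.mul_sum]
  exact Finset.sum_congr rfl fun i _ => by simp

theorem trOn_add (V : Submodule ℂ H) [FiniteDimensional ℂ V] (R R' : H →L[ℂ] H) :
    trOn V (R + R') = trOn V R + trOn V R' := by
  rw [trOn_eq_sum V _ (stdOrthonormalBasis ℂ V), trOn_eq_sum V R (stdOrthonormalBasis ℂ V),
    trOn_eq_sum V R' (stdOrthonormalBasis ℂ V), ← Finset.sum_add_distrib]
  exact Finset.sum_congr rfl fun i _ => by simp

/-- If `R` maps `V` into itself, `trOn V R` is the trace of the restriction. -/
theorem trOn_eq_trace_restrict (V : Submodule ℂ H) [FiniteDimensional ℂ V] {R : H →L[ℂ] H}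
    (h : ∀ v ∈ V, R v ∈ V) :
    trOn V R = LinearMap.trace ℂ V ((R : H →ₗ[ℂ] H).restrict h) := by
  rw [trOn]
  congr 1
  ext v
  simp only [LinearMap.comp_apply, Submodule.subtype_apply, ContinuousLinearMap.coe_coe,
    LinearMap.coe_restrict_apply]
  have := Submodule.starProjection_eq_self_iff.2 (h v v.2)
  rw [← Submodule.starProjection_apply]
  exact this

end compression

/-! ### Joint eigenspaces -/

section joint

universe u v

variable {H : Type u} [NormedAddCommGroup H] [InnerProductSpace ℂ H] [CompleteSpace H]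
  {J : Type v}

/-- The joint eigenspace of the family `T` for the system of eigenvalues `χ`. -/
def jointSpace (T : J → H →L[ℂ] H) (χ : J → ℂ) : Submodule ℂ H :=
  ⨅ j, eigenspace (T j : H →ₗ[ℂ] H) (χ j)

theorem mem_jointSpace {T : J → H →L[ℂ] H} {χ : J → ℂ} {v : H} :
    v ∈ jointSpace T χ ↔ ∀ j, T j v = χ j • v := by
  simp [jointSpace, Submodule.mem_iInf]

/-- A commuting family of symmetric operators. -/
structure CommSymm (T : J → H →L[ℂ] H) : Prop where
  symm : ∀ j, (T j : H →ₗ[ℂ] H).IsSymmetric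
  comm : ∀ i j v, T i (T j v) = T j (T i v)

/-- The systems of eigenvalues of `T` which occur and are non zero at some element of `J₀`. -/
def systems (T : J → H →L[ℂ] H) (J₀ : Set J) : Set (J → ℂ) :=
  {χ | jointSpace T χ ≠ ⊥ ∧ ∃ j ∈ J₀, χ j ≠ 0}

/-- The common kernel of the `T j`, `j ∈ J₀`. -/
def commonKer (T : J → H →L[ℂ] H) (J₀ : Set J) : Submodule ℂ H :=
  ⨅ j : J₀, LinearMap.ker (T j : H →ₗ[ℂ] H)

theorem mem_commonKer {T : J → H →L[ℂ] H} {J₀ : Set J} {v : H} :
    v ∈ commonKer T J₀ ↔ ∀ j ∈ J₀, T j v = 0 := by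
  simp [commonKer, Submodule.mem_iInf]

theorem isClosed_commonKer (T : J → H →L[ℂ] H) (J₀ : Set J) :
    IsClosed (commonKer T J₀ : Set H) := by
  have : (commonKer T J₀ : Set H) = ⋂ j : J₀, (T j) ⁻¹' {0} := by
    ext v; simp [mem_commonKer]
  rw [this]
  exact isClosed_iInter fun j => isClosed_singleton.preimage (T j).continuous

variable {T : J → H →L[ℂ] H} {J₀ : Set J}

theorem CommSymm.orthogonalFamily (hT : CommSymm T) :
    OrthogonalFamily ℂ (fun χ : J → ℂ => jointSpace T χ)
      fun χ => (jointSpace T χ).subtypeₗᵢ :=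
  LinearMap.IsSymmetric.orthogonalFamily_iInf_eigenspaces
    (T := fun j => (T j : H →ₗ[ℂ] H)) hT.symm

theorem CommSymm.finiteDimensional (hc : ∀ j ∈ J₀, IsCompactOperator (T j))
    {χ : J → ℂ} (hχ : ∃ j ∈ J₀, χ j ≠ 0) : FiniteDimensional ℂ (jointSpace T χ) := by
  obtain ⟨j, hj, hne⟩ := hχ
  have h1 : FiniteDimensional ℂ (eigenspace (T j : H →ₗ[ℂ] H) (χ j)) :=
    ContinuousLinearMap.finite_dimensional_eigenspace (hc j hj) (χ j) hne
  have h2 : jointSpace T χ ≤ eigenspace (T j : H →ₗ[ℂ] H) (χ j) := iInf_le _ j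
  exact Submodule.finiteDimensional_of_le h2

/-- Each non-zero eigenspace of a compact member is contained in the sum of the joint
eigenspaces. -/
theorem CommSymm.eigenspace_le (hT : CommSymm T) (hc : ∀ j ∈ J₀, IsCompactOperator (T j))
    {j₀ : J} (hj₀ : j₀ ∈ J₀) {l : ℂ} (hl : l ≠ 0) :
    eigenspace (T j₀ : H →ₗ[ℂ] H) l ≤ ⨆ χ : systems T J₀, jointSpace T χ := by
  classical
  set E := eigenspace (T j₀ : H →ₗ[ℂ] H) l with hE
  have hfin : FiniteDimensional ℂ E :=
    ContinuousLinearMap.finite_dimensional_eigenspace (hc j₀ hj₀) l hl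
  have hst : ∀ j, ∀ v ∈ E, (T j : H →ₗ[ℂ] H) v ∈ E := by
    intro j v hv
    rw [hE, mem_eigenspace_iff] at hv ⊢
    simp only [ContinuousLinearMap.coe_coe] at hv ⊢
    rw [hT.comm, hv, map_smul]
  let S : J → E →ₗ[ℂ] E := fun j => (T j : H →ₗ[ℂ] H).restrict (hst j)
  have hS : ∀ j, (S j).IsSymmetric := fun j => (hT.symm j).restrict_invariant (hst j)
  have hcomm : Pairwise (fun i j => Commute (S i) (S j)) := by
    intro i j _
    refine LinearMap.ext fun v => Subtype.ext ?_
    exact hT.comm i j v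
  have htop := LinearMap.IsSymmetric.iSup_iInf_eq_top_of_commute hS hcomm
  intro v hv
  have hv1 : (⟨v, hv⟩ : E) ∈ ⨆ χ : J → ℂ, ⨅ i, eigenspace (S i) (χ i) := by
    rw [htop]; trivial
  have hv2 : v ∈ Submodule.map E.subtype (⨆ χ : J → ℂ, ⨅ i, eigenspace (S i) (χ i)) :=
    ⟨⟨v, hv⟩, hv1, rfl⟩
  rw [Submodule.map_iSup] at hv2
  refine (iSup_le fun χ => ?_ : (⨆ χ : J → ℂ, Submodule.map E.subtype
    (⨅ i, eigenspace (S i) (χ i))) ≤ _) hv2
  rintro _ ⟨u, hu, rfl⟩
  by_cases hu0 : u = 0
  · rw [hu0]; simp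
  have huj : ∀ j, T j (u : H) = χ j • (u : H) := by
    intro j
    have h1 : u ∈ eigenspace (S j) (χ j) := (Submodule.mem_iInf _).1 hu j
    rw [mem_eigenspace_iff] at h1
    exact congrArg Subtype.val h1
  have hmem : (u : H) ∈ jointSpace T χ := mem_jointSpace.2 huj
  have hune : (u : H) ≠ 0 := fun h => hu0 (Subtype.ext h)
  have hχl : χ j₀ = l := by
    have h1 := huj j₀
    have h2 : T j₀ (u : H) = l • (u : H) := mem_eigenspace_iff.1 u.2
    rw [h2] at h1
    have h3 : (χ j₀ - l) • (u : H) = 0 := by rw [sub_smul, h1, sub_self]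
    rcases smul_eq_zero.1 h3 with h4 | h4
    · exact sub_eq_zero.1 h4
    · exact absurd h4 hune
  have hsys : χ ∈ systems T J₀ := by
    refine ⟨fun hbot => ?_, j₀, hj₀, by rw [hχl]; exact hl⟩
    rw [hbot] at hmem
    exact hune (by simpa using hmem)
  exact Submodule.mem_iSup_of_mem (⟨χ, hsys⟩ : systems T J₀) hmem

/-- **Spectral theorem for commuting symmetric families with compact members.** -/
theorem CommSymm.orthogonal_iSup (hT : CommSymm T) (hc : ∀ j ∈ J₀, IsCompactOperator (T j)) :
    (⨆ χ : systems T J₀, jointSpace T χ)ᗮ = commonKer T J₀ := by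
  apply le_antisymm
  · intro v hv
    rw [mem_commonKer]
    intro j₀ hj₀
    have h1 : T j₀ v ∈ (⨆ l, eigenspace (T j₀ : H →ₗ[ℂ] H) l)ᗮ := by
      rw [← Submodule.iInf_orthogonal, Submodule.mem_iInf]
      intro l
      rw [Submodule.mem_orthogonal]
      intro u hu
      have h2 : T j₀ u = l • u := mem_eigenspace_iff.1 hu
      have h3 : ⟪u, T j₀ v⟫_ℂ = ⟪T j₀ u, v⟫_ℂ := (hT.symm j₀ u v).symm
      rw [h3, h2, inner_smul_left]
      by_cases hl : l = 0
      · rw [hl]; simp
      · rw [(Submodule.mem_orthogonal _ _).1 hv u (hT.eigenspace_le hc hj₀ hl hu), mul_zero]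
    have h4 := ContinuousLinearMap.orthogonalComplement_iSup_eigenspaces_eq_bot
      (hc j₀ hj₀) (hT.symm j₀)
    rw [h4] at h1
    simpa using h1
  · intro v hv
    rw [← Submodule.iInf_orthogonal, Submodule.mem_iInf]
    rintro ⟨χ, hχ, j, hj, hne⟩
    rw [Submodule.mem_orthogonal]
    intro u hu
    have h1 : T j u = χ j • u := mem_jointSpace.1 hu j
    have h2 : T j v = 0 := mem_commonKer.1 hv j hj
    have h3 : ⟪T j u, v⟫_ℂ = ⟪u, T j v⟫_ℂ := hT.symm j u v
    rw [h1, h2, inner_zero_right, inner_smul_left] at h3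
    rcases mul_eq_zero.1 h3 with h4 | h4
    · exact absurd ((map_eq_zero _).1 h4) hne
    · exact h4

/-- A vector in a joint eigenspace for a system in `systems T J₀` is orthogonal to the common
kernel. -/
theorem CommSymm.jointSpace_le (hT : CommSymm T) (hc : ∀ j ∈ J₀, IsCompactOperator (T j))
    (χ : systems T J₀) : jointSpace T χ ≤ (commonKer T J₀)ᗮ := by
  rw [← hT.orthogonal_iSup hc]
  exact (le_iSup (fun χ : systems T J₀ => jointSpace T χ) χ).trans
    (Submodule.le_orthogonal_orthogonal _)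

/-- Density: a closed subspace containing all joint eigenspaces contains `(commonKer)ᗮ`. -/
theorem CommSymm.le_of_jointSpace_le (hT : CommSymm T)
    (hc : ∀ j ∈ J₀, IsCompactOperator (T j)) {W : Submodule ℂ H} (hW : IsClosed (W : Set H))
    (h : ∀ χ : systems T J₀, jointSpace T χ ≤ W) : (commonKer T J₀)ᗮ ≤ W := by
  rw [← hT.orthogonal_iSup hc, Submodule.orthogonal_orthogonal_eq_closure]
  exact Submodule.topologicalClosure_minimal _ (iSup_le h) hW

/-- The family `commonKer, V_χ` (`χ ∈ systems`). -/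
def pieces (T : J → H →L[ℂ] H) (J₀ : Set J) : Option (systems T J₀) → Submodule ℂ H
  | none => commonKer T J₀
  | some χ => jointSpace T χ

theorem CommSymm.pieces_orthogonal (hT : CommSymm T)
    (hc : ∀ j ∈ J₀, IsCompactOperator (T j)) :
    OrthogonalFamily ℂ (fun o => pieces T J₀ o) fun o => (pieces T J₀ o).subtypeₗᵢ := by
  refine OrthogonalFamily.of_pairwise fun o o' hoo => ?_
  rcases o with _ | χ <;> rcases o' with _ | χ'
  · exact absurd rfl hoo
  · intro v hv w hw
    exact (Submodule.mem_orthogonal' _ _).1 (hT.jointSpace_le hc χ' hw) v hv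
  · intro v hv w hw
    exact (Submodule.mem_orthogonal _ _).1 (hT.jointSpace_le hc χ hv) w hw
  · have hne : (χ : J → ℂ) ≠ χ' := fun h => hoo (congrArg some (Subtype.ext h))
    exact hT.orthogonalFamily.pairwise hne

/-- A Hilbert basis adapted to the decomposition
`H = ⨁_χ V_χ ⊕ commonKer`. -/
theorem CommSymm.exists_hilbertBasis (hT : CommSymm T)
    (hc : ∀ j ∈ J₀, IsCompactOperator (T j)) :
    ∃ (w : ∀ o, Set (pieces T J₀ o))
      (b : ∀ o, HilbertBasis (w o) ℂ (pieces T J₀ o))
      (B : HilbertBasis (Σ o, w o) ℂ H),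
      ∀ o i, B ⟨o, i⟩ = (b o i : H) := by
  have : ∀ o, CompleteSpace (pieces T J₀ o) := by
    rintro (_ | χ)
    · exact (isClosed_commonKer T J₀).completeSpace_coe
    · have := CommSymm.finiteDimensional hc χ.2.2
      exact FiniteDimensional.complete ℂ (jointSpace T χ)
  refine exists_hilbertBasis_sigma (pieces T J₀) (hT.pieces_orthogonal hc) ?_
  rw [Submodule.eq_bot_iff]
  intro x hx
  rw [← Submodule.iInf_orthogonal, Submodule.mem_iInf] at hx
  have h1 : x ∈ (⨆ χ : systems T J₀, jointSpace T χ)ᗮ := by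
    rw [← Submodule.iInf_orthogonal, Submodule.mem_iInf]
    exact fun χ => hx (some χ)
  rw [hT.orthogonal_iSup hc] at h1
  have h2 := (Submodule.mem_orthogonal _ _).1 (hx none) x h1
  exact inner_self_eq_zero.1 h2

/-- **Decomposition of traces.** If `Σ_i ⟪b_i, R b_i⟫` converges to `t` for all countable Hilbert
bases and `R` vanishes on the common kernel then `t` is the (absolutely convergent) sum of the
traces of the compressions to the joint eigenspaces. -/
theorem CommSymm.hasSum_trOn [TopologicalSpace.SeparableSpace H] (hT : CommSymm T)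
    (hc : ∀ j ∈ J₀, IsCompactOperator (T j)) {R : H →L[ℂ] H}
    (hR : ∀ v ∈ commonKer T J₀, ⟪v, R v⟫_ℂ = 0) {t : ℂ}
    (ht : ∀ (ι : Type (max u v)) (_ : Countable ι) (b : HilbertBasis ι ℂ H),
      HasSum (fun i => ⟪b i, R (b i)⟫_ℂ) t) :
    HasSum (fun χ : systems T J₀ =>
      haveI := CommSymm.finiteDimensional hc χ.2.2
      trOn (jointSpace T χ) R) t := by
  obtain ⟨w, b, B, hB⟩ := hT.exists_hilbertBasis hc
  have hfin : ∀ χ : systems T J₀, FiniteDimensional ℂ (jointSpace T χ) :=
    fun χ => CommSymm.finiteDimensional hc χ.2.2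
  have hfinw : ∀ χ : systems T J₀, Finite (w (some χ)) := by
    intro χ
    have : LinearIndependent ℂ (b (some χ)) := (b (some χ)).orthonormal.linearIndependent
    have hf : FiniteDimensional ℂ (pieces T J₀ (some χ)) := hfin χ
    exact this.finite
  have h1 := ht _ (HilbertBasis.countable B) B
  have h2 : HasSum (fun o : Option (systems T J₀) => ∑' i : w o, ⟪B ⟨o, i⟩, R (B ⟨o, i⟩)⟫_ℂ) t := by
    refine h1.sigma fun o => ?_
    exact (h1.summable.sigma_factor o).hasSum
  have h3 : ∀ o : Option (systems T J₀), o ∉ Set.range (some : systems T J₀ → _) →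
      ∑' i : w o, ⟪B ⟨o, i⟩, R (B ⟨o, i⟩)⟫_ℂ = 0 := by
    rintro (_ | χ) ho
    · have : ∀ i : w none, ⟪B ⟨none, i⟩, R (B ⟨none, i⟩)⟫_ℂ = 0 := by
        intro i
        refine hR _ ?_
        rw [hB]
        exact (b none i).2
      simp [this]
    · exact absurd ⟨χ, rfl⟩ ho
  have h4 := (Function.Injective.hasSum_iff (Option.some_injective _) h3).2 h2
  have h5 : (fun χ : systems T J₀ => ∑' i : w (some χ), ⟪B ⟨some χ, i⟩, R (B ⟨some χ, i⟩)⟫_ℂ)
      = fun χ : systems T J₀ => trOn (jointSpace T χ) R := by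
    funext χ
    have : Fintype (w (some χ)) := Fintype.ofFinite _
    rw [tsum_fintype]
    have h6 := trOn_eq_hilbert (jointSpace T χ) R (b (some χ))
    rw [h6]
    exact Finset.sum_congr rfl fun i _ => by rw [hB]; rfl
  rw [← h5]
  exact h4

end joint

end Fermat.Agent.LT.B
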