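import Fermat.Agent.LT.B.Quot
import Fermat.Agent.LT.B.HS

/-!
# Equivariant reversible kernels: the mass transport principle and Schur bounded operators on
`L²(Γ \ X)`
-/

set_option linter.unusedSectionVars false
set_option linter.unusedVariables false

open MeasureTheory MulAction Set ProbabilityTheory
open scoped ENNReal NNReal

namespace Fermat.Agent.LT.B

variable {Γ X : Type*} [Group Γ] [MulAction Γ X] [MeasurableSpace X]

theorem measurableConstSMul_prod [MeasurableConstSMul Γ X] : MeasurableConstSMul Γ (X × X) :=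
  ⟨fun γ => ((measurable_const_smul γ).comp measurable_fst).prodMk
    ((measurable_const_smul γ).comp measurable_snd)⟩

theorem IsWeight.fst {w : X → ℝ≥0∞} (hw : IsWeight Γ w) :
    IsWeight Γ (fun p : X × X => w p.1) :=
  ⟨hw.meas.comp measurable_fst, fun p => hw.sum_eq p.1⟩

theorem IsWeight.snd {w : X → ℝ≥0∞} (hw : IsWeight Γ w) :
    IsWeight Γ (fun p : X × X => w p.2) :=
  ⟨hw.meas.comp measurable_snd, fun p => hw.sum_eq p.2⟩

/-- `κ` is `Γ`-equivariant and `μ`-reversible. -/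
structure IsRev (Γ : Type*) {X : Type*} [Group Γ] [MulAction Γ X] [MeasurableSpace X]
    (μ : Measure X) (κ : Kernel X X) : Prop where
  eqv : ∀ (γ : Γ) (x : X), κ (γ • x) = (κ x).map (fun y => γ • y)
  rev : (μ ⊗ₘ κ).map Prod.swap = μ ⊗ₘ κ

section

variable [Countable Γ] [MeasurableConstSMul Γ X] {μ : Measure X} [SMulInvariantMeasure Γ X μ]
  [SFinite μ] {w : X → ℝ≥0∞} {κ : Kernel X X} [IsSFiniteKernel κ]

theorem IsRev.smulInvariant (h : IsRev Γ μ κ) : SMulInvariantMeasure Γ (X × X) (μ ⊗ₘ κ) := by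
  have := measurableConstSMul_prod (Γ := Γ) (X := X)
  refine ⟨fun γ s hs => ?_⟩
  have hs' : MeasurableSet ((fun p : X × X => γ • p) ⁻¹' s) := measurable_const_smul γ hs
  rw [← lintegral_indicator_one hs, ← lintegral_indicator_one hs',
    Measure.lintegral_compProd (measurable_one.indicator hs),
    Measure.lintegral_compProd (measurable_one.indicator hs')]
  rw [← lintegral_smul γ (fun x => ∫⁻ y, s.indicator (1 : X × X → ℝ≥0∞) (x, y) ∂κ x)]
  congr 1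
  ext x
  rw [h.eqv, show (fun y : X => γ • y) = (MeasurableEquiv.smul γ : X ≃ᵐ X) from rfl,
    lintegral_map_equiv]
  rfl

/-- **Mass transport principle.** -/
theorem IsRev.mtp (h : IsRev Γ μ κ) (hw : IsWeight Γ w) {Ψ : X → X → ℝ≥0∞}
    (hΨ : Measurable (Function.uncurry Ψ)) (hinv : ∀ (γ : Γ) x y, Ψ (γ • x) (γ • y) = Ψ x y) :
    ∫⁻ x, w x * ∫⁻ y, Ψ x y ∂κ x ∂μ = ∫⁻ x, w x * ∫⁻ y, Ψ y x ∂κ x ∂μ := by
  have i1 := measurableConstSMul_prod (Γ := Γ) (X := X)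
  have i2 := h.smulInvariant
  have hswap : Measurable (fun p : X × X => Ψ p.2 p.1) := hΨ.comp measurable_swap
  have e1 : ∫⁻ x, w x * ∫⁻ y, Ψ x y ∂κ x ∂μ
      = ∫⁻ p, w p.1 * Function.uncurry Ψ p ∂(μ ⊗ₘ κ) := by
    have hm : Measurable (fun p : X × X => w p.1 * Function.uncurry Ψ p) :=
      (hw.meas.comp measurable_fst).mul hΨ
    rw [Measure.lintegral_compProd hm]
    congr 1
    ext x
    exact (lintegral_const_mul _ (hΨ.comp measurable_prodMk_left)).symm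
  have e2 : ∫⁻ x, w x * ∫⁻ y, Ψ y x ∂κ x ∂μ
      = ∫⁻ p : X × X, w p.1 * Ψ p.2 p.1 ∂(μ ⊗ₘ κ) := by
    have hm : Measurable (fun p : X × X => w p.1 * Ψ p.2 p.1) :=
      (hw.meas.comp measurable_fst).mul hswap
    rw [Measure.lintegral_compProd hm]
    congr 1
    ext x
    exact (lintegral_const_mul _ (hswap.comp measurable_prodMk_left)).symm
  rw [e1, e2, hw.fst.lintegral_eq (μ := μ ⊗ₘ κ) hw.snd hΨ.aemeasurable (fun γ p => hinv γ p.1 p.2)]
  conv_lhs => rw [← h.rev]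
  have hm : Measurable (fun p : X × X => w p.2 * Function.uncurry Ψ p) :=
    (hw.meas.comp measurable_snd).mul hΨ
  rw [lintegral_map hm measurable_swap]
  rfl

/-- a.e. statements move along the kernel -/
theorem IsRev.ae_ae (h : IsRev Γ μ κ) {P : X → Prop} (hP : ∀ᵐ x ∂μ, P x) :
    ∀ᵐ x ∂μ, ∀ᵐ y ∂κ x, P y := by
  obtain ⟨N, hsub, hN, hN0⟩ := exists_measurable_superset_of_null (ae_iff.1 hP)
  have h1 : (μ ⊗ₘ κ) (Prod.snd ⁻¹' N) = 0 := by
    rw [← h.rev, Measure.map_apply measurable_swap (measurable_snd hN)]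
    have : Prod.swap ⁻¹' (Prod.snd ⁻¹' N) = (Prod.fst ⁻¹' N : Set (X × X)) := rfl
    rw [this, Measure.compProd_apply (measurable_fst hN)]
    have h2 : ∀ᵐ x ∂μ, κ x (Prod.mk x ⁻¹' (Prod.fst ⁻¹' N)) = 0 := by
      have : ∀ᵐ x ∂μ, x ∉ N := measure_eq_zero_iff_ae_notMem.1 hN0
      filter_upwards [this] with x hx
      have : Prod.mk x ⁻¹' (Prod.fst ⁻¹' N : Set (X × X)) = ∅ := by
        ext y
        simp [hx]
      rw [this, measure_empty]
    rw [lintegral_congr_ae h2, lintegral_zero]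
  rw [Measure.compProd_apply (measurable_snd hN), lintegral_eq_zero_iff
    (Kernel.measurable_kernel_prodMk_left (measurable_snd hN))] at h1
  filter_upwards [h1] with x hx
  rw [ae_iff]
  refine measure_mono_null (fun y hy => hsub hy) ?_
  exact hx

/-- Mass transport principle for complex functions. -/
theorem IsRev.mtp_integral (h : IsRev Γ μ κ) (hw : IsWeight Γ w) {Ψ : X → X → ℂ}
    (hΨ : StronglyMeasurable (Function.uncurry Ψ))
    (hinv : ∀ (γ : Γ) x y, Ψ (γ • x) (γ • y) = Ψ x y)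
    (hfin : ∫⁻ x, w x * ∫⁻ y, ‖Ψ x y‖ₑ ∂κ x ∂μ ≠ ∞) :
    ∫ x, (w x).toReal • ∫ y, Ψ x y ∂κ x ∂μ = ∫ x, (w x).toReal • ∫ y, Ψ y x ∂κ x ∂μ := by
  have i1 := measurableConstSMul_prod (Γ := Γ) (X := X)
  have i2 := h.smulInvariant
  have hwr : StronglyMeasurable (fun x => (w x).toReal) :=
    hw.meas.ennreal_toReal.stronglyMeasurable
  have hen : ∀ x, ‖(w x).toReal‖ₑ = w x := fun x => by
    rw [Real.enorm_eq_ofReal ENNReal.toReal_nonneg, ENNReal.ofReal_toReal (hw.ne_top x)]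
  have hswap : StronglyMeasurable (fun p : X × X => Ψ p.2 p.1) :=
    hΨ.comp_measurable measurable_swap
  have hinv' : ∀ (γ : Γ) (p : X × X), Function.uncurry Ψ (γ • p) = Function.uncurry Ψ p :=
    fun γ p => hinv γ p.1 p.2
  have hint1 : Integrable (fun p : X × X => (w p.1).toReal • Ψ p.1 p.2) (μ ⊗ₘ κ) := by
    refine ⟨((hwr.comp_measurable measurable_fst).smul hΨ).aestronglyMeasurable, ?_⟩
    unfold HasFiniteIntegral
    have : ∫⁻ p : X × X, ‖(w p.1).toReal • Ψ p.1 p.2‖ₑ ∂(μ ⊗ₘ κ)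
        = ∫⁻ x, w x * ∫⁻ y, ‖Ψ x y‖ₑ ∂κ x ∂μ := by
      rw [Measure.lintegral_compProd]
      · congr 1
        ext x
        simp_rw [enorm_smul, hen]
        rw [lintegral_const_mul]
        exact (hΨ.comp_measurable measurable_prodMk_left).enorm
      · exact ((hwr.comp_measurable measurable_fst).smul hΨ).enorm
    rw [this]
    exact hfin.lt_top
  have hint2 : Integrable (fun p : X × X => (w p.1).toReal • Ψ p.2 p.1) (μ ⊗ₘ κ) := by
    refine ⟨((hwr.comp_measurable measurable_fst).smul hswap).aestronglyMeasurable, ?_⟩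
    unfold HasFiniteIntegral
    have : ∫⁻ p : X × X, ‖(w p.1).toReal • Ψ p.2 p.1‖ₑ ∂(μ ⊗ₘ κ)
        = ∫⁻ x, w x * ∫⁻ y, ‖Ψ y x‖ₑ ∂κ x ∂μ := by
      rw [Measure.lintegral_compProd]
      · congr 1
        ext x
        simp_rw [enorm_smul, hen]
        rw [lintegral_const_mul]
        exact (hswap.comp_measurable measurable_prodMk_left).enorm
      · exact ((hwr.comp_measurable measurable_fst).smul hswap).enorm
    rw [this, ← h.mtp hw (Ψ := fun x y => ‖Ψ x y‖ₑ) hΨ.enorm (fun γ x y => by rw [hinv])]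
    exact hfin.lt_top
  have e1 : ∫ x, (w x).toReal • ∫ y, Ψ x y ∂κ x ∂μ
      = ∫ p : X × X, (w p.1).toReal • Function.uncurry Ψ p ∂(μ ⊗ₘ κ) := by
    change _ = ∫ p : X × X, (w p.1).toReal • Ψ p.1 p.2 ∂(μ ⊗ₘ κ)
    rw [Measure.integral_compProd hint1]
    congr 1
    ext x
    exact (integral_smul _ _).symm
  have e2 : ∫ x, (w x).toReal • ∫ y, Ψ y x ∂κ x ∂μ
      = ∫ p : X × X, (w p.1).toReal • Ψ p.2 p.1 ∂(μ ⊗ₘ κ) := by
    rw [Measure.integral_compProd hint2]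
    congr 1
    ext x
    exact (integral_smul _ _).symm
  have hd : StronglyMeasurable (desc (Γ := Γ) (Function.uncurry Ψ) hinv') :=
    (measurable_desc hΨ.measurable hinv').stronglyMeasurable
  have q1 := integral_qMeas (μ := μ ⊗ₘ κ) hw.fst (desc (Γ := Γ) (Function.uncurry Ψ) hinv')
    hd.aestronglyMeasurable
  have q2 := integral_qMeas (μ := μ ⊗ₘ κ) hw.snd (desc (Γ := Γ) (Function.uncurry Ψ) hinv')
    hd.aestronglyMeasurable
  rw [qMeas_congr hw.fst hw.snd] at q1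
  simp only [desc_pr] at q1 q2
  rw [e1, e2, ← q1, q2]
  conv_lhs => rw [← h.rev]
  rw [integral_map measurable_swap.aemeasurable]
  · rfl
  · exact ((hwr.comp_measurable measurable_snd).smul hΨ).aestronglyMeasurable

end

/-- Schur bounded equivariant coefficient function. -/
structure IsSchur (Γ : Type*) {X : Type*} [Group Γ] [MulAction Γ X] [MeasurableSpace X]
    (κ : Kernel X X) (c : X → X → ℂ) (A B : ℝ≥0) : Prop where
  meas : StronglyMeasurable (Function.uncurry c)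
  inv : ∀ (γ : Γ) x y, c (γ • x) (γ • y) = c x y
  left : ∀ x, ∫⁻ y, ‖c x y‖ₑ ∂κ x ≤ A
  right : ∀ x, ∫⁻ y, ‖c y x‖ₑ ∂κ x ≤ B

section Op

variable [Countable Γ] [MeasurableConstSMul Γ X] {μ : Measure X} [SMulInvariantMeasure Γ X μ]
  [SFinite μ] {w : X → ℝ≥0∞} {κ : Kernel X X} [IsSFiniteKernel κ] {c : X → X → ℂ} {A B : ℝ≥0}

theorem IsSchur.integral_smul_eq (hc : IsSchur Γ κ c A B) (h : IsRev Γ μ κ) (F : Qt Γ X → ℂ)
    (γ : Γ) (x : X) :
    ∫ y, c (γ • x) y * F (pr Γ y) ∂κ (γ • x) = ∫ y, c x y * F (pr Γ y) ∂κ x := by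
  rw [h.eqv, show (fun y : X => γ • y) = (MeasurableEquiv.smul γ : X ≃ᵐ X) from rfl,
    integral_map_equiv]
  congr 1
  ext y
  rw [show (MeasurableEquiv.smul γ : X ≃ᵐ X) y = γ • y from rfl, hc.inv, pr_smul]

/-- the operator on functions -/
noncomputable def IsSchur.opFun (hc : IsSchur Γ κ c A B) (h : IsRev Γ μ κ) (F : Qt Γ X → ℂ) :
    Qt Γ X → ℂ :=
  desc (fun x => ∫ y, c x y * F (pr Γ y) ∂κ x) (hc.integral_smul_eq h F)

theorem IsSchur.opFun_pr (hc : IsSchur Γ κ c A B) (h : IsRev Γ μ κ) (F : Qt Γ X → ℂ) (x : X) :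
    hc.opFun h F (pr Γ x) = ∫ y, c x y * F (pr Γ y) ∂κ x := rfl

theorem IsSchur.stronglyMeasurable_opFun (hc : IsSchur Γ κ c A B) (h : IsRev Γ μ κ)
    {F : Qt Γ X → ℂ} (hF : StronglyMeasurable F) : StronglyMeasurable (hc.opFun h F) := by
  refine Measurable.stronglyMeasurable (measurable_desc ?_ _)
  refine StronglyMeasurable.measurable ?_
  refine StronglyMeasurable.integral_kernel_prod_right ?_
  exact hc.meas.mul (hF.comp_measurable (measurable_pr.comp measurable_snd))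

/-- Schur's inequality, in the form of a bound of the integral of the square of the absolute
integral. -/
theorem IsSchur.lintegral_sq_le (hc : IsSchur Γ κ c A B) (h : IsRev Γ μ κ) (hw : IsWeight Γ w)
    {F : Qt Γ X → ℂ} (hF : StronglyMeasurable F) :
    ∫⁻ x, w x * (∫⁻ y, ‖c x y‖ₑ * ‖F (pr Γ y)‖ₑ ∂κ x) ^ 2 ∂μ
      ≤ A * B * ∫⁻ q, ‖F q‖ₑ ^ 2 ∂qMeas Γ μ w := by
  have hFp : Measurable (fun y : X => ‖F (pr Γ y)‖ₑ) :=
    (hF.comp_measurable measurable_pr).enorm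
  have hcx : ∀ x, Measurable (fun y => ‖c x y‖ₑ) := fun x =>
    (hc.meas.comp_measurable measurable_prodMk_left).enorm
  -- Cauchy-Schwarz
  have cs : ∀ x, (∫⁻ y, ‖c x y‖ₑ * ‖F (pr Γ y)‖ₑ ∂κ x) ^ 2
      ≤ A * ∫⁻ y, ‖c x y‖ₑ * ‖F (pr Γ y)‖ₑ ^ 2 ∂κ x := by
    intro x
    have h1 := ENNReal.lintegral_mul_le_Lp_mul_Lq (κ x) (p := 2) (q := 2)
      (f := fun y => ‖c x y‖ₑ ^ (1 / 2 : ℝ)) (g := fun y => ‖c x y‖ₑ ^ (1 / 2 : ℝ) * ‖F (pr Γ y)‖ₑ)
      (by norm_num [Real.holderConjugate_iff])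
      ((hcx x).pow_const _).aemeasurable (((hcx x).pow_const _).mul hFp).aemeasurable
    have e1 : ∀ y, ‖c x y‖ₑ ^ (1 / 2 : ℝ) * (‖c x y‖ₑ ^ (1 / 2 : ℝ) * ‖F (pr Γ y)‖ₑ)
        = ‖c x y‖ₑ * ‖F (pr Γ y)‖ₑ := by
      intro y
      rw [← mul_assoc, ← ENNReal.rpow_add_of_nonneg _ _ (by norm_num) (by norm_num)]
      norm_num
    have e2 : ∀ y, (‖c x y‖ₑ ^ (1 / 2 : ℝ)) ^ (2 : ℝ) = ‖c x y‖ₑ := by
      intro y
      rw [← ENNReal.rpow_mul]
      norm_num
    have e3 : ∀ y, (‖c x y‖ₑ ^ (1 / 2 : ℝ) * ‖F (pr Γ y)‖ₑ) ^ (2 : ℝ)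
        = ‖c x y‖ₑ * ‖F (pr Γ y)‖ₑ ^ 2 := by
      intro y
      rw [ENNReal.mul_rpow_of_nonneg _ _ (by norm_num), e2, ← ENNReal.rpow_natCast]
      norm_num
    simp only [Pi.mul_apply, e1, e2, e3] at h1
    calc (∫⁻ y, ‖c x y‖ₑ * ‖F (pr Γ y)‖ₑ ∂κ x) ^ 2
        ≤ ((∫⁻ y, ‖c x y‖ₑ ∂κ x) ^ (1 / 2 : ℝ) *
            (∫⁻ y, ‖c x y‖ₑ * ‖F (pr Γ y)‖ₑ ^ 2 ∂κ x) ^ (1 / 2 : ℝ)) ^ 2 := by gcongr
      _ = (∫⁻ y, ‖c x y‖ₑ ∂κ x) * ∫⁻ y, ‖c x y‖ₑ * ‖F (pr Γ y)‖ₑ ^ 2 ∂κ x := by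
          rw [mul_pow, ← ENNReal.rpow_natCast, ← ENNReal.rpow_mul, ← ENNReal.rpow_natCast,
            ← ENNReal.rpow_mul]
          norm_num
      _ ≤ A * ∫⁻ y, ‖c x y‖ₑ * ‖F (pr Γ y)‖ₑ ^ 2 ∂κ x := by
          gcongr
          exact hc.left x
  have hm : Measurable (Function.uncurry fun x y : X => ‖c x y‖ₑ * ‖F (pr Γ y)‖ₑ ^ 2) :=
    hc.meas.enorm.mul ((hFp.comp measurable_snd).pow_const 2)
  calc ∫⁻ x, w x * (∫⁻ y, ‖c x y‖ₑ * ‖F (pr Γ y)‖ₑ ∂κ x) ^ 2 ∂μ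
      ≤ ∫⁻ x, w x * (A * ∫⁻ y, ‖c x y‖ₑ * ‖F (pr Γ y)‖ₑ ^ 2 ∂κ x) ∂μ := by
        refine lintegral_mono fun x => ?_
        gcongr
        exact cs x
    _ = A * ∫⁻ x, w x * ∫⁻ y, ‖c x y‖ₑ * ‖F (pr Γ y)‖ₑ ^ 2 ∂κ x ∂μ := by
        rw [← lintegral_const_mul]
        · congr 1
          ext x
          ring
        · exact hw.meas.mul hm.lintegral_kernel_prod_right
    _ = A * ∫⁻ x, w x * ∫⁻ y, ‖c y x‖ₑ * ‖F (pr Γ x)‖ₑ ^ 2 ∂κ x ∂μ := by
        rw [h.mtp hw hm (fun γ x y => by rw [hc.inv, pr_smul])]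
    _ ≤ A * ∫⁻ x, w x * (B * ‖F (pr Γ x)‖ₑ ^ 2) ∂μ := by
        gcongr with x
        rw [lintegral_mul_const]
        · gcongr
          exact hc.right x
        · exact (hc.meas.comp_measurable (measurable_id.prodMk measurable_const)).enorm
    _ = A * B * ∫⁻ q, ‖F q‖ₑ ^ 2 ∂qMeas Γ μ w := by
        rw [lintegral_qMeas hw (hF.enorm.pow_const 2), mul_assoc]
        congr 1
        rw [← lintegral_const_mul]
        · congr 1
          ext x
          ring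
        · exact hw.meas.mul (hFp.pow_const 2)

theorem IsSchur.ae_integrable (hc : IsSchur Γ κ c A B) (h : IsRev Γ μ κ) (hw : IsWeight Γ w)
    {F : Qt Γ X → ℂ} (hF : StronglyMeasurable F) (hF2 : MemLp F 2 (qMeas Γ μ w)) :
    ∀ᵐ x ∂μ, Integrable (fun y => c x y * F (pr Γ y)) (κ x) := by
  have hFp : StronglyMeasurable (fun y : X => F (pr Γ y)) := hF.comp_measurable measurable_pr
  have h1 := hc.lintegral_sq_le h hw hF
  have h2 : (A : ℝ≥0∞) * B * ∫⁻ q, ‖F q‖ₑ ^ 2 ∂qMeas Γ μ w < ∞ :=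
    ENNReal.mul_lt_top (ENNReal.mul_lt_top ENNReal.coe_lt_top ENNReal.coe_lt_top)
      (lintegral_sq_lt_top hF2)
  -- the function x ↦ ∫ |c| |F| is Γ-invariant
  let G : X → ℝ≥0∞ := fun x => ∫⁻ y, ‖c x y‖ₑ * ‖F (pr Γ y)‖ₑ ∂κ x
  have hGm : Measurable G :=
    (hc.meas.enorm.mul (hFp.comp_measurable measurable_snd).enorm).lintegral_kernel_prod_right
  have hGi : ∀ (γ : Γ) x, G (γ • x) = G x := by
    intro γ x
    show ∫⁻ y, ‖c (γ • x) y‖ₑ * ‖F (pr Γ y)‖ₑ ∂κ (γ • x) = ∫⁻ y, ‖c x y‖ₑ * ‖F (pr Γ y)‖ₑ ∂κ x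
    rw [h.eqv, show (fun y : X => γ • y) = (MeasurableEquiv.smul γ : X ≃ᵐ X) from rfl,
      lintegral_map_equiv]
    congr 1
    ext y
    rw [show (MeasurableEquiv.smul γ : X ≃ᵐ X) y = γ • y from rfl, hc.inv, pr_smul]
  have h3 : ∫⁻ q, (desc G hGi q) ^ 2 ∂qMeas Γ μ w ≠ ∞ := by
    rw [lintegral_qMeas hw ((measurable_desc hGm hGi).pow_const 2)]
    simp only [desc_pr]
    exact (h1.trans_lt h2).ne
  have h4 := ae_lt_top ((measurable_desc hGm hGi).pow_const 2) h3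
  rw [ae_qMeas_iff hw] at h4
  filter_upwards [h4] with x hx
  refine ⟨((hc.meas.comp_measurable measurable_prodMk_left).mul hFp).aestronglyMeasurable, ?_⟩
  unfold HasFiniteIntegral
  simp_rw [enorm_mul]
  simp only [desc_pr] at hx
  by_contra hcon
  rw [not_lt, top_le_iff] at hcon
  have : G x = ∞ := hcon
  rw [this] at hx
  simp at hx

theorem IsSchur.memLp_opFun (hc : IsSchur Γ κ c A B) (h : IsRev Γ μ κ) (hw : IsWeight Γ w)
    {F : Qt Γ X → ℂ} (hF : StronglyMeasurable F) (hF2 : MemLp F 2 (qMeas Γ μ w)) :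
    MemLp (hc.opFun h F) 2 (qMeas Γ μ w) ∧
      ∫⁻ q, ‖hc.opFun h F q‖ₑ ^ 2 ∂qMeas Γ μ w ≤ A * B * ∫⁻ q, ‖F q‖ₑ ^ 2 ∂qMeas Γ μ w := by
  have hm := hc.stronglyMeasurable_opFun h hF
  have h1 : ∫⁻ q, ‖hc.opFun h F q‖ₑ ^ 2 ∂qMeas Γ μ w
      ≤ A * B * ∫⁻ q, ‖F q‖ₑ ^ 2 ∂qMeas Γ μ w := by
    refine le_trans ?_ (hc.lintegral_sq_le h hw hF)
    rw [lintegral_qMeas hw (hm.enorm.pow_const 2)]
    refine lintegral_mono fun x => ?_
    gcongr
    rw [hc.opFun_pr]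
    refine (enorm_integral_le_lintegral_enorm _).trans (le_of_eq ?_)
    simp_rw [enorm_mul]
  refine ⟨(memLp_two_iff_lintegral hm.aestronglyMeasurable).2 (h1.trans_lt ?_), h1⟩
  exact ENNReal.mul_lt_top (ENNReal.mul_lt_top ENNReal.coe_lt_top ENNReal.coe_lt_top)
      (lintegral_sq_lt_top hF2)

/-- `T` is the operator attached to `(κ, c)`. -/
def IsOp (Γ : Type*) {X : Type*} [Group Γ] [MulAction Γ X] [MeasurableSpace X] (μ : Measure X)
    (w : X → ℝ≥0∞) (κ : Kernel X X) (c : X → X → ℂ)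
    (T : Lp ℂ 2 (qMeas Γ μ w) →L[ℂ] Lp ℂ 2 (qMeas Γ μ w)) : Prop :=
  ∀ f : Lp ℂ 2 (qMeas Γ μ w), ∀ᵐ x ∂μ, T f (pr Γ x) = ∫ y, c x y * f (pr Γ y) ∂κ x

theorem IsOp.unique {T T' : Lp ℂ 2 (qMeas Γ μ w) →L[ℂ] Lp ℂ 2 (qMeas Γ μ w)}
    (hw : IsWeight Γ w) (h : IsOp Γ μ w κ c T) (h' : IsOp Γ μ w κ c T') : T = T' := by
  ext1 f
  apply Lp.ext
  rw [Filter.EventuallyEq, ae_qMeas_iff hw]
  filter_upwards [h f, h' f] with x h1 h2
  rw [h1, h2]

/-- representatives of an `L²` class may be changed -/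
theorem ae_integral_congr (h : IsRev Γ μ κ) (hw : IsWeight Γ w) {F F' : Qt Γ X → ℂ}
    (hF : F =ᵐ[qMeas Γ μ w] F') (c : X → X → ℂ) :
    ∀ᵐ x ∂μ, (fun y => c x y * F (pr Γ y)) =ᵐ[κ x] fun y => c x y * F' (pr Γ y) := by
  rw [Filter.EventuallyEq, ae_qMeas_iff hw] at hF
  filter_upwards [h.ae_ae hF] with x hx
  filter_upwards [hx] with y hy
  rw [hy]

/-- Existence of the operator. -/
theorem IsSchur.exists_isOp (hc : IsSchur Γ κ c A B) (h : IsRev Γ μ κ) (hw : IsWeight Γ w) :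
    ∃ T : Lp ℂ 2 (qMeas Γ μ w) →L[ℂ] Lp ℂ 2 (qMeas Γ μ w), IsOp Γ μ w κ c T ∧
      ‖T‖ ≤ Real.sqrt (A * B) := by
  have hmem : ∀ f : Lp ℂ 2 (qMeas Γ μ w), MemLp (hc.opFun h f) 2 (qMeas Γ μ w) := fun f =>
    (hc.memLp_opFun h hw (Lp.stronglyMeasurable f) (Lp.memLp f)).1
  have hcoe : ∀ f : Lp ℂ 2 (qMeas Γ μ w), ∀ᵐ x ∂μ,
      ((hmem f).toLp : Lp ℂ 2 (qMeas Γ μ w)) (pr Γ x) = ∫ y, c x y * f (pr Γ y) ∂κ x := by
    intro f
    have := (hmem f).coeFn_toLp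
    rw [Filter.EventuallyEq, ae_qMeas_iff hw] at this
    exact this
  let T0 : Lp ℂ 2 (qMeas Γ μ w) →ₗ[ℂ] Lp ℂ 2 (qMeas Γ μ w) :=
    { toFun := fun f => (hmem f).toLp
      map_add' := by
        intro f g
        apply Lp.ext
        rw [Filter.EventuallyEq, ae_qMeas_iff hw]
        have e1 := (quasiMeasurePreserving_pr (μ := μ) hw).ae
          (Lp.coeFn_add ((hmem f).toLp : Lp ℂ 2 (qMeas Γ μ w)) (hmem g).toLp)
        filter_upwards [hcoe (f + g), hcoe f, hcoe g, e1,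
          ae_integral_congr h hw (Lp.coeFn_add f g) c,
          hc.ae_integrable h hw (Lp.stronglyMeasurable f) (Lp.memLp f),
          hc.ae_integrable h hw (Lp.stronglyMeasurable g) (Lp.memLp g)]
          with x h1 h2 h3 h4 h5 h6 h7
        rw [h4, Pi.add_apply, h1, h2, h3, integral_congr_ae h5, ← integral_add h6 h7]
        congr 1
        ext y
        simp [mul_add]
      map_smul' := by
        intro a f
        apply Lp.ext
        rw [Filter.EventuallyEq, ae_qMeas_iff hw]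
        have e1 := (quasiMeasurePreserving_pr (μ := μ) hw).ae
          (Lp.coeFn_smul a ((hmem f).toLp : Lp ℂ 2 (qMeas Γ μ w)))
        filter_upwards [hcoe (a • f), hcoe f, e1, ae_integral_congr h hw (Lp.coeFn_smul a f) c]
          with x h1 h2 h4 h5
        simp only [RingHom.id_apply]
        rw [h4, Pi.smul_apply, h1, h2, integral_congr_ae h5, smul_eq_mul, ← integral_const_mul]
        congr 1
        ext y
        simp only [Pi.smul_apply, smul_eq_mul]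
        ring }
  have hbound : ∀ f, ‖T0 f‖ ≤ Real.sqrt (A * B) * ‖f‖ := by
    intro f
    have h1 := (hc.memLp_opFun h hw (Lp.stronglyMeasurable f) (Lp.memLp f)).2
    have h2 : ‖T0 f‖ₑ ^ 2 ≤ A * B * ‖f‖ₑ ^ 2 := by
      rw [enorm_Lp_sq, enorm_Lp_sq]
      refine le_trans (le_of_eq ?_) h1
      refine lintegral_congr_ae ?_
      filter_upwards [(hmem f).coeFn_toLp] with q hq
      rw [← hq]
      rfl
    have h3 : ‖T0 f‖ ^ 2 ≤ A * B * ‖f‖ ^ 2 := by
      have := ENNReal.toReal_mono (by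
        exact ENNReal.mul_ne_top (ENNReal.mul_ne_top ENNReal.coe_ne_top ENNReal.coe_ne_top)
          (ENNReal.pow_ne_top enorm_ne_top)) h2
      simpa using this
    calc ‖T0 f‖ = Real.sqrt (‖T0 f‖ ^ 2) := (Real.sqrt_sq (norm_nonneg _)).symm
      _ ≤ Real.sqrt (A * B * ‖f‖ ^ 2) := Real.sqrt_le_sqrt h3
      _ = Real.sqrt (A * B) * ‖f‖ := by
        rw [Real.sqrt_mul (by positivity), Real.sqrt_sq (norm_nonneg _)]
  refine ⟨T0.mkContinuous _ hbound, fun f => hcoe f, ?_⟩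
  exact T0.mkContinuous_norm_le (Real.sqrt_nonneg _) hbound

/-- The conjugate transpose. -/
def conjTr (c : X → X → ℂ) : X → X → ℂ := fun x y => (starRingEnd ℂ) (c y x)

theorem conjTr_apply (c : X → X → ℂ) (x y : X) : conjTr c x y = (starRingEnd ℂ) (c y x) := rfl

theorem IsSchur.conjTranspose (hc : IsSchur Γ κ c A B) : IsSchur Γ κ (conjTr c) B A where
  meas := by
    have h1 : StronglyMeasurable (fun p : X × X => c p.2 p.1) :=
      hc.meas.comp_measurable measurable_swap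
    exact (Complex.continuous_conj.comp_stronglyMeasurable h1)
  inv γ x y := by simp only [conjTr_apply, hc.inv]
  left x := by
    have e : ∀ y, ‖conjTr c x y‖ₑ = ‖c y x‖ₑ := fun y => by
      rw [conjTr_apply]; simp [enorm_eq_nnnorm]
    simp_rw [e]
    exact hc.right x
  right x := by
    have e : ∀ y, ‖conjTr c y x‖ₑ = ‖c x y‖ₑ := fun y => by
      rw [conjTr_apply]; simp [enorm_eq_nnnorm]
    simp_rw [e]
    exact hc.left x

open scoped InnerProductSpace in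
/-- The adjoint is the operator attached to the conjugate transpose. -/
theorem IsSchur.isOp_adjoint (hc : IsSchur Γ κ c A B) (h : IsRev Γ μ κ) (hw : IsWeight Γ w)
    {T T' : Lp ℂ 2 (qMeas Γ μ w) →L[ℂ] Lp ℂ 2 (qMeas Γ μ w)} (hT : IsOp Γ μ w κ c T)
    (hT' : IsOp Γ μ w κ (conjTr c) T') : T' = ContinuousLinearMap.adjoint T := by
  rw [ContinuousLinearMap.eq_adjoint_iff]
  intro f g
  have hfm := Lp.stronglyMeasurable f
  have hgm := Lp.stronglyMeasurable g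
  have hfp : StronglyMeasurable (fun y : X => f (pr Γ y)) := hfm.comp_measurable measurable_pr
  have hgp : StronglyMeasurable (fun y : X => g (pr Γ y)) := hgm.comp_measurable measurable_pr
  -- both sides as integrals on X
  have hL : ⟪T' f, g⟫_ℂ = ∫ x, (w x).toReal • ∫ y, c y x * (starRingEnd ℂ (f (pr Γ y))
      * g (pr Γ x)) ∂κ x ∂μ := by
    rw [L2.inner_def, integral_qMeas hw]
    · refine integral_congr_ae ?_
      filter_upwards [hT' f] with x hx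
      rw [hx]
      simp only [RCLike.inner_apply, conjTr_apply]
      rw [← integral_conj, mul_comm, ← integral_mul_const]
      congr 1
      congr 1
      ext y
      simp only [map_mul, Complex.conj_conj]
      ring
    · exact (L2.integrable_inner (𝕜 := ℂ) (T' f) g).1
  have hR : ⟪f, T g⟫_ℂ = ∫ x, (w x).toReal • ∫ y, c x y * (starRingEnd ℂ (f (pr Γ x))
      * g (pr Γ y)) ∂κ x ∂μ := by
    rw [L2.inner_def, integral_qMeas hw]
    · refine integral_congr_ae ?_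
      filter_upwards [hT g] with x hx
      rw [hx]
      simp only [RCLike.inner_apply]
      rw [← integral_mul_const]
      congr 1
      congr 1
      ext y
      ring
    · exact (L2.integrable_inner (𝕜 := ℂ) f (T g)).1
  rw [hL, hR]
  symm
  refine h.mtp_integral hw (Ψ := fun x y => c x y * (starRingEnd ℂ (f (pr Γ x)) * g (pr Γ y)))
    ?_ ?_ ?_
  · refine hc.meas.mul (StronglyMeasurable.mul ?_ (hgp.comp_measurable measurable_snd))
    exact Complex.continuous_conj.comp_stronglyMeasurable (hfp.comp_measurable measurable_fst)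
  · intro γ x y
    rw [hc.inv, pr_smul, pr_smul]
  · -- finiteness, by Cauchy-Schwarz
    have h1 := hc.lintegral_sq_le h hw hgm
    have hGm : Measurable (fun x => ∫⁻ y, ‖c x y‖ₑ * ‖g (pr Γ y)‖ₑ ∂κ x) :=
      (hc.meas.enorm.mul (hgp.comp_measurable measurable_snd).enorm).lintegral_kernel_prod_right
    have e1 : ∀ x, ∫⁻ y, ‖c x y * (starRingEnd ℂ (f (pr Γ x)) * g (pr Γ y))‖ₑ ∂κ x
        = ‖f (pr Γ x)‖ₑ * ∫⁻ y, ‖c x y‖ₑ * ‖g (pr Γ y)‖ₑ ∂κ x := by
      intro x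
      rw [← lintegral_const_mul]
      · congr 1
        ext y
        have : ‖(starRingEnd ℂ) (f (pr Γ x))‖ₑ = ‖f (pr Γ x)‖ₑ := by
          simp [enorm_eq_nnnorm]
        rw [enorm_mul, enorm_mul, this]
        ring
      · exact (hc.meas.comp_measurable measurable_prodMk_left).enorm.mul hgp.enorm
    simp_rw [e1]
    have e2 : ∀ a b : ℝ≥0∞, a * b ≤ a ^ 2 + b ^ 2 := by
      intro a b
      rcases le_total a b with hab | hab
      · calc a * b ≤ b * b := by gcongr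
          _ = b ^ 2 := (sq b).symm
          _ ≤ _ := le_add_self
      · calc a * b ≤ a * a := by gcongr
          _ = a ^ 2 := (sq a).symm
          _ ≤ _ := le_self_add
    have e3 : ∫⁻ x, w x * (‖f (pr Γ x)‖ₑ * ∫⁻ y, ‖c x y‖ₑ * ‖g (pr Γ y)‖ₑ ∂κ x) ∂μ
        ≤ ∫⁻ x, w x * ‖f (pr Γ x)‖ₑ ^ 2 ∂μ
          + ∫⁻ x, w x * (∫⁻ y, ‖c x y‖ₑ * ‖g (pr Γ y)‖ₑ ∂κ x) ^ 2 ∂μ := by
      have hm0 : Measurable (fun x => w x * ‖f (pr Γ x)‖ₑ ^ 2) :=
        hw.meas.mul (hfp.enorm.pow_const 2)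
      rw [← lintegral_add_left hm0]
      refine lintegral_mono fun x => ?_
      rw [← mul_add]
      gcongr
      exact e2 _ _
    refine ne_top_of_le_ne_top ?_ e3
    rw [← lintegral_qMeas hw (hfm.enorm.pow_const 2)]
    refine ENNReal.add_ne_top.2 ⟨(lintegral_sq_lt_top (Lp.memLp f)).ne, ?_⟩
    refine ne_top_of_le_ne_top ?_ h1
    exact (ENNReal.mul_lt_top (ENNReal.mul_lt_top ENNReal.coe_lt_top ENNReal.coe_lt_top)
      (lintegral_sq_lt_top (Lp.memLp g))).ne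

end Op

end Fermat.Agent.LT.B
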