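import Fermat.Agent.LT.B.CuspKer

/-!
LT piece B (helper31): automorphic kernels of killed test kernels have vanishing constant terms,
hence are bounded and rapidly decreasing.
-/

set_option linter.unusedSectionVars false

open NumberField Matrix Fermat.LT MeasureTheory Set Filter Topology

namespace Fermat.Agent.LT.B

theorem continuous_tsum_of_locally_finite {Γ A : Type*} [TopologicalSpace A] {f : Γ → A → ℂ}
    (hf : ∀ γ, Continuous (f γ))
    (h : ∀ a : A, ∃ N ∈ 𝓝 a, ∃ S : Finset Γ, ∀ b ∈ N, ∀ γ ∉ S, f γ b = 0) :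
    Continuous fun a => ∑' γ, f γ a := by
  rw [continuous_iff_continuousAt]
  intro a
  obtain ⟨N, hN, S, hS⟩ := h a
  have e : (fun a => ∑' γ, f γ a) =ᶠ[𝓝 a] fun a => ∑ γ ∈ S, f γ a := by
    filter_upwards [hN] with b hb
    exact tsum_eq_sum (fun γ hγ => hS b hb γ hγ)
  exact ContinuousAt.congr (continuous_finsetSum _ fun γ _ => hf γ).continuousAt e.symm

section general

variable {Γ X : Type*} [Group Γ] [MulAction Γ X] [TopologicalSpace X] [T2Space X]
  [LocallyCompactSpace X] [ProperlyDiscontinuousSMul Γ X] [ContinuousConstSMul Γ X]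

theorem CKer.continuous_aut {k : X → X → ℂ} (hk : CKer Γ k) :
    Continuous fun p : X × X => ∑' γ : Γ, k p.1 (γ • p.2) := by
  refine continuous_tsum_of_locally_finite (f := fun (γ : Γ) (p : X × X) => k p.1 (γ • p.2))
    (fun γ => hk.cont.comp (continuous_fst.prodMk (continuous_snd.const_smul γ))) ?_
  rintro ⟨x₀, z₀⟩
  obtain ⟨C, hC, hx₀⟩ := exists_compact_mem_nhds x₀
  obtain ⟨C₂, hC₂, hz₀⟩ := exists_compact_mem_nhds z₀
  obtain ⟨C', hC', h0⟩ := hk.supp C hC
  have hfin := ProperlyDiscontinuousSMul.finite_disjoint_inter_image (Γ := Γ) hC₂ hC'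
  refine ⟨C ×ˢ C₂, prod_mem_nhds hx₀ hz₀, hfin.toFinset, ?_⟩
  rintro ⟨x, z⟩ ⟨hx, hz⟩ γ hγ
  by_contra hne
  apply hγ
  rw [Set.Finite.mem_toFinset]
  have hz' : γ • z ∈ C' := by
    by_contra hz'
    exact hne (h0 x hx _ hz')
  have : ((fun y : X => γ • y) '' C₂ ∩ C').Nonempty := ⟨γ • z, ⟨z, hz, rfl⟩, hz'⟩
  exact this

theorem continuous_per {η : X → ℂ} (hη : Continuous η) (hc : HasCompactSupport η) :
    Continuous fun z : X => ∑' γ : Γ, η (γ • z) := by
  refine continuous_tsum_of_locally_finite (f := fun (γ : Γ) (z : X) => η (γ • z))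
    (fun γ => hη.comp (continuous_const_smul γ)) ?_
  intro z₀
  obtain ⟨C₂, hC₂, hz₀⟩ := exists_compact_mem_nhds z₀
  have hfin := ProperlyDiscontinuousSMul.finite_disjoint_inter_image (Γ := Γ) hC₂ hc.isCompact
  refine ⟨C₂, hz₀, hfin.toFinset, ?_⟩
  intro z hz γ hγ
  by_contra hne
  apply hγ
  rw [Set.Finite.mem_toFinset]
  have hz' : γ • z ∈ tsupport η := subset_tsupport _ hne
  have : ((fun y : X => γ • y) '' C₂ ∩ tsupport η).Nonempty := ⟨γ • z, ⟨z, hz, rfl⟩, hz'⟩
  exact this

theorem per_smul (η : X → ℂ) (δ : Γ) (z : X) :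
    ∑' γ : Γ, η (γ • δ • z) = ∑' γ : Γ, η (γ • z) := by
  rw [← (Equiv.mulRight δ).tsum_eq (fun γ : Γ => η (γ • z))]
  refine tsum_congr fun γ => ?_
  rw [Equiv.coe_mulRight, mul_smul]

/-- unfolding -/
theorem CKer.appK_per [Countable Γ] [SecondCountableTopology X] [MeasurableSpace X] [BorelSpace X]
    {μ : Measure X} [SMulInvariantMeasure Γ X μ] [IsFiniteMeasureOnCompacts μ]
    {k : X → X → ℂ} (hk : CKer Γ k) {η : X → ℂ} (hη : Continuous η) (hc : HasCompactSupport η)
    (x : X) : appK μ k (fun z => ∑' γ : Γ, η (γ • z)) x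
      = ∫ z, (∑' γ : Γ, k x (γ • z)) * η z ∂μ := by
  classical
  obtain ⟨C', hC', h0⟩ := hk.supp {x} isCompact_singleton
  have hfin := ProperlyDiscontinuousSMul.finite_disjoint_inter_image (Γ := Γ) hC' hc.isCompact
  set S := hfin.toFinset with hS
  have hkx : Continuous fun z => k x z := hk.cont.comp (continuous_const.prodMk continuous_id)
  have key : ∀ γ ∉ S, ∀ z, k x z * η (γ • z) = 0 := by
    intro γ hγ z
    by_contra hne
    obtain ⟨h1, h2⟩ := mul_ne_zero_iff.1 hne
    apply hγ
    rw [hS, Set.Finite.mem_toFinset]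
    have hz : z ∈ C' := by
      by_contra hz
      exact h1 (h0 x rfl z hz)
    have : ((fun y : X => γ • y) '' C' ∩ tsupport η).Nonempty :=
      ⟨γ • z, ⟨z, hz, rfl⟩, subset_tsupport _ h2⟩
    exact this
  have hint : ∀ γ : Γ, Integrable (fun z => k x z * η (γ • z)) μ := by
    intro γ
    refine (hkx.mul (hη.comp (continuous_const_smul γ))).integrable_of_hasCompactSupport ?_
    refine HasCompactSupport.intro hC' fun z hz => ?_
    show k x z * η (γ • z) = 0
    rw [h0 x rfl z hz, zero_mul]
  have hint' : ∀ γ : Γ, Integrable (fun z => k x (γ⁻¹ • z) * η z) μ := by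
    intro γ
    refine ((hkx.comp (continuous_const_smul γ⁻¹)).mul hη).integrable_of_hasCompactSupport ?_
    exact hc.mul_left
  have e1 : ∀ z, k x z * ∑' γ : Γ, η (γ • z) = ∑ γ ∈ S, k x z * η (γ • z) := by
    intro z
    rw [← tsum_mul_left]
    exact tsum_eq_sum fun γ hγ => key γ hγ z
  have e2 : ∀ z, (∑' γ : Γ, k x (γ • z)) * η z = ∑ γ ∈ S, k x (γ⁻¹ • z) * η z := by
    intro z
    rw [← tsum_mul_right, ← (Equiv.inv Γ).tsum_eq (fun γ : Γ => k x (γ • z) * η z)]
    refine tsum_eq_sum fun γ hγ => ?_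
    have := key γ hγ (γ⁻¹ • z)
    rwa [smul_inv_smul] at this
  unfold appK
  simp_rw [e1, e2]
  rw [integral_finsetSum _ fun γ _ => hint γ, integral_finsetSum _ fun γ _ => hint' γ]
  refine Finset.sum_congr rfl fun γ _ => ?_
  rw [← integral_smul_eq_self (μ := μ) (fun z => k x (γ⁻¹ • z) * η z) (g := γ)]
  simp only [inv_smul_smul]

end general

variable {F : Type} [Field F] [NumberField F] {D : Datum F}

theorem IsTestKer.continuous_autK {k : X D → X D → ℂ} (hk : IsTestKer k) :
    Continuous fun p : X D × X D => autK k p.1 p.2 := hk.cKer.continuous_aut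

theorem TKer.meanZero_autK {k : X D → X D → ℂ} (hk : TKer k) (hkill : Killed k) (y : X D) :
    MeanZero fun x => autK k x y := by
  intro x n b hb
  have hcK : Continuous fun p : X D × X D => autK k p.1 p.2 := hk.toCKer.continuous_aut
  set G : X D → ℂ := fun z => boxMean b (fun u => autK k (trX u x) z) 0 with hG
  have hGc : Continuous G := by
    have h1 : Continuous (Function.uncurry fun (z : X D) (s : Fin n → ℝ) =>
        autK k (trX (0 + ∑ i, s i • b i) x) z) := by
      have h2 : Continuous fun p : X D × (Fin n → ℝ) =>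
          (((0 : D.I → ℂ) + ∑ i, p.2 i • b i, x) : (D.I → ℂ) × X D) := by
        refine Continuous.prodMk ?_ continuous_const
        fun_prop
      exact hcK.comp ((continuous_trX.comp h2).prodMk continuous_fst)
    exact continuous_parametric_integral_of_continuous h1 isCompact_Icc
  -- the integral against compactly supported functions
  have hint0 : ∀ η : X D → ℂ, Continuous η → HasCompactSupport η → ∫ z, G z * η z = 0 := by
    intro η hη hc
    have hφ : IsAut fun z : X D => ∑' γ : PG F, η (γ • z) :=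
      ⟨continuous_per hη hc, fun γ z => per_smul η γ z⟩
    have h1 := hk.meanZero_appK hkill hφ x n b hb
    have h2 : ∀ x' : X D, appK volume k (fun z : X D => ∑' γ : PG F, η (γ • z)) x'
        = ∫ z, autK k x' z * η z := fun x' => hk.toCKer.appK_per hη hc x'
    simp only [h2] at h1
    unfold boxMean at h1
    rw [integral_integral_swap] at h1
    · rw [← h1]
      refine integral_congr_ae (Filter.Eventually.of_forall fun z => ?_)
      show G z * η z = ∫ s in Icc (0 : Fin n → ℝ) 1,
        autK k (trX (0 + ∑ i, s i • b i) x) z * η z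
      rw [integral_mul_const]
      rfl
    · have hcont : Continuous (Function.uncurry fun (s : Fin n → ℝ) (z : X D) =>
          autK k (trX (0 + ∑ i, s i • b i) x) z * η z) := by
        have h2 : Continuous fun p : (Fin n → ℝ) × X D =>
            (((0 : D.I → ℂ) + ∑ i, p.1 i • b i, x) : (D.I → ℂ) × X D) := by
          refine Continuous.prodMk ?_ continuous_const
          fun_prop
        exact (hcK.comp ((continuous_trX.comp h2).prodMk continuous_snd)).mul
          (hη.comp continuous_snd)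
      rw [← Measure.restrict_univ (μ := (volume : Measure (X D))), Measure.prod_restrict]
      have hI : IntegrableOn (Function.uncurry fun (s : Fin n → ℝ) (z : X D) =>
          autK k (trX (0 + ∑ i, s i • b i) x) z * η z) (Icc (0 : Fin n → ℝ) 1 ×ˢ tsupport η)
          ((volume : Measure (Fin n → ℝ)).prod (volume : Measure (X D))) :=
        hcont.continuousOn.integrableOn_compact (isCompact_Icc.prod hc.isCompact)
      refine IntegrableOn.of_forall_sdiff_eq_zero hI (measurableSet_Icc.prod MeasurableSet.univ) ?_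
      rintro ⟨s, z⟩ ⟨⟨hs, -⟩, hn⟩
      have hz : z ∉ tsupport η := fun hz => hn ⟨hs, hz⟩
      show _ * η z = 0
      rw [image_eq_zero_of_notMem_tsupport hz, mul_zero]
  -- conclusion
  by_contra hne
  have hGy : G y ≠ 0 := hne
  obtain ⟨C, hC, hy⟩ := exists_compact_mem_nhds y
  obtain ⟨χ, hχ1, -, hχc, hχ01⟩ := exists_continuous_one_zero_of_isCompact
    (isCompact_singleton (x := y)) isClosed_empty (disjoint_empty _)
  have h3 := hint0 (fun z => (starRingEnd ℂ) (G z) * (χ z : ℂ))
    ((Complex.continuous_conj.comp hGc).mul (Complex.continuous_ofReal.comp χ.continuous)) ?_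
  · have h4 : ∀ z, G z * ((starRingEnd ℂ) (G z) * (χ z : ℂ)) = ((Complex.normSq (G z) * χ z : ℝ) : ℂ) := by
      intro z
      rw [← mul_assoc, Complex.mul_conj]
      push_cast
      ring
    simp only [h4] at h3
    rw [integral_complex_ofReal] at h3
    have h5 : ∫ z, Complex.normSq (G z) * χ z = 0 := by exact_mod_cast h3
    have hcont : Continuous fun z => Complex.normSq (G z) * χ z :=
      (Complex.continuous_normSq.comp hGc).mul χ.continuous
    have h6 := hcont.integral_pos_of_hasCompactSupport_nonneg_nonzero (μ := volume)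
      (hχc.mul_left) (fun z => mul_nonneg (Complex.normSq_nonneg _) (hχ01 z).1) (x := y) ?_
    · exact h6.ne' h5
    · rw [hχ1 rfl]
      simpa using hGy
  · refine HasCompactSupport.mul_left ?_
    exact hχc.comp_left (g := fun r : ℝ => (r : ℂ)) Complex.ofReal_zero

/-- **Killed test kernels have rapidly decreasing automorphic kernels.** -/
theorem Killed.autK_decay {k : X D → X D → ℂ} (hkill : Killed k) (hk : IsTestKer k) (M : ℕ) :
    ∃ B : ℝ, 0 ≤ B ∧ ∀ x y, ‖autK k x y‖ ≤ B ∧
      ∀ v : Fin 2 → F, v ≠ 0 → ‖autK k x y‖ * ht v x ^ M ≤ B :=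
  Fermat.Agent.LT.B.autK_decay hk (fun y => hk.tKer.meanZero_autK hkill y) M

theorem Killed.autK_bounded {k : X D → X D → ℂ} (hkill : Killed k) (hk : IsTestKer k) :
    ∃ B : ℝ, 0 ≤ B ∧ ∀ x y, ‖autK k x y‖ ≤ B :=
  Fermat.Agent.LT.B.autK_bounded hk fun y => hk.tKer.meanZero_autK hkill y

/-- rapid decrease in the second variable, for kernels whose flip is killed -/
theorem Killed.autK_decay_right {k : X D → X D → ℂ} (hkill : Killed fun x y => k y x)
    (hk : IsTestKer k) (M : ℕ) :
    ∃ B : ℝ, 0 ≤ B ∧ ∀ x y, ‖autK k x y‖ ≤ B ∧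
      ∀ v : Fin 2 → F, v ≠ 0 → ‖autK k x y‖ * ht v y ^ M ≤ B := by
  obtain ⟨B, hB, h⟩ := Killed.autK_decay hkill hk.flip M
  refine ⟨B, hB, fun x y => ?_⟩
  have := h y x
  rwa [autK_flip hk] at this

theorem autK_bounded_of_killed {k : X D → X D → ℂ} (hk : IsTestKer k) (h : Killed k) :
    ∃ C : ℝ, ∀ x y, ‖autK k x y‖ ≤ C := by
  obtain ⟨B, -, h⟩ := h.autK_bounded hk
  exact ⟨B, h⟩

theorem autK_decay_of_killed {k : X D → X D → ℂ} (hk : IsTestKer k) (h : Killed k) (M : ℕ) :
    ∃ C : ℝ, ∀ x y (v : Fin 2 → F), v ≠ 0 → ‖autK k x y‖ * ht v x ^ M ≤ C := by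
  obtain ⟨B, -, h⟩ := h.autK_decay hk M
  exact ⟨B, fun x y => (h x y).2⟩

/-- every operator `R(k)` with `k` killed maps continuous invariant functions to functions with
vanishing constant terms -/
theorem Killed.meanZero {k : X D → X D → ℂ} (hkill : Killed k) (hk : IsTestKer k) {φ : X D → ℂ}
    (h : IsAut φ) : MeanZero (appK volume k φ) := hk.tKer.meanZero_appK hkill h

end Fermat.Agent.LT.B
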