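import Fermat.Agent.LT.B.Quot

/-!
# Unfolding a sum over an equivariant family into orbits

`Γ` acts on `X` and on a countable set `Δ`, `φ (g δ) (g x) = φ δ x`.  Then
`∫_{Γ\X} ∑_δ φ δ x = ∑_{orbits} ∫_{Γ_δ\X} φ δ x`.
-/

set_option linter.unusedSectionVars false
set_option linter.unusedVariables false

open MeasureTheory MulAction Set
open scoped ENNReal NNReal

namespace Fermat.Agent.LT.B

variable {Γ X Δ : Type*} [Group Γ] [MulAction Γ X] [MeasurableSpace X] [MulAction Γ Δ]

/-- Representatives of the orbits of `Γ` on `Δ` and weights for their stabilisers. -/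
structure OrbitData (Γ X Δ : Type*) [Group Γ] [MulAction Γ X] [MeasurableSpace X]
    [MulAction Γ Δ] (Ω : Type*) where
  /-- representatives -/
  rep : Ω → Δ
  /-- the orbit -/
  cl : Δ → Ω
  cl_smul : ∀ (g : Γ) δ, cl (g • δ) = cl δ
  cl_rep : ∀ o, cl (rep o) = o
  exists_smul : ∀ δ, ∃ g : Γ, g • δ = rep (cl δ)
  /-- weights for the stabilisers -/
  wt : Ω → X → ℝ≥0∞
  isWeight : ∀ o, IsWeight (stabilizer Γ (rep o)) (wt o)

variable {Ω : Type*}

/-- the weight on `X × Δ` -/
noncomputable def OrbitData.W (O : OrbitData Γ X Δ Ω) [DecidableEq Δ] (p : X × Δ) : ℝ≥0∞ :=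
  if p.2 = O.rep (O.cl p.2) then O.wt (O.cl p.2) p.1 else 0

theorem OrbitData.sum_W (O : OrbitData Γ X Δ Ω) [DecidableEq Δ] (p : X × Δ) :
    ∑' γ : Γ, O.W (γ • p) = 1 := by
  obtain ⟨x, δ⟩ := p
  obtain ⟨g₀, hg₀⟩ := O.exists_smul δ
  set δ₀ := O.rep (O.cl δ) with hδ₀
  rw [← (Equiv.mulRight g₀).tsum_eq (fun γ : Γ => O.W (γ • (x, δ)))]
  have key : ∀ γ : Γ, O.W ((γ * g₀) • (x, δ))
      = (stabilizer Γ δ₀ : Set Γ).indicator (fun γ => O.wt (O.cl δ) (γ • (g₀ • x))) γ := by
    intro γ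
    unfold OrbitData.W
    have e1 : ((γ * g₀) • (x, δ)).2 = γ • δ₀ := by
      show (γ * g₀) • δ = γ • δ₀
      rw [mul_smul, hg₀]
    have e2 : O.cl (γ • δ₀) = O.cl δ := by rw [O.cl_smul, hδ₀, O.cl_rep]
    rw [e1, e2]
    by_cases h : γ • δ₀ = δ₀
    · rw [if_pos h, indicator_of_mem (show γ ∈ (stabilizer Γ δ₀ : Set Γ) from h)]
      show O.wt (O.cl δ) ((γ * g₀) • x) = _
      rw [mul_smul]
    · rw [if_neg h, indicator_of_notMem (show γ ∉ (stabilizer Γ δ₀ : Set Γ) from h)]
  simp only [Equiv.coe_mulRight]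
  simp_rw [key]
  rw [← tsum_subtype (stabilizer Γ δ₀ : Set Γ) (fun γ => O.wt (O.cl δ) (γ • (g₀ • x)))]
  exact (O.isWeight (O.cl δ)).sum_eq (g₀ • x)

section

variable [Countable Γ] [MeasurableConstSMul Γ X] {μ : Measure X} [SMulInvariantMeasure Γ X μ]
  [SFinite μ] {w : X → ℝ≥0∞} [Countable Δ]

theorem OrbitData.isWeight_W (O : OrbitData Γ X Δ Ω) [DecidableEq Δ] [MeasurableSpace Δ]
    [MeasurableSingletonClass Δ] : IsWeight Γ (O.W) := by
  refine ⟨?_, O.sum_W⟩
  refine measurable_from_prod_countable_left fun δ => ?_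
  unfold OrbitData.W
  by_cases h : δ = O.rep (O.cl δ)
  · simp only [if_pos h]
    exact (O.isWeight (O.cl δ)).meas
  · simp only [if_neg h]
    exact measurable_const

/-- Unfolding into orbits, nonnegative functions. -/
theorem OrbitData.lintegral_eq (O : OrbitData Γ X Δ Ω) (hw : IsWeight Γ w)
    {φ : Δ → X → ℝ≥0∞} (hφ : ∀ δ, Measurable (φ δ))
    (hinv : ∀ (g : Γ) δ x, φ (g • δ) (g • x) = φ δ x) :
    ∫⁻ x, w x * ∑' δ, φ δ x ∂μ = ∑' o, ∫⁻ x, O.wt o x * φ (O.rep o) x ∂μ := by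
  classical
  let mΔ : MeasurableSpace Δ := ⊤
  have i0 : MeasurableSingletonClass Δ := ⟨fun _ => trivial⟩
  have i1 : MeasurableConstSMul Γ (X × Δ) := ⟨fun γ =>
    ((measurable_const_smul γ).comp measurable_fst).prodMk
      ((measurable_of_countable _).comp measurable_snd)⟩
  have i2 : SMulInvariantMeasure Γ (X × Δ) (μ.prod Measure.count) := by
    refine ⟨fun γ s hs => ?_⟩
    have hs' : MeasurableSet ((fun p : X × Δ => γ • p) ⁻¹' s) := measurable_const_smul γ hs
    rw [← lintegral_indicator_one hs, ← lintegral_indicator_one hs',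
      lintegral_prod _ (measurable_one.indicator hs).aemeasurable,
      lintegral_prod _ (measurable_one.indicator hs').aemeasurable,
      ← lintegral_smul γ (fun x => ∫⁻ δ, s.indicator (1 : X × Δ → ℝ≥0∞) (x, δ) ∂Measure.count)]
    congr 1
    ext x
    rw [lintegral_count, lintegral_count]
    exact (MulAction.toPerm γ : Equiv.Perm Δ).tsum_eq
      (fun δ => s.indicator (1 : X × Δ → ℝ≥0∞) (γ • x, δ))
  have hΦ : Measurable (fun p : X × Δ => φ p.2 p.1) :=
    measurable_from_prod_countable_left fun δ => hφ δ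
  have hw1 : IsWeight Γ (fun p : X × Δ => w p.1) :=
    ⟨hw.meas.comp measurable_fst, fun p => hw.sum_eq p.1⟩
  have key := hw1.lintegral_eq (μ := μ.prod Measure.count) O.isWeight_W
    (F := fun p => φ p.2 p.1) hΦ.aemeasurable (fun γ p => hinv γ p.2 p.1)
  have hm1 : Measurable (fun p : X × Δ => w p.1 * φ p.2 p.1) :=
    (hw.meas.comp measurable_fst).mul hΦ
  have hm2 : Measurable (fun p : X × Δ => O.W p * φ p.2 p.1) := O.isWeight_W.meas.mul hΦ
  rw [lintegral_prod _ hm1.aemeasurable, lintegral_prod_symm _ hm2.aemeasurable] at key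
  simp only [Function.comp_apply, Pi.mul_apply, lintegral_count] at key
  simp_rw [ENNReal.tsum_mul_left] at key
  rw [key]
  -- the sum over Δ is concentrated on the representatives
  have hinj : Function.Injective O.rep := fun a b h => by rw [← O.cl_rep a, h, O.cl_rep]
  have e1 : ∑' δ, ∫⁻ x, O.W (x, δ) * φ δ x ∂μ
      = ∑' o, ∫⁻ x, O.W (x, O.rep o) * φ (O.rep o) x ∂μ := by
    symm
    refine hinj.tsum_eq (f := fun δ => ∫⁻ x, O.W (x, δ) * φ δ x ∂μ) ?_
    intro δ hδ
    by_contra hcon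
    apply hδ
    have : ∀ x, O.W (x, δ) = 0 := by
      intro x
      unfold OrbitData.W
      rw [if_neg]
      intro h
      exact hcon ⟨O.cl δ, h.symm⟩
    simp [this]
  rw [e1]
  congr 1
  ext o
  congr 1
  ext x
  unfold OrbitData.W
  simp only [O.cl_rep, if_true]

/-- Unfolding into orbits, complex functions. -/
theorem OrbitData.integral_eq (O : OrbitData Γ X Δ Ω) (hw : IsWeight Γ w)
    {φ : Δ → X → ℂ} (hφ : ∀ δ, StronglyMeasurable (φ δ))
    (hinv : ∀ (g : Γ) δ x, φ (g • δ) (g • x) = φ δ x)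
    (hfin : ∫⁻ x, w x * ∑' δ, ‖φ δ x‖ₑ ∂μ ≠ ∞) :
    (∀ o, Integrable (fun x => (O.wt o x).toReal • φ (O.rep o) x) μ) ∧
    Summable (fun o => ∫ x, ‖(O.wt o x).toReal • φ (O.rep o) x‖ ∂μ) ∧
    ∫ x, (w x).toReal • ∑' δ, φ δ x ∂μ = ∑' o, ∫ x, (O.wt o x).toReal • φ (O.rep o) x ∂μ := by
  classical
  let mΔ : MeasurableSpace Δ := ⊤
  have i0 : MeasurableSingletonClass Δ := ⟨fun _ => trivial⟩
  have i1 : MeasurableConstSMul Γ (X × Δ) := ⟨fun γ =>
    ((measurable_const_smul γ).comp measurable_fst).prodMk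
      ((measurable_of_countable _).comp measurable_snd)⟩
  have i2 : SMulInvariantMeasure Γ (X × Δ) (μ.prod Measure.count) := by
    refine ⟨fun γ s hs => ?_⟩
    have hs' : MeasurableSet ((fun p : X × Δ => γ • p) ⁻¹' s) := measurable_const_smul γ hs
    rw [← lintegral_indicator_one hs, ← lintegral_indicator_one hs',
      lintegral_prod _ (measurable_one.indicator hs).aemeasurable,
      lintegral_prod _ (measurable_one.indicator hs').aemeasurable,
      ← lintegral_smul γ (fun x => ∫⁻ δ, s.indicator (1 : X × Δ → ℝ≥0∞) (x, δ) ∂Measure.count)]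
    congr 1
    ext x
    rw [lintegral_count, lintegral_count]
    exact (MulAction.toPerm γ : Equiv.Perm Δ).tsum_eq
      (fun δ => s.indicator (1 : X × Δ → ℝ≥0∞) (γ • x, δ))
  have hΦ : Measurable (fun p : X × Δ => φ p.2 p.1) :=
    measurable_from_prod_countable_left fun δ => (hφ δ).measurable
  have hw1 : IsWeight Γ (fun p : X × Δ => w p.1) :=
    ⟨hw.meas.comp measurable_fst, fun p => hw.sum_eq p.1⟩
  have hinv' : ∀ (γ : Γ) (p : X × Δ), (fun p : X × Δ => φ p.2 p.1) (γ • p)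
      = (fun p : X × Δ => φ p.2 p.1) p := fun γ p => hinv γ p.2 p.1
  have hen : ∀ a : ℝ≥0∞, a ≠ ∞ → ‖a.toReal‖ₑ = a := fun a ha => by
    rw [Real.enorm_eq_ofReal ENNReal.toReal_nonneg, ENNReal.ofReal_toReal ha]
  -- integrability for both weights
  have hI1 : Integrable (fun p : X × Δ => (w p.1).toReal • φ p.2 p.1) (μ.prod Measure.count) := by
    have hm0 : Measurable (fun p : X × Δ => (w p.1).toReal • φ p.2 p.1) :=
      (hw.meas.comp measurable_fst).ennreal_toReal.smul hΦ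
    refine ⟨hm0.aestronglyMeasurable, ?_⟩
    unfold HasFiniteIntegral
    rw [lintegral_prod _ hm0.enorm.aemeasurable]
    have : ∫⁻ x, ∫⁻ δ, ‖(w x).toReal • φ δ x‖ₑ ∂Measure.count ∂μ
        = ∫⁻ x, w x * ∑' δ, ‖φ δ x‖ₑ ∂μ := by
      congr 1
      ext x
      rw [lintegral_count]
      simp_rw [enorm_smul, hen _ (hw.ne_top x), ENNReal.tsum_mul_left]
    rw [this]
    exact hfin.lt_top
  have hWm := O.isWeight_W (X := X) (Γ := Γ) (Δ := Δ)
  have hfinW : ∫⁻ p, O.W p * ‖φ p.2 p.1‖ₑ ∂(μ.prod (Measure.count : Measure Δ)) ≠ ∞ := by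
    rw [← hw1.lintegral_eq (μ := μ.prod Measure.count) hWm (F := fun p => ‖φ p.2 p.1‖ₑ)
      hΦ.enorm.aemeasurable (fun γ p => by
        show ‖φ (γ • p.2) (γ • p.1)‖ₑ = _
        rw [hinv])]
    have hm1 : Measurable (fun p : X × Δ => w p.1 * ‖φ p.2 p.1‖ₑ) :=
      (hw.meas.comp measurable_fst).mul hΦ.enorm
    rw [lintegral_prod _ hm1.aemeasurable]
    simp only [lintegral_count]
    simp_rw [ENNReal.tsum_mul_left]
    exact hfin
  have hI2 : Integrable (fun p : X × Δ => (O.W p).toReal • φ p.2 p.1)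
      (μ.prod Measure.count) := by
    refine ⟨(hWm.meas.ennreal_toReal.smul hΦ).aestronglyMeasurable, ?_⟩
    unfold HasFiniteIntegral
    have : ∫⁻ p, ‖(O.W p).toReal • φ p.2 p.1‖ₑ ∂(μ.prod (Measure.count : Measure Δ))
        = ∫⁻ p, O.W p * ‖φ p.2 p.1‖ₑ ∂(μ.prod (Measure.count : Measure Δ)) := by
      congr 1
      ext p
      rw [enorm_smul, hen _ (hWm.ne_top p)]
    rw [this]
    exact hfinW.lt_top
  have hd : StronglyMeasurable (desc (Γ := Γ) (fun p : X × Δ => φ p.2 p.1) hinv') :=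
    (measurable_desc hΦ hinv').stronglyMeasurable
  have q1 := integral_qMeas (μ := μ.prod (Measure.count : Measure Δ)) hw1
    (desc (Γ := Γ) (fun p : X × Δ => φ p.2 p.1) hinv') hd.aestronglyMeasurable
  have q2 := integral_qMeas (μ := μ.prod (Measure.count : Measure Δ)) hWm
    (desc (Γ := Γ) (fun p : X × Δ => φ p.2 p.1) hinv') hd.aestronglyMeasurable
  rw [qMeas_congr hw1 hWm] at q1
  simp only [desc_pr] at q1 q2
  have hinj : Function.Injective O.rep := fun a b h => by rw [← O.cl_rep a, h, O.cl_rep]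
  have hWrep : ∀ o x, O.W (x, O.rep o) = O.wt o x := by
    intro o x
    unfold OrbitData.W
    simp only [O.cl_rep, if_true]
  have hW0 : ∀ δ, δ ∉ Set.range O.rep → ∀ x, O.W (x, δ) = 0 := by
    intro δ hδ x
    unfold OrbitData.W
    rw [if_neg]
    intro h
    exact hδ ⟨O.cl δ, h.symm⟩
  have hcount : ∀ (G : Δ → ℂ), Integrable G (Measure.count : Measure Δ) →
      ∫ δ, G δ ∂(Measure.count : Measure Δ) = ∑' δ, G δ := by
    intro G hG
    rw [integral_countable hG]
    simp [Measure.real, Measure.count_singleton]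
  -- the integrability statements
  have hswap := hI2.swap
  have hI3 := (integrable_prod_iff hswap.1).1 hswap
  have hI3a : ∀ δ, Integrable (fun x => (O.W (x, δ)).toReal • φ δ x) μ := by
    intro δ
    have := hI3.1
    rw [ae_iff] at this
    by_contra hcon
    have h2 : ({δ} : Set Δ) ⊆ {a | ¬ Integrable (fun y =>
        ((fun p : X × Δ => (O.W p).toReal • φ p.2 p.1) ∘ Prod.swap) (a, y)) μ} := by
      rintro _ rfl
      exact hcon
    have h3 := measure_mono_null h2 this
    rw [Measure.count_singleton] at h3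
    exact one_ne_zero h3
  have hI3b : Summable (fun δ => ∫ x, ‖(O.W (x, δ)).toReal • φ δ x‖ ∂μ) := by
    have h2 := hI3.2
    have h3 := (integrable_count_iff.1 h2)
    have h4 : ∀ δ, ‖∫ x, ‖(O.W (x, δ)).toReal • φ δ x‖ ∂μ‖
        = ∫ x, ‖(O.W (x, δ)).toReal • φ δ x‖ ∂μ := fun δ =>
      Real.norm_of_nonneg (integral_nonneg fun x => norm_nonneg _)
    simpa only [Function.comp_apply, Prod.swap_prod_mk, h4] using h3
  refine ⟨fun o => ?_, ?_, ?_⟩
  · have := hI3a (O.rep o)
    simp_rw [hWrep] at this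
    exact this
  · have := hI3b.comp_injective hinj
    simp only [Function.comp_def, hWrep] at this
    exact this
  · have e1 : ∫ x, (w x).toReal • ∑' δ, φ δ x ∂μ
        = ∫ p : X × Δ, (w p.1).toReal • φ p.2 p.1 ∂(μ.prod Measure.count) := by
      rw [integral_prod _ hI1]
      refine integral_congr_ae ?_
      filter_upwards [((integrable_prod_iff hI1.1).1 hI1).1] with x hx
      rw [hcount _ hx]
      have : (w x).toReal = 0 ∨ (w x).toReal ≠ 0 := eq_or_ne _ _
      rw [tsum_const_smul'']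
    have e2 : ∫ p : X × Δ, (O.W p).toReal • φ p.2 p.1 ∂(μ.prod Measure.count)
        = ∑' o, ∫ x, (O.wt o x).toReal • φ (O.rep o) x ∂μ := by
      rw [integral_prod_symm _ hI2]
      have hI4 : Integrable (fun δ => ∫ x, (O.W (x, δ)).toReal • φ δ x ∂μ)
          (Measure.count : Measure Δ) := hI2.integral_prod_right
      rw [hcount _ hI4]
      rw [← hinj.tsum_eq (f := fun δ => ∫ x, (O.W (x, δ)).toReal • φ δ x ∂μ)]
      · simp only [hWrep]
      · intro δ hδ
        by_contra hcon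
        apply hδ
        simp [hW0 δ hcon]
    rw [e1, ← q1, q2, e2]

end

end Fermat.Agent.LT.B
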