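import Fermat.Agent.LT.A.H3Meas
import Mathlib

/-!
# LT, piece B: product kernels act on joint eigenfunctions by the product of the eigenvalues
-/

set_option autoImplicit false

open MeasureTheory Fermat.LT

namespace Fermat.Agent.LT.B

theorem integrable_of_compact {X : Type*} [TopologicalSpace X] [MeasurableSpace X] [BorelSpace X]
    [T2Space X] {μ : Measure X} [IsFiniteMeasureOnCompacts μ] {f : X → ℂ} (hf : Continuous f)
    {K : Set X} (hK : IsCompact K) (h : ∀ x ∉ K, f x = 0) : Integrable f μ := by
  refine hf.integrable_of_hasCompactSupport ?_
  exact HasCompactSupport.intro hK h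

/-- Product kernels act on joint eigenfunctions by the product of the eigenvalues. -/
theorem integral_pi_eigen {ι : Type} [Fintype ι] [DecidableEq ι] (f : ι → H3 → ℂ)
    (hf : ∀ i, Continuous (f i)) (K : ι → Set H3) (hK : ∀ i, IsCompact (K i))
    (hs : ∀ i, ∀ R ∉ K i, f i R = 0) (φ : (ι → H3) → ℂ) (hφ : Continuous φ) (x : ι → H3)
    (χ : ι → ℂ)
    (h : ∀ i (y : ι → H3), y i = x i → ∫ R, f i R * φ (Function.update y i R) = χ i * φ y) :
    ∫ R, (∏ i, f i (R i)) * φ R ∂(Measure.pi fun _ : ι => (volume : Measure H3))
      = (∏ i, χ i) * φ x := by
  classical
  revert f hf K hK hs φ hφ x χ h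
  have key : ∀ (ι : Type) [Fintype ι], ∀ [DecidableEq ι] (f : ι → H3 → ℂ)
      (_ : ∀ i, Continuous (f i)) (K : ι → Set H3) (_ : ∀ i, IsCompact (K i))
      (_ : ∀ i, ∀ R ∉ K i, f i R = 0) (φ : (ι → H3) → ℂ) (_ : Continuous φ) (x : ι → H3)
      (χ : ι → ℂ)
      (_ : ∀ i (y : ι → H3), y i = x i → ∫ R, f i R * φ (Function.update y i R) = χ i * φ y),
      ∫ R, (∏ i, f i (R i)) * φ R ∂(Measure.pi fun _ : ι => (volume : Measure H3))
        = (∏ i, χ i) * φ x := by
    intro ι hι
    refine Fintype.induction_empty_option (P := fun (ι : Type) (_ : Fintype ι) =>
      ∀ [DecidableEq ι] (f : ι → H3 → ℂ)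
      (_ : ∀ i, Continuous (f i)) (K : ι → Set H3) (_ : ∀ i, IsCompact (K i))
      (_ : ∀ i, ∀ R ∉ K i, f i R = 0) (φ : (ι → H3) → ℂ) (_ : Continuous φ) (x : ι → H3)
      (χ : ι → ℂ)
      (_ : ∀ i (y : ι → H3), y i = x i → ∫ R, f i R * φ (Function.update y i R) = χ i * φ y),
      ∫ R, (∏ i, f i (R i)) * φ R ∂(Measure.pi fun _ : ι => (volume : Measure H3))
        = (∏ i, χ i) * φ x) ?_ ?_ ?_ ι
    · intro α β hβ e ih _ f hf K hK hs φ hφ x χ h
      let _ : Fintype α := Fintype.ofEquiv β e.symm
      let _ : DecidableEq α := fun a b => decidable_of_iff (e a = e b) e.injective.eq_iff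
      have hmp := measurePreserving_piCongrLeft (α := fun _ : β => H3)
        (fun _ : β => (volume : Measure H3)) e
      set E := MeasurableEquiv.piCongrLeft (fun _ : β => H3) e with hE
      have hEa : ∀ (R : α → H3) (b : β), E R b = R (e.symm b) := by
        intro R b
        obtain ⟨a, rfl⟩ := e.surjective b
        rw [hE, MeasurableEquiv.coe_piCongrLeft, Equiv.piCongrLeft_apply_apply,
          Equiv.symm_apply_apply]
      have hEf : ∀ R : α → H3, E R = fun b => R (e.symm b) := fun R => funext (hEa R)
      have h1 := ih (fun a => f (e a)) (fun a => hf _) (fun a => K (e a)) (fun a => hK _)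
        (fun a => hs _) (fun R => φ (fun b => R (e.symm b)))
        (hφ.comp (continuous_pi fun b => continuous_apply _)) (fun a => x (e a))
        (fun a => χ (e a)) (by
          intro a y hy
          have h2 := h (e a) (fun b => y (e.symm b)) (by rw [Equiv.symm_apply_apply]; exact hy)
          have h3 : ∀ R : H3, (fun b => Function.update y a R (e.symm b))
              = Function.update (fun b => y (e.symm b)) (e a) R := by
            intro R
            funext b
            by_cases hb : b = e a
            · subst hb; simp
            · have : e.symm b ≠ a := fun h' => hb (by rw [← h', Equiv.apply_symm_apply])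
              rw [Function.update_of_ne this, Function.update_of_ne hb]
          simp_rw [h3]
          exact h2)
      have h4 : (fun b => x (e (e.symm b))) = x := by simp
      have h5 : (∏ a, χ (e a)) = ∏ b, χ b := Equiv.prod_comp e χ
      rw [h4, h5] at h1
      rw [← h1, ← hmp.integral_comp E.measurableEmbedding]
      refine integral_congr_ae (Filter.Eventually.of_forall fun R => ?_)
      show (∏ b, f b (E R b)) * φ (E R) = _
      rw [hEf]
      congr 1
      rw [← Equiv.prod_comp e]
      simp
    · intro _ f hf K hK hs φ hφ x χ h
      have : (Measure.pi fun _ : PEmpty => (volume : Measure H3)) = Measure.dirac x := by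
        exact Measure.pi_of_empty _ x
      simp [this]
    · intro α _ ih _ f hf K hK hs φ hφ x χ h
      let _ : DecidableEq α := Classical.decEq α
      have hmap := Measure.pi_map_piOptionEquivProd (β := fun _ : Option α => H3)
        (fun _ : Option α => (volume : Measure H3))
      set E := (MeasurableEquiv.piOptionEquivProd (fun _ : Option α => H3)).symm with hE
      have hmp : MeasurePreserving E
          ((Measure.pi fun _ : α => (volume : Measure H3)).prod volume)
          (Measure.pi fun _ : Option α => (volume : Measure H3)) := ⟨E.measurable, hmap⟩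
      have hEn : ∀ p : (α → H3) × H3, E p none = p.2 := fun p => rfl
      have hEs : ∀ (p : (α → H3) × H3) (a : α), E p (some a) = p.1 a := fun p a => rfl
      have hEc : Continuous E := by
        refine continuous_pi fun b => ?_
        rcases b with _ | a
        · exact continuous_snd
        · exact (continuous_apply a).comp continuous_fst
      rw [← hmp.integral_comp E.measurableEmbedding]
      have e1 : ∀ p : (α → H3) × H3, (∏ b, f b (E p b)) * φ (E p)
          = f none p.2 * ((∏ a, f (some a) (p.1 a)) * φ (E p)) := by
        intro p
        rw [Fintype.prod_option, hEn]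
        simp only [hEs]
        ring
      simp_rw [e1]
      have hcont : Continuous fun p : (α → H3) × H3 =>
          f none p.2 * ((∏ a, f (some a) (p.1 a)) * φ (E p)) := by
        refine ((hf none).comp continuous_snd).mul (Continuous.mul ?_ (hφ.comp hEc))
        exact continuous_finsetProd _ fun a _ =>
          (hf (some a)).comp ((continuous_apply a).comp continuous_fst)
      have hint : Integrable (fun p : (α → H3) × H3 =>
          f none p.2 * ((∏ a, f (some a) (p.1 a)) * φ (E p)))
          ((Measure.pi fun _ : α => (volume : Measure H3)).prod volume) := by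
        refine integrable_of_compact hcont
          ((isCompact_univ_pi fun a => hK (some a)).prod (hK none)) ?_
        intro p hp
        by_cases h1 : p.2 ∈ K none
        · have h2 : ¬ ∀ a, p.1 a ∈ K (some a) := fun h2 => hp ⟨fun a _ => h2 a, h1⟩
          push Not at h2
          obtain ⟨a, ha⟩ := h2
          rw [Finset.prod_eq_zero (Finset.mem_univ a) (hs _ _ ha), zero_mul, mul_zero]
        · rw [hs _ _ h1, zero_mul]
      rw [integral_prod_symm _ hint]
      have e2 : ∀ r : H3, ∫ R, f none r * ((∏ a, f (some a) (R a)) * φ (E (R, r)))
            ∂(Measure.pi fun _ : α => (volume : Measure H3))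
          = f none r * ((∏ a, χ (some a)) * φ (E (fun a => x (some a), r))) := by
        intro r
        rw [integral_const_mul]
        congr 1
        refine ih (fun a => f (some a)) (fun a => hf _) (fun a => K (some a)) (fun a => hK _)
          (fun a => hs _) (fun R => φ (E (R, r)))
          (hφ.comp (hEc.comp (continuous_id.prodMk continuous_const))) (fun a => x (some a))
          (fun a => χ (some a)) ?_
        intro a y hy
        have h2 := h (some a) (E (y, r)) (by rw [hEs]; exact hy)
        have h3 : ∀ R : H3, E (Function.update y a R, r) = Function.update (E (y, r)) (some a) R := by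
          intro R
          funext b
          rcases b with _ | b
          · rw [hEn, Function.update_of_ne (by simp), hEn]
          · rw [hEs]
            by_cases hb : b = a
            · subst hb; simp
            · rw [Function.update_of_ne (a := some b) (a' := some a) (by simpa using hb), hEs]
              exact Function.update_of_ne hb _ _
        simp_rw [h3]
        exact h2
      simp_rw [e2]
      have h5 := h none (E (fun a => x (some a), x none)) rfl
      have h6 : E (fun a => x (some a), x none) = x := by
        funext b
        rcases b with _ | b <;> rfl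
      have h7 : ∀ r : H3, E (fun a => x (some a), r)
          = Function.update (E (fun a => x (some a), x none)) none r := by
        intro r
        funext b
        rcases b with _ | b
        · simp [hEn]
        · rw [Function.update_of_ne (by simp)]; rfl
      have e3 : ∀ r : H3, f none r * ((∏ a, χ (some a)) * φ (E (fun a => x (some a), r)))
          = (∏ a, χ (some a)) * (f none r * φ (Function.update x none r)) := by
        intro r
        rw [h7, h6]; ring
      simp_rw [e3]
      rw [h6] at h5
      rw [integral_const_mul, h5, Fintype.prod_option]
      ring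
  exact fun f hf K hK hs φ hφ x χ h => key ι f hf K hK hs φ hφ x χ h

end Fermat.Agent.LT.B
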