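import Fermat.Agent.LT.B.Auto

/-!
# The standard kernels on `Z × Y`, `Y` countable discrete

* `finK`: counting measure on `{z} × Y` (Hecke operators);
* `archK ν`: `ν` on `Z × {y}` (archimedean convolution operators).
-/

set_option linter.unusedSectionVars false
set_option linter.unusedVariables false

open MeasureTheory MulAction Set ProbabilityTheory
open scoped ENNReal NNReal

namespace Fermat.Agent.LT.B

variable {Γ Z Y : Type*} [Group Γ] [MulAction Γ Z] [MulAction Γ Y]
  [MeasurableSpace Z] [MeasurableSpace Y] [MeasurableSingletonClass Y] [Countable Y]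

/-- `Hecke` type kernel. -/
noncomputable def finK (Z Y : Type*) [MeasurableSpace Z] [MeasurableSpace Y] :
    Kernel (Z × Y) (Z × Y) :=
  (Kernel.deterministic Prod.fst measurable_fst) ×ₖ (Kernel.const (Z × Y) (Measure.count : Measure Y))

/-- archimedean type kernel. -/
noncomputable def archK {Z : Type*} (Y : Type*) [MeasurableSpace Z] [MeasurableSpace Y]
    (ν : Measure Z) : Kernel (Z × Y) (Z × Y) :=
  (Kernel.const (Z × Y) ν) ×ₖ (Kernel.deterministic Prod.snd measurable_snd)

instance : IsSFiniteKernel (finK Z Y) := by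
  unfold finK
  infer_instance

instance (ν : Measure Z) [SFinite ν] : IsSFiniteKernel (archK Y ν) := by
  unfold archK
  infer_instance

theorem finK_apply (z : Z) (y : Y) : finK Z Y (z, y) = (Measure.dirac z).prod Measure.count := by
  unfold finK
  rw [Kernel.prod_apply, Kernel.deterministic_apply, Kernel.const_apply]

theorem archK_apply (ν : Measure Z) [SFinite ν] (z : Z) (y : Y) :
    archK Y ν (z, y) = ν.prod (Measure.dirac y) := by
  unfold archK
  rw [Kernel.prod_apply, Kernel.deterministic_apply, Kernel.const_apply]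

theorem lintegral_finK {f : Z × Y → ℝ≥0∞} (hf : Measurable f) (z : Z) (y : Y) :
    ∫⁻ p, f p ∂(finK Z Y (z, y)) = ∑' y', f (z, y') := by
  rw [finK_apply, lintegral_prod _ hf.aemeasurable, lintegral_dirac' _ hf.lintegral_prod_right',
    lintegral_count]

theorem lintegral_archK (ν : Measure Z) [SFinite ν] {f : Z × Y → ℝ≥0∞} (hf : Measurable f)
    (z : Z) (y : Y) :
    ∫⁻ p, f p ∂(archK Y ν (z, y)) = ∫⁻ z', f (z', y) ∂ν := by
  rw [archK_apply, lintegral_prod _ hf.aemeasurable]
  congr 1
  ext z'
  rw [lintegral_dirac]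

theorem lintegral_prod_count (ν : Measure Z) [SFinite ν] {f : Z × Y → ℝ≥0∞} (hf : Measurable f) :
    ∫⁻ p, f p ∂(ν.prod Measure.count) = ∫⁻ z, ∑' y, f (z, y) ∂ν := by
  rw [lintegral_prod _ hf.aemeasurable]
  congr 1
  ext z
  rw [lintegral_count]

section

variable [Countable Γ] [MeasurableConstSMul Γ Z] [MeasurableConstSMul Γ (Z × Y)]
  {ν : Measure Z} [SMulInvariantMeasure Γ Z ν] [SFinite ν]

theorem isRev_finK : IsRev Γ (ν.prod (Measure.count : Measure Y)) (finK Z Y) where
  eqv γ x := by
    obtain ⟨z, y⟩ := x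
    refine Measure.ext_of_lintegral _ fun f hf => ?_
    rw [lintegral_map hf (measurable_const_smul γ)]
    change ∫⁻ a, f a ∂(finK Z Y (γ • z, γ • y)) = _
    rw [lintegral_finK hf]
    rw [lintegral_finK (f := fun p => f (γ • p)) (hf.comp (measurable_const_smul γ))]
    exact ((MulAction.toPerm γ : Equiv.Perm Y).tsum_eq (fun y' => f (γ • z, y'))).symm
  rev := by
    refine Measure.ext_of_lintegral _ fun F hF => ?_
    have hF' : Measurable (fun p : (Z × Y) × (Z × Y) => F p.swap) := hF.comp measurable_swap
    rw [lintegral_map hF measurable_swap, Measure.lintegral_compProd hF',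
      Measure.lintegral_compProd hF, lintegral_prod_count, lintegral_prod_count]
    · congr 1
      ext z
      have e1 : ∀ y : Y, ∫⁻ b, F (Prod.swap ((z, y), b)) ∂(finK Z Y (z, y))
          = ∑' y', F ((z, y'), (z, y)) := fun y =>
        lintegral_finK (f := fun b => F (Prod.swap ((z, y), b)))
          (hF'.comp measurable_prodMk_left) z y
      have e2 : ∀ y : Y, ∫⁻ b, F ((z, y), b) ∂(finK Z Y (z, y))
          = ∑' y', F ((z, y), (z, y')) := fun y =>
        lintegral_finK (f := fun b => F ((z, y), b)) (hF.comp measurable_prodMk_left) z y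
      simp_rw [e1, e2]
      exact ENNReal.tsum_comm
    · exact Measurable.lintegral_kernel_prod_right' hF
    · exact Measurable.lintegral_kernel_prod_right' hF'

theorem isRev_archK : IsRev Γ (ν.prod (Measure.count : Measure Y)) (archK Y ν) where
  eqv γ x := by
    obtain ⟨z, y⟩ := x
    refine Measure.ext_of_lintegral _ fun f hf => ?_
    rw [lintegral_map hf (measurable_const_smul γ)]
    change ∫⁻ a, f a ∂(archK Y ν (γ • z, γ • y)) = _
    rw [lintegral_archK ν hf]
    rw [lintegral_archK ν (f := fun p => f (γ • p)) (hf.comp (measurable_const_smul γ))]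
    exact (lintegral_smul γ (fun z' => f (z', γ • y))).symm
  rev := by
    refine Measure.ext_of_lintegral _ fun F hF => ?_
    have hF' : Measurable (fun p : (Z × Y) × (Z × Y) => F p.swap) := hF.comp measurable_swap
    rw [lintegral_map hF measurable_swap, Measure.lintegral_compProd hF',
      Measure.lintegral_compProd hF, lintegral_prod_symm' _
        (Measurable.lintegral_kernel_prod_right' hF), lintegral_prod_symm' _
        (Measurable.lintegral_kernel_prod_right' hF')]
    congr 1
    ext y
    have e1 : ∀ z : Z, ∫⁻ b, F (Prod.swap ((z, y), b)) ∂(archK Y ν (z, y))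
        = ∫⁻ z', F ((z', y), (z, y)) ∂ν := fun z =>
      lintegral_archK ν (f := fun b => F (Prod.swap ((z, y), b)))
        (hF'.comp measurable_prodMk_left) z y
    have e2 : ∀ z : Z, ∫⁻ b, F ((z, y), b) ∂(archK Y ν (z, y))
        = ∫⁻ z', F ((z, y), (z', y)) ∂ν := fun z =>
      lintegral_archK ν (f := fun b => F ((z, y), b)) (hF.comp measurable_prodMk_left) z y
    simp_rw [e1, e2]
    refine lintegral_lintegral_swap ?_
    refine Measurable.aemeasurable ?_
    exact hF.comp ((measurable_snd.prodMk measurable_const).prodMk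
      (measurable_fst.prodMk measurable_const))

/-- Schur bound of a Hecke operator. -/
theorem isSchur_finK {k : Y → Y → ℂ} (hk : ∀ (γ : Γ) y y', k (γ • y) (γ • y') = k y y')
    {A B : ℝ≥0} (hA : ∀ y, ∑' y', ‖k y y'‖ₑ ≤ A) (hB : ∀ y, ∑' y', ‖k y' y‖ₑ ≤ B) :
    IsSchur Γ (finK Z Y) (fun p p' => k p.2 p'.2) A B where
  meas := by
    have h1 : Measurable (Function.uncurry k) := measurable_from_prod_countable_right fun y =>
      measurable_of_countable _
    exact (h1.comp ((measurable_snd.comp measurable_fst).prodMk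
      (measurable_snd.comp measurable_snd))).stronglyMeasurable
  inv γ p p' := hk γ p.2 p'.2
  left p := by
    obtain ⟨z, y⟩ := p
    have hm : Measurable (fun p' : Z × Y => ‖k y p'.2‖ₑ) :=
      (measurable_of_countable (fun y' => ‖k y y'‖ₑ)).comp measurable_snd
    rw [lintegral_finK hm]
    exact hA y
  right p := by
    obtain ⟨z, y⟩ := p
    have hm : Measurable (fun p' : Z × Y => ‖k p'.2 y‖ₑ) :=
      (measurable_of_countable (fun y' => ‖k y' y‖ₑ)).comp measurable_snd
    rw [lintegral_finK hm]
    exact hB y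

/-- The formula for a Hecke operator with finite support. -/
theorem integral_finK_of_finite {f : Z × Y → ℂ} (hf : Measurable f) (z : Z) (y : Y)
    (hfin : {y' | f (z, y') ≠ 0}.Finite) :
    ∫ p, f p ∂(finK Z Y (z, y)) = ∑ y' ∈ hfin.toFinset, f (z, y') := by
  have hI : Integrable f (finK Z Y (z, y)) := by
    refine ⟨hf.aestronglyMeasurable, ?_⟩
    unfold HasFiniteIntegral
    rw [lintegral_finK hf.enorm]
    have : ∑' y', ‖f (z, y')‖ₑ = ∑ y' ∈ hfin.toFinset, ‖f (z, y')‖ₑ := by
      refine tsum_eq_sum fun y' hy' => ?_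
      simp only [Finite.mem_toFinset, mem_ofPred_eq, not_not] at hy'
      rw [hy', enorm_zero]
    rw [this]
    exact ENNReal.sum_lt_top.2 fun y' _ => enorm_lt_top
  rw [finK_apply] at hI ⊢
  rw [integral_prod _ hI]
  have hm : StronglyMeasurable (fun z' => ∫ y', f (z', y') ∂(Measure.count : Measure Y)) :=
    hf.stronglyMeasurable.integral_prod_right'
  rw [integral_dirac' _ _ hm]
  have hI2 : Integrable (fun y' => f (z, y')) (Measure.count : Measure Y) := by
    refine ⟨(hf.comp measurable_prodMk_left).aestronglyMeasurable, ?_⟩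
    unfold HasFiniteIntegral
    rw [lintegral_count]
    have : ∑' y', ‖f (z, y')‖ₑ = ∑ y' ∈ hfin.toFinset, ‖f (z, y')‖ₑ := by
      refine tsum_eq_sum fun y' hy' => ?_
      simp only [Finite.mem_toFinset, mem_ofPred_eq, not_not] at hy'
      rw [hy', enorm_zero]
    rw [this]
    exact ENNReal.sum_lt_top.2 fun y' _ => enorm_lt_top
  rw [integral_countable hI2]
  simp only [Measure.real, Measure.count_singleton, ENNReal.toReal_one, one_smul]
  refine tsum_eq_sum fun y' hy' => ?_
  simp only [Finite.mem_toFinset, mem_ofPred_eq, not_not] at hy'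
  exact hy'

end

end Fermat.Agent.LT.B
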