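import Fermat.Agent.LT.Defs
import Fermat.Agent.LT.A.Height

/-!
LT piece B (helper31): normalised representatives of the elements of `PGL₂(F)` mapping `y` to `y'`:
integral entries and determinant in a fixed finite set.
-/

open NumberField IsDedekindDomain Matrix Fermat.LT

namespace Fermat.Agent.LT.B

section units

variable (F : Type) [Field F] [NumberField F]

/-- units modulo squares are finite -/
theorem exists_finite_units_sq : ∃ U0 : Set (𝓞 F)ˣ, U0.Finite ∧
    ∀ u : (𝓞 F)ˣ, ∃ ε : (𝓞 F)ˣ, ε ^ 2 * u ∈ U0 := by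
  classical
  let f : (Units.torsion F) × (Fin (Units.rank F) → Fin 2) → (𝓞 F)ˣ :=
    fun p => p.1 * ∏ i, (Units.fundSystem F i) ^ ((p.2 i : ℕ) : ℤ)
  refine ⟨Set.range f, Set.finite_range f, fun u => ?_⟩
  obtain ⟨⟨ζ, e⟩, he, -⟩ := Units.exist_unique_eq_mul_prod F u
  simp only at he
  refine ⟨∏ i, (Units.fundSystem F i) ^ (-(e i / 2)), ⟨ζ, fun i => ⟨(e i % 2).toNat, ?_⟩⟩, ?_⟩
  · have h1 := Int.emod_nonneg (e i) (by norm_num : (2 : ℤ) ≠ 0)
    have h2 := Int.emod_lt_of_pos (e i) (by norm_num : (0 : ℤ) < 2)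
    omega
  · simp only [f]
    have h3 : ∀ i, (((e i % 2).toNat : ℕ) : ℤ) = e i % 2 := fun i =>
      Int.toNat_of_nonneg (Int.emod_nonneg (e i) (by norm_num))
    simp_rw [h3]
    rw [he, ← Finset.prod_pow, mul_left_comm]
    congr 1
    rw [← Finset.prod_mul_distrib]
    refine Finset.prod_congr rfl fun i _ => ?_
    rw [← zpow_natCast, ← _root_.zpow_mul, ← _root_.zpow_add]
    congr 1
    have := Int.emod_add_mul_ediv (e i) 2
    push_cast
    omega

/-- divisors of a fixed element are finite up to squares of units -/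
theorem exists_finite_dvd {N : 𝓞 F} (hN : N ≠ 0) : ∃ 𝒟 : Set (𝓞 F), 𝒟.Finite ∧ (∀ d ∈ 𝒟, d ≠ 0) ∧
    ∀ δ : 𝓞 F, δ ∣ N → ∃ ε : (𝓞 F)ˣ, (ε : 𝓞 F) ^ 2 * δ ∈ 𝒟 := by
  classical
  obtain ⟨U0, hU0, hU⟩ := exists_finite_units_sq F
  let 𝓘 : Set (Ideal (𝓞 F)) := {I | Ideal.absNorm I ≤ Ideal.absNorm (Ideal.span {N})}
  have h𝓘 : 𝓘.Finite := Ideal.finite_setOfPred_absNorm_le _
  let gen : Ideal (𝓞 F) → 𝓞 F := fun I =>
    if h : ∃ δ : 𝓞 F, δ ≠ 0 ∧ I = Ideal.span {δ} then h.choose else 1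
  have hgen0 : ∀ I, gen I ≠ 0 := by
    intro I
    by_cases h : ∃ δ : 𝓞 F, δ ≠ 0 ∧ I = Ideal.span {δ}
    · simp only [gen, dif_pos h]; exact h.choose_spec.1
    · simp only [gen, dif_neg h]; exact one_ne_zero
  refine ⟨Set.image2 (fun (u : (𝓞 F)ˣ) I => (u : 𝓞 F) * gen I) U0 𝓘, hU0.image2 _ h𝓘, ?_, ?_⟩
  · rintro _ ⟨u, -, I, -, rfl⟩
    exact mul_ne_zero u.ne_zero (hgen0 I)
  · intro δ hδ
    have hδ0 : δ ≠ 0 := by
      rintro rfl
      exact hN (zero_dvd_iff.1 hδ)
    have hex : ∃ δ' : 𝓞 F, δ' ≠ 0 ∧ Ideal.span {δ} = Ideal.span {δ'} := ⟨δ, hδ0, rfl⟩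
    have hg : gen (Ideal.span {δ}) = hex.choose := by
      simp only [gen, dif_pos hex]
    have hspan := hex.choose_spec.2
    rw [← hg, Ideal.span_singleton_eq_span_singleton] at hspan
    obtain ⟨v, hv⟩ := hspan
    -- δ * v = gen
    obtain ⟨ε, hε⟩ := hU v⁻¹
    refine ⟨ε, ε ^ 2 * v⁻¹, hε, Ideal.span {δ}, ?_, ?_⟩
    · have h1 : Ideal.span {N} ≤ Ideal.span {δ} := by
        rw [Ideal.span_singleton_le_span_singleton]; exact hδ
      have h2 : Ideal.absNorm (Ideal.span {δ}) ∣ Ideal.absNorm (Ideal.span {N}) :=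
        Ideal.absNorm_dvd_absNorm_of_le h1
      refine Nat.le_of_dvd (Nat.pos_of_ne_zero ?_) h2
      rw [Ne, Ideal.absNorm_eq_zero_iff, Ideal.span_singleton_eq_bot]
      exact hN
    · simp only [Units.val_mul, Units.val_pow_eq_pow_val]
      rw [← hv, mul_assoc]
      congr 1
      rw [mul_comm δ, ← mul_assoc, Units.inv_mul, one_mul]

end units

section integral

variable {F : Type} [Field F] [NumberField F]

theorem av_int_le_one (w : Pl F) (a : 𝓞 F) : av w (a : F) ≤ 1 := by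
  rw [av_eq_finitePlace, FinitePlace.mk_apply]
  exact FinitePlace.norm_le_one F w a

/-- an element with all absolute values `≤ 1` is integral -/
theorem exists_int_of_av_le_one {x : F} (h : ∀ w : Pl F, av w x ≤ 1) : ∃ a : 𝓞 F, (a : F) = x := by
  have h1 : ∀ w : Pl F, w.valuation F x ≤ 1 := by
    intro w
    have h2 := h w
    rw [av, HeightOneSpectrum.adicAbv_def] at h2
    have h3 : WithZeroMulInt.toNNReal (HeightOneSpectrum.absNorm_ne_zero w)
        (w.valuation F x) ≤ 1 := by exact_mod_cast h2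
    exact (WithZeroMulInt.toNNReal_le_one_iff (HeightOneSpectrum.one_lt_absNorm_nnreal w)).1 h3
  obtain ⟨a, ha⟩ := (HeightOneSpectrum.mem_integers_of_valuation_le_one F x h1)
  exact ⟨a, ha⟩

theorem av_nat_le_one (w : Pl F) (n : ℕ) : av w (n : F) ≤ 1 :=
  HeightOneSpectrum.adicAbv_natCast_le_one F w n

omit [NumberField F] in
theorem pmk_eq_of_sc (c : Fˣ) (g : G2 F) : pmk (sc c * g) = pmk g := by
  refine Quotient.sound' ?_
  rw [QuotientGroup.leftRel_apply]
  have : (sc c * g)⁻¹ * g = sc c⁻¹ := by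
    rw [_root_.mul_inv_rev, mul_assoc, sc_inv, sc_comm, ← mul_assoc, inv_mul_cancel, one_mul]
  rw [this]
  exact sc_mem c⁻¹

theorem av_sum_le (w : Pl F) {ι : Type*} (s : Finset ι) (f : ι → F) {B : ℝ} (hB : 0 ≤ B)
    (h : ∀ i ∈ s, av w (f i) ≤ B) : av w (∑ i ∈ s, f i) ≤ B := by
  classical
  induction s using Finset.induction_on with
  | empty => simpa using hB
  | insert a s ha ih =>
    rw [Finset.sum_insert ha]
    refine (av_add_le w _ _).trans (max_le (h a (Finset.mem_insert_self a s)) ?_)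
    exact ih fun i hi => h i (Finset.mem_insert_of_mem hi)

/-- Class number finiteness: a uniform normalisation. -/
theorem exists_normalisation : ∃ m : ℕ, m ≠ 0 ∧ ∀ g : G2 F, ∃ c : Fˣ,
    (∀ i j, ∃ a : 𝓞 F, (a : F) = c * g.1 i j) ∧ ∀ w : Pl F, av w (m : F) ≤ nm w ((c : F) • g.1) := by
  classical
  -- representatives of the ideal classes
  choose J hJ using fun C : ClassGroup (𝓞 F) => ClassGroup.mk0_surjective C
  refine ⟨∏ C, Ideal.absNorm (J C : Ideal (𝓞 F)), ?_, ?_⟩
  · rw [Finset.prod_ne_zero_iff]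
    intro C _
    rw [Ne, Ideal.absNorm_eq_zero_iff]
    exact nonZeroDivisors.ne_zero (J C).2
  · intro g
    obtain ⟨⟨b, hb⟩, hbint⟩ := IsLocalization.exist_integer_multiples (nonZeroDivisors (𝓞 F))
      (Finset.univ : Finset (Fin 2 × Fin 2)) (fun p => g.1 p.1 p.2)
    have hb0 : b ≠ 0 := nonZeroDivisors.ne_zero hb
    choose a ha using fun p : Fin 2 × Fin 2 => hbint p (Finset.mem_univ p)
    have ha' : ∀ p : Fin 2 × Fin 2, (a p : F) = (b : F) * g.1 p.1 p.2 := by
      intro p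
      have h := ha p
      have h' : (⟨b, hb⟩ : nonZeroDivisors (𝓞 F)) • (g.1 p.1 p.2) = (b : F) * g.1 p.1 p.2 := by
        rw [Submonoid.smul_def, Algebra.smul_def]
      exact h.trans h'
    set I : Ideal (𝓞 F) := Ideal.span (Set.range a) with hI
    have hgne : ∃ p : Fin 2 × Fin 2, g.1 p.1 p.2 ≠ 0 := by
      by_contra hcon
      push Not at hcon
      have : g.1.det = 0 := by
        rw [Matrix.det_fin_two, hcon (0, 0), hcon (0, 1)]; ring
      exact ((Matrix.isUnit_iff_isUnit_det _).mp g.isUnit).ne_zero this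
    have hI0 : I ≠ 0 := by
      obtain ⟨p, hp⟩ := hgne
      intro h0
      have h1 : a p ∈ I := Ideal.subset_span ⟨p, rfl⟩
      rw [h0] at h1
      have h2 : a p = 0 := h1
      have h3 := ha' p
      rw [h2] at h3
      have h4 : ((0 : 𝓞 F) : F) = 0 := map_zero _
      rw [h4] at h3
      have hbF : (b : F) ≠ 0 := by exact_mod_cast hb0
      exact hp ((mul_eq_zero.1 h3.symm).resolve_left hbF)
    set I' : nonZeroDivisors (Ideal (𝓞 F)) := ⟨I, mem_nonZeroDivisors_of_ne_zero hI0⟩ with hI'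
    set C := ClassGroup.mk0 I' with hC
    obtain ⟨x, y, hx, hy, hxy⟩ := ClassGroup.mk0_eq_mk0_iff.1 ((hJ C).symm : ClassGroup.mk0 I' = _)
    have hxF : (x : F) ≠ 0 := by exact_mod_cast hx
    have hyF : (y : F) ≠ 0 := by exact_mod_cast hy
    have hbF : (b : F) ≠ 0 := by exact_mod_cast hb0
    refine ⟨Units.mk0 ((x : F) * b / y) (by positivity), ?_, ?_⟩
    · intro i j
      have h1 : x * a (i, j) ∈ Ideal.span {x} * (I' : Ideal (𝓞 F)) :=
        Ideal.mul_mem_mul (Ideal.mem_span_singleton_self x) (Ideal.subset_span ⟨(i, j), rfl⟩)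
      rw [hxy] at h1
      obtain ⟨z, hz, hzeq⟩ := Ideal.mem_span_singleton_mul.1 h1
      refine ⟨z, ?_⟩
      rw [Units.val_mk0]
      have h2 : (y : F) * z = x * a (i, j) := by exact_mod_cast congrArg (algebraMap (𝓞 F) F) hzeq
      rw [ha'] at h2
      simp only at h2
      field_simp
      linear_combination h2
    · intro w
      set m : ℕ := ∏ C, Ideal.absNorm (J C : Ideal (𝓞 F)) with hm
      have hmJ : (m : 𝓞 F) ∈ (J C : Ideal (𝓞 F)) := by
        rw [hm, ← Finset.mul_prod_erase _ _ (Finset.mem_univ C), Nat.cast_mul]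
        exact Ideal.mul_mem_right _ _ (Ideal.absNorm_mem _)
      have h1 : y * (m : 𝓞 F) ∈ Ideal.span {y} * (J C : Ideal (𝓞 F)) :=
        Ideal.mul_mem_mul (Ideal.mem_span_singleton_self y) hmJ
      rw [← hxy] at h1
      obtain ⟨z, hz, hzeq⟩ := Ideal.mem_span_singleton_mul.1 h1
      obtain ⟨r, hr⟩ := Ideal.mem_span_range_iff_exists_fun.1 hz
      have h2 : (y : F) * m = x * z := by
        have := congrArg (algebraMap (𝓞 F) F) hzeq
        rw [map_mul, map_mul, map_natCast] at this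
        exact this.symm
      have h3 : (z : F) = ∑ p, (r p : F) * ((b : F) * g.1 p.1 p.2) := by
        have := congrArg (algebraMap (𝓞 F) F) hr
        rw [map_sum] at this
        rw [show (z : F) = algebraMap (𝓞 F) F z from rfl, ← this]
        refine Finset.sum_congr rfl fun p _ => ?_
        rw [map_mul]
        congr 1
        exact ha' p
      have h4 : (m : F) = ∑ p : Fin 2 × Fin 2, (r p : F) * (((x : F) * b / y) * g.1 p.1 p.2) := by
        have h5 : (m : F) = (x : F) / y * z := by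
          field_simp
          linear_combination h2
        rw [h5, h3, Finset.mul_sum]
        refine Finset.sum_congr rfl fun p _ => ?_
        field_simp
      rw [h4, Units.val_mk0]
      refine av_sum_le w _ _ (nm_nonneg w _) fun p _ => ?_
      rw [map_mul]
      have h6 : av w (((x : F) * b / y) * g.1 p.1 p.2) ≤ nm w (((x : F) * b / y) • g.1) := by
        have := av_le_nm w (((x : F) * b / y) • g.1) p.1 p.2
        rwa [Matrix.smul_apply, smul_eq_mul] at this
      calc av w (r p : F) * av w (((x : F) * b / y) * g.1 p.1 p.2)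
          ≤ 1 * nm w (((x : F) * b / y) • g.1) :=
            mul_le_mul (av_int_le_one w (r p)) h6 ((av w).nonneg _) zero_le_one
        _ = _ := one_mul _

/-- local bound -/
theorem exists_local_bound {U : Level F} (y y' : Y U) : ∃ n : ℕ, n ≠ 0 ∧ ∀ g : G2 F, g • y = y' →
    ∀ w : Pl F, av w (n : F) * nm w g.1 ^ 2 ≤ av w g.1.det := by
  classical
  choose a ha using fun w => QuotientGroup.mk_surjective (y w)
  choose a' ha' using fun w => QuotientGroup.mk_surjective (y' w)
  -- the bad set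
  set S : Set (Pl F) := {w | y.val w ≠ ((1 : G2 F) : Yl U w)} ∪
    {w | y'.val w ≠ ((1 : G2 F) : Yl U w)} with hS
  have hSfin : S.Finite := y.fin.union y'.fin
  -- local estimate
  have hloc : ∀ w, ∃ C : ℝ, 0 < C ∧ (w ∉ S → C = 1) ∧ ∀ g : G2 F, g • y = y' →
      nm w g.1 ^ 2 ≤ C * av w g.1.det := by
    intro w
    by_cases hw : w ∈ S
    · refine ⟨(nm w (a' w).1 * nm w ((a w)⁻¹).1) ^ 2 * (av w ((a' w)⁻¹).1.det * av w (a w).1.det),
        ?_, fun h => absurd hw h, ?_⟩
      · have h1 := nm_pos w (a' w)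
        have h2 := nm_pos w (a w)⁻¹
        have h3 : 0 < av w ((a' w)⁻¹).1.det :=
          (av w).pos ((Matrix.isUnit_iff_isUnit_det _).mp (a' w)⁻¹.isUnit).ne_zero
        have h4 : 0 < av w (a w).1.det :=
          (av w).pos ((Matrix.isUnit_iff_isUnit_det _).mp (a w).isUnit).ne_zero
        positivity
      · intro g hg
        have h1 : (a' w)⁻¹ * (g * a w) ∈ stdH w := by
          apply U.le_std w
          rw [← QuotientGroup.eq]
          have h2 : g • y w = y' w := by
            rw [← G2_smul_apply, hg]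
          rw [← ha w, ← ha' w] at h2
          exact h2.symm
        have h2 := av_det_of_mem w h1
        have h3 : g = a' w * ((a' w)⁻¹ * (g * a w)) * (a w)⁻¹ := by group
        have h4 : nm w g.1 ≤ nm w (a' w).1 * nm w ((a' w)⁻¹ * (g * a w)).1 * nm w ((a w)⁻¹).1 := by
          conv_lhs => rw [h3]
          refine (nm_mul_le w _ _).trans ?_
          gcongr
          · exact nm_nonneg w _
          · exact nm_mul_le w _ _
        have h5 : av w ((a' w)⁻¹ * (g * a w)).1.det
            = av w ((a' w)⁻¹).1.det * (av w g.1.det * av w (a w).1.det) := by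
          rw [Units.val_mul, Units.val_mul, Matrix.det_mul, Matrix.det_mul, map_mul, map_mul]
        calc nm w g.1 ^ 2
            ≤ (nm w (a' w).1 * nm w ((a' w)⁻¹ * (g * a w)).1 * nm w ((a w)⁻¹).1) ^ 2 := by
              gcongr
              exact nm_nonneg w _
          _ = (nm w (a' w).1 * nm w ((a w)⁻¹).1) ^ 2 * nm w ((a' w)⁻¹ * (g * a w)).1 ^ 2 := by ring
          _ = (nm w (a' w).1 * nm w ((a w)⁻¹).1) ^ 2 *
              (av w ((a' w)⁻¹).1.det * (av w g.1.det * av w (a w).1.det)) := by rw [← h2, h5]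
          _ = _ := by ring
    · refine ⟨1, one_pos, fun _ => rfl, ?_⟩
      intro g hg
      rw [hS, Set.mem_union, not_or] at hw
      have hy : y w = ((1 : G2 F) : Yl U w) := by
        by_contra h; exact hw.1 h
      have hy' : y' w = ((1 : G2 F) : Yl U w) := by
        by_contra h; exact hw.2 h
      have h1 : g ∈ stdH w := by
        apply U.le_std w
        have h2 : g • y w = y' w := by
          rw [← G2_smul_apply, hg]
        rw [hy, hy'] at h2
        have h3 : ((g * 1 : G2 F) : Yl U w) = ((1 : G2 F) : Yl U w) := h2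
        rw [mul_one, QuotientGroup.eq, mul_one] at h3
        exact inv_mem_iff.1 h3
      rw [one_mul, av_det_of_mem w h1]
  choose C hC0 hC1 hC using hloc
  -- an integer `n` with `av w n ≤ 1 / C w` for all `w`
  have hn : ∃ n : ℕ, n ≠ 0 ∧ ∀ w, av w (n : F) * C w ≤ 1 := by
    have hn1 : ∀ w ∈ S, ∃ n : ℕ, n ≠ 0 ∧ av w (n : F) * C w ≤ 1 := by
      intro w _
      have h1 : av w (Ideal.absNorm w.asIdeal : F) < 1 := by
        have h2 : ((Ideal.absNorm w.asIdeal : ℕ) : 𝓞 F) ∈ w.asIdeal := Ideal.absNorm_mem _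
        have h3 := (HeightOneSpectrum.adicAbv_coe_lt_one_iff (K := F) w
          (HeightOneSpectrum.one_lt_absNorm_nnreal w) _).2 h2
        rw [map_natCast] at h3
        exact h3
      obtain ⟨k, hk⟩ := exists_pow_lt_of_lt_one (inv_pos.2 (hC0 w)) h1
      refine ⟨Ideal.absNorm w.asIdeal ^ k, pow_ne_zero _ ?_, ?_⟩
      · have := HeightOneSpectrum.one_lt_absNorm w
        omega
      · rw [Nat.cast_pow, map_pow]
        have := mul_le_mul_of_nonneg_right hk.le (hC0 w).le
        rwa [inv_mul_cancel₀ (hC0 w).ne'] at this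
    choose! n hn0 hn using hn1
    refine ⟨∏ w ∈ hSfin.toFinset, n w, ?_, ?_⟩
    · rw [Finset.prod_ne_zero_iff]
      intro w hw
      exact hn0 w (by simpa using hw)
    · intro w
      by_cases hw : w ∈ S
      · rw [← Finset.mul_prod_erase _ _ (by simpa using hw : w ∈ hSfin.toFinset), Nat.cast_mul,
          map_mul]
        have h1 := hn w hw
        have h2 : av w ((∏ w ∈ hSfin.toFinset.erase w, n w : ℕ) : F) ≤ 1 :=
          av_nat_le_one w _
        calc av w (n w : F) * av w ((∏ w ∈ hSfin.toFinset.erase w, n w : ℕ) : F) * C w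
            = (av w (n w : F) * C w) * av w ((∏ w ∈ hSfin.toFinset.erase w, n w : ℕ) : F) := by ring
          _ ≤ 1 * 1 := mul_le_mul h1 h2 ((av w).nonneg _) zero_le_one
          _ = 1 := one_mul 1
      · rw [hC1 w hw, mul_one]
        exact av_nat_le_one w _
  obtain ⟨n, hn0, hn⟩ := hn
  refine ⟨n, hn0, fun g hg w => ?_⟩
  have h1 := hC w g hg
  calc av w (n : F) * nm w g.1 ^ 2 ≤ av w (n : F) * (C w * av w g.1.det) :=
        mul_le_mul_of_nonneg_left h1 ((av w).nonneg _)
    _ = (av w (n : F) * C w) * av w g.1.det := by ring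
    _ ≤ 1 * av w g.1.det := mul_le_mul_of_nonneg_right (hn w) ((av w).nonneg _)
    _ = _ := one_mul _

/-- integral entries -/
def IntEnt (g : G2 F) : Prop := ∀ i j, ∃ a : 𝓞 F, (a : F) = g.1 i j

/-- [A-rep]: every element of `PGL₂(F)` mapping `y` to `y'` has a representative with integral
entries and determinant in a fixed finite set of nonzero elements. -/
theorem exists_rep {U : Level F} (y y' : Y U) : ∃ 𝒟 : Set (𝓞 F), 𝒟.Finite ∧ (∀ d ∈ 𝒟, d ≠ 0) ∧
    ∀ γ : PG F, γ • y = y' → ∃ g : G2 F, pmk g = γ ∧ IntEnt g ∧ ∃ d ∈ 𝒟, (d : F) = g.1.det := by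
  obtain ⟨m, hm0, hm⟩ := exists_normalisation (F := F)
  obtain ⟨n, hn0, hn⟩ := exists_local_bound y y'
  have hN0 : ((n * m ^ 2 : ℕ) : 𝓞 F) ≠ 0 := by
    rw [Nat.cast_ne_zero]
    positivity
  obtain ⟨𝒟, h𝒟, h𝒟0, h𝒟1⟩ := exists_finite_dvd F hN0
  refine ⟨𝒟, h𝒟, h𝒟0, fun γ hγ => ?_⟩
  obtain ⟨g0, rfl⟩ := Matrix.ProjGenLinGroup.mk_surjective γ
  obtain ⟨c, hc1, hc2⟩ := hm g0
  set g1 : G2 F := sc c * g0 with hg1
  have hg1v : g1.1 = (c : F) • g0.1 := sc_mul_val c g0
  have hg1y : g1 • y = y' := by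
    rw [hg1, mul_smul, sc_smul_Y]
    exact hγ
  have hint1 : IntEnt g1 := by
    intro i j
    obtain ⟨a, ha⟩ := hc1 i j
    exact ⟨a, by rw [ha, hg1v, Matrix.smul_apply, smul_eq_mul]⟩
  -- the determinant is integral
  have hdet1 : ∃ δ : 𝓞 F, (δ : F) = g1.1.det := by
    choose a ha using hint1
    refine ⟨a 0 0 * a 1 1 - a 0 1 * a 1 0, ?_⟩
    rw [Matrix.det_fin_two, ← ha, ← ha, ← ha, ← ha]
    push_cast
    ring
  obtain ⟨δ, hδ⟩ := hdet1
  have hδ0 : (δ : F) ≠ 0 := by
    rw [hδ]; exact ((Matrix.isUnit_iff_isUnit_det _).mp g1.isUnit).ne_zero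
  have hdvd : δ ∣ ((n * m ^ 2 : ℕ) : 𝓞 F) := by
    have h1 : ∀ w : Pl F, av w (((n * m ^ 2 : ℕ) : F) / δ) ≤ 1 := by
      intro w
      have h2 := hn g1 hg1y w
      have h3 := hc2 w
      rw [← hg1v] at h3
      rw [map_div₀, Nat.cast_mul, Nat.cast_pow, map_mul, map_pow]
      rw [← hδ] at h2
      rw [div_le_one ((av w).pos hδ0)]
      refine le_trans ?_ h2
      exact mul_le_mul_of_nonneg_left (pow_le_pow_left₀ ((av w).nonneg _) h3 2)
        ((av w).nonneg _)
    obtain ⟨q, hq⟩ := exists_int_of_av_le_one h1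
    refine ⟨q, ?_⟩
    apply RingOfIntegers.coe_injective
    have h2 : (δ : F) * q = ((n * m ^ 2 : ℕ) : F) := by
      rw [hq]; field_simp
    push_cast at h2 ⊢
    exact h2.symm
  obtain ⟨ε, hε⟩ := h𝒟1 δ hdvd
  set e : Fˣ := Units.map (algebraMap (𝓞 F) F).toMonoidHom ε with he
  have heval : (e : F) = ((ε : 𝓞 F) : F) := rfl
  refine ⟨sc e * g1, ?_, ?_, (ε : 𝓞 F) ^ 2 * δ, hε, ?_⟩
  · have h1 : pmk g1 = pmk g0 := by
      rw [hg1]
      exact (pmk_eq_of_sc c g0)
    exact (pmk_eq_of_sc e g1).trans h1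
  · intro i j
    obtain ⟨a, ha⟩ := hint1 i j
    refine ⟨ε * a, ?_⟩
    rw [sc_mul_val, Matrix.smul_apply, smul_eq_mul, ← ha, heval]
    push_cast
    rfl
  · rw [sc_mul_val, Matrix.det_smul, Fintype.card_fin, ← hδ, heval]
    push_cast
    rfl

end integral

end Fermat.Agent.LT.B
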