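import Fermat.Agent.LT.B.CuspEig
import Fermat.Agent.LT.B.FinKer
import Fermat.Agent.LT.B.ProdKernel

/-!
LT piece B (helper31): the eigenvalues of the Hecke operators and of the real archimedean operators
on bounded automorphic functions are real (self-adjointness on `L²(Γ\X)`).
-/

set_option linter.unusedSectionVars false

open NumberField Matrix Fermat.LT MeasureTheory Set Filter Topology ProbabilityTheory
open Fermat.Agent.LT.CTree Fermat.Agent.LT.CArch
open scoped ENNReal NNReal ComplexConjugate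

namespace Fermat.Agent.LT.B

section abstract

variable {Γ X : Type*} [Group Γ] [MulAction Γ X] [MeasurableSpace X]
variable [Countable Γ] [MeasurableConstSMul Γ X] {μ : Measure X} [SMulInvariantMeasure Γ X μ]
  [SFinite μ] {w : X → ℝ≥0∞} {κ : Kernel X X} [IsSFiniteKernel κ] {c : X → X → ℂ}

theorem lintegral_weight_lt_top (hw : IsWeight Γ w) [IsFiniteMeasure (qMeas Γ μ w)] :
    ∫⁻ x, w x ∂μ < ∞ := by
  have h := qMeas_apply (μ := μ) hw (A := (univ : Set (Qt Γ X))) MeasurableSet.univ
  have h2 : ∫⁻ q, (1 : ℝ≥0∞) ∂(qMeas Γ μ w) = ∫⁻ x, w x * 1 ∂μ :=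
    lintegral_qMeas hw measurable_const
  simp only [mul_one, lintegral_one] at h2
  rw [← h2]
  exact measure_lt_top _ _

/-- **Self-adjointness gives real eigenvalues.** -/
theorem real_of_rev (h : IsRev Γ μ κ) (hw : IsWeight Γ w) [IsFiniteMeasure (qMeas Γ μ w)]
    (hm : StronglyMeasurable (Function.uncurry c))
    (hinv : ∀ (γ : Γ) x y, c (γ • x) (γ • y) = c x y)
    (hsym : ∀ x y, c y x = conj (c x y)) {A : ℝ≥0} (hA : ∀ x, ∫⁻ y, ‖c x y‖ₑ ∂κ x ≤ A)
    {φ : X → ℂ} (hφm : StronglyMeasurable φ) (hφi : ∀ (γ : Γ) x, φ (γ • x) = φ x)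
    {B : ℝ≥0} (hφb : ∀ x, ‖φ x‖ₑ ≤ B) (hφ0 : ¬ φ =ᵐ[μ] 0) {a : ℂ}
    (heig : ∀ x, ∫ y, c x y * φ y ∂κ x = a * φ x) : conj a = a := by
  have hfin : ∫⁻ x, w x * ∫⁻ y, ‖c x y * φ y * conj (φ x)‖ₑ ∂κ x ∂μ ≠ ∞ := by
    have h1 : ∀ x, ∫⁻ y, ‖c x y * φ y * conj (φ x)‖ₑ ∂κ x ≤ A * (B * B) := by
      intro x
      calc ∫⁻ y, ‖c x y * φ y * conj (φ x)‖ₑ ∂κ x
          ≤ ∫⁻ y, ‖c x y‖ₑ * (B * B) ∂κ x := by
            refine lintegral_mono fun y => ?_
            have hc : ‖(starRingEnd ℂ) (φ x)‖ₑ = ‖φ x‖ₑ := by simp [enorm_eq_nnnorm]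
            rw [enorm_mul, enorm_mul, mul_assoc, hc]
            gcongr
            · exact hφb y
            · exact hφb x
        _ = (∫⁻ y, ‖c x y‖ₑ ∂κ x) * (B * B) := by
            rw [lintegral_mul_const]
            exact (hm.comp_measurable measurable_prodMk_left).enorm
        _ ≤ A * (B * B) := by gcongr; exact hA x
    refine ((lintegral_mono fun x => mul_le_mul_right (h1 x) (w x)).trans_lt ?_).ne
    rw [lintegral_mul_const _ hw.meas]
    exact ENNReal.mul_lt_top (lintegral_weight_lt_top hw)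
      (ENNReal.mul_lt_top ENNReal.coe_lt_top (ENNReal.mul_lt_top ENNReal.coe_lt_top
        ENNReal.coe_lt_top))
  have key := h.mtp_integral hw (Ψ := fun x y => c x y * φ y * conj (φ x))
    ((hm.mul (hφm.comp_measurable measurable_snd)).mul
      (Complex.continuous_conj.comp_stronglyMeasurable (hφm.comp_measurable measurable_fst)))
    (fun γ x y => by rw [hinv, hφi, hφi]) hfin
  have e1 : ∀ x, ∫ y, c x y * φ y * conj (φ x) ∂κ x = a * (φ x * conj (φ x)) := by
    intro x
    rw [integral_mul_const, heig]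
    ring
  have e2 : ∀ x, ∫ y, c y x * φ x * conj (φ y) ∂κ x = conj a * (φ x * conj (φ x)) := by
    intro x
    have : (fun y => c y x * φ x * conj (φ y)) = fun y => conj (c x y * φ y * conj (φ x)) := by
      funext y
      rw [hsym x y, map_mul, map_mul, Complex.conj_conj]
      ring
    rw [this, integral_conj, e1, map_mul, map_mul, Complex.conj_conj]
    ring
  simp only [e1, e2] at key
  have e3 : ∀ b : ℂ, ∫ x, (w x).toReal • (b * (φ x * conj (φ x))) ∂μ
      = b * ((∫ x, (w x).toReal * ‖φ x‖ ^ 2 ∂μ : ℝ) : ℂ) := by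
    intro b
    rw [← integral_complex_ofReal, ← integral_const_mul]
    refine integral_congr_ae (Eventually.of_forall fun x => ?_)
    simp only [Complex.real_smul, Complex.mul_conj, Complex.normSq_eq_norm_sq]
    push_cast
    ring
  rw [e3, e3] at key
  set N : ℝ := ∫ x, (w x).toReal * ‖φ x‖ ^ 2 ∂μ with hN
  have hN0 : N ≠ 0 := by
    intro h0
    apply hφ0
    have hnn : 0 ≤ᵐ[μ] fun x => (w x).toReal * ‖φ x‖ ^ 2 :=
      Eventually.of_forall fun x => by positivity
    have hwm : AEStronglyMeasurable (fun x => (w x).toReal * ‖φ x‖ ^ 2) μ :=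
      ((hw.meas.ennreal_toReal.stronglyMeasurable).mul (hφm.norm.pow 2)).aestronglyMeasurable
    have hint : Integrable (fun x => (w x).toReal * ‖φ x‖ ^ 2) μ := by
      refine ⟨hwm, ?_⟩
      unfold HasFiniteIntegral
      have h5 : ∀ x, ‖(w x).toReal * ‖φ x‖ ^ 2‖ₑ ≤ w x * (B * B) := by
        intro x
        rw [enorm_mul, Real.enorm_eq_ofReal ENNReal.toReal_nonneg,
          ENNReal.ofReal_toReal (hw.ne_top x)]
        gcongr
        rw [enorm_pow, enorm_norm, pow_two]
        gcongr
        · exact hφb x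
        · exact hφb x
      refine (lintegral_mono h5).trans_lt ?_
      rw [lintegral_mul_const _ hw.meas]
      exact ENNReal.mul_lt_top (lintegral_weight_lt_top hw)
        (ENNReal.mul_lt_top ENNReal.coe_lt_top ENNReal.coe_lt_top)
    have h1 := (integral_eq_zero_iff_of_nonneg_ae hnn hint).1 h0
    -- pass to all translates
    have h2 : ∀ᵐ x ∂μ, ∀ γ : Γ, (w (γ • x)).toReal * ‖φ (γ • x)‖ ^ 2 = 0 := by
      rw [ae_all_iff]
      intro γ
      have hq : Filter.Tendsto (fun x : X => γ • x) (ae μ) (ae μ) :=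
        (measurePreserving_smul γ μ).quasiMeasurePreserving.tendsto_ae
      exact hq.eventually h1
    filter_upwards [h2] with x hx
    by_contra hne
    have h6 : ∀ γ : Γ, w (γ • x) = 0 := by
      intro γ
      have h7 := hx γ
      rw [hφi] at h7
      rcases mul_eq_zero.1 h7 with h8 | h8
      · rcases (ENNReal.toReal_eq_zero_iff _).1 h8 with h9 | h9
        · exact h9
        · exact absurd h9 (hw.ne_top _)
      · exact absurd (by simpa using h8) hne
    have h8 := hw.sum_eq x
    simp only [h6, tsum_zero] at h8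
    exact zero_ne_one h8
  have hNC : (N : ℂ) ≠ 0 := by exact_mod_cast hN0
  exact (mul_right_cancel₀ hNC key).symm

end abstract

variable {F : Type} [Field F] [NumberField F] {D : Datum F}

/-! ### the kernel resampling one archimedean component -/

theorem continuous_updI (x : X D) (i : D.I) : Continuous (updI x i) := by
  refine Continuous.prodMk ?_ continuous_const
  exact (continuous_const.update i continuous_id : Continuous fun R : H3 =>
    Function.update (β := fun _ : D.I => H3) x.1 i R)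

theorem measurable_updI_uncurry (i : D.I) :
    Measurable fun p : X D × H3 => updI p.1 i p.2 := by
  have h : Continuous fun p : X D × H3 => updI p.1 i p.2 := by
    refine Continuous.prodMk ?_ (continuous_snd.comp continuous_fst)
    have h1 : Continuous fun p : X D × H3 => (p.1.1 : D.I → H3) :=
      continuous_fst.comp continuous_fst
    exact (h1.update i continuous_snd : Continuous fun p : X D × H3 =>
      Function.update (β := fun _ : D.I => H3) p.1.1 i p.2)
  exact h.measurable

/-- resample the component `i` -/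
noncomputable def coordK (i : D.I) : Kernel (X D) (X D) :=
  (Kernel.id ×ₖ Kernel.const (X D) (volume : Measure H3)).map fun p : X D × H3 => updI p.1 i p.2

instance (i : D.I) : IsSFiniteKernel (coordK (D := D) i) := by
  unfold coordK
  infer_instance

theorem coordK_apply (i : D.I) (x : X D) : coordK i x = (volume : Measure H3).map (updI x i) := by
  unfold coordK
  rw [Kernel.map_apply _ (measurable_updI_uncurry i), Kernel.prod_apply, Kernel.id_apply,
    Kernel.const_apply]
  refine Measure.ext_of_lintegral _ fun f hf => ?_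
  have hm : Measurable fun p : X D × H3 => f (updI p.1 i p.2) := hf.comp (measurable_updI_uncurry i)
  rw [lintegral_map hf (measurable_updI_uncurry i), lintegral_map hf (continuous_updI x i).measurable,
    lintegral_prod _ hm.aemeasurable, lintegral_dirac' _ hm.lintegral_prod_right']

theorem lintegral_coordK (i : D.I) (x : X D) {f : X D → ℝ≥0∞} (hf : Measurable f) :
    ∫⁻ y, f y ∂(coordK i x) = ∫⁻ R : H3, f (updI x i R) := by
  rw [coordK_apply, lintegral_map hf (continuous_updI x i).measurable]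

theorem integral_coordK (i : D.I) (x : X D) {f : X D → ℂ} (hf : StronglyMeasurable f) :
    ∫ y, f y ∂(coordK i x) = ∫ R : H3, f (updI x i R) := by
  rw [coordK_apply, integral_map (continuous_updI x i).measurable.aemeasurable
    hf.aestronglyMeasurable]

/-- Tonelli: peel off one coordinate. -/
theorem lintegral_pi_peel {ι : Type*} [Fintype ι] [DecidableEq ι] (i : ι) (h : (ι → H3) → ℝ≥0∞)
    (hh : Measurable h) (x0 : ι → H3) :
    ∫⁻ x, h x ∂(Measure.pi fun _ : ι => (volume : Measure H3))
      = lmarginal (fun _ : ι => (volume : Measure H3))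
      ((Finset.univ : Finset ι).erase i)
      (fun x => ∫⁻ S : H3, h (Function.update x i S)) x0 := by
  have h1 : ∫⁻ x, h x ∂(Measure.pi fun _ : ι => (volume : Measure H3))
      = lmarginal (fun _ : ι => (volume : Measure H3)) Finset.univ h x0 := by
    rw [lmarginal_univ]
  rw [h1]
  exact congrFun (lmarginal_erase' h hh (Finset.mem_univ i)) x0

theorem coordK_symm_aux (i : D.I) {G : X D → X D → ℝ≥0∞} (hG : Measurable (Function.uncurry G)) :
    ∫⁻ x, ∫⁻ R : H3, G x (updI x i R) = ∫⁻ x, ∫⁻ R : H3, G (updI x i R) x := by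
  have hm1 : Measurable fun x : X D => ∫⁻ R : H3, G x (updI x i R) := by
    refine Measurable.lintegral_prod_right' (f := fun p : X D × H3 => G p.1 (updI p.1 i p.2)) ?_
    exact hG.comp (measurable_fst.prodMk (measurable_updI_uncurry i))
  have hm2 : Measurable fun x : X D => ∫⁻ R : H3, G (updI x i R) x := by
    refine Measurable.lintegral_prod_right' (f := fun p : X D × H3 => G (updI p.1 i p.2) p.1) ?_
    exact hG.comp ((measurable_updI_uncurry i).prodMk measurable_fst)
  rw [X_volume, lintegral_prod_symm' _ hm1, lintegral_prod_symm' _ hm2]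
  refine lintegral_congr fun y => ?_
  obtain ⟨x0⟩ : Nonempty (XI D.toArch) := inferInstance
  have p1 := lintegral_pi_peel (ι := D.I) i (fun x : D.I → H3 => ∫⁻ R : H3,
    G ((x, y) : X D) (updI ((x, y) : X D) i R)) (hm1.comp measurable_prodMk_right) x0
  have p2 := lintegral_pi_peel (ι := D.I) i (fun x : D.I → H3 => ∫⁻ R : H3,
    G (updI ((x, y) : X D) i R) ((x, y) : X D)) (hm2.comp measurable_prodMk_right) x0
  refine p1.trans (Eq.trans ?_ p2.symm)
  congr 1
  funext x
  have e : ∀ S R : H3, updI (D := D) ((Function.update (β := fun _ : D.I => H3) x i S : D.I → H3), y) i R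
      = ((Function.update (β := fun _ : D.I => H3) x i R : D.I → H3), y) := fun S R =>
    updI_updI (D := D) ((x : D.I → H3), y) i S R
  have hU : ∀ R : H3, ((Function.update (β := fun _ : D.I => H3) x i R : D.I → H3), y)
      = updI (D := D) ((x : D.I → H3), y) i R := fun R => rfl
  simp only [e]
  refine lintegral_lintegral_swap ?_
  refine Measurable.aemeasurable ?_
  have hc : Measurable fun R : H3 => updI (D := D) ((x : D.I → H3), y) i R :=
    (continuous_updI _ i).measurable
  exact hG.comp ((hc.comp measurable_fst).prodMk (hc.comp measurable_snd))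

theorem smul_updI (g : G2 F) (x : X D) (i : D.I) (R : H3) : pmk g • updI x i R
    = updI (pmk g • x) i ((Matrix.GeneralLinearGroup.map (n := Fin 2) (D.emb i) g) • R) := by
  refine Prod.ext ?_ rfl
  funext j
  by_cases h : j = i
  · subst h
    have h1 : (updI x j R).1 j = R := Function.update_self (β := fun _ : D.I => H3) _ _ _
    have h2 : (updI (pmk g • x) j ((Matrix.GeneralLinearGroup.map (n := Fin 2) (D.emb j) g) • R)).1 j
        = (Matrix.GeneralLinearGroup.map (n := Fin 2) (D.emb j) g) • R :=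
      Function.update_self (β := fun _ : D.I => H3) _ _ _
    rw [h2]
    show (Matrix.GeneralLinearGroup.map (n := Fin 2) (D.emb j) g) • ((updI x j R).1 j) = _
    rw [h1]
  · have h1 : (updI x i R).1 j = x.1 j := Function.update_of_ne (β := fun _ : D.I => H3) h _ _
    have h2 : (updI (pmk g • x) i ((Matrix.GeneralLinearGroup.map (n := Fin 2) (D.emb i) g) • R)).1 j
        = (pmk g • x).1 j :=
      Function.update_of_ne (β := fun _ : D.I => H3) h _ _
    rw [h2]
    show (Matrix.GeneralLinearGroup.map (n := Fin 2) (D.emb j) g) • ((updI x i R).1 j) = _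
    rw [h1]
    rfl

theorem isRev_coordK (i : D.I) : IsRev (PG F) (volume : Measure (X D)) (coordK i) where
  eqv γ x := by
    obtain ⟨g, rfl⟩ := Matrix.ProjGenLinGroup.mk_surjective γ
    refine Measure.ext_of_lintegral _ fun f hf => ?_
    have hs : Measurable fun y : X D => pmk g • y := measurable_const_smul _
    have hfs : Measurable fun y : X D => f (pmk g • y) := hf.comp hs
    rw [lintegral_map hf hs, lintegral_coordK i _ hf, lintegral_coordK i x hfs]
    have e : ∀ R : H3, f (pmk g • updI x i R)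
        = f (updI (pmk g • x) i ((Matrix.GeneralLinearGroup.map (n := Fin 2) (D.emb i) g) • R)) :=
      fun R => by rw [smul_updI]
    show _ = ∫⁻ R : H3, f (pmk g • updI x i R)
    simp only [e]
    have h1 := (H3.measurePreserving_smul'
      (Matrix.GeneralLinearGroup.map (n := Fin 2) (D.emb i) g)).lintegral_comp
      (hf.comp (continuous_updI (pmk g • x) i).measurable)
    exact h1.symm
  rev := by
    refine Measure.ext_of_lintegral _ fun G hG => ?_
    have hG' : Measurable (fun p : X D × X D => G p.swap) := hG.comp measurable_swap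
    rw [lintegral_map hG measurable_swap, Measure.lintegral_compProd hG',
      Measure.lintegral_compProd hG]
    have e1 : ∀ x : X D, ∫⁻ y, G (Prod.swap (x, y)) ∂(coordK i x) = ∫⁻ R : H3, G (updI x i R, x) :=
      fun x => lintegral_coordK i x (hG'.comp measurable_prodMk_left)
    have e2 : ∀ x : X D, ∫⁻ y, G (x, y) ∂(coordK i x) = ∫⁻ R : H3, G (x, updI x i R) :=
      fun x => lintegral_coordK i x (hG.comp measurable_prodMk_left)
    simp_rw [e1, e2]
    exact (coordK_symm_aux i (G := fun x y => G (x, y)) hG).symm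

/-! ### the archimedean operators -/

/-- the coefficient of `RX i g` -/
noncomputable def cI (i : D.I) (g : ℝ → ℂ) (x y : X D) : ℂ := kfun g (H3.ch (x.1 i) (y.1 i))

theorem continuous_cI (i : D.I) {g : ℝ → ℂ} (hg : IsTest g) :
    Continuous (Function.uncurry (cI (D := D) i g)) := by
  have h1 : Continuous fun p : X D × X D => H3.ch (p.1.1 i) (p.2.1 i) :=
    H3.continuous_ch.comp (((continuous_coord i).comp continuous_fst).prodMk
      ((continuous_coord i).comp continuous_snd))
  exact (kfun_continuousOn hg.evenSmooth).comp_continuous h1 fun p => H3.one_le_ch _ _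

theorem updI_coord (x : X D) (i : D.I) (R : H3) : (updI x i R).1 i = R :=
  Function.update_self (β := fun _ : D.I => H3) _ _ _

theorem RX_eq_integral (i : D.I) {g : ℝ → ℂ} (hg : IsTest g) {φ : X D → ℂ}
    (hφ : StronglyMeasurable φ) (x : X D) :
    ∫ y, cI i g x y * φ y ∂(coordK i x) = RX i g φ x := by
  have hm : StronglyMeasurable fun y : X D => cI i g x y * φ y :=
    ((continuous_cI i hg).stronglyMeasurable.comp_measurable measurable_prodMk_left).mul hφ
  rw [integral_coordK i x hm]
  unfold RX kopH cI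
  refine integral_congr_ae (Eventually.of_forall fun R => ?_)
  simp only [updI_coord]

theorem cI_smul (i : D.I) (g : ℝ → ℂ) (γ : PG F) (x y : X D) :
    cI i g (γ • x) (γ • y) = cI i g x y := by
  have := congrFun (chv_smul γ x y) i
  unfold chv at this
  unfold cI
  rw [this]

theorem kfun_real {g : ℝ → ℂ} (hg : IsRealTest g) (v : ℝ) : conj (kfun g v) = kfun g v := by
  rw [← kfun_conj hg.1.evenSmooth]
  congr 1
  funext u
  exact hg.2 u

theorem cI_symm (i : D.I) {g : ℝ → ℂ} (hg : IsRealTest g) (x y : X D) :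
    cI i g y x = conj (cI i g x y) := by
  unfold cI
  rw [kfun_real hg, H3.ch_comm]

theorem lintegral_cI (i : D.I) {g : ℝ → ℂ} (hg : IsTest g) (x : X D) :
    ∫⁻ y, ‖cI i g x y‖ₑ ∂(coordK i x) ≤ (kL1 g).toNNReal := by
  have hm : Measurable fun y : X D => ‖cI i g x y‖ₑ :=
    ((continuous_cI i hg).stronglyMeasurable.comp_measurable measurable_prodMk_left).enorm
  rw [lintegral_coordK i x hm]
  have hi : Integrable fun R : H3 => kfun g (H3.ch (x.1 i) R) := by
    have := integrable_kopH hg (φ := fun _ => 1) continuous_const (x.1 i)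
    simpa using this
  have h1 := ofReal_integral_norm_eq_lintegral_enorm hi
  rw [integral_norm_kfun_ch] at h1
  unfold cI
  simp only [updI_coord]
  rw [← h1]
  rfl

theorem IsAut.not_ae_zero {φ : X D → ℂ} (hφ : IsAut φ) (h0 : φ ≠ 0) :
    ¬ φ =ᵐ[(volume : Measure (X D))] 0 := fun h =>
  h0 ((Continuous.ae_eq_iff_eq volume hφ.cont continuous_const).1 h)

/-- Real archimedean operators have real eigenvalues. -/
theorem real_of_RX {φ : X D → ℂ} (hφ : IsAut φ) (hb : ∃ B : ℝ, ∀ x, ‖φ x‖ ≤ B) (h0 : φ ≠ 0)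
    (i : D.I) {g : ℝ → ℂ} (hg : IsRealTest g) {a : ℂ} (h : ∀ x, RX i g φ x = a * φ x) :
    conj a = a := by
  obtain ⟨B, hB⟩ := hb
  obtain ⟨w, hw⟩ := exists_isWeight_PG D
  have hfm := isFiniteMeasure_qMeas_XD hw
  refine real_of_rev (isRev_coordK i) hw (c := cI i g) (continuous_cI i hg.1).stronglyMeasurable
    (fun γ x y => cI_smul i g γ x y) (fun x y => cI_symm i hg x y) (lintegral_cI i hg.1)
    hφ.cont.stronglyMeasurable hφ.inv (B := B.toNNReal) (fun x => ?_) (hφ.not_ae_zero h0)
    (fun x => ?_)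
  · rw [← ofReal_norm]
    exact ENNReal.ofReal_le_ofReal (hB x)
  · rw [RX_eq_integral i hg.1 hφ.cont.stronglyMeasurable, h]

/-! ### Hecke operators -/

theorem real_of_ka {φ : X D → ℂ} (hφ : IsAut φ) (hb : ∃ B : ℝ, ∀ x, ‖φ x‖ ≤ B) (h0 : φ ≠ 0)
    {κ : Y D.toLevel → Y D.toLevel → ℂ} (hκ : IsFinTest κ) (hsym : ∀ y z, κ z y = conj (κ y z))
    {a : ℂ} (h : ∀ x : X D, ka κ (fun y => φ (x.1, y)) x.2 = a * φ x) : conj a = a := by
  classical
  obtain ⟨B, hB⟩ := hb
  obtain ⟨w, hw⟩ := exists_isWeight_PG D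
  have hfm := isFiniteMeasure_qMeas_XD hw
  obtain ⟨n, hn⟩ := hκ.exists_ncard_le
  obtain ⟨A, hA⟩ := hκ.bdd
  have hrev : IsRev (PG F) (volume : Measure (X D)) (finK (XI D.toArch) (Y D.toLevel)) :=
    isRev_finK (Γ := PG F) (Z := XI D.toArch) (Y := Y D.toLevel) (ν := volume)
  have hAn : ∀ y : Y D.toLevel, ∑' y', ‖κ y y'‖ₑ ≤ ((n * A.toNNReal : ℝ≥0) : ℝ≥0∞) := by
    intro y
    have h1 : ∑' y', ‖κ y y'‖ₑ = ∑ y' ∈ (hκ.fin y).toFinset, ‖κ y y'‖ₑ := by
      refine tsum_eq_sum fun y' hy' => ?_
      simp only [Finite.mem_toFinset, mem_ofPred_eq, not_not] at hy'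
      rw [hy', enorm_zero]
    rw [h1]
    calc ∑ y' ∈ (hκ.fin y).toFinset, ‖κ y y'‖ₑ
        ≤ ∑ _y' ∈ (hκ.fin y).toFinset, (A.toNNReal : ℝ≥0∞) := by
          refine Finset.sum_le_sum fun y' _ => ?_
          rw [← ofReal_norm]
          exact ENNReal.ofReal_le_ofReal (hA y y')
      _ = ((hκ.fin y).toFinset.card : ℝ≥0∞) * A.toNNReal := by
          rw [Finset.sum_const, nsmul_eq_mul]
      _ ≤ ((n * A.toNNReal : ℝ≥0) : ℝ≥0∞) := by
          have h2 : (hκ.fin y).toFinset.card ≤ n := by
            rw [← Set.ncard_eq_toFinset_card _ (hκ.fin y)]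
            exact hn y
          push_cast
          gcongr
  have hmeas : Measurable (Function.uncurry fun (x y : X D) => κ x.2 y.2) := by
    have h1 : Measurable (Function.uncurry κ) := measurable_from_prod_countable_right fun y =>
      measurable_of_countable _
    exact h1.comp ((measurable_snd.comp measurable_fst).prodMk
      (measurable_snd.comp measurable_snd))
  refine real_of_rev hrev hw (c := fun x y : X D => κ x.2 y.2) hmeas.stronglyMeasurable
    (fun γ x y => hκ.inv γ x.2 y.2) (fun x y => hsym x.2 y.2) (A := n * A.toNNReal) (fun x => ?_)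
    hφ.cont.stronglyMeasurable hφ.inv (B := B.toNNReal) (fun x => ?_) (hφ.not_ae_zero h0)
    (fun x => ?_)
  · have hm : Measurable fun p' : X D => ‖κ x.2 p'.2‖ₑ :=
      (measurable_of_countable (fun y' => ‖κ x.2 y'‖ₑ)).comp measurable_snd
    have h3 := lintegral_finK hm x.1 x.2
    show ∫⁻ p' : X D, ‖κ x.2 p'.2‖ₑ ∂(finK (XI D.toArch) (Y D.toLevel) (x.1, x.2)) ≤ _
    rw [h3]
    exact hAn x.2
  · rw [← ofReal_norm]
    exact ENNReal.ofReal_le_ofReal (hB x)
  · have hm : Measurable fun p' : X D => κ x.2 p'.2 * φ p' :=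
      ((measurable_of_countable (fun y' => κ x.2 y')).comp measurable_snd).mul
        hφ.cont.measurable
    have hfin : {y' | κ x.2 y' * φ (x.1, y') ≠ 0}.Finite :=
      (hκ.fin x.2).subset fun y' hy' => left_ne_zero_of_mul hy'
    have h3 := integral_finK_of_finite hm x.1 x.2 hfin
    show ∫ p' : X D, κ x.2 p'.2 * φ p' ∂(finK (XI D.toArch) (Y D.toLevel) (x.1, x.2)) = _
    rw [h3, ← h x]
    unfold ka
    rw [finsum_eq_sum_of_support_subset _ (s := hfin.toFinset)]
    intro y' hy'
    exact (Set.Finite.mem_toFinset _).2 hy'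

theorem isFinTest_tk {U : Level F} {w : Pl F} (hw : U.n w = 0) : IsFinTest (tk (U := U) w) where
  inv γ y y' := tk_smul γ y y'
  fin y := RF_tk hw y
  fin' y' := by
    refine (RF_tk hw y').subset fun x hx => ?_
    change tk w y' x ≠ 0
    rw [tk_symm]; exact hx
  bdd := by
    classical
    refine ⟨1, fun y z => ?_⟩
    unfold tk
    split_ifs <;> simp

/-- Hecke operators at good places have real eigenvalues. -/
theorem real_of_TX {φ : X D → ℂ} (hφ : IsAut φ) (hb : ∃ B : ℝ, ∀ x, ‖φ x‖ ≤ B) (h0 : φ ≠ 0)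
    {w : Pl F} (hw : D.n w = 0) {a : ℂ} (h : ∀ x, TX w φ x = a * φ x) : conj a = a := by
  classical
  refine real_of_ka hφ hb h0 (isFinTest_tk (U := D.toLevel) hw) (fun y z => ?_) (a := a)
    (fun x => ?_)
  · rw [tk_symm]
    unfold tk
    split_ifs <;> simp
  · rw [ka_tk hw]
    exact h x

theorem IsEig.hat_real {P : Set (Pl F)} {lam : Pl F → ℂ} {s : D.I → ℂ} {φ : X D → ℂ}
    (h : IsEig P lam s φ) (hφ : IsAut φ) (hb : ∃ B : ℝ, ∀ x, ‖φ x‖ ≤ B) (h0 : φ ≠ 0) (i : D.I)
    {g : ℝ → ℂ} (hg : IsRealTest g) : conj (hat g (s i)) = hat g (s i) :=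
  real_of_RX hφ hb h0 i hg (h.arch i g hg.1)

/-- The spectral parameters of bounded eigenfunctions: `(s i)²` is real and at most one. -/
theorem IsEig.exists_sq' {P : Set (Pl F)} {lam : Pl F → ℂ} {s : D.I → ℂ} {φ : X D → ℂ}
    (h : IsEig P lam s φ) (hφ : IsAut φ) (hb : ∃ B : ℝ, ∀ x, ‖φ x‖ ≤ B) (h0 : φ ≠ 0) (i : D.I) :
    ∃ σ : ℝ, σ ≤ 1 ∧ s i ^ 2 = (σ : ℂ) :=
  h.exists_sq hb h0 i fun _ hg => h.hat_real hφ hb h0 i hg

theorem IsEig.lam_real {P : Set (Pl F)} {lam : Pl F → ℂ} {s : D.I → ℂ} {φ : X D → ℂ}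
    (h : IsEig P lam s φ) (hφ : IsAut φ) (hb : ∃ B : ℝ, ∀ x, ‖φ x‖ ≤ B) (h0 : φ ≠ 0)
    {w : Pl F} (hw : w ∈ P) (hn : D.n w = 0) : conj (lam w) = lam w := by
  have h1 := real_of_TX hφ hb h0 hn (h.hecke w hw)
  rw [map_mul, Complex.conj_ofReal] at h1
  have h2 : (sq w : ℂ) ≠ 0 := by exact_mod_cast (sq_pos w).ne'
  exact mul_left_cancel₀ h2 h1

end Fermat.Agent.LT.B
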