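import Fermat.Agent.LT.B.EigFun
import Fermat.Agent.LT.B.Auto

set_option autoImplicit false

/-!
# LT, piece B: spectral decomposition and (twisted) trace formula, on function spaces

`Γ` acts properly discontinuously on `X` preserving `μ`, with `Γ\X` of finite volume.
`k : J → X → X → ℂ` is a commuting family of self-adjoint test kernels with bounded automorphic
kernels.  The joint eigensystems `c : J → ℂ` (non zero) which occur form the set `spec Γ μ k`, for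
each of them `eigA` is a finite dimensional space of continuous bounded invariant functions, and for
test kernels `A`, `B` and an automorphism `σ` the trace formula
`Σ_c tr(A B U_σ | eigA c) = ∫_Q K_{A*B}(x, σ x) dx` holds.
-/

set_option linter.unusedSectionVars false

open MeasureTheory MulAction Set Filter Topology ProbabilityTheory
open scoped ENNReal NNReal ComplexConjugate InnerProductSpace

namespace Fermat.Agent.LT.B

/-- A test kernel: continuous, invariant, properly supported, Schur bounded, with bounded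
automorphic kernel. -/
structure BKer (Γ : Type*) {X : Type*} [Group Γ] [MulAction Γ X] [TopologicalSpace X]
    [MeasurableSpace X] (μ : Measure X) [SFinite μ] (k : X → X → ℂ) : Prop extends CKer Γ k where
  schur : ∃ A B : ℝ≥0, IsSchur Γ (Kernel.const X μ) k A B
  bdd : ∃ C : ℝ, ∀ x y, ‖∑' γ : Γ, k x (γ • y)‖ ≤ C

/-- A commuting family of self-adjoint test kernels. -/
structure KFam (Γ : Type*) {X J : Type*} [Group Γ] [MulAction Γ X] [TopologicalSpace X]
    [MeasurableSpace X] (μ : Measure X) [SFinite μ] (k : J → X → X → ℂ) : Prop where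
  tker : ∀ j, BKer Γ μ (k j)
  symm : ∀ j x y, k j y x = conj (k j x y)
  comm : ∀ i j x z, ∫ y, k i x y * k j y z ∂μ = ∫ y, k j x y * k i y z ∂μ

/-- The joint eigenfunctions, as a submodule of the space of automorphic functions. -/
def eigA (Γ : Type*) {X J : Type*} [Group Γ] [MulAction Γ X] [TopologicalSpace X]
    [MeasurableSpace X] (μ : Measure X) (k : J → X → X → ℂ)
    (c : J → ℂ) : Set (autFun Γ X) :=
  {φ | ∀ j x, appK μ (k j) φ.1 x = c j * φ.1 x}

/-- The non-zero systems of eigenvalues which occur. -/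
def spec (Γ : Type*) {X J : Type*} [Group Γ] [MulAction Γ X] [TopologicalSpace X]
    [MeasurableSpace X] (μ : Measure X) (k : J → X → X → ℂ) : Set (J → ℂ) :=
  {c | (∃ φ ∈ eigA Γ μ k c, φ ≠ 0) ∧ ∃ j, c j ≠ 0}

/-- The trace of `L` on an invariant subspace (and `0` if the subspace is not invariant). -/
noncomputable def trSub {E : Type*} [AddCommGroup E] [Module ℂ E] (V : Submodule ℂ E)
    (L : E →ₗ[ℂ] E) : ℂ :=
  open Classical in
  if h : ∀ v ∈ V, L v ∈ V then LinearMap.trace ℂ V (L.restrict h) else 0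

theorem trSub_of_mem {E : Type*} [AddCommGroup E] [Module ℂ E] {V : Submodule ℂ E}
    {L : E →ₗ[ℂ] E} (h : ∀ v ∈ V, L v ∈ V) :
    trSub V L = LinearMap.trace ℂ V (L.restrict h) := by
  classical
  rw [trSub, dif_pos h]

theorem trSub_of_not_mem {E : Type*} [AddCommGroup E] [Module ℂ E] {V : Submodule ℂ E}
    {L : E →ₗ[ℂ] E} (h : ¬ ∀ v ∈ V, L v ∈ V) : trSub V L = 0 := by
  classical
  rw [trSub, dif_neg h]

section

variable {Γ X J : Type*} [Group Γ] [Countable Γ] [MulAction Γ X] [TopologicalSpace X] [T2Space X]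
  [LocallyCompactSpace X] [SecondCountableTopology X]
  [MeasurableSpace X] [BorelSpace X] [ProperlyDiscontinuousSMul Γ X] [ContinuousConstSMul Γ X]
  {μ : Measure X} [SMulInvariantMeasure Γ X μ] [IsFiniteMeasureOnCompacts μ]
  [μ.IsOpenPosMeasure] [SigmaFinite μ] {w : X → ℝ≥0∞}

/-! ### Operators on automorphic functions -/

theorem CKer.norm_appK_le' {k : X → X → ℂ} (hk : CKer Γ k) {A B : ℝ≥0}
    (hs : IsSchur Γ (Kernel.const X μ) k A B) {φ : X → ℂ} {M : ℝ} (hM : ∀ x, ‖φ x‖ ≤ M) (x : X) :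
    ‖appK μ k φ x‖ ≤ A * M := by
  have hM0 : 0 ≤ M := (norm_nonneg _).trans (hM x)
  have h1 : ∫⁻ y, ‖k x y‖ₑ ∂μ ≤ A := by
    have := hs.left x
    rwa [Kernel.const_apply] at this
  have hcont : Continuous (fun y => k x y) := hk.cont.comp (continuous_const.prodMk continuous_id)
  have hi : Integrable (fun y => k x y) μ :=
    ⟨hcont.aestronglyMeasurable, h1.trans_lt (by simp)⟩
  have h2 : ∫ y, ‖k x y‖ ∂μ ≤ A := by
    rw [integral_norm_eq_lintegral_enorm hcont.aestronglyMeasurable]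
    have := ENNReal.toReal_mono (by simp) h1
    simpa using this
  calc ‖appK μ k φ x‖ ≤ ∫ y, ‖k x y‖ * M ∂μ := by
        refine norm_integral_le_of_norm_le (hi.norm.mul_const M) (Eventually.of_forall fun y => ?_)
        rw [norm_mul]
        exact mul_le_mul_of_nonneg_left (hM y) (norm_nonneg _)
    _ = (∫ y, ‖k x y‖ ∂μ) * M := integral_mul_const _ _
    _ ≤ A * M := mul_le_mul_of_nonneg_right h2 hM0

theorem CKer.appK_mem {k : X → X → ℂ} (hk : CKer Γ k)
    (hs : ∃ A B : ℝ≥0, IsSchur Γ (Kernel.const X μ) k A B) {φ : X → ℂ} (hφ : φ ∈ autFun Γ X) :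
    appK μ k φ ∈ autFun Γ X := by
  obtain ⟨A, B, hs⟩ := hs
  obtain ⟨h1, h2, M, hM⟩ := hφ
  exact ⟨hk.continuous_appK h1.locallyIntegrable, fun γ x => hk.appK_smul h2 γ x,
    A * M, fun x => hk.norm_appK_le' hs hM x⟩

/-- The operator with kernel `k` on automorphic functions. -/
noncomputable def appF {k : X → X → ℂ} (hk : CKer Γ k)
    (hs : ∃ A B : ℝ≥0, IsSchur Γ (Kernel.const X μ) k A B) : autFun Γ X →ₗ[ℂ] autFun Γ X where
  toFun φ := ⟨appK μ k φ.1, hk.appK_mem hs φ.2⟩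
  map_add' φ ψ := Subtype.ext (funext fun x => hk.appK_add φ.2.1 ψ.2.1 x)
  map_smul' c φ := Subtype.ext (funext fun x => appK_smul_fun c φ.1 x)

@[simp] theorem appF_apply {k : X → X → ℂ} (hk : CKer Γ k)
    (hs : ∃ A B : ℝ≥0, IsSchur Γ (Kernel.const X μ) k A B) (φ : autFun Γ X) (x : X) :
    (appF hk hs φ).1 x = appK μ k φ.1 x := rfl

/-- The operator `φ ↦ φ ∘ σ⁻¹` on automorphic functions. -/
def twF (τ : Γ ≃* Γ) (σ : X ≃ₜ X) (h : ∀ γ x, σ (γ • x) = τ γ • σ x) :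
    autFun Γ X →ₗ[ℂ] autFun Γ X where
  toFun φ := ⟨fun x => φ.1 (σ.symm x), by
    obtain ⟨h1, h2, M, hM⟩ := φ.2
    refine ⟨h1.comp σ.symm.continuous, fun γ x => ?_, M, fun x => hM _⟩
    have : σ.symm (γ • x) = τ.symm γ • σ.symm x := by
      apply σ.injective
      rw [h]; simp
    simp only [this, h2]⟩
  map_add' _ _ := rfl
  map_smul' _ _ := rfl

@[simp] theorem twF_apply (τ : Γ ≃* Γ) (σ : X ≃ₜ X) (h : ∀ γ x, σ (γ • x) = τ γ • σ x)
    (φ : autFun Γ X) (x : X) : (twF τ σ h φ).1 x = φ.1 (σ.symm x) := rfl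

/-- `eigA` as a submodule. -/
def eigM {k : J → X → X → ℂ} (hk : ∀ j, CKer Γ (k j)) (c : J → ℂ) : Submodule ℂ (autFun Γ X) where
  carrier := eigA Γ μ k c
  add_mem' := by
    intro φ ψ h h' j x
    have := (hk j).appK_add (μ := μ) φ.2.1 ψ.2.1 x
    rw [Submodule.coe_add, this, h, h', Pi.add_apply]; ring
  zero_mem' := fun j x => by simp [appK]
  smul_mem' := by
    intro a φ h j x
    rw [Submodule.coe_smul, appK_smul_fun, h, Pi.smul_apply, smul_eq_mul]; ring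

theorem mem_eigM {k : J → X → X → ℂ} {hk : ∀ j, CKer Γ (k j)} {c : J → ℂ} {φ : autFun Γ X} :
    φ ∈ eigM (μ := μ) hk c ↔ ∀ j x, appK μ (k j) φ.1 x = c j * φ.1 x := Iff.rfl

/-! ### The operators on `L²` -/

theorem BKer.exists_op (hw : IsWeight Γ w) {k : X → X → ℂ} (hk : BKer Γ μ k) :
    ∃ T : Lp ℂ 2 (qMeas Γ μ w) →L[ℂ] Lp ℂ 2 (qMeas Γ μ w),
      IsOp Γ μ w (Kernel.const X μ) k T := by
  obtain ⟨A, B, hs⟩ := hk.schur
  obtain ⟨T, hT, -⟩ := hs.exists_isOp isRev_const hw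
  exact ⟨T, hT⟩

theorem IsOp.hasXKernel {k : X → X → ℂ} {T : Lp ℂ 2 (qMeas Γ μ w) →L[ℂ] Lp ℂ 2 (qMeas Γ μ w)}
    (hT : IsOp Γ μ w (Kernel.const X μ) k T) : HasXKernel μ w T k := by
  intro v
  filter_upwards [hT v] with x hx
  rw [hx, Kernel.const_apply]; rfl

theorem toL2_appF (hw : IsWeight Γ w) [IsFiniteMeasure (qMeas Γ μ w)] {k : X → X → ℂ}
    (hk : CKer Γ k) (hs : ∃ A B : ℝ≥0, IsSchur Γ (Kernel.const X μ) k A B)
    {T : Lp ℂ 2 (qMeas Γ μ w) →L[ℂ] Lp ℂ 2 (qMeas Γ μ w)}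
    (hT : HasXKernel μ w T k) (φ : autFun Γ X) :
    T (toL2 (μ := μ) w φ) = toL2 w (appF (μ := μ) hk hs φ) := by
  refine eq_toL2_of_ae hw _ ?_
  filter_upwards [hT (toL2 (μ := μ) w φ)] with x hx
  rw [hx, appF_apply]
  exact appK_congr (toL2_ae hw φ) x

theorem toL2_twF (hw : IsWeight Γ w) [IsFiniteMeasure (qMeas Γ μ w)] (τ : Γ ≃* Γ) (σ : X ≃ₜ X)
    (h : ∀ γ x, σ (γ • x) = τ γ • σ x) (hσ : MeasurePreserving σ μ μ)
    {U : Lp ℂ 2 (qMeas Γ μ w) →L[ℂ] Lp ℂ 2 (qMeas Γ μ w)}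
    (hU : ∀ f : Lp ℂ 2 (qMeas Γ μ w), U f =ᵐ[qMeas Γ μ w]
      fun q => f ((twQ τ σ.toMeasurableEquiv h).symm q)) (φ : autFun Γ X) :
    U (toL2 (μ := μ) w φ) = toL2 w (twF τ σ h φ) := by
  refine eq_toL2_of_ae hw _ ?_
  have h1 := hU (toL2 (μ := μ) w φ)
  rw [Filter.EventuallyEq, ae_qMeas_iff hw] at h1
  have h2 : ∀ᵐ x ∂μ, toL2 (μ := μ) w φ (pr Γ (σ.symm x)) = φ.1 (σ.symm x) := by
    have hσ' : MeasurePreserving σ.symm μ μ :=
      MeasurePreserving.symm σ.toMeasurableEquiv hσ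
    exact hσ'.quasiMeasurePreserving.ae (toL2_ae hw φ)
  filter_upwards [h1, h2] with x hx hx2
  rw [hx, twF_apply, ← hx2]
  rfl

/-- **Joint eigenspaces in `L²(Γ\X)` are spaces of continuous functions.** -/
theorem exists_equiv_joint (hw : IsWeight Γ w) [IsFiniteMeasure (qMeas Γ μ w)]
    {k : J → X → X → ℂ} {T : J → Lp ℂ 2 (qMeas Γ μ w) →L[ℂ] Lp ℂ 2 (qMeas Γ μ w)}
    (hk : ∀ j, BKer Γ μ (k j)) (hT : ∀ j, HasXKernel μ w (T j) (k j)) {c : J → ℂ}
    (hc : ∃ j, c j ≠ 0) :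
    ∃ e : eigM (μ := μ) (fun j => (hk j).toCKer) c ≃ₗ[ℂ] jointSpace T c,
      ∀ φ, ((e φ : Lp ℂ 2 (qMeas Γ μ w))) = toL2 w φ.1 := by
  obtain ⟨j₀, hj₀⟩ := hc
  obtain ⟨B, hB⟩ := (hk j₀).bdd
  have hsub : ∀ φ : eigM (μ := μ) (fun j => (hk j).toCKer) c,
      toL2 (μ := μ) w φ.1 ∈ jointSpace T c := by
    intro φ
    rw [mem_jointSpace]
    intro j
    rw [toL2_appF hw (hk j).toCKer (hk j).schur (hT j), ← map_smul]
    congr 1
    refine Subtype.ext (funext fun x => ?_)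
    exact φ.2 j x
  let f : eigM (μ := μ) (fun j => (hk j).toCKer) c →ₗ[ℂ] jointSpace T c :=
    { toFun := fun φ => ⟨toL2 (μ := μ) w φ.1, hsub φ⟩
      map_add' := fun φ ψ => Subtype.ext ((toL2 (μ := μ) w).map_add φ.1 ψ.1)
      map_smul' := fun a φ => Subtype.ext ((toL2 (μ := μ) w).map_smul a φ.1) }
  have hinj : Function.Injective f := by
    intro φ ψ h
    exact Subtype.ext (toL2_injective hw (congrArg Subtype.val h))
  have hsurj : Function.Surjective f := by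
    rintro ⟨v, hv⟩
    have hv' := mem_jointSpace.1 hv
    obtain ⟨φ, h1, h2, h3, h4⟩ := exists_continuous_rep hw (hk j₀).toCKer (hT j₀) hj₀ (hv' j₀)
    have h5 : φ ∈ autFun Γ X := ⟨h1, h2, _, fun x =>
      norm_rep_le hw (hk j₀).toCKer hj₀ h3 h4 (fun y => hB x y)⟩
    have h6 : (⟨φ, h5⟩ : autFun Γ X) ∈ eigM (μ := μ) (fun j => (hk j).toCKer) c :=
      fun j x => appK_eq_of_ae hw (hk j).toCKer (hT j) (hv' j) h1 h3 x
    exact ⟨⟨⟨φ, h5⟩, h6⟩, Subtype.ext (eq_toL2_of_ae hw ⟨φ, h5⟩ h3).symm⟩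
  exact ⟨LinearEquiv.ofBijective f ⟨hinj, hsurj⟩, fun φ => rfl⟩

theorem KFam.exists_ops (hw : IsWeight Γ w) {k : J → X → X → ℂ} (hk : KFam Γ μ k) :
    ∃ T : J → Lp ℂ 2 (qMeas Γ μ w) →L[ℂ] Lp ℂ 2 (qMeas Γ μ w),
      (∀ j, IsOp Γ μ w (Kernel.const X μ) (k j) (T j)) ∧ CommSymm T := by
  choose T hT using fun j => (hk.tker j).exists_op (μ := μ) hw
  refine ⟨T, hT, ⟨fun j => ?_, fun i j v => ?_⟩⟩
  · obtain ⟨A, B, hs⟩ := (hk.tker j).schur
    have e : conjTr (k j) = k j := by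
      funext x y
      rw [conjTr_apply, hk.symm j x y, Complex.conj_conj]
    have h1 : T j = ContinuousLinearMap.adjoint (T j) := by
      refine hs.isOp_adjoint isRev_const hw (hT j) ?_
      rw [e]; exact hT j
    exact (ContinuousLinearMap.isSelfAdjoint_iff_isSymmetric).1
      ((ContinuousLinearMap.isSelfAdjoint_iff').2 h1.symm)
  · obtain ⟨A, B, hs⟩ := (hk.tker i).schur
    obtain ⟨A', B', hs'⟩ := (hk.tker j).schur
    have h1 := IsOp.comm hs hs' isRev_const hw (hT i) (hT j) (by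
      intro x z
      simp only [Kernel.const_apply]
      exact hk.comm i j x z)
    have h2 := congrArg (fun S : Lp ℂ 2 (qMeas Γ μ w) →L[ℂ] Lp ℂ 2 (qMeas Γ μ w) => S v) h1
    exact h2

theorem BKer.hasKernel (hw : IsWeight Γ w) {k : X → X → ℂ} (hk : BKer Γ μ k)
    {T : Lp ℂ 2 (qMeas Γ μ w) →L[ℂ] Lp ℂ 2 (qMeas Γ μ w)}
    (hT : IsOp Γ μ w (Kernel.const X μ) k T) : HasKernel (qMeas Γ μ w) T (qKer Γ k) := by
  obtain ⟨A, B, hs⟩ := hk.schur
  exact hT.hasKernel hw hs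

theorem BKer.sqInt (hw : IsWeight Γ w) [IsFiniteMeasure (qMeas Γ μ w)] {k : X → X → ℂ}
    (hk : BKer Γ μ k) : SqInt (qMeas Γ μ w) (qKer Γ k) := by
  obtain ⟨A, B, hs⟩ := hk.schur
  obtain ⟨C, hC⟩ := hk.bdd
  exact sqInt_of_bound hw hs hC

/-- the systems occurring in `L²` are those occurring in the space of automorphic functions -/
theorem mem_systems_iff (hw : IsWeight Γ w) [IsFiniteMeasure (qMeas Γ μ w)]
    {k : J → X → X → ℂ} {T : J → Lp ℂ 2 (qMeas Γ μ w) →L[ℂ] Lp ℂ 2 (qMeas Γ μ w)}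
    (hk : ∀ j, BKer Γ μ (k j)) (hT : ∀ j, HasXKernel μ w (T j) (k j)) (c : J → ℂ) :
    c ∈ systems T univ ↔ c ∈ spec Γ μ k := by
  constructor
  · rintro ⟨hne, j, -, hj⟩
    obtain ⟨e, he⟩ := exists_equiv_joint hw hk hT ⟨j, hj⟩
    obtain ⟨v, hv, hv0⟩ := Submodule.exists_mem_ne_zero_of_ne_bot hne
    refine ⟨⟨(e.symm ⟨v, hv⟩).1, (e.symm ⟨v, hv⟩).2, fun h0 => hv0 ?_⟩, j, hj⟩
    have h1 : e.symm ⟨v, hv⟩ = 0 := Subtype.ext h0
    have h2 : (⟨v, hv⟩ : jointSpace T c) = 0 := by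
      rw [← e.apply_symm_apply ⟨v, hv⟩, h1, map_zero]
    exact congrArg Subtype.val h2
  · rintro ⟨⟨φ, hφ, hφ0⟩, j, hj⟩
    obtain ⟨e, he⟩ := exists_equiv_joint hw hk hT ⟨j, hj⟩
    refine ⟨fun hbot => hφ0 ?_, j, Set.mem_univ _, hj⟩
    have h1 : e ⟨φ, hφ⟩ = 0 := by
      have h2 := hbot.le (e ⟨φ, hφ⟩).2
      exact Subtype.ext (by simpa using h2)
    have h3 : (⟨φ, hφ⟩ : eigM (μ := μ) (fun j => (hk j).toCKer) c) = 0 :=
      (LinearEquiv.map_eq_zero_iff e).1 h1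
    exact congrArg Subtype.val h3

theorem KFam.isCompact (hw : IsWeight Γ w) [IsFiniteMeasure (qMeas Γ μ w)]
    {k : J → X → X → ℂ} (hk : KFam Γ μ k)
    {T : J → Lp ℂ 2 (qMeas Γ μ w) →L[ℂ] Lp ℂ 2 (qMeas Γ μ w)}
    (hT : ∀ j, IsOp Γ μ w (Kernel.const X μ) (k j) (T j)) (j : J) : IsCompactOperator (T j) := by
  have := separable_Lp_qMeas (Γ := Γ) (μ := μ) hw
  exact ((hk.tker j).hasKernel hw (hT j)).isCompactOperator' ((hk.tker j).sqInt hw)

/-- **Finite multiplicities.** -/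
theorem KFam.finiteDimensional (hw : IsWeight Γ w) [IsFiniteMeasure (qMeas Γ μ w)]
    {k : J → X → X → ℂ} (hk : KFam Γ μ k) {c : J → ℂ} (hc : ∃ j, c j ≠ 0) :
    FiniteDimensional ℂ (eigM (μ := μ) (fun j => (hk.tker j).toCKer) c) := by
  obtain ⟨T, hT, hcs⟩ := hk.exists_ops hw
  obtain ⟨e, he⟩ := exists_equiv_joint hw hk.tker (fun j => (hT j).hasXKernel) hc
  have : FiniteDimensional ℂ (jointSpace T c) :=
    CommSymm.finiteDimensional (J₀ := univ) (fun j _ => hk.isCompact hw hT j)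
      (by obtain ⟨j, hj⟩ := hc; exact ⟨j, trivial, hj⟩)
  exact LinearEquiv.finiteDimensional e.symm

/-- Eigenvalues are real. -/
theorem KFam.conj_eq (hw : IsWeight Γ w) [IsFiniteMeasure (qMeas Γ μ w)]
    {k : J → X → X → ℂ} (hk : KFam Γ μ k) {c : J → ℂ} (hc : c ∈ spec Γ μ k) (j : J) :
    conj (c j) = c j := by
  obtain ⟨T, hT, hcs⟩ := hk.exists_ops hw
  have h1 := (mem_systems_iff hw hk.tker (fun j => (hT j).hasXKernel) c).2 hc
  exact hcs.conj_eq h1.1 j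

theorem toL2_mem_joint (hw : IsWeight Γ w) [IsFiniteMeasure (qMeas Γ μ w)]
    {k : J → X → X → ℂ} {T : J → Lp ℂ 2 (qMeas Γ μ w) →L[ℂ] Lp ℂ 2 (qMeas Γ μ w)}
    (hk : ∀ j, BKer Γ μ (k j)) (hT : ∀ j, HasXKernel μ w (T j) (k j)) {c : J → ℂ}
    {φ : autFun Γ X} (hφ : φ ∈ eigM (μ := μ) (fun j => (hk j).toCKer) c) :
    toL2 (μ := μ) w φ ∈ jointSpace T c := by
  rw [mem_jointSpace]
  intro j
  rw [toL2_appF hw (hk j).toCKer (hk j).schur (hT j), ← map_smul]
  congr 1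
  refine Subtype.ext (funext fun x => ?_)
  exact hφ j x

/-- The pairing of automorphic kernels. -/
theorem integral_pair_eq (hw : IsWeight Γ w) [IsFiniteMeasure (qMeas Γ μ w)] {A B : X → X → ℂ}
    (hA : BKer Γ μ A) (hB : BKer Γ μ B) (x z : X) :
    ∫ q, qKer Γ A (pr Γ x) q * qKer Γ B q (pr Γ z) ∂qMeas Γ μ w
      = ∑' γ : Γ, compC (Kernel.const X μ) A B x (γ • z) := by
  obtain ⟨a, a', hsA⟩ := hA.schur
  obtain ⟨b, b', hsB⟩ := hB.schur
  refine integral_qKer_mul_qKer hw hsA hsB x z ?_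
  -- finiteness
  obtain ⟨C, hC, hC0⟩ := hA.supp {x} isCompact_singleton
  obtain ⟨D, hD, hD0⟩ := hB.supp C hC
  have hfin := finite_smul_mem (Γ := Γ) hD z
  obtain ⟨M, hM⟩ := (hC.prod hD).exists_bound_of_continuousOn
    (f := fun p : X × X => B p.1 p.2) hB.cont.continuousOn
  have hAx : Continuous (fun y => A x y) := hA.cont.comp (continuous_const.prodMk continuous_id)
  have h1 : ∀ y, ‖A x y‖ₑ * ∑' γ : Γ, ‖B y (γ • z)‖ₑ ≤
      ‖A x y‖ₑ * (hfin.toFinset.card * ENNReal.ofReal M) := by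
    intro y
    by_cases hy : y ∈ C
    · gcongr
      have h2 : ∀ γ : Γ, γ ∉ hfin.toFinset → ‖B y (γ • z)‖ₑ = 0 := by
        intro γ hγ
        rw [Set.Finite.mem_toFinset] at hγ
        rw [hD0 y hy _ hγ, enorm_zero]
      rw [tsum_eq_sum h2]
      calc ∑ γ ∈ hfin.toFinset, ‖B y (γ • z)‖ₑ
          ≤ ∑ _γ ∈ hfin.toFinset, ENNReal.ofReal M := by
            refine Finset.sum_le_sum fun γ hγ => ?_
            rw [Set.Finite.mem_toFinset] at hγ
            rw [← ofReal_norm]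
            exact ENNReal.ofReal_le_ofReal (hM (y, γ • z) ⟨hy, hγ⟩)
        _ = _ := by simp
    · rw [hC0 x rfl y hy]; simp
  refine ((lintegral_mono h1).trans_lt ?_).ne
  rw [lintegral_mul_const _ hAx.measurable.enorm]
  refine ENNReal.mul_lt_top ?_ (ENNReal.mul_lt_top (by simp) (by simp))
  have := hsA.left x
  rw [Kernel.const_apply] at this
  exact this.trans_lt (by simp)

/-- **The (twisted) trace formula.** -/
theorem KFam.hasSum_trace (hw : IsWeight Γ w) [IsFiniteMeasure (qMeas Γ μ w)]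
    {k : J → X → X → ℂ} (hk : KFam Γ μ k) {A B : X → X → ℂ} (hA : BKer Γ μ A) (hB : BKer Γ μ B)
    (τ : Γ ≃* Γ) (σ : X ≃ₜ X) (h : ∀ γ x, σ (γ • x) = τ γ • σ x) (hσ : MeasurePreserving σ μ μ)
    (hL : ∀ c ∈ spec Γ μ k,
      (∀ φ ∈ eigM (μ := μ) (fun j => (hk.tker j).toCKer) c,
        appF hA.toCKer hA.schur (appF hB.toCKer hB.schur (twF τ σ h φ)) ∈
          eigM (μ := μ) (fun j => (hk.tker j).toCKer) c) ∨
      ∃ c', c' ≠ c ∧ ∀ φ ∈ eigM (μ := μ) (fun j => (hk.tker j).toCKer) c,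
        appF hA.toCKer hA.schur (appF hB.toCKer hB.schur (twF τ σ h φ)) ∈
          eigM (μ := μ) (fun j => (hk.tker j).toCKer) c')
    (hN : ∀ f : Qt Γ X → ℂ, MemLp f 2 (qMeas Γ μ w) →
      (∀ j x, appK μ (k j) (fun y => f (pr Γ y)) x = 0) →
      ∀ x, appK μ B (fun y => f (pr Γ (σ.symm y))) x = 0) :
    HasSum (fun c : spec Γ μ k =>
      trSub (eigM (μ := μ) (fun j => (hk.tker j).toCKer) c)
        (appF (μ := μ) hA.toCKer hA.schur ∘ₗ appF hB.toCKer hB.schur ∘ₗ twF τ σ h))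
      (∫ q, qKer Γ (compC (Kernel.const X μ) A B) q (twQ τ σ.toMeasurableEquiv h q)
        ∂qMeas Γ μ w) := by
  classical
  obtain ⟨T, hT, hcs⟩ := hk.exists_ops hw
  have hTx := fun j => (hT j).hasXKernel
  have hsep := separable_Lp_qMeas (Γ := Γ) (μ := μ) hw
  have hc : ∀ j ∈ (univ : Set J), IsCompactOperator (T j) := fun j _ => hk.isCompact hw hT j
  obtain ⟨TA, hTA⟩ := hA.exists_op (w := w) hw
  obtain ⟨TB, hTB⟩ := hB.exists_op (w := w) hw
  set σ' := twQ τ σ.toMeasurableEquiv h with hσ'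
  have hmp : MeasurePreserving σ' (qMeas Γ μ w) (qMeas Γ μ w) :=
    measurePreserving_twQ hw τ σ.toMeasurableEquiv h hσ
  set U := unitaryOf σ' hmp with hU
  have hUa : ∀ f : Lp ℂ 2 (qMeas Γ μ w), U f =ᵐ[qMeas Γ μ w] fun q => f (σ'.symm q) :=
    fun f => unitaryOf_apply σ' hmp f
  have hker : ∀ v ∈ commonKer T univ, TB (U v) = 0 := by
    intro v hv
    have h0 : ∀ j x, appK μ (k j) (fun y => v (pr Γ y)) x = 0 := by
      intro j x
      have h1 := hTx j v
      rw [mem_commonKer.1 hv j trivial] at h1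
      have h2 : ∀ᵐ x ∂μ, (0 : Lp ℂ 2 (qMeas Γ μ w)) (pr Γ x) = 0 :=
        (quasiMeasurePreserving_pr (μ := μ) hw).ae (Lp.coeFn_zero ℂ 2 (qMeas Γ μ w))
      have h3 : appK μ (k j) (fun y => v (pr Γ y)) =ᵐ[μ] fun _ => 0 := by
        filter_upwards [h1, h2] with x hx hx2
        rw [← hx, hx2]
      have h4 : Continuous (appK μ (k j) (fun y => v (pr Γ y))) :=
        (hk.tker j).toCKer.continuous_appK (locallyIntegrable_comp_pr hw (Lp.memLp v))
      exact congrFun ((Continuous.ae_eq_iff_eq μ h4 continuous_const).1 h3) x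
    have h5 := hN v (Lp.memLp v) h0
    refine Lp.ext ?_
    rw [Filter.EventuallyEq, ae_qMeas_iff hw]
    have h6 : ∀ᵐ x ∂μ, (0 : Lp ℂ 2 (qMeas Γ μ w)) (pr Γ x) = 0 :=
      (quasiMeasurePreserving_pr (μ := μ) hw).ae (Lp.coeFn_zero ℂ 2 (qMeas Γ μ w))
    have h7 : ∀ᵐ x ∂μ, U v (pr Γ x) = v (pr Γ (σ.symm x)) := by
      have := hUa v
      rw [Filter.EventuallyEq, ae_qMeas_iff hw] at this
      exact this
    filter_upwards [hTB.hasXKernel (U v), h6] with x hx hx6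
    rw [hx, hx6, ← h5 x]
    exact appK_congr h7 x
  have main := hcs.hasSum_twisted_trace hc (hA.hasKernel hw hTA) (hA.sqInt hw)
    (hB.hasKernel hw hTB) (hB.sqInt hw) σ' hmp hUa (fun v hv => by rw [hker v hv]; simp)
  -- the geometric side
  have hgeo : (∫ y, ∫ x, qKer Γ A y x * qKer Γ B x (σ' y) ∂qMeas Γ μ w ∂qMeas Γ μ w)
      = ∫ q, qKer Γ (compC (Kernel.const X μ) A B) q (σ' q) ∂qMeas Γ μ w := by
    congr 1
    funext q
    obtain ⟨x, rfl⟩ := pr_surjective (Γ := Γ) q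
    obtain ⟨a, a', hsA⟩ := hA.schur
    obtain ⟨b, b', hsB⟩ := hB.schur
    have h1 := integral_pair_eq (w := w) hw hA hB x (σ x)
    have h2 : ∀ (γ : Γ) x y, compC (Kernel.const X μ) A B (γ • x) (γ • y)
        = compC (Kernel.const X μ) A B x y := (hsA.comp_const hsB isRev_const).inv
    have h3 : σ' (pr Γ x) = pr Γ (σ x) := rfl
    rw [h3, qKer_pr h2, ← h1]
  rw [hgeo] at main
  -- the spectral side
  have hsys : systems T univ = spec Γ μ k := by
    ext c; exact mem_systems_iff hw hk.tker hTx c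
  have hR : ∀ φ : autFun Γ X, (TA ∘L TB ∘L U) (toL2 (μ := μ) w φ) =
      toL2 w ((appF (μ := μ) hA.toCKer hA.schur ∘ₗ appF hB.toCKer hB.schur ∘ₗ twF τ σ h) φ) := by
    intro φ
    rw [ContinuousLinearMap.comp_apply, ContinuousLinearMap.comp_apply,
      toL2_twF hw τ σ h hσ hUa, toL2_appF hw hB.toCKer hB.schur hTB.hasXKernel,
      toL2_appF hw hA.toCKer hA.schur hTA.hasXKernel]
    rfl
  let E : spec Γ μ k ≃ systems T univ := Equiv.setCongr hsys.symm
  have key : ∀ c : spec Γ μ k,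
      trSub (eigM (μ := μ) (fun j => (hk.tker j).toCKer) c)
        (appF (μ := μ) hA.toCKer hA.schur ∘ₗ appF hB.toCKer hB.schur ∘ₗ twF τ σ h)
      = (haveI := CommSymm.finiteDimensional hc (E c).2.2
        trOn (jointSpace T (E c).1) (TA ∘L TB ∘L U)) := by
    intro c
    have hfd := CommSymm.finiteDimensional hc (E c).2.2
    obtain ⟨e, he⟩ := exists_equiv_joint hw hk.tker hTx c.2.2
    have hE : (E c).1 = c.1 := rfl
    rcases hL c c.2 with h1 | ⟨c', hc', h1⟩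
    · rw [trSub_of_mem (L := appF (μ := μ) hA.toCKer hA.schur ∘ₗ appF hB.toCKer hB.schur ∘ₗ
        twF τ σ h) h1]
      refine (trOn_eq_trace (V := eigM (μ := μ) (fun j => (hk.tker j).toCKer) c.1)
        (W := jointSpace T (E c).1) e _ fun φ => ?_).symm
      have h5 := he φ
      have h6 := he ((LinearMap.restrict (appF (μ := μ) hA.toCKer hA.schur ∘ₗ
        appF hB.toCKer hB.schur ∘ₗ twF τ σ h) h1) φ)
      exact (congrArg (TA ∘L TB ∘L U) h5).trans ((hR φ.1).trans h6.symm)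
    · have h2 : trOn (jointSpace T (E c).1) (TA ∘L TB ∘L U) = 0 := by
        refine trOn_eq_zero _ fun v hv u hu => ?_
        obtain ⟨φ, hφ⟩ := e.surjective ⟨v, hv⟩
        have h3 : v = toL2 w φ.1 := by rw [← he, hφ]
        rw [h3, hR]
        exact hcs.inner_eq_zero hc'.symm hu (toL2_mem_joint hw hk.tker hTx (h1 φ.1 φ.2))
      rw [h2]
      by_cases h4 : ∀ φ ∈ eigM (μ := μ) (fun j => (hk.tker j).toCKer) c.1,
        (appF (μ := μ) hA.toCKer hA.schur ∘ₗ appF hB.toCKer hB.schur ∘ₗ twF τ σ h) φ ∈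
          eigM (μ := μ) (fun j => (hk.tker j).toCKer) c.1
      · rw [trSub_of_mem h4]
        have h5 : (appF (μ := μ) hA.toCKer hA.schur ∘ₗ appF hB.toCKer hB.schur ∘ₗ
            twF τ σ h).restrict h4 = 0 := by
          refine LinearMap.ext fun φ => Subtype.ext ?_
          obtain ⟨j, hj⟩ := Function.ne_iff.1 hc'
          have h6 := h4 φ.1 φ.2 j
          have h7 := h1 φ.1 φ.2 j
          refine Subtype.ext (funext fun x => ?_)
          have h8 := (h6 x).symm.trans (h7 x)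
          have h9 : (c.1 j - c' j) * ((appF (μ := μ) hA.toCKer hA.schur ∘ₗ
            appF hB.toCKer hB.schur ∘ₗ twF τ σ h) φ.1).1 x = 0 := by
            rw [sub_mul, sub_eq_zero]; exact h8
          rcases mul_eq_zero.1 h9 with h10 | h10
          · exact absurd (sub_eq_zero.1 h10).symm hj
          · exact h10
        rw [h5, map_zero]
      · exact trSub_of_not_mem h4
  rw [← Equiv.hasSum_iff E] at main
  have hfun : (fun c : spec Γ μ k =>
      trSub (eigM (μ := μ) (fun j => (hk.tker j).toCKer) c)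
        (appF (μ := μ) hA.toCKer hA.schur ∘ₗ appF hB.toCKer hB.schur ∘ₗ twF τ σ h))
      = (fun χ : systems T univ =>
        haveI := CommSymm.finiteDimensional hc χ.2.2
        trOn (jointSpace T χ) (TA ∘L TB ∘L U)) ∘ E := funext key
  rw [hfun]
  exact main

end

end Fermat.Agent.LT.B
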