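import Fermat.Agent.LT.B.SpecTrace
import Fermat.Agent.LT.B.SelfAdj

/-!
# LT, piece B: consequences of the spectral decomposition

* `lam_real`, `norm_lam_le`, `hat_sp_real`, `norm_hat_sp_le`, `exists_sp_sq` : the eigenvalues;
* `ct_eq_of_trSub_ne` : if the trace of `κ ∘ U` on `Vx hP ξ` is not zero then `ξ` is invariant under
  the twist;
* `Twist.U_mem`, `Twist.lam_πP`, `Twist.hat_πI` : invariance of the eigenvalues.
-/

set_option autoImplicit false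
set_option maxHeartbeats 400000

open NumberField IsDedekindDomain Matrix MeasureTheory Set Filter Topology ProbabilityTheory
open Fermat.LT Fermat.Agent.LT.CTree Fermat.Agent.LT.CArch
open scoped ENNReal NNReal ComplexConjugate

namespace Fermat.Agent.LT.B

variable {F : Type} [Field F] [NumberField F] {D : Datum F} {P : Set (Pl F)}
variable (hP : ∀ w ∈ P, D.n w = 0)

/-! ### the eigenvalues -/

theorem lam_real (ξ : Xi D P) {w : Pl F} (hw : w ∈ P) : conj (lam hP ξ w) = lam hP ξ w := by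
  obtain ⟨φ, hφ, h0⟩ := exists_mem_Vx hP ξ
  exact (isEig_of_mem hP hφ).lam_real (isAut_of_mem hP hφ) (bounded_of_mem hP hφ) h0 hw (hP w hw)

theorem lam_re (ξ : Xi D P) {w : Pl F} (hw : w ∈ P) : ((lam hP ξ w).re : ℂ) = lam hP ξ w :=
  Complex.conj_eq_iff_re.1 (lam_real hP ξ hw)

theorem norm_lam_le (ξ : Xi D P) {w : Pl F} (hw : w ∈ P) :
    ‖lam hP ξ w‖ ≤ (qn w + 1) / sq w := by
  obtain ⟨φ, hφ, h0⟩ := exists_mem_Vx hP ξ
  exact (isEig_of_mem hP hφ).norm_lam_le' (bounded_of_mem hP hφ) h0 hw (hP w hw)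

theorem hat_sp_real (ξ : Xi D P) (i : D.I) {g : ℝ → ℂ} (hg : IsRealTest g) :
    conj (hat g (sp hP ξ i)) = hat g (sp hP ξ i) := by
  obtain ⟨φ, hφ, h0⟩ := exists_mem_Vx hP ξ
  exact (isEig_of_mem hP hφ).hat_real (isAut_of_mem hP hφ) (bounded_of_mem hP hφ) h0 i hg

theorem norm_hat_sp_le (ξ : Xi D P) (i : D.I) {g : ℝ → ℂ} (hg : IsTest g) :
    ‖hat g (sp hP ξ i)‖ ≤ kL1 g := by
  obtain ⟨φ, hφ, h0⟩ := exists_mem_Vx hP ξ
  exact (isEig_of_mem hP hφ).norm_hat_le (bounded_of_mem hP hφ) h0 i hg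

theorem exists_sp_sq (ξ : Xi D P) (i : D.I) : ∃ σ : ℝ, σ ≤ 1 ∧ sp hP ξ i ^ 2 = (σ : ℂ) := by
  obtain ⟨φ, hφ, h0⟩ := exists_mem_Vx hP ξ
  exact (isEig_of_mem hP hφ).exists_sq' (isAut_of_mem hP hφ) (bounded_of_mem hP hφ) h0 i

/-- The eigenvalues of an eigenfunction in `Vx hP ξ`. -/
theorem lam_eq_of_mem {ξ : Xi D P} {φ : X D → ℂ} (hφ : φ ∈ Vx hP ξ) (h0 : φ ≠ 0) {w : Pl F}
    (hw : w ∈ P) {a : ℂ} (h : ∀ x, TX w φ x = (sq w : ℂ) * a * φ x) : lam hP ξ w = a := by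
  obtain ⟨x, hx⟩ := Function.ne_iff.1 h0
  have h1 := (isEig_of_mem hP hφ).hecke w hw x
  have hs : (sq w : ℂ) ≠ 0 := by exact_mod_cast (sq_pos w).ne'
  exact mul_left_cancel₀ hs (mul_right_cancel₀ hx (h1.symm.trans (h x)))

theorem hat_eq_of_mem {ξ : Xi D P} {φ : X D → ℂ} (hφ : φ ∈ Vx hP ξ) (h0 : φ ≠ 0) (i : D.I)
    {g : ℝ → ℂ} (hg : IsTest g) {a : ℂ} (h : ∀ x, RX i g φ x = a * φ x) :
    hat g (sp hP ξ i) = a := by
  obtain ⟨x, hx⟩ := Function.ne_iff.1 h0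
  have h1 := (isEig_of_mem hP hφ).arch i g hg x
  exact mul_right_cancel₀ hx (h1.symm.trans (h x))

/-! ### twists -/

section twist

variable (T : Twist D P)

theorem Twist.U_hX (φ : X D → ℂ) (x : X D) : T.U φ (T.hX x) = φ x := by
  rw [T.U_apply, Homeomorph.symm_apply_apply]

theorem Twist.U_injective : Function.Injective T.U := by
  intro φ ψ h
  funext x
  rw [← T.U_hX φ, ← T.U_hX ψ, h]

theorem Twist.U_ne_zero {φ : X D → ℂ} (h : φ ≠ 0) : T.U φ ≠ 0 := fun h' =>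
  h (T.U_injective (h'.trans (map_zero T.U).symm))

theorem Twist.TX_U {w : Pl F} (hw : w ∈ P) (φ : X D → ℂ) (x : X D) :
    TX (T.πP w) (T.U φ) (T.hX x) = TX w φ x := by
  have h := T.hecke w hw (fun y => T.U φ (permI T.πI x.1, y)) x.2
  refine Eq.trans h ?_
  unfold TX
  congr 1
  funext y
  exact T.U_hX φ (x.1, y)

theorem permI_update (π : Equiv.Perm D.I) (x : XI D.toArch) (i : D.I) (R : H3) :
    permI π (Function.update x (π i) R) = Function.update (permI π x) i R := by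
  funext j
  unfold permI
  by_cases h : j = i
  · subst h
    simp
  · rw [Function.update_of_ne h, Function.update_of_ne (fun h' => h (π.injective h'))]

theorem Twist.RX_U (i : D.I) (g : ℝ → ℂ) (φ : X D → ℂ) (x : X D) :
    RX i g (T.U φ) (T.hX x) = RX (T.πI i) g φ x := by
  unfold RX
  have h1 : (T.hX x).1 i = x.1 (T.πI i) := rfl
  rw [h1]
  congr 1
  funext R
  have h2 : updI (T.hX x) i R = T.hX (updI x (T.πI i) R) := by
    refine Prod.ext ?_ rfl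
    exact (permI_update T.πI x.1 i R).symm
  rw [h2, T.U_hX]

/-- If the system `ξ` is invariant then `U` preserves its space. -/
theorem Twist.U_mem {ξ : Xi D P} (hξ : T.ct hP ξ.1 = ξ.1) {φ : X D → ℂ} (hφ : φ ∈ Vx hP ξ) :
    T.U φ ∈ Vx hP ξ := by
  rw [mem_Vx] at hφ ⊢
  have h1 := T.isJ_U hP hφ
  rwa [hξ] at h1

theorem Twist.lam_πP {ξ : Xi D P} (hξ : T.ct hP ξ.1 = ξ.1) {w : Pl F} (hw : w ∈ P) :
    (sq (T.πP w) : ℂ) * lam hP ξ (T.πP w) = (sq w : ℂ) * lam hP ξ w := by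
  obtain ⟨φ, hφ, h0⟩ := exists_mem_Vx hP ξ
  obtain ⟨x, hx⟩ := Function.ne_iff.1 h0
  have h1 := (isEig_of_mem hP hφ).hecke w hw x
  have h2 := (isEig_of_mem hP (T.U_mem hP hξ hφ)).hecke (T.πP w) ((T.stable w).2 hw) (T.hX x)
  rw [T.TX_U hw, T.U_hX] at h2
  exact mul_right_cancel₀ hx (h2.symm.trans h1)

theorem Twist.hat_πI {ξ : Xi D P} (hξ : T.ct hP ξ.1 = ξ.1) (i : D.I) {g : ℝ → ℂ}
    (hg : IsTest g) : hat g (sp hP ξ (T.πI i)) = hat g (sp hP ξ i) := by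
  obtain ⟨φ, hφ, h0⟩ := exists_mem_Vx hP ξ
  obtain ⟨x, hx⟩ := Function.ne_iff.1 h0
  have h1 := (isEig_of_mem hP hφ).arch (T.πI i) g hg x
  have h2 := (isEig_of_mem hP (T.U_mem hP hξ hφ)).arch i g hg (T.hX x)
  rw [T.RX_U, T.U_hX] at h2
  exact mul_right_cancel₀ hx (h1.symm.trans h2)

/-- If `φ` and `U φ` both lie in `Vx hP ξ` and `φ ≠ 0` then `ξ` is invariant. -/
theorem Twist.ct_eq_of_mem {ξ : Xi D P} {φ : X D → ℂ} (hφ : φ ∈ Vx hP ξ) (h0 : φ ≠ 0)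
    (h : T.U φ ∈ Vx hP ξ) : T.ct hP ξ.1 = ξ.1 := by
  by_contra hne
  exact T.U_ne_zero h0 ((T.isJ_U hP ((mem_Vx hP).1 hφ)).eq_zero hne ((mem_Vx hP).1 h))

theorem opFl_mem {κ : Y D.toLevel → Y D.toLevel → ℂ} (hκ : IsFinTest κ) (hκP : CommP P κ)
    {ξ : Xi D P} {φ : X D → ℂ} (hφ : φ ∈ Vx hP ξ) : opFl κ hκ.fin φ ∈ Vx hP ξ :=
  (mem_Vx hP).2 (((mem_Vx hP).1 hφ).opF hP hκ hκP)

/-- If the trace of `κ ∘ U` on `Vx hP ξ` is not zero then `ξ` is invariant under the twist. -/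
theorem Twist.ct_eq_of_trSub_ne {ξ : Xi D P} {κ : Y D.toLevel → Y D.toLevel → ℂ}
    (hκ : IsFinTest κ) (hκP : CommP P κ)
    (h : trSub (Vx hP ξ) (opFl κ hκ.fin ∘ₗ T.U) ≠ 0) : T.ct hP ξ.1 = ξ.1 := by
  by_contra hne
  apply h
  refine trSub_eq_zero fun φ hφ hL' => ?_
  have h2 := (T.isJ_U hP ((mem_Vx hP).1 hφ)).opF hP hκ hκP
  exact ((mem_Vx hP).1 hL').eq_zero (fun h => hne h.symm) h2

theorem Twist.opFl_U_mem {κ : Y D.toLevel → Y D.toLevel → ℂ} (hκ : IsFinTest κ)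
    (hκP : CommP P κ) {ξ : Xi D P} (hξ : T.ct hP ξ.1 = ξ.1) {φ : X D → ℂ} (hφ : φ ∈ Vx hP ξ) :
    (opFl κ hκ.fin ∘ₗ T.U) φ ∈ Vx hP ξ :=
  opFl_mem hP hκ hκP (T.U_mem hP hξ hφ)

end twist

/-! ### traces -/

section trace

variable {E : Type*} [AddCommGroup E] [Module ℂ E]

/-- If `L` maps `V` into `W ≤ V` then the traces on `V` and on `W` agree. -/
theorem trSub_eq_of_range {V W : Submodule ℂ E} [FiniteDimensional ℂ V] {L : E →ₗ[ℂ] E}
    (hWV : W ≤ V) (h : ∀ v ∈ V, L v ∈ W) : trSub V L = trSub W L := by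
  have hV : ∀ u ∈ V, L u ∈ V := fun u hu => hWV (h u hu)
  have hW : ∀ u ∈ W, L u ∈ W := fun u hu => h u (hWV hu)
  rw [trSub_of_mem hV]
  let W' : Submodule ℂ V := W.comap V.subtype
  have h1 : ∀ u : V, L.restrict hV u ∈ W' := fun u => h u.1 u.2
  have h2 := LinearMap.trace_restrict_eq_of_forall_mem W' (L.restrict hV) h1
  rw [← h2]
  have e : W'.map V.subtype = W := by
    rw [Submodule.map_comap_subtype]
    exact inf_eq_right.2 hWV
  have h3 := trSub_map (E := E) (W := V) W' (L.restrict hV) L (fun v _ => rfl)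
  rw [e] at h3
  rw [h3, trSub_of_mem (V := W') (L := L.restrict hV) fun v _ => h1 v]

/-- The trace on a line. -/
theorem trSub_span {v : E} (hv : v ≠ 0) {L : E →ₗ[ℂ] E} {c : ℂ} (h : L v = c • v) :
    trSub (Submodule.span ℂ {v}) L = c := by
  have h0 : ∀ u ∈ Submodule.span ℂ {v}, L u = c • u := by
    intro u hu
    obtain ⟨a, rfl⟩ := Submodule.mem_span_singleton.1 hu
    rw [map_smul, h, smul_comm]
  have hV : ∀ u ∈ Submodule.span ℂ {v}, L u ∈ Submodule.span ℂ {v} := fun u hu => by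
    rw [h0 u hu]; exact Submodule.smul_mem _ _ hu
  rw [trSub_of_mem hV]
  have h1 : L.restrict hV = c • LinearMap.id := LinearMap.ext fun u => Subtype.ext (h0 u.1 u.2)
  rw [h1, map_smul, LinearMap.trace_id, finrank_span_singleton hv]
  simp

/-- `L` maps `V` into a line. -/
theorem trSub_of_line {V : Submodule ℂ E} [FiniteDimensional ℂ V] {v : E} (hv : v ≠ 0)
    (hvV : v ∈ V) {L : E →ₗ[ℂ] E} {c : ℂ} (h : L v = c • v)
    (hL : ∀ u ∈ V, L u ∈ Submodule.span ℂ {v}) : trSub V L = c := by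
  rw [trSub_eq_of_range (W := Submodule.span ℂ {v}) ((Submodule.span_singleton_le_iff_mem _ _).2 hvV)
    hL, trSub_span hv h]

end trace

end Fermat.Agent.LT.B
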