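import Fermat.Agent.LT.B.TwistDef

/-!
# LT, piece B: the spectral decomposition on `X D`, part 1: the family of killed spherical kernels
and joint eigenspaces.
-/

set_option autoImplicit false
set_option maxHeartbeats 400000

open NumberField IsDedekindDomain Matrix MeasureTheory Set Filter Topology ProbabilityTheory
open Fermat.LT Fermat.Agent.LT.CTree Fermat.Agent.LT.CArch
open scoped ENNReal NNReal ComplexConjugate

namespace Fermat.Agent.LT.B

variable {F : Type} [Field F] [NumberField F] {D : Datum F} {P : Set (Pl F)}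

/-! ### linearity of `appK` in the kernel -/

theorem appK_add_ker {k k' : X D → X D → ℂ} (hk : CKer (PG F) k) (hk' : CKer (PG F) k')
    {φ : X D → ℂ} (hφ : LocallyIntegrable φ (volume : Measure (X D))) (x : X D) :
    appK volume (k + k') φ x = appK volume k φ x + appK volume k' φ x := by
  unfold appK
  rw [← integral_add (hk.integrable hφ x) (hk'.integrable hφ x)]
  refine integral_congr_ae (Eventually.of_forall fun y => ?_)
  show (k x y + k' x y) * φ y = k x y * φ y + k' x y * φ y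
  ring

theorem appK_smul_ker (c : ℂ) (k : X D → X D → ℂ) (φ : X D → ℂ) (x : X D) :
    appK volume (c • k) φ x = c * appK volume k φ x := by
  unfold appK
  rw [← integral_const_mul]
  refine integral_congr_ae (Eventually.of_forall fun y => ?_)
  show (c * k x y) * φ y = c * (k x y * φ y)
  ring

theorem appK_smul_fun' (c : ℂ) (k : X D → X D → ℂ) (φ : X D → ℂ) (x : X D) :
    appK volume k (fun y => c * φ y) x = c * appK volume k φ x := by
  unfold appK
  rw [← integral_const_mul]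
  refine integral_congr_ae (Eventually.of_forall fun y => ?_)
  show k x y * (c * φ y) = c * (k x y * φ y)
  ring

/-! ### killed kernels -/

theorem Killed.zero : Killed (0 : X D → X D → ℂ) := fun ψ _ x => by simp [appK]

theorem Killed.add {k k' : X D → X D → ℂ} (hk : Killed k) (hk' : Killed k')
    (hc : CKer (PG F) k) (hc' : CKer (PG F) k') : Killed (k + k') := fun ψ hψ x => by
  rw [appK_add_ker hc hc' hψ.cont.locallyIntegrable, hk ψ hψ, hk' ψ hψ, add_zero]

theorem Killed.smul {k : X D → X D → ℂ} (hk : Killed k) (c : ℂ) : Killed (c • k) := fun ψ hψ x => by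
  rw [appK_smul_ker, hk ψ hψ, mul_zero]

theorem IsNB.conj {ψ : X D → ℂ} (h : IsNB ψ) : IsNB fun x => conj (ψ x) where
  cont := Complex.continuous_conj.comp h.cont
  tr u x := by rw [h.tr]
  fin P y y' hy := by rw [h.fin P y y' hy]
  dg a x := by rw [h.dg]

theorem Killed.conj {k : X D → X D → ℂ} (hk : Killed k) : Killed fun x y => conj (k x y) := by
  intro ψ hψ x
  have h1 := hk _ hψ.conj x
  unfold appK at h1 ⊢
  have h2 : ∫ y, conj (k x y) * ψ y = conj (∫ y, k x y * conj (ψ y)) := by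
    rw [← integral_conj]
    refine integral_congr_ae (Eventually.of_forall fun y => ?_)
    show conj (k x y) * ψ y = conj (k x y * conj (ψ y))
    rw [map_mul, Complex.conj_conj]
  rw [h2, h1, map_zero]

theorem appK_zero (k : X D → X D → ℂ) (x : X D) : appK volume k (fun _ => 0) x = 0 := by
  simp [appK]

theorem RX_zero (i : D.I) (g : ℝ → ℂ) (x : X D) : RX i g (fun _ => 0) x = 0 := by
  simp [RX_def]

theorem opF_zero (κ : Y D.toLevel → Y D.toLevel → ℂ) (x : X D) : opF κ (fun _ => 0) x = 0 := by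
  simp [opF, ka]

/-- `k ∘ k'` is killed if `k'` is. -/
theorem Killed.comp {k k' : X D → X D → ℂ} (hk : CKer (PG F) k) (hk' : CKer (PG F) k')
    (h : Killed k') : Killed fun x z => ∫ y, k x y * k' y z := by
  intro ψ hψ x
  rw [← hk.appK_appK hk' hψ.cont]
  have h1 : appK volume k' ψ = fun _ => 0 := funext fun y => h ψ hψ y
  rw [h1, appK_zero]

theorem Killed.RX {g : ℝ → ℂ} (hg : IsTest g) (i : D.I) {k : X D → X D → ℂ}
    (hk : CKer (PG F) k) (h : Killed k) :
    Killed fun x z => Fermat.Agent.LT.B.RX i g (fun y => k y z) x := by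
  intro ψ hψ x
  rw [← RX_appK hg i hk hψ.cont]
  have h1 : appK volume k ψ = fun _ => 0 := funext fun y => h ψ hψ y
  rw [h1, RX_zero]

theorem Killed.opF {κ : Y D.toLevel → Y D.toLevel → ℂ} (hκ : RF κ) {k : X D → X D → ℂ}
    (hk : CKer (PG F) k) (h : Killed k) :
    Killed fun x z => Fermat.Agent.LT.B.opF κ (fun y => k y z) x := by
  intro ψ hψ x
  rw [← opF_appK hκ hk hψ.cont.locallyIntegrable]
  have h1 : appK volume k ψ = fun _ => 0 := funext fun y => h ψ hψ y
  rw [h1, opF_zero]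

theorem bKer_of_killed {k : X D → X D → ℂ} (hk : IsTestKer k) (h : Killed k) :
    BKer (PG F) (volume : Measure (X D)) k where
  toCKer := hk.cKer
  schur := hk.isSchur
  bdd := autK_bounded_of_killed hk h

/-! ### operators applied to spherical kernels -/

theorem continuous_left {k : X D → X D → ℂ} (hk : IsTestKer k) (z : X D) :
    Continuous fun x => k x z := by
  have := hk.continuous.comp (Continuous.prodMk_left (X := X D) z)
  exact this

theorem RX_mem_Sph (hP : ∀ w ∈ P, D.n w = 0) {g : ℝ → ℂ} (hg : IsTest g) (i : D.I)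
    {k : X D → X D → ℂ} (hk : k ∈ Sph D P) :
    (fun x z => RX i g (fun y => k y z) x) ∈ Sph D P := by
  refine Submodule.span_induction
    (p := fun k _ => (fun x z => RX i g (fun y => k y z) x) ∈ Sph D P) ?_ ?_ ?_ ?_ hk
  · rintro _ ⟨g', l, hg', hl, rfl⟩
    have e : (fun x z => RX i g (fun y => bk g' l y z) x)
        = bk (D := D) (Function.update g' i (cv g (g' i))) l := by
      funext x z
      exact RX_bk hg i hg' l x z
    rw [e]
    refine bk_mem_Sph (fun j => ?_) hl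
    by_cases hj : j = i
    · subst hj; rw [Function.update_self]; exact hg.cv (hg' j)
    · rw [Function.update_of_ne hj]; exact hg' j
  · have e : (fun x z => RX i g (fun y => (0 : X D → X D → ℂ) y z) x) = 0 := by
      funext x z
      exact RX_zero i g x
    rw [e]; exact zero_mem _
  · intro k1 k2 h1 h2 h h'
    have e : (fun x z => RX i g (fun y => (k1 + k2) y z) x)
        = (fun x z => RX i g (fun y => k1 y z) x) + fun x z => RX i g (fun y => k2 y z) x := by
      funext x z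
      exact RX_add hg i (continuous_left (isTestKer_of_mem_Sph hP h1) z)
        (continuous_left (isTestKer_of_mem_Sph hP h2) z) x
    rw [e]; exact add_mem h h'
  · intro a k1 _ h
    have e : (fun x z => RX i g (fun y => (a • k1) y z) x)
        = a • fun x z => RX i g (fun y => k1 y z) x := by
      funext x z
      exact RX_smul i g a (fun y => k1 y z) x
    rw [e]; exact Submodule.smul_mem _ _ h

theorem opF_add {κ : Y D.toLevel → Y D.toLevel → ℂ} (hκ : RF κ) (φ ψ : X D → ℂ) (x : X D) :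
    opF κ (fun y => φ y + ψ y) x = opF κ φ x + opF κ ψ x := by
  unfold opF
  exact congrFun (hκ.ka_add (fun y => φ (x.1, y)) fun y => ψ (x.1, y)) x.2

theorem opF_smul {κ : Y D.toLevel → Y D.toLevel → ℂ} (hκ : RF κ) (c : ℂ) (φ : X D → ℂ) (x : X D) :
    opF κ (fun y => c * φ y) x = c * opF κ φ x := by
  unfold opF
  exact congrFun (hκ.ka_smul c fun y => φ (x.1, y)) x.2

theorem TX_mem_Sph (hP : ∀ w ∈ P, D.n w = 0) {w : Pl F} (hw : w ∈ P)
    {k : X D → X D → ℂ} (hk : k ∈ Sph D P) :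
    (fun x z => TX w (fun y => k y z) x) ∈ Sph D P := by
  have hw0 := hP w hw
  refine Submodule.span_induction
    (p := fun k _ => (fun x z => TX w (fun y => k y z) x) ∈ Sph D P) ?_ ?_ ?_ ?_ hk
  · rintro _ ⟨g', l, hg', hl, rfl⟩
    have e : (fun x z => TX w (fun y => bk g' l y z) x) = bk (D := D) g' (w :: l) := by
      funext x z
      exact TX_bk hw0 g' x z
    rw [e]
    refine bk_mem_Sph hg' fun v hv => ?_
    rcases List.mem_cons.1 hv with h | h
    · rw [h]; exact hw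
    · exact hl v h
  · have e : (fun x z => TX w (fun y => (0 : X D → X D → ℂ) y z) x) = 0 := by
      funext x z
      rw [← opF_tk hw0]
      exact opF_zero _ x
    rw [e]; exact zero_mem _
  · intro k1 k2 _ _ h h'
    have e : (fun x z => TX w (fun y => (k1 + k2) y z) x)
        = (fun x z => TX w (fun y => k1 y z) x) + fun x z => TX w (fun y => k2 y z) x := by
      funext x z
      show TX w _ x = TX w _ x + TX w _ x
      rw [← opF_tk hw0, ← opF_tk hw0, ← opF_tk hw0]
      exact opF_add (RF_tk hw0) (fun y => k1 y z) (fun y => k2 y z) x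
    rw [e]; exact add_mem h h'
  · intro a k1 _ h
    have e : (fun x z => TX w (fun y => (a • k1) y z) x)
        = a • fun x z => TX w (fun y => k1 y z) x := by
      funext x z
      show TX w _ x = a * TX w _ x
      rw [← opF_tk hw0, ← opF_tk hw0]
      exact opF_smul (RF_tk hw0) a (fun y => k1 y z) x
    rw [e]; exact Submodule.smul_mem _ _ h

/-! ### the family -/

/-- The index type: real valued killed spherical kernels. -/
def JSph (D : Datum F) (P : Set (Pl F)) : Type :=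
  {k : X D → X D → ℂ // k ∈ Sph D P ∧ Killed k ∧ ∀ x y, conj (k x y) = k x y}

/-- The family. -/
def jk (j : JSph D P) : X D → X D → ℂ := j.1

/-- The killed spherical kernels. -/
structure IsKS (P : Set (Pl F)) (k : X D → X D → ℂ) : Prop where
  sph : k ∈ Sph D P
  killed : Killed k

theorem kfam (hP : ∀ w ∈ P, D.n w = 0) :
    KFam (PG F) (volume : Measure (X D)) (jk : JSph D P → X D → X D → ℂ) where
  tker j := bKer_of_killed (isTestKer_of_mem_Sph hP j.2.1) j.2.2.1
  symm j x y := by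
    rw [show jk j x y = j.1 x y from rfl, j.2.2.2 x y]
    exact symm_of_mem_Sph hP j.2.1 y x
  comm i j x z := comm_of_mem_Sph hP i.2.1 j.2.1 x z

theorem IsKS.exists_re_im (hP : ∀ w ∈ P, D.n w = 0) {k : X D → X D → ℂ} (hk : IsKS P k) :
    ∃ j₁ j₂ : JSph D P, k = jk j₁ + Complex.I • jk j₂ := by
  have hc : IsKS P (fun x y => conj (k x y)) := ⟨conj_mem_Sph hk.sph, hk.killed.conj⟩
  have hck := (isTestKer_of_mem_Sph hP hk.sph).cKer
  have hcc := (isTestKer_of_mem_Sph hP hc.sph).cKer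
  refine ⟨⟨(1/2 : ℂ) • (k + fun x y => conj (k x y)), Submodule.smul_mem _ _ (add_mem hk.sph hc.sph),
    (hk.killed.add hc.killed hck hcc).smul _, fun x y => ?_⟩,
    ⟨(-Complex.I/2 : ℂ) • (k + (-1 : ℂ) • fun x y => conj (k x y)),
    Submodule.smul_mem _ _ (add_mem hk.sph (Submodule.smul_mem _ _ hc.sph)), ?_, fun x y => ?_⟩, ?_⟩
  · show conj ((1/2 : ℂ) * (k x y + conj (k x y))) = (1/2 : ℂ) * (k x y + conj (k x y))
    rw [map_mul, map_add, Complex.conj_conj, map_div₀, map_one, map_ofNat]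
    ring
  · exact (hk.killed.add (hc.killed.smul _) hck
      ((isTestKer_of_mem_Sph hP (Submodule.smul_mem _ (-1 : ℂ) hc.sph)).cKer)).smul _
  · show conj ((-Complex.I/2 : ℂ) * (k x y + (-1 : ℂ) * conj (k x y)))
      = (-Complex.I/2 : ℂ) * (k x y + (-1 : ℂ) * conj (k x y))
    rw [map_mul, map_add, map_mul, Complex.conj_conj, map_div₀, map_neg, map_neg, map_one,
      map_ofNat, Complex.conj_I]
    ring
  · funext x y
    show k x y = (1/2 : ℂ) * (k x y + conj (k x y)) +
      Complex.I * ((-Complex.I/2 : ℂ) * (k x y + (-1 : ℂ) * conj (k x y)))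
    have h := Complex.I_mul_I
    linear_combination ((k x y - conj (k x y)) / 2) * h

theorem IsKS.comp (hP : ∀ w ∈ P, D.n w = 0) {k k' : X D → X D → ℂ} (hk : k ∈ Sph D P)
    (hk' : IsKS P k') : IsKS P fun x z => ∫ y, k x y * k' y z :=
  ⟨comp_mem_Sph hP hk hk'.sph, hk'.killed.comp (isTestKer_of_mem_Sph hP hk).cKer
    (isTestKer_of_mem_Sph hP hk'.sph).cKer⟩

theorem IsKS.RX (hP : ∀ w ∈ P, D.n w = 0) {g : ℝ → ℂ} (hg : IsTest g) (i : D.I)
    {k : X D → X D → ℂ} (hk : IsKS P k) :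
    IsKS P fun x z => Fermat.Agent.LT.B.RX i g (fun y => k y z) x :=
  ⟨RX_mem_Sph hP hg i hk.sph, hk.killed.RX hg i (isTestKer_of_mem_Sph hP hk.sph).cKer⟩

theorem IsKS.TX (hP : ∀ w ∈ P, D.n w = 0) {w : Pl F} (hw : w ∈ P)
    {k : X D → X D → ℂ} (hk : IsKS P k) :
    IsKS P fun x z => Fermat.Agent.LT.B.TX w (fun y => k y z) x := by
  refine ⟨TX_mem_Sph hP hw hk.sph, ?_⟩
  have h := hk.killed.opF (RF_tk (hP w hw)) (isTestKer_of_mem_Sph hP hk.sph).cKer
  simp only [opF_tk (hP w hw)] at h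
  exact h

/-! ### scalars -/

/-- The joint eigenfunctions with system `c`. -/
def IsJ (c : JSph D P → ℂ) (φ : X D → ℂ) : Prop :=
  φ ∈ autFun (PG F) (X D) ∧ ∀ j x, appK volume (jk j) φ x = c j * φ x

theorem IsJ.cont {c : JSph D P → ℂ} {φ : X D → ℂ} (h : IsJ c φ) : Continuous φ := h.1.1

theorem exists_ev_killed (hP : ∀ w ∈ P, D.n w = 0) (c : JSph D P → ℂ) {k : X D → X D → ℂ}
    (hk : IsKS P k) : ∃ a : ℂ, ∀ φ, IsJ c φ → ∀ x, appK volume k φ x = a * φ x := by
  obtain ⟨j₁, j₂, rfl⟩ := hk.exists_re_im hP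
  refine ⟨c j₁ + Complex.I * c j₂, fun φ hφ x => ?_⟩
  have h1 : CKer (PG F) (jk j₁) := (isTestKer_of_mem_Sph hP j₁.2.1).cKer
  have h2 : CKer (PG F) (Complex.I • jk j₂) :=
    (isTestKer_of_mem_Sph hP (Submodule.smul_mem _ Complex.I j₂.2.1)).cKer
  rw [appK_add_ker h1 h2 hφ.cont.locallyIntegrable, appK_smul_ker, hφ.2, hφ.2]
  ring

variable {c : JSph D P → ℂ}

theorem exists_ev_sph (hP : ∀ w ∈ P, D.n w = 0) (hc : ∃ j, c j ≠ 0) {k : X D → X D → ℂ}
    (hk : k ∈ Sph D P) : ∃ a : ℂ, ∀ φ, IsJ c φ → ∀ x, appK volume k φ x = a * φ x := by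
  obtain ⟨j, hj⟩ := hc
  have hj0 : IsKS P (jk j) := ⟨j.2.1, j.2.2.1⟩
  obtain ⟨a, ha⟩ := exists_ev_killed hP c (hj0.comp hP hk)
  refine ⟨(c j)⁻¹ * a, fun φ hφ x => ?_⟩
  have h1 : φ = fun y => (c j)⁻¹ * appK volume (jk j) φ y := by
    funext y
    rw [hφ.2, ← mul_assoc, inv_mul_cancel₀ hj, one_mul]
  have h2 : appK volume k φ x = (c j)⁻¹ * appK volume k (appK volume (jk j) φ) x := by
    conv_lhs => rw [h1]
    exact appK_smul_fun' _ _ _ _
  rw [h2, (isTestKer_of_mem_Sph hP hk).cKer.appK_appK (isTestKer_of_mem_Sph hP hj0.sph).cKer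
    hφ.cont, ha φ hφ]
  ring

theorem exists_ev_TX (hP : ∀ w ∈ P, D.n w = 0) (hc : ∃ j, c j ≠ 0) {w : Pl F} (hw : w ∈ P) :
    ∃ a : ℂ, ∀ φ, IsJ c φ → ∀ x, TX w φ x = a * φ x := by
  obtain ⟨j, hj⟩ := hc
  have hj0 : IsKS P (jk j) := ⟨j.2.1, j.2.2.1⟩
  obtain ⟨a, ha⟩ := exists_ev_killed hP c (hj0.TX hP hw)
  refine ⟨(c j)⁻¹ * a, fun φ hφ x => ?_⟩
  have h1 : φ = fun y => (c j)⁻¹ * appK volume (jk j) φ y := by
    funext y
    rw [hφ.2, ← mul_assoc, inv_mul_cancel₀ hj, one_mul]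
  have h2 : TX w φ x = (c j)⁻¹ * TX w (appK volume (jk j) φ) x := by
    conv_lhs => rw [h1]
    rw [← opF_tk (hP w hw), ← opF_tk (hP w hw)]
    exact opF_smul (RF_tk (hP w hw)) _ _ _
  have h3 : TX w (appK volume (jk j) φ) x
      = appK volume (fun x z => TX w (fun y => jk j y z) x) φ x := by
    have := opF_appK (RF_tk (hP w hw)) (isTestKer_of_mem_Sph hP hj0.sph).cKer
      (hφ.cont.locallyIntegrable) x (φ := φ)
    simp only [opF_tk (hP w hw)] at this
    exact this
  rw [h2, h3, ha φ hφ]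
  ring

theorem exists_ev_RX (hP : ∀ w ∈ P, D.n w = 0) (hc : ∃ j, c j ≠ 0) (i : D.I) {g : ℝ → ℂ}
    (hg : IsTest g) : ∃ a : ℂ, ∀ φ, IsJ c φ → ∀ x, RX i g φ x = a * φ x := by
  obtain ⟨j, hj⟩ := hc
  have hj0 : IsKS P (jk j) := ⟨j.2.1, j.2.2.1⟩
  obtain ⟨a, ha⟩ := exists_ev_killed hP c (hj0.RX hP hg i)
  refine ⟨(c j)⁻¹ * a, fun φ hφ x => ?_⟩
  have h1 : φ = fun y => (c j)⁻¹ * appK volume (jk j) φ y := by
    funext y
    rw [hφ.2, ← mul_assoc, inv_mul_cancel₀ hj, one_mul]
  have h2 : RX i g φ x = (c j)⁻¹ * RX i g (appK volume (jk j) φ) x := by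
    conv_lhs => rw [h1]
    exact RX_smul _ _ _ _ _
  rw [h2, RX_appK hg i (isTestKer_of_mem_Sph hP hj0.sph).cKer hφ.cont, ha φ hφ]
  ring

/-- Eigenvalues exist. -/
theorem exists_isEig (hP : ∀ w ∈ P, D.n w = 0) (hc : ∃ j, c j ≠ 0)
    (hne : ∃ φ, IsJ c φ ∧ φ ≠ 0) : ∃ (lam : Pl F → ℂ) (s : D.I → ℂ), ∀ φ, IsJ c φ →
      IsEig P lam s φ := by
  classical
  obtain ⟨φ₀, hφ₀, h0⟩ := hne
  obtain ⟨x₀, hx₀⟩ := Function.ne_iff.1 h0
  have hl : ∀ w, ∃ a : ℂ, w ∈ P → ∀ φ, IsJ c φ → ∀ x, TX w φ x = (sq w : ℂ) * a * φ x := by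
    intro w
    by_cases hw : w ∈ P
    · obtain ⟨a, ha⟩ := exists_ev_TX hP hc hw
      refine ⟨(sq w : ℂ)⁻¹ * a, fun _ φ hφ x => ?_⟩
      have hs : (sq w : ℂ) ≠ 0 := by exact_mod_cast (sq_pos w).ne'
      rw [ha φ hφ, ← mul_assoc, mul_inv_cancel₀ hs, one_mul]
    · exact ⟨0, fun h => absurd h hw⟩
  choose lam hlam using hl
  have hs : ∀ i, ∃ s : ℂ, ∀ g, IsTest g → ∀ φ, IsJ c φ → ∀ x, RX i g φ x = hat g s * φ x := by
    intro i
    have h1 : ∀ g, ∃ a : ℂ, IsTest g → ∀ φ, IsJ c φ → ∀ x, RX i g φ x = a * φ x := by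
      intro g
      by_cases hg : IsTest g
      · obtain ⟨a, ha⟩ := exists_ev_RX hP hc i hg
        exact ⟨a, fun _ => ha⟩
      · exact ⟨0, fun h => absurd h hg⟩
    choose χ hχ using h1
    obtain ⟨-, s, -, hs⟩ := exists_eigenH (φ := fun R => φ₀ (updI x₀ i R)) (χ := χ)
      (hφ₀.cont.comp (continuous_updI x₀ i)) (fun g hg R => by
        have := hχ g hg φ₀ hφ₀ (updI x₀ i R)
        rw [RX_updI] at this
        exact this) (fun h => by
        apply hx₀
        have := congrFun h (x₀.1 i)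
        rw [updI_self] at this
        exact this)
    exact ⟨s, fun g hg φ hφ x => by rw [hχ g hg φ hφ, hs g hg]⟩
  choose s hs using hs
  exact ⟨lam, s, fun φ hφ => ⟨fun w hw x => hlam w hw φ hφ x, fun i g hg x => hs i g hg φ hφ x⟩⟩

/-- Joint eigenfunctions of the Hecke and archimedean operators are eigenfunctions of the spherical
kernels, with universal eigenvalues. -/
theorem exists_ev_of_isEig (hP : ∀ w ∈ P, D.n w = 0) (lam : Pl F → ℂ) (s : D.I → ℂ)
    {k : X D → X D → ℂ} (hk : k ∈ Sph D P) :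
    ∃ a : ℂ, ∀ φ, Continuous φ → IsEig P lam s φ → ∀ x, appK volume k φ x = a * φ x := by
  refine Submodule.span_induction
    (p := fun k _ => ∃ a : ℂ, ∀ φ, Continuous φ → IsEig P lam s φ →
      ∀ x, appK volume k φ x = a * φ x) ?_ ?_ ?_ ?_ hk
  · rintro _ ⟨g, l, hg, hl, rfl⟩
    exact ⟨_, fun φ hφ h x => appK_bk_of_isEig hP h hφ hg hl x⟩
  · exact ⟨0, fun φ _ _ x => by simp [appK]⟩
  · rintro k1 k2 h1 h2 ⟨a, ha⟩ ⟨b, hb⟩
    refine ⟨a + b, fun φ hφ h x => ?_⟩
    rw [appK_add_ker (isTestKer_of_mem_Sph hP h1).cKer (isTestKer_of_mem_Sph hP h2).cKer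
      hφ.locallyIntegrable, ha φ hφ h, hb φ hφ h]
    ring
  · rintro a k1 _ ⟨b, hb⟩
    refine ⟨a * b, fun φ hφ h x => ?_⟩
    rw [appK_smul_ker, hb φ hφ h]
    ring

end Fermat.Agent.LT.B
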