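import Fermat.Agent.LT.B.Spectral

/-!
# LT, piece B: the (twisted) trace formula on `X D`
-/

set_option autoImplicit false
set_option maxHeartbeats 400000

open NumberField IsDedekindDomain Matrix MeasureTheory Set Filter Topology ProbabilityTheory
open Fermat.LT Fermat.Agent.LT.CTree Fermat.Agent.LT.CArch
open scoped ENNReal NNReal ComplexConjugate

namespace Fermat.Agent.LT.B

variable {F : Type} [Field F] [NumberField F] {D : Datum F} {P : Set (Pl F)}

/-- The action of a finite kernel as a linear map. -/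
noncomputable def opFl (κ : Y D.toLevel → Y D.toLevel → ℂ) (hκ : RF κ) :
    (X D → ℂ) →ₗ[ℂ] (X D → ℂ) where
  toFun := opF κ
  map_add' φ ψ := funext fun x => opF_add hκ φ ψ x
  map_smul' c φ := funext fun x => opF_smul hκ c φ x

@[simp] theorem opFl_apply (κ : Y D.toLevel → Y D.toLevel → ℂ) (hκ : RF κ) (φ : X D → ℂ) :
    opFl κ hκ φ = opF κ φ := rfl

/-- The operator `φ ↦ φ ∘ σ⁻¹`. -/
noncomputable def Twist.U (T : Twist D P) : (X D → ℂ) →ₗ[ℂ] (X D → ℂ) where
  toFun φ := fun x => φ (T.hX.symm x)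
  map_add' _ _ := rfl
  map_smul' _ _ := rfl

theorem Twist.U_apply (T : Twist D P) (φ : X D → ℂ) (x : X D) : T.U φ x = φ (T.hX.symm x) := rfl

/-- the transported system -/
noncomputable def Twist.ct (T : Twist D P) (hP : ∀ w ∈ P, D.n w = 0) (c : JSph D P → ℂ) :
    JSph D P → ℂ := fun j => c (T.jt hP j)

theorem Twist.isJ_U (T : Twist D P) (hP : ∀ w ∈ P, D.n w = 0) {c : JSph D P → ℂ} {φ : X D → ℂ}
    (h : IsJ c φ) : IsJ (T.ct hP c) (T.U φ) := by
  obtain ⟨⟨h1, h2, B, h3⟩, h4⟩ := h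
  refine ⟨⟨h1.comp T.hX.symm.continuous, fun γ x => ?_, B, fun x => h3 _⟩, fun j x => ?_⟩
  · rw [T.U_apply, T.U_apply]
    have : T.hX.symm (γ • x) = T.τ.symm γ • T.hX.symm x := by
      apply T.hX.injective
      have h5 := T.smul (T.τ.symm γ) (T.hX.symm x)
      rw [MulEquiv.apply_symm_apply] at h5
      rw [Homeomorph.apply_symm_apply]
      refine Eq.trans ?_ h5.symm
      congr 1
      exact (T.hX.apply_symm_apply x).symm
    rw [this, h2]
  · have h5 := T.appK_symm (jk j) φ x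
    have h6 : appK volume (T.tk (jk j)) φ (T.hX.symm x)
        = c (T.jt hP j) * φ (T.hX.symm x) := h4 (T.jt hP j) (T.hX.symm x)
    exact h5.trans h6

/-- `R(b)` on `φ ∘ σ⁻¹`, `b` killed spherical. -/
theorem Twist.exists_appK_U (T : Twist D P) (hP : ∀ w ∈ P, D.n w = 0) (c : JSph D P → ℂ)
    {b : X D → X D → ℂ} (hb : IsKS P b) :
    ∃ a : ℂ, ∀ φ, IsJ c φ → ∀ x, appK volume b (T.U φ) x = a * T.U φ x := by
  obtain ⟨a, ha⟩ := exists_ev_killed hP (T.ct hP c) hb
  exact ⟨a, fun φ hφ x => ha _ (T.isJ_U hP hφ) x⟩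

theorem IsJ.eq_zero {c c' : JSph D P → ℂ} (hne : c ≠ c') {φ : X D → ℂ} (h : IsJ c φ)
    (h' : IsJ c' φ) : φ = 0 := by
  obtain ⟨j, hj⟩ := Function.ne_iff.1 hne
  funext x
  have h1 := (h.2 j x).symm.trans (h'.2 j x)
  have h2 : (c j - c' j) * φ x = 0 := by rw [sub_mul, sub_eq_zero]; exact h1
  rcases mul_eq_zero.1 h2 with h3 | h3
  · exact absurd (sub_eq_zero.1 h3) hj
  · exact h3

theorem IsJ.smul {c : JSph D P → ℂ} {φ : X D → ℂ} (h : IsJ c φ) (a : ℂ) :
    IsJ c (fun x => a * φ x) :=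
  ⟨(autFun (PG F) (X D)).smul_mem a h.1, fun j x => by
    rw [appK_smul_fun', h.2]; ring⟩

section main

variable (hP : ∀ w ∈ P, D.n w = 0)

/-- the kernel of the composition `κ ∘ a ∘ b` -/
noncomputable def compKer (κ : Y D.toLevel → Y D.toLevel → ℂ) (a b : X D → X D → ℂ) :
    X D → X D → ℂ := fun x z => opF κ (fun y => ∫ u, a y u * b u z) x

theorem compC_eq_compKer {κ : Y D.toLevel → Y D.toLevel → ℂ} (hκ : RF κ) {a b : X D → X D → ℂ}
    (ha : IsTestKer a) (hb : IsTestKer b) :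
    compC (Kernel.const (X D) (volume : Measure (X D))) (fun x z => opF κ (fun y => a y z) x) b
      = compKer κ a b := by
  funext x z
  have h1 := opF_appK hκ ha.cKer (continuous_left hb z).locallyIntegrable x
  unfold compC
  rw [Kernel.const_apply]
  exact h1.symm

/-- **The spectral side of the (twisted) trace formula.** -/
theorem hasSum_spectral {a b : X D → X D → ℂ} (ha : IsKS P a) (hb : IsKS P b)
    {κ : Y D.toLevel → Y D.toLevel → ℂ} (hκ : IsFinTest κ) (hκP : CommP P κ) (T : Twist D P)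
    {w : X D → ℝ≥0∞} (hw : IsWeight (PG F) w) :
    HasSum (fun ξ : Xi D P => ev hP ξ a * ev hP ξ b * trSub (Vx hP ξ) (opFl κ hκ.fin ∘ₗ T.U))
      (∫ x, (w x).toReal • autK (compKer κ a b) x (T.hX x)) := by
  have hfin := isFiniteMeasure_qMeas_XD hw
  have hta := isTestKer_of_mem_Sph hP ha.sph
  have htb := isTestKer_of_mem_Sph hP hb.sph
  set A : X D → X D → ℂ := fun x z => opF κ (fun y => a y z) x with hAdef
  have hA : BKer (PG F) (volume : Measure (X D)) A :=
    bKer_of_killed (hta.opF hκ) (ha.killed.opF hκ.fin hta.cKer)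
  have hB : BKer (PG F) (volume : Measure (X D)) b := bKer_of_killed htb hb.killed
  -- the operator `A B U` on eigenfunctions
  have key : ∀ c : JSph D P → ℂ, ∃ r : ℂ, ∀ φ, IsJ c φ → ∀ x,
      appK volume A (appK volume b (T.U φ)) x = r * opF κ (T.U φ) x := by
    intro c
    obtain ⟨r₁, h₁⟩ := T.exists_appK_U hP c ha
    obtain ⟨r₂, h₂⟩ := T.exists_appK_U hP c hb
    refine ⟨r₁ * r₂, fun φ hφ x => ?_⟩
    have hc : Continuous (T.U φ) := (T.isJ_U hP hφ).cont
    have e1 : appK volume b (T.U φ) = fun y => r₂ * T.U φ y := funext fun y => h₂ φ hφ y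
    rw [e1, appK_smul_fun']
    have e2 : appK volume A (T.U φ) x = opF κ (appK volume a (T.U φ)) x :=
      (opF_appK hκ.fin hta.cKer hc.locallyIntegrable x).symm
    rw [e2, opF_congr (fun y => h₁ φ hφ y) x]
    have e3 : opF κ (fun y => r₁ * T.U φ y) x = r₁ * opF κ (T.U φ) x :=
      opF_smul hκ.fin r₁ (T.U φ) x
    rw [e3]; ring
  have hLJ : ∀ (c : JSph D P → ℂ) φ, IsJ c φ →
      IsJ (T.ct hP c) (fun x => appK volume A (appK volume b (T.U φ)) x) := by
    intro c φ hφ
    obtain ⟨r, hr⟩ := key c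
    have e : (fun x => appK volume A (appK volume b (T.U φ)) x) = fun x => r * opF κ (T.U φ) x :=
      funext fun x => hr φ hφ x
    rw [e]
    exact ((T.isJ_U hP hφ).opF hP hκ hκP).smul r
  have hL : ∀ c ∈ spec (PG F) (volume : Measure (X D)) (jk : JSph D P → X D → X D → ℂ),
      (∀ φ ∈ eigM (μ := (volume : Measure (X D))) (fun j => ((kfam hP).tker j).toCKer) c,
        appF hA.toCKer hA.schur (appF hB.toCKer hB.schur (twF T.τ T.hX T.smul φ)) ∈
          eigM (μ := (volume : Measure (X D))) (fun j => ((kfam hP).tker j).toCKer) c) ∨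
      ∃ c', c' ≠ c ∧
        ∀ φ ∈ eigM (μ := (volume : Measure (X D))) (fun j => ((kfam hP).tker j).toCKer) c,
        appF hA.toCKer hA.schur (appF hB.toCKer hB.schur (twF T.τ T.hX T.smul φ)) ∈
          eigM (μ := (volume : Measure (X D))) (fun j => ((kfam hP).tker j).toCKer) c' := by
    intro c _
    by_cases hc : T.ct hP c = c
    · left
      intro φ hφ
      have h1 := (hLJ c φ.1 ⟨φ.2, hφ⟩).2
      rw [hc] at h1
      exact h1
    · right
      exact ⟨T.ct hP c, hc, fun φ hφ => (hLJ c φ.1 ⟨φ.2, hφ⟩).2⟩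
  have hN : ∀ f : Qt (PG F) (X D) → ℂ, MemLp f 2 (qMeas (PG F) (volume : Measure (X D)) w) →
      (∀ (j : JSph D P) x, appK volume (jk j) (fun y => f (pr (PG F) y)) x = 0) →
      ∀ x, appK volume b (fun y => f (pr (PG F) (T.hX.symm y))) x = 0 := by
    intro f hf h0 x
    have hli : LocallyIntegrable (fun y => f (pr (PG F) y)) (volume : Measure (X D)) :=
      locallyIntegrable_comp_pr hw hf
    have h1 := T.appK_symm b (fun y => f (pr (PG F) y)) x
    refine h1.trans ?_
    have hbt : IsKS P (T.tk b) := ⟨T.tk_mem_Sph hP hb.sph, T.killed_tk hb.killed⟩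
    obtain ⟨j₁, j₂, e⟩ := hbt.exists_re_im hP
    have c1 : CKer (PG F) (jk j₁) := (isTestKer_of_mem_Sph hP j₁.2.1).cKer
    have c2 : CKer (PG F) (Complex.I • jk j₂) :=
      (isTestKer_of_mem_Sph hP (Submodule.smul_mem _ Complex.I j₂.2.1)).cKer
    rw [e, appK_add_ker c1 c2 hli, appK_smul_ker, h0, h0]
    ring
  have main := (kfam hP).hasSum_trace hw hA hB T.τ T.hX T.smul
    (measurePreserving_twX T.πI T.σY) hL hN
  -- the geometric side
  have hgeo : (∫ q, qKer (PG F) (compC (Kernel.const (X D) (volume : Measure (X D))) A b) q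
        (twQ T.τ T.hX.toMeasurableEquiv T.smul q) ∂qMeas (PG F) (volume : Measure (X D)) w)
      = ∫ x, (w x).toReal • autK (compKer κ a b) x (T.hX x) := by
    obtain ⟨a₁, a₂, hsA⟩ := hA.schur
    obtain ⟨b₁, b₂, hsB⟩ := hB.schur
    have hs := hsA.comp_const hsB (isRev_const (Γ := PG F) (μ := (volume : Measure (X D))))
    have hm : AEStronglyMeasurable (fun q => qKer (PG F)
        (compC (Kernel.const (X D) (volume : Measure (X D))) A b) q
        (twQ T.τ T.hX.toMeasurableEquiv T.smul q)) (qMeas (PG F) (volume : Measure (X D)) w) :=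
      ((stronglyMeasurable_qKer hw hs).comp_measurable (measurable_id.prodMk
        (twQ T.τ T.hX.toMeasurableEquiv T.smul).measurable)).aestronglyMeasurable
    rw [integral_qMeas hw _ hm]
    refine integral_congr_ae (Eventually.of_forall fun x => ?_)
    show (w x).toReal • qKer (PG F) (compC (Kernel.const (X D) (volume : Measure (X D))) A b)
      (pr (PG F) x) (twQ T.τ T.hX.toMeasurableEquiv T.smul (pr (PG F) x)) = _
    rw [twQ_pr, qKer_pr hs.inv, compC_eq_compKer hκ.fin hta htb]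
    rfl
  rw [hgeo] at main
  -- the spectral side
  have hfun : (fun c : spec (PG F) (volume : Measure (X D)) (jk : JSph D P → X D → X D → ℂ) =>
      trSub (eigM (μ := (volume : Measure (X D))) (fun j => ((kfam hP).tker j).toCKer) c)
        (appF (μ := (volume : Measure (X D))) hA.toCKer hA.schur ∘ₗ
          appF hB.toCKer hB.schur ∘ₗ twF T.τ T.hX T.smul))
      = fun ξ : Xi D P =>
        ev hP ξ a * ev hP ξ b * trSub (Vx hP ξ) (opFl κ hκ.fin ∘ₗ T.U) := by
    funext c
    let ξ : Xi D P := c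
    have hmem : ∀ φ : autFun (PG F) (X D), φ ∈ eigM (μ := (volume : Measure (X D)))
        (fun j => ((kfam hP).tker j).toCKer) c.1 → IsJ c.1 φ.1 := fun φ hφ => ⟨φ.2, hφ⟩
    by_cases hc : T.ct hP c.1 = c.1
    · -- `σ` preserves the space
      have hU : ∀ φ ∈ Vx hP ξ, T.U φ ∈ Vx hP ξ := by
        intro φ hφ
        rw [mem_Vx] at hφ ⊢
        have h1 := T.isJ_U hP hφ
        rwa [show T.ct hP ξ.1 = ξ.1 from hc] at h1
      have hκU : ∀ φ ∈ Vx hP ξ, (opFl κ hκ.fin ∘ₗ T.U) φ ∈ Vx hP ξ := by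
        intro φ hφ
        exact (mem_Vx hP).2 (((mem_Vx hP).1 (hU φ hφ)).opF hP hκ hκP)
      rw [← trSub_smul hκU]
      refine (trSub_map (W := autFun (PG F) (X D))
        (eigM (μ := (volume : Measure (X D))) (fun j => ((kfam hP).tker j).toCKer) c.1)
        _ ((ev hP ξ a * ev hP ξ b) • (opFl κ hκ.fin ∘ₗ T.U)) ?_).symm
      intro φ hφ
      have hφV : φ.1 ∈ Vx hP ξ := (mem_Vx hP).2 (hmem φ hφ)
      have hUV := hU _ hφV
      funext x
      show (ev hP ξ a * ev hP ξ b) * opF κ (T.U φ.1) x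
        = appK volume A (appK volume b (T.U φ.1)) x
      have e1 : appK volume b (T.U φ.1) = fun y => ev hP ξ b * T.U φ.1 y :=
        funext fun y => ev_spec hP hb.sph hUV y
      rw [e1, appK_smul_fun']
      have e2 : appK volume A (T.U φ.1) x = opF κ (appK volume a (T.U φ.1)) x :=
        (opF_appK hκ.fin hta.cKer (isAut_of_mem hP hUV).cont.locallyIntegrable x).symm
      rw [e2, opF_congr (fun y => ev_spec hP ha.sph hUV y) x]
      have e3 : opF κ (fun y => ev hP ξ a * T.U φ.1 y) x = ev hP ξ a * opF κ (T.U φ.1) x :=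
        opF_smul hκ.fin _ (T.U φ.1) x
      rw [e3]; ring
    · -- both sides vanish
      have h1 : trSub (Vx hP ξ) (opFl κ hκ.fin ∘ₗ T.U) = 0 := by
        refine trSub_eq_zero fun φ hφ hL' => ?_
        have h2 := (T.isJ_U hP ((mem_Vx hP).1 hφ)).opF hP hκ hκP
        exact ((mem_Vx hP).1 hL').eq_zero (fun h => hc h.symm) h2
      rw [h1, mul_zero]
      refine trSub_eq_zero fun φ hφ hL' => ?_
      have h2 := hLJ c.1 φ.1 (hmem φ hφ)
      have h3 := (hmem _ hL').eq_zero (fun h => hc h.symm) h2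
      exact Subtype.ext h3
  rw [hfun] at main
  exact main

end main

end Fermat.Agent.LT.B
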