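import Fermat.Agent.LT.B.SpecTw

/-!
# LT, piece B: the spectral side of the (twisted) trace formula on `X D`

`P` is a set of good places (`hP : ∀ w ∈ P, D.n w = 0`).

* `Xi D P` : the index type of the cuspidal systems of eigenvalues for the Hecke operators at the
  places in `P` and the archimedean operators;
* `Vx hP ξ` : the space of cusp forms of type `ξ`; `lam hP ξ`, `sp hP ξ` : the eigenvalues;
* `ev hP ξ k` : the eigenvalue of a spherical kernel `k ∈ Sph D P`;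
* `hasSum_spectral` : the trace formula.
-/

set_option autoImplicit false
set_option maxHeartbeats 400000

open NumberField IsDedekindDomain Matrix MeasureTheory Set Filter Topology ProbabilityTheory
open Fermat.LT Fermat.Agent.LT.CTree Fermat.Agent.LT.CArch
open scoped ENNReal NNReal ComplexConjugate

namespace Fermat.Agent.LT.B

section linear

variable {E : Type*} [AddCommGroup E] [Module ℂ E]

theorem trSub_eq_zero {V : Submodule ℂ E} {L : E →ₗ[ℂ] E} (h : ∀ v ∈ V, L v ∈ V → L v = 0) :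
    trSub V L = 0 := by
  by_cases hV : ∀ v ∈ V, L v ∈ V
  · rw [trSub_of_mem hV]
    have : L.restrict hV = 0 := LinearMap.ext fun v => Subtype.ext (h v.1 v.2 (hV v.1 v.2))
    rw [this, map_zero]
  · exact trSub_of_not_mem hV

theorem trSub_congr {V : Submodule ℂ E} {L L' : E →ₗ[ℂ] E} (h : ∀ v ∈ V, L v = L' v) :
    trSub V L = trSub V L' := by
  by_cases hV : ∀ v ∈ V, L v ∈ V
  · have hV' : ∀ v ∈ V, L' v ∈ V := fun v hv => h v hv ▸ hV v hv
    rw [trSub_of_mem hV, trSub_of_mem hV']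
    congr 1
    exact LinearMap.ext fun v => Subtype.ext (h v.1 v.2)
  · have hV' : ¬ ∀ v ∈ V, L' v ∈ V := fun h' => hV fun v hv => (h v hv).symm ▸ h' v hv
    rw [trSub_of_not_mem hV, trSub_of_not_mem hV']

theorem trSub_smul {V : Submodule ℂ E} {L : E →ₗ[ℂ] E} (hV : ∀ v ∈ V, L v ∈ V) (a : ℂ) :
    trSub V (a • L) = a * trSub V L := by
  have hV' : ∀ v ∈ V, (a • L) v ∈ V := fun v hv => V.smul_mem a (hV v hv)
  rw [trSub_of_mem hV, trSub_of_mem hV']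
  have : (a • L).restrict hV' = a • L.restrict hV := rfl
  rw [this, map_smul, smul_eq_mul]

theorem trSub_map {W : Submodule ℂ E} (V : Submodule ℂ W) (L' : W →ₗ[ℂ] W) (L : E →ₗ[ℂ] E)
    (h : ∀ v ∈ V, L v.1 = (L' v).1) : trSub (V.map W.subtype) L = trSub V L' := by
  let e : V ≃ₗ[ℂ] V.map W.subtype := V.equivMapOfInjective W.subtype W.injective_subtype
  have he : ∀ v : V, (e v : E) = (v : W) := fun v => rfl
  by_cases hV : ∀ v ∈ V, L' v ∈ V
  · have hV' : ∀ v ∈ V.map W.subtype, L v ∈ V.map W.subtype := by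
      rintro _ ⟨v, hv, rfl⟩
      exact ⟨L' v, hV v hv, (h v hv).symm⟩
    rw [trSub_of_mem hV, trSub_of_mem hV', ← LinearMap.trace_conj' (L'.restrict hV) e]
    congr 1
    refine LinearMap.ext fun v => Subtype.ext ?_
    obtain ⟨v, rfl⟩ := e.surjective v
    rw [LinearEquiv.conj_apply]
    simp only [LinearMap.comp_apply, LinearEquiv.coe_coe, LinearEquiv.symm_apply_apply]
    rw [he]
    exact h v.1 v.2
  · have hV' : ¬ ∀ v ∈ V.map W.subtype, L v ∈ V.map W.subtype := by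
      intro h'
      apply hV
      intro v hv
      obtain ⟨u, hu, hu'⟩ := h' v.1 ⟨v, hv, rfl⟩
      have h1 : (u : W) = L' v := Subtype.ext (hu'.trans (h v hv))
      rwa [← h1]
    rw [trSub_of_not_mem hV, trSub_of_not_mem hV']

end linear

variable {F : Type} [Field F] [NumberField F] {D : Datum F} {P : Set (Pl F)}

/-! ### the index set and the spaces -/

/-- The cuspidal systems of eigenvalues. -/
def Xi (D : Datum F) (P : Set (Pl F)) : Type :=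
  spec (PG F) (volume : Measure (X D)) (jk : JSph D P → X D → X D → ℂ)

theorem Xi.exists_ne (ξ : Xi D P) : ∃ j, ξ.1 j ≠ 0 := ξ.2.2

theorem Xi.exists_isJ (ξ : Xi D P) : ∃ φ, IsJ ξ.1 φ ∧ φ ≠ 0 := by
  obtain ⟨φ, hφ, h0⟩ := ξ.2.1
  exact ⟨φ.1, ⟨φ.2, hφ⟩, fun h => h0 (Subtype.ext h)⟩

/-- The space of cusp forms with the system of eigenvalues `ξ`. -/
noncomputable def Vx (hP : ∀ w ∈ P, D.n w = 0) (ξ : Xi D P) : Submodule ℂ (X D → ℂ) :=
  (eigM (μ := (volume : Measure (X D))) (fun j => ((kfam hP).tker j).toCKer) ξ.1).map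
    (autFun (PG F) (X D)).subtype

variable (hP : ∀ w ∈ P, D.n w = 0)

theorem mem_Vx {ξ : Xi D P} {φ : X D → ℂ} : φ ∈ Vx hP ξ ↔ IsJ ξ.1 φ := by
  constructor
  · rintro ⟨φ, hφ, rfl⟩
    exact ⟨φ.2, hφ⟩
  · intro h
    exact ⟨⟨φ, h.1⟩, h.2, rfl⟩

theorem Vx_ne_bot (ξ : Xi D P) : Vx hP ξ ≠ ⊥ := by
  obtain ⟨φ, hφ, h0⟩ := ξ.exists_isJ
  intro h
  apply h0
  have : φ ∈ Vx hP ξ := (mem_Vx hP).2 hφ
  rw [h] at this
  exact this

theorem exists_mem_Vx (ξ : Xi D P) : ∃ φ ∈ Vx hP ξ, φ ≠ 0 := by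
  obtain ⟨φ, hφ, h0⟩ := ξ.exists_isJ
  exact ⟨φ, (mem_Vx hP).2 hφ, h0⟩

theorem finiteDimensional_Vx (ξ : Xi D P) : FiniteDimensional ℂ (Vx hP ξ) := by
  obtain ⟨w, hw⟩ := exists_isWeight_PG D
  have := isFiniteMeasure_qMeas_XD hw
  have := (kfam hP).finiteDimensional hw ξ.exists_ne
  unfold Vx
  infer_instance

/-- The Hecke eigenvalues (normalised: `T_w φ = √q_w · lam w · φ`). -/
noncomputable def lam (ξ : Xi D P) : Pl F → ℂ :=
  (exists_isEig hP ξ.exists_ne ξ.exists_isJ).choose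

/-- The archimedean parameters. -/
noncomputable def sp (ξ : Xi D P) : D.I → ℂ :=
  (exists_isEig hP ξ.exists_ne ξ.exists_isJ).choose_spec.choose

theorem isEig_of_mem {ξ : Xi D P} {φ : X D → ℂ} (h : φ ∈ Vx hP ξ) :
    IsEig P (lam hP ξ) (sp hP ξ) φ :=
  (exists_isEig hP ξ.exists_ne ξ.exists_isJ).choose_spec.choose_spec φ ((mem_Vx hP).1 h)

theorem isAut_of_mem {ξ : Xi D P} {φ : X D → ℂ} (h : φ ∈ Vx hP ξ) : IsAut φ :=
  ⟨((mem_Vx hP).1 h).1.1, ((mem_Vx hP).1 h).1.2.1⟩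

theorem bounded_of_mem {ξ : Xi D P} {φ : X D → ℂ} (h : φ ∈ Vx hP ξ) : ∃ B : ℝ, ∀ x, ‖φ x‖ ≤ B :=
  ((mem_Vx hP).1 h).1.2.2

/-- The elements of `Vx hP ξ` are cusp forms. -/
theorem isCusp_of_mem {ξ : Xi D P} {φ : X D → ℂ} (h : φ ∈ Vx hP ξ) : IsCusp φ := by
  obtain ⟨j, hj⟩ := ξ.exists_ne
  exact isCusp_of_killed (isTestKer_of_mem_Sph hP j.2.1) j.2.2.1 (isAut_of_mem hP h)
    (bounded_of_mem hP h) hj (((mem_Vx hP).1 h).2 j)

/-! ### eigenvalues of spherical kernels -/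

open Classical in
/-- The eigenvalue of the spherical kernel `k` on `Vx hP ξ`. -/
noncomputable def ev (ξ : Xi D P) (k : X D → X D → ℂ) : ℂ :=
  if h : k ∈ Sph D P then (exists_ev_sph hP ξ.exists_ne h).choose else 0

theorem ev_spec {ξ : Xi D P} {k : X D → X D → ℂ} (hk : k ∈ Sph D P) {φ : X D → ℂ}
    (hφ : φ ∈ Vx hP ξ) (x : X D) : appK volume k φ x = ev hP ξ k * φ x := by
  classical
  rw [ev, dif_pos hk]
  exact (exists_ev_sph hP ξ.exists_ne hk).choose_spec φ ((mem_Vx hP).1 hφ) x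

theorem ev_eq {ξ : Xi D P} {k : X D → X D → ℂ} (hk : k ∈ Sph D P) {φ : X D → ℂ}
    (hφ : φ ∈ Vx hP ξ) (h0 : φ ≠ 0) {a : ℂ} (h : ∀ x, appK volume k φ x = a * φ x) :
    ev hP ξ k = a := by
  obtain ⟨x, hx⟩ := Function.ne_iff.1 h0
  have := (ev_spec hP hk hφ x).symm.trans (h x)
  exact mul_right_cancel₀ hx this

theorem ev_jk (ξ : Xi D P) (j : JSph D P) : ev hP ξ (jk j) = ξ.1 j := by
  obtain ⟨φ, hφ, h0⟩ := exists_mem_Vx hP ξ
  exact ev_eq hP j.2.1 hφ h0 (((mem_Vx hP).1 hφ).2 j)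

theorem ev_bk (ξ : Xi D P) {g : D.I → ℝ → ℂ} (hg : ∀ i, IsTest (g i)) {l : List (Pl F)}
    (hl : ∀ w ∈ l, w ∈ P) : ev hP ξ (bk g l)
      = (∏ i, hat (g i) (sp hP ξ i)) * (l.map fun w => (sq w : ℂ) * lam hP ξ w).prod := by
  obtain ⟨φ, hφ, h0⟩ := exists_mem_Vx hP ξ
  exact ev_eq hP (bk_mem_Sph hg hl) hφ h0 fun x =>
    appK_bk_of_isEig hP (isEig_of_mem hP hφ) (isAut_of_mem hP hφ).cont hg hl x

theorem ev_add (ξ : Xi D P) {k k' : X D → X D → ℂ} (hk : k ∈ Sph D P) (hk' : k' ∈ Sph D P) :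
    ev hP ξ (k + k') = ev hP ξ k + ev hP ξ k' := by
  obtain ⟨φ, hφ, h0⟩ := exists_mem_Vx hP ξ
  refine ev_eq hP (add_mem hk hk') hφ h0 fun x => ?_
  rw [appK_add_ker (isTestKer_of_mem_Sph hP hk).cKer (isTestKer_of_mem_Sph hP hk').cKer
    (isAut_of_mem hP hφ).cont.locallyIntegrable, ev_spec hP hk hφ, ev_spec hP hk' hφ]
  ring

theorem ev_smul (ξ : Xi D P) (a : ℂ) {k : X D → X D → ℂ} (hk : k ∈ Sph D P) :
    ev hP ξ (a • k) = a * ev hP ξ k := by
  obtain ⟨φ, hφ, h0⟩ := exists_mem_Vx hP ξ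
  refine ev_eq hP (Submodule.smul_mem _ a hk) hφ h0 fun x => ?_
  rw [appK_smul_ker, ev_spec hP hk hφ]
  ring

theorem ev_zero (ξ : Xi D P) : ev hP ξ (0 : X D → X D → ℂ) = 0 := by
  obtain ⟨φ, hφ, h0⟩ := exists_mem_Vx hP ξ
  exact ev_eq hP (zero_mem _) hφ h0 fun x => by simp [appK]

/-- The eigenvalue of a composition. -/
theorem ev_comp (ξ : Xi D P) {k k' : X D → X D → ℂ} (hk : k ∈ Sph D P) (hk' : k' ∈ Sph D P) :
    ev hP ξ (fun x z => ∫ y, k x y * k' y z) = ev hP ξ k * ev hP ξ k' := by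
  obtain ⟨φ, hφ, h0⟩ := exists_mem_Vx hP ξ
  refine ev_eq hP (comp_mem_Sph hP hk hk') hφ h0 fun x => ?_
  rw [← (isTestKer_of_mem_Sph hP hk).cKer.appK_appK (isTestKer_of_mem_Sph hP hk').cKer
    (isAut_of_mem hP hφ).cont]
  have h1 : appK volume k' φ = fun y => ev hP ξ k' * φ y := funext fun y => ev_spec hP hk' hφ y
  rw [h1, appK_smul_fun', ev_spec hP hk hφ]
  ring

theorem ev_RX (ξ : Xi D P) {g : ℝ → ℂ} (hg : IsTest g) (i : D.I) {k : X D → X D → ℂ}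
    (hk : k ∈ Sph D P) : ev hP ξ (fun x z => RX i g (fun y => k y z) x)
      = hat g (sp hP ξ i) * ev hP ξ k := by
  obtain ⟨φ, hφ, h0⟩ := exists_mem_Vx hP ξ
  refine ev_eq hP (RX_mem_Sph hP hg i hk) hφ h0 fun x => ?_
  rw [← RX_appK hg i (isTestKer_of_mem_Sph hP hk).cKer (isAut_of_mem hP hφ).cont]
  have h1 : appK volume k φ = fun y => ev hP ξ k * φ y := funext fun y => ev_spec hP hk hφ y
  rw [h1, RX_smul, (isEig_of_mem hP hφ).arch i g hg]
  ring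

theorem ev_TX (ξ : Xi D P) {w : Pl F} (hw : w ∈ P) {k : X D → X D → ℂ}
    (hk : k ∈ Sph D P) : ev hP ξ (fun x z => TX w (fun y => k y z) x)
      = (sq w : ℂ) * lam hP ξ w * ev hP ξ k := by
  obtain ⟨φ, hφ, h0⟩ := exists_mem_Vx hP ξ
  refine ev_eq hP (TX_mem_Sph hP hw hk) hφ h0 fun x => ?_
  have h3 : TX w (appK volume k φ) x
      = appK volume (fun x z => TX w (fun y => k y z) x) φ x := by
    have := opF_appK (RF_tk (hP w hw)) (isTestKer_of_mem_Sph hP hk).cKer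
      ((isAut_of_mem hP hφ).cont.locallyIntegrable) x (φ := φ)
    simp only [opF_tk (hP w hw)] at this
    exact this
  rw [← h3]
  have h1 : appK volume k φ = fun y => ev hP ξ k * φ y := funext fun y => ev_spec hP hk hφ y
  rw [h1, ← opF_tk (hP w hw), opF_smul (RF_tk (hP w hw)), opF_tk (hP w hw),
    (isEig_of_mem hP hφ).hecke w hw]
  ring

/-! ### characterisation of the spaces -/

/-- If two pairs `(lam, s)` have the same values on the generators they give the same eigen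
equations. -/
theorem isEig_congr {la la' : Pl F → ℂ} {s s' : D.I → ℂ} {φ : X D → ℂ} (h : IsEig P la s φ)
    (h1 : ∀ w ∈ P, la w = la' w) (h2 : ∀ i g, IsTest g → hat g (s i) = hat g (s' i)) :
    IsEig P la' s' φ :=
  ⟨fun w hw x => by rw [← h1 w hw]; exact h.hecke w hw x,
    fun i g hg x => by rw [← h2 i g hg]; exact h.arch i g hg x⟩

theorem mem_Vx_iff {ξ : Xi D P} {φ : X D → ℂ} : φ ∈ Vx hP ξ ↔
    φ ∈ autFun (PG F) (X D) ∧ IsEig P (lam hP ξ) (sp hP ξ) φ := by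
  constructor
  · intro h
    exact ⟨((mem_Vx hP).1 h).1, isEig_of_mem hP h⟩
  · rintro ⟨h1, h2⟩
    rw [mem_Vx]
    refine ⟨h1, fun j x => ?_⟩
    obtain ⟨a, ha⟩ := exists_ev_of_isEig hP (lam hP ξ) (sp hP ξ) j.2.1
    obtain ⟨ψ, hψ, h0⟩ := exists_mem_Vx hP ξ
    have h3 : ev hP ξ j.1 = a := ev_eq hP j.2.1 hψ h0
      (ha ψ (isAut_of_mem hP hψ).cont (isEig_of_mem hP hψ))
    have h4 : ev hP ξ j.1 = ξ.1 j := ev_jk hP ξ j
    rw [← h4, h3]
    exact ha φ h1.1 h2 x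

/-- A cusp form lies in `Vx hP ξ` iff it has the right eigenvalues. -/
theorem mem_Vx_of_isCusp {ξ : Xi D P} {φ : X D → ℂ} (h : IsCusp φ)
    (h' : IsEig P (lam hP ξ) (sp hP ξ) φ) : φ ∈ Vx hP ξ :=
  (mem_Vx_iff hP).2 ⟨⟨h.cont, h.inv, h.bounded⟩, h'⟩

/-- The system of eigenvalues is determined by the eigenvalues of the generators. -/
theorem Xi_ext {ξ ξ' : Xi D P} (h1 : ∀ w ∈ P, lam hP ξ w = lam hP ξ' w)
    (h2 : ∀ i g, IsTest g → hat g (sp hP ξ i) = hat g (sp hP ξ' i)) : ξ = ξ' := by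
  refine Subtype.ext (funext fun j => ?_)
  obtain ⟨a, ha⟩ := exists_ev_of_isEig hP (lam hP ξ) (sp hP ξ) j.2.1
  obtain ⟨ψ, hψ, h0⟩ := exists_mem_Vx hP ξ
  obtain ⟨ψ', hψ', h0'⟩ := exists_mem_Vx hP ξ'
  have h3 : ev hP ξ j.1 = a := ev_eq hP j.2.1 hψ h0
    (ha ψ (isAut_of_mem hP hψ).cont (isEig_of_mem hP hψ))
  have h4 : ev hP ξ' j.1 = a := ev_eq hP j.2.1 hψ' h0'
    (ha ψ' (isAut_of_mem hP hψ').cont (isEig_congr (isEig_of_mem hP hψ')
      (fun w hw => (h1 w hw).symm) fun i g hg => (h2 i g hg).symm))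
  exact (ev_jk hP ξ j).symm.trans ((h3.trans h4.symm).trans (ev_jk hP ξ' j))

/-- **Every bounded automorphic eigenfunction with a non-zero killed eigenvalue occurs.** -/
theorem exists_Xi {φ : X D → ℂ} (hφ : φ ∈ autFun (PG F) (X D)) (h0 : φ ≠ 0) {la : Pl F → ℂ}
    {s : D.I → ℂ} (h : IsEig P la s φ) {k : X D → X D → ℂ} (hk : IsKS P k)
    (hne : ∃ x, appK volume k φ x ≠ 0) :
    ∃ ξ : Xi D P, φ ∈ Vx hP ξ ∧ (∀ w ∈ P, lam hP ξ w = la w) ∧
      ∀ i g, IsTest g → hat g (sp hP ξ i) = hat g (s i) := by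
  choose c hc using fun j : JSph D P => exists_ev_of_isEig hP la s j.2.1
  have hJ : IsJ c φ := ⟨hφ, fun j x => hc j φ hφ.1 h x⟩
  have hcne : ∃ j, c j ≠ 0 := by
    obtain ⟨j₁, j₂, e⟩ := hk.exists_re_im hP
    obtain ⟨x, hx⟩ := hne
    by_contra hcon
    push Not at hcon
    apply hx
    have h1 : CKer (PG F) (jk j₁) := (isTestKer_of_mem_Sph hP j₁.2.1).cKer
    have h2 : CKer (PG F) (Complex.I • jk j₂) :=
      (isTestKer_of_mem_Sph hP (Submodule.smul_mem _ Complex.I j₂.2.1)).cKer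
    rw [e, appK_add_ker h1 h2 hφ.1.locallyIntegrable, appK_smul_ker, hJ.2, hJ.2, hcon, hcon]
    ring
  let ξ : Xi D P := ⟨c, ⟨⟨φ, hφ⟩, hJ.2, fun h' => h0 (congrArg Subtype.val h')⟩, hcne⟩
  have hmem : φ ∈ Vx hP ξ := (mem_Vx hP).2 hJ
  obtain ⟨x, hx⟩ := Function.ne_iff.1 h0
  refine ⟨ξ, hmem, fun w hw => ?_, fun i g hg => ?_⟩
  · have h1 := (isEig_of_mem hP hmem).hecke w hw x
    have h2 := h.hecke w hw x
    have hs : (sq w : ℂ) ≠ 0 := by exact_mod_cast (sq_pos w).ne'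
    have h3 : (sq w : ℂ) * lam hP ξ w = (sq w : ℂ) * la w :=
      mul_right_cancel₀ hx (h1.symm.trans h2)
    exact mul_left_cancel₀ hs h3
  · have h1 := (isEig_of_mem hP hmem).arch i g hg x
    have h2 := h.arch i g hg x
    exact mul_right_cancel₀ hx (h1.symm.trans h2)

end Fermat.Agent.LT.B
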