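import Fermat.Agent.LT.B.FinKer
import Fermat.Agent.LT.B.PiEigen
import Fermat.Agent.LT.B.KilledKer

/-!
# LT, piece B: spherical kernels on `X D`

* `pk g` : the archimedean product kernel `∏ i, kfun (g i) (ch (x i) (y i))`;
* `bk g l` : `pk g` times the kernel of the word `l` in the Hecke operators;
* `Sph D P` : the span of the `bk g l`, `l` a word in `P`.
-/

set_option autoImplicit false
set_option maxHeartbeats 400000

open NumberField IsDedekindDomain Matrix MeasureTheory Set Filter Topology
open Fermat.LT Fermat.Agent.LT.CTree Fermat.Agent.LT.CArch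

namespace Fermat.Agent.LT.B

section countY

variable {Z Y : Type*} [MeasurableSpace Z] [MeasurableSpace Y] [MeasurableSingletonClass Y]
  [Countable Y]

theorem integral_count_of_finite {f : Y → ℂ} {s : Finset Y} (hs : ∀ y ∉ s, f y = 0) :
    ∫ y, f y ∂(Measure.count : Measure Y) = ∑ y ∈ s, f y := by
  have hI2 : Integrable f (Measure.count : Measure Y) := by
    refine ⟨(measurable_of_countable f).aestronglyMeasurable, ?_⟩
    unfold HasFiniteIntegral
    rw [lintegral_count]
    have : ∑' y', ‖f y'‖ₑ = ∑ y' ∈ s, ‖f y'‖ₑ :=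
      tsum_eq_sum fun y' hy' => by rw [hs y' hy', enorm_zero]
    rw [this]
    exact ENNReal.sum_lt_top.2 fun y' _ => enorm_lt_top
  rw [integral_countable hI2]
  simp only [Measure.real, Measure.count_singleton, ENNReal.toReal_one, one_smul]
  exact tsum_eq_sum hs

end countY

variable {F : Type} [Field F] [NumberField F] {D : Datum F}

/-- Fubini on `X D` for functions with finite support in the second variable. -/
theorem integral_X_eq_sum {f : X D → ℂ} (hf : Integrable f (volume : Measure (X D)))
    {s : Finset (Y D.toLevel)} (hs : ∀ y ∉ s, ∀ R, f (R, y) = 0) :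
    ∫ y, f y = ∑ y ∈ s, ∫ R : XI D.toArch, f (R, y) := by
  have h1 : ∫ y, f y = ∫ y, ∫ R : XI D.toArch, f (R, y) ∂volume ∂(volume : Measure (Y D.toLevel)) :=
    integral_prod_symm f hf
  rw [h1]
  exact integral_count_of_finite fun y hy => by
    simp [hs y hy]

/-- continuous functions of compact support in the first variable and finite support in the second
variable are integrable. -/
theorem integrable_X {f : X D → ℂ} (hf : Continuous f) {K : Set (XI D.toArch)} (hK : IsCompact K)
    {s : Finset (Y D.toLevel)} (h : ∀ R y, f (R, y) ≠ 0 → R ∈ K ∧ y ∈ s) :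
    Integrable f (volume : Measure (X D)) := by
  refine integrable_of_compact hf (hK.prod (s.finite_toSet.isCompact)) ?_
  rintro ⟨R, y⟩ hy
  by_contra hne
  exact hy (h R y hne)

/-- The archimedean product kernel. -/
noncomputable def pk (g : D.I → ℝ → ℂ) (x y : XI D.toArch) : ℂ :=
  ∏ i, kfun (g i) (H3.ch (x i) (y i))

/-- The basic spherical kernels. -/
noncomputable def bk (g : D.I → ℝ → ℂ) (l : List (Pl F)) (x y : X D) : ℂ :=
  pk g x.1 y.1 * wk l x.2 y.2

theorem continuous_kfun_ch {g : ℝ → ℂ} (hg : IsTest g) :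
    Continuous fun p : H3 × H3 => kfun g (H3.ch p.1 p.2) :=
  (kfun_continuousOn hg.evenSmooth).comp_continuous H3.continuous_ch fun _ => H3.one_le_ch _ _

theorem continuous_pair (i : D.I) :
    Continuous fun p : XI D.toArch × XI D.toArch => (p.1 i, p.2 i) :=
  ((continuous_coordI D.toArch i).comp continuous_fst).prodMk
      ((continuous_coordI D.toArch i).comp continuous_snd)

theorem continuous_kfun_pair {g : ℝ → ℂ} (hg : IsTest g) (i : D.I) :
    Continuous fun p : XI D.toArch × XI D.toArch => kfun g (H3.ch (p.1 i) (p.2 i)) := by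
  have := (continuous_kfun_ch hg).comp (continuous_pair i)
  exact this

theorem continuous_pk {g : D.I → ℝ → ℂ} (hg : ∀ i, IsTest (g i)) :
    Continuous fun p : XI D.toArch × XI D.toArch => pk g p.1 p.2 := by
  have := continuous_finsetProd Finset.univ fun i _ => continuous_kfun_pair (D := D) (hg i) i
  exact this

theorem pk_comm (g : D.I → ℝ → ℂ) (x y : XI D.toArch) : pk g x y = pk g y x := by
  unfold pk
  exact Finset.prod_congr rfl fun i _ => by rw [H3.ch_comm]

/-- a common radius -/
theorem exists_pk_radius {g : D.I → ℝ → ℂ} (hg : ∀ i, IsTest (g i)) :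
    ∃ V : D.I → ℝ, ∀ x y : XI D.toArch, pk g x y ≠ 0 → ∀ i, y i ∈ H3.ball (x i) (V i) := by
  choose V hV1 hV using fun i => (hg i).exists_kfun_eq_zero
  refine ⟨V, fun x y h i => ?_⟩
  rw [H3.mem_ball]
  by_contra hc
  apply h
  exact Finset.prod_eq_zero (Finset.mem_univ i) (hV i _ (not_le.1 hc).le)

theorem isCompact_pkball (x : XI D.toArch) (V : D.I → ℝ) :
    IsCompact {y : XI D.toArch | ∀ i, y i ∈ H3.ball (x i) (V i)} := by
  have h : IsCompact (Set.pi univ fun i : D.I => H3.ball (x i) (V i)) :=
    isCompact_univ_pi fun i => H3.isCompact_ball _ _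
  have e : {y : XI D.toArch | ∀ i, y i ∈ H3.ball (x i) (V i)}
      = Set.pi univ fun i : D.I => H3.ball (x i) (V i) := by
    ext y
    exact ⟨fun h i _ => h i, fun h i => h i trivial⟩
  rw [e]
  exact h

theorem isTestKer_bk {g : D.I → ℝ → ℂ} (hg : ∀ i, IsTest (g i)) {l : List (Pl F)}
    (hl : Good D.toLevel l) : IsTestKer (bk g l) :=
  ⟨Unit, inferInstance, fun _ c => ∏ i, kfun (g i) (c i), fun _ => wk l,
    fun _ => isArchTest_prod hg, fun _ => isFinTest_wk hl, fun x y => by
      rw [Fintype.sum_unique]; rfl⟩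

theorem isTestKer_zero : IsTestKer (fun _ _ : X D => (0 : ℂ)) :=
  ⟨Empty, inferInstance, fun j => j.elim, fun j => j.elim, fun j => j.elim, fun j => j.elim,
    fun x y => by simp⟩

/-- The operator with product kernel on functions on `XI`. -/
noncomputable def opA (g : D.I → ℝ → ℂ) (φ : XI D.toArch → ℂ) (x : XI D.toArch) : ℂ :=
  ∫ R, pk g x R * φ R

theorem integrable_opA {g : D.I → ℝ → ℂ} (hg : ∀ i, IsTest (g i)) {φ : XI D.toArch → ℂ}
    (hφ : Continuous φ) (x : XI D.toArch) :
    Integrable (fun R => pk g x R * φ R) (volume : Measure (XI D.toArch)) := by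
  obtain ⟨V, hV⟩ := exists_pk_radius hg
  have : IsFiniteMeasureOnCompacts (volume : Measure (XI D.toArch)) :=
    inferInstanceAs (IsFiniteMeasureOnCompacts
      (Measure.pi fun _ : D.I => (volume : Measure H3)))
  have hc : Continuous fun R : XI D.toArch => pk g x R := by
    have := (continuous_pk hg).comp (Continuous.prodMk_right x)
    exact this
  refine integrable_of_compact (hc.mul hφ) (isCompact_pkball x V) ?_
  intro R hR
  by_contra hne
  exact hR (hV x R (left_ne_zero_of_mul hne))

/-- The operator `R(pk g ⊗ κ)` is the composition of `opA g` and the action of `κ`. -/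
theorem appK_tensor {g : D.I → ℝ → ℂ} (hg : ∀ i, IsTest (g i))
    {κ : Y D.toLevel → Y D.toLevel → ℂ} (hκ : RF κ) {φ : X D → ℂ} (hφ : Continuous φ) (x : X D) :
    appK volume (fun x y : X D => pk g x.1 y.1 * κ x.2 y.2) φ x
      = ka κ (fun y => opA g (fun R => φ (R, y)) x.1) x.2 := by
  obtain ⟨V, hV⟩ := exists_pk_radius hg
  unfold appK
  rw [integral_X_eq_sum (s := (hκ x.2).toFinset), hκ.ka_eq]
  · refine Finset.sum_congr rfl fun y _ => ?_
    unfold opA
    rw [← integral_const_mul]
    refine integral_congr_ae (Eventually.of_forall fun R => ?_)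
    show pk g x.1 R * κ x.2 y * φ (R, y) = κ x.2 y * (pk g x.1 R * φ (R, y))
    ring
  · refine integrable_X ?_ (isCompact_pkball x.1 V) (s := (hκ x.2).toFinset) ?_
    · have c1 : Continuous fun R : XI D.toArch => pk g x.1 R := by
        have := (continuous_pk hg).comp (Continuous.prodMk_right x.1)
        exact this
      have c2 : Continuous fun y : Y D.toLevel => κ x.2 y := continuous_of_discreteTopology
      have c3 : Continuous fun y : X D => pk g x.1 y.1 := by
        have := c1.comp (continuous_fst (X := XI D.toArch) (Y := Y D.toLevel))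
        exact this
      have c4 : Continuous fun y : X D => κ x.2 y.2 := by
        have := c2.comp (continuous_snd (X := XI D.toArch) (Y := Y D.toLevel))
        exact this
      exact (c3.mul c4).mul hφ
    · intro R y hne
      have h1 := left_ne_zero_of_mul hne
      exact ⟨hV _ _ (left_ne_zero_of_mul h1),
        (Set.Finite.mem_toFinset _).2 (right_ne_zero_of_mul h1)⟩
  · intro y hy R
    rw [Set.Finite.mem_toFinset] at hy
    have : κ x.2 y = 0 := by
      by_contra hc
      exact hy hc
    show pk g x.1 R * κ x.2 y * φ (R, y) = 0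
    rw [this]; ring

theorem opA_pk {g g' : D.I → ℝ → ℂ} (hg : ∀ i, IsTest (g i)) (hg' : ∀ i, IsTest (g' i))
    (x z : XI D.toArch) :
    opA g (fun R => pk g' R z) x = pk (fun i => cv (g i) (g' i)) x z :=
  integral_prod_kfun hg hg' x z

theorem opA_mul_const (g : D.I → ℝ → ℂ) (φ : XI D.toArch → ℂ) (c : ℂ) (x : XI D.toArch) :
    opA g (fun R => φ R * c) x = opA g φ x * c := by
  unfold opA
  rw [← integral_mul_const]
  refine integral_congr_ae (Eventually.of_forall fun R => ?_)
  show pk g x R * (φ R * c) = pk g x R * φ R * c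
  ring

theorem continuous_bk_left {g : D.I → ℝ → ℂ} (hg : ∀ i, IsTest (g i)) {l : List (Pl F)}
    (hl : Good D.toLevel l) (z : X D) : Continuous fun x => bk g l x z := by
  have := (isTestKer_bk hg hl).continuous.comp (Continuous.prodMk_left (X := X D) z)
  exact this

/-- composition of basic spherical kernels -/
theorem integral_bk_bk {g g' : D.I → ℝ → ℂ} (hg : ∀ i, IsTest (g i)) (hg' : ∀ i, IsTest (g' i))
    {l l' : List (Pl F)} (hl : Good D.toLevel l) (hl' : Good D.toLevel l') (x z : X D) :
    ∫ y, bk g l x y * bk g' l' y z = bk (fun i => cv (g i) (g' i)) (l ++ l') x z := by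
  have h1 := appK_tensor hg (RF_wk hl) (continuous_bk_left hg' hl' z) x
  unfold appK at h1
  change (∫ y, bk g l x y * bk g' l' y z) = _ at h1
  rw [h1]
  have h2 : ∀ y : Y D.toLevel, opA g (fun R => bk g' l' (R, y) z) x.1
      = pk (fun i => cv (g i) (g' i)) x.1 z.1 * wk l' y z.2 := by
    intro y
    rw [← opA_pk hg hg', ← opA_mul_const]
    rfl
  simp_rw [h2]
  rw [(RF_wk hl).ka_smul]
  show _ * ka (wk l) (fun y => wk l' y z.2) x.2 = _
  rw [← kc_eq_ka, ← wk_append hl]
  rfl

end Fermat.Agent.LT.B
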