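import Fermat.Agent.LT.B.SphKer
import Fermat.Agent.LT.B.SpecAbs
import Fermat.Agent.LT.B.SelfAdj

/-!
# LT, piece B: operators on functions on `X D` and spherical kernels

* `opF κ` : the action of a finite kernel on the second variable;
* composition formulas: `opF κ`, `RX i g`, `appK k'` after `appK k`;
* `Sph D P` : the span of the basic spherical kernels.
-/

set_option autoImplicit false
set_option maxHeartbeats 400000

open NumberField IsDedekindDomain Matrix MeasureTheory Set Filter Topology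
open Fermat.LT Fermat.Agent.LT.CTree Fermat.Agent.LT.CArch

namespace Fermat.Agent.LT.B

variable {F : Type} [Field F] [NumberField F] {D : Datum F}

/-! ### composition of test kernels -/

theorem CKer.appK_appK {k k' : X D → X D → ℂ} (hk : CKer (PG F) k) (hk' : CKer (PG F) k')
    {φ : X D → ℂ} (hφ : Continuous φ) (x : X D) :
    appK volume k (appK volume k' φ) x
      = appK volume (fun x z => ∫ y, k x y * k' y z) φ x := by
  obtain ⟨C, hC, h0⟩ := hk.supp {x} isCompact_singleton
  obtain ⟨C', hC', h0'⟩ := hk'.supp C hC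
  unfold appK
  have e1 : ∀ y, k x y * ∫ z, k' y z * φ z = ∫ z, k x y * (k' y z * φ z) := fun y =>
    (integral_const_mul _ _).symm
  have e2 : ∀ z, (∫ y, k x y * k' y z) * φ z = ∫ y, k x y * (k' y z * φ z) := fun z => by
    rw [← integral_mul_const]
    refine integral_congr_ae (Eventually.of_forall fun y => ?_)
    show k x y * k' y z * φ z = k x y * (k' y z * φ z)
    ring
  simp_rw [e1, e2]
  refine integral_integral_swap ?_
  have hcont : Continuous (Function.uncurry fun y z : X D => k x y * (k' y z * φ z)) := by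
    have c1 : Continuous fun y : X D => k x y := by
      have := hk.cont.comp (Continuous.prodMk_right (X := X D) (Y := X D) x)
      exact this
    have c2 : Continuous fun p : X D × X D => k x p.1 := c1.comp continuous_fst
    have c3 : Continuous fun p : X D × X D => φ p.2 := hφ.comp continuous_snd
    exact c2.mul (hk'.cont.mul c3)
  refine integrable_of_compact hcont (hC.prod hC') ?_
  rintro ⟨y, z⟩ hyz
  show k x y * (k' y z * φ z) = 0
  by_cases hy : y ∈ C
  · have hz : z ∉ C' := fun hz => hyz ⟨hy, hz⟩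
    rw [h0' y hy z hz]; ring
  · rw [h0 x rfl y hy]; ring

/-! ### finite kernels -/

/-- The action of a finite kernel on the second variable. -/
noncomputable def opF (κ : Y D.toLevel → Y D.toLevel → ℂ) (φ : X D → ℂ) (x : X D) : ℂ :=
  ka κ (fun y => φ (x.1, y)) x.2

theorem opF_tk {w : Pl F} (hw : D.n w = 0) (φ : X D → ℂ) : opF (tk w) φ = TX w φ := by
  funext x
  unfold opF TX
  rw [ka_tk hw]

theorem opF_eq_sum {κ : Y D.toLevel → Y D.toLevel → ℂ} (hκ : RF κ) (φ : X D → ℂ) (x : X D) :
    opF κ φ x = ∑ y ∈ (hκ x.2).toFinset, κ x.2 y * φ (x.1, y) := hκ.ka_eq _ _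

theorem opF_opF {κ κ' : Y D.toLevel → Y D.toLevel → ℂ} (hκ : RF κ) (hκ' : RF κ') (φ : X D → ℂ) :
    opF κ (opF κ' φ) = opF (kc κ κ') φ := by
  funext x
  unfold opF
  rw [ka_kc hκ hκ']

theorem continuous_opF {κ : Y D.toLevel → Y D.toLevel → ℂ} (hκ : RF κ) {φ : X D → ℂ}
    (hφ : Continuous φ) : Continuous (opF κ φ) := by
  rw [continuous_prod_of_discrete_right]
  intro y
  have h1 : ∀ R : XI D.toArch, opF κ φ (R, y) = ∑ z ∈ (hκ y).toFinset, κ y z * φ (R, z) :=
    fun R => opF_eq_sum hκ φ (R, y)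
  simp_rw [h1]
  refine continuous_finsetSum _ fun z _ => continuous_const.mul ?_
  have := hφ.comp (Continuous.prodMk_left (X := XI D.toArch) z)
  exact this

theorem opF_smul_pg {κ : Y D.toLevel → Y D.toLevel → ℂ}
    (hinv : ∀ (γ : PG F) y y', κ (γ • y) (γ • y') = κ y y') {φ : X D → ℂ}
    (hφ : ∀ (γ : PG F) x, φ (γ • x) = φ x) (γ : PG F) (x : X D) :
    opF κ φ (γ • x) = opF κ φ x := by
  unfold opF ka
  rw [← finsum_comp_equiv (MulAction.toPerm γ)]
  refine finsum_congr fun y => ?_
  rw [MulAction.toPerm_apply]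
  show κ (γ • x.2) (γ • y) * φ (γ • x.1, γ • y) = κ x.2 y * φ (x.1, y)
  rw [hinv]
  congr 1
  exact hφ γ (x.1, y)

/-- boundedness of the row sums of a finite test kernel -/
theorem IsFinTest.exists_rowsum {κ : Y D.toLevel → Y D.toLevel → ℂ} (h : IsFinTest κ) :
    ∃ A : ℝ, 0 ≤ A ∧ ∀ (φ : Y D.toLevel → ℂ) (B : ℝ), (∀ y, ‖φ y‖ ≤ B) → ∀ y, ‖ka κ φ y‖ ≤ A * B := by
  obtain ⟨n, hn⟩ := h.exists_ncard_le
  obtain ⟨a, ha⟩ := h.bdd
  refine ⟨n * |a|, by positivity, fun φ B hB y => ?_⟩
  have hB0 : 0 ≤ B := (norm_nonneg _).trans (hB y)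
  rw [RF.ka_eq h.fin]
  refine (norm_sum_le _ _).trans ?_
  calc ∑ x ∈ (h.fin y).toFinset, ‖κ y x * φ x‖ ≤ ∑ _x ∈ (h.fin y).toFinset, |a| * B := by
        refine Finset.sum_le_sum fun x _ => ?_
        rw [norm_mul]
        exact mul_le_mul ((ha y x).trans (le_abs_self a)) (hB x) (norm_nonneg _) (abs_nonneg _)
    _ = (h.fin y).toFinset.card * (|a| * B) := by rw [Finset.sum_const, nsmul_eq_mul]
    _ ≤ n * (|a| * B) := by
        gcongr
        have := hn y
        rwa [Set.ncard_eq_toFinset_card _ (h.fin y)] at this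
    _ = n * |a| * B := by ring

theorem opF_mem_autFun {κ : Y D.toLevel → Y D.toLevel → ℂ} (h : IsFinTest κ) {φ : X D → ℂ}
    (hφ : φ ∈ autFun (PG F) (X D)) : opF κ φ ∈ autFun (PG F) (X D) := by
  obtain ⟨h1, h2, B, hB⟩ := hφ
  obtain ⟨A, hA0, hA⟩ := h.exists_rowsum
  exact ⟨continuous_opF h.fin h1, fun γ x => opF_smul_pg h.inv h2 γ x,
    A * B, fun x => hA _ B (fun y => hB _) x.2⟩

theorem opF_appK {κ : Y D.toLevel → Y D.toLevel → ℂ} (hκ : RF κ) {k : X D → X D → ℂ}
    (hk : CKer (PG F) k) {φ : X D → ℂ} (hφ : LocallyIntegrable φ (volume : Measure (X D)))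
    (x : X D) : opF κ (appK volume k φ) x
      = appK volume (fun x z => opF κ (fun y => k y z) x) φ x := by
  rw [opF_eq_sum hκ]
  unfold appK
  have e1 : ∀ y, κ x.2 y * ∫ z, k (x.1, y) z * φ z = ∫ z, κ x.2 y * (k (x.1, y) z * φ z) :=
    fun y => (integral_const_mul _ _).symm
  simp_rw [e1]
  rw [← integral_finsetSum]
  · refine integral_congr_ae (Eventually.of_forall fun z => ?_)
    show ∑ y ∈ _, κ x.2 y * (k (x.1, y) z * φ z) = opF κ (fun y => k y z) x * φ z
    rw [opF_eq_sum hκ, Finset.sum_mul]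
    exact Finset.sum_congr rfl fun y _ => by ring
  · exact fun y _ => (hk.integrable hφ (x.1, y)).const_mul _

/-! ### archimedean operators -/

theorem RX_def (i : D.I) (g : ℝ → ℂ) (φ : X D → ℂ) (x : X D) :
    RX i g φ x = ∫ R : H3, kfun g (H3.ch (x.1 i) R) * φ (updI x i R) := rfl

theorem integrable_RX {g : ℝ → ℂ} (hg : IsTest g) (i : D.I) {φ : X D → ℂ} (hφ : Continuous φ)
    (x : X D) : Integrable fun R : H3 => kfun g (H3.ch (x.1 i) R) * φ (updI x i R) :=
  integrable_kopH hg (hφ.comp (continuous_updI x i)) (x.1 i)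

theorem RX_add {g : ℝ → ℂ} (hg : IsTest g) (i : D.I) {φ ψ : X D → ℂ} (hφ : Continuous φ)
    (hψ : Continuous ψ) (x : X D) : RX i g (φ + ψ) x = RX i g φ x + RX i g ψ x := by
  rw [RX_def, RX_def, RX_def, ← integral_add (integrable_RX hg i hφ x) (integrable_RX hg i hψ x)]
  refine integral_congr_ae (Eventually.of_forall fun R => ?_)
  show _ * (φ _ + ψ _) = _ * φ _ + _ * ψ _
  ring

theorem RX_smul (i : D.I) (g : ℝ → ℂ) (c : ℂ) (φ : X D → ℂ) (x : X D) :
    RX i g (fun y => c * φ y) x = c * RX i g φ x := by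
  rw [RX_def, RX_def, ← integral_const_mul]
  refine integral_congr_ae (Eventually.of_forall fun R => ?_)
  show _ * (c * φ _) = c * (_ * φ _)
  ring

/-- `RX i g` after `appK k`. -/
theorem RX_appK {g : ℝ → ℂ} (hg : IsTest g) (i : D.I) {k : X D → X D → ℂ}
    (hk : CKer (PG F) k) {φ : X D → ℂ} (hφ : Continuous φ) (x : X D) :
    RX i g (appK volume k φ) x
      = appK volume (fun x z => RX i g (fun y => k y z) x) φ x := by
  obtain ⟨V, hV1, hV⟩ := hg.exists_kfun_eq_zero
  have hb : IsCompact (H3.ball (x.1 i) V) := H3.isCompact_ball _ _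
  obtain ⟨C', hC', h0'⟩ := hk.supp _ (hb.image (continuous_updI x i))
  rw [RX_def]
  unfold appK
  have e1 : ∀ R : H3, kfun g (H3.ch (x.1 i) R) * ∫ z, k (updI x i R) z * φ z
      = ∫ z, kfun g (H3.ch (x.1 i) R) * (k (updI x i R) z * φ z) := fun y =>
    (integral_const_mul _ _).symm
  have e2 : ∀ z, RX i g (fun y => k y z) x * φ z
      = ∫ R : H3, kfun g (H3.ch (x.1 i) R) * (k (updI x i R) z * φ z) := fun z => by
    rw [RX_def, ← integral_mul_const]
    refine integral_congr_ae (Eventually.of_forall fun R => ?_)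
    show kfun g (H3.ch (x.1 i) R) * k (updI x i R) z * φ z = _
    ring
  simp_rw [e1, e2]
  refine integral_integral_swap ?_
  have c0 : Continuous fun R : H3 => kfun g (H3.ch (x.1 i) R) := by
    have := (continuous_kfun_ch hg).comp (Continuous.prodMk_right (X := H3) (Y := H3) (x.1 i))
    exact this
  have c1 : Continuous fun p : H3 × X D => kfun g (H3.ch (x.1 i) p.1) := by
    have := c0.comp (continuous_fst (X := H3) (Y := X D))
    exact this
  have c2 : Continuous fun p : H3 × X D => (updI x i p.1, p.2) :=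
    ((continuous_updI x i).comp continuous_fst).prodMk continuous_snd
  have c3 : Continuous fun p : H3 × X D => k (updI x i p.1) p.2 := by
    have := hk.cont.comp c2
    exact this
  have c4 : Continuous fun p : H3 × X D => φ p.2 := hφ.comp continuous_snd
  refine integrable_of_compact (c1.mul (c3.mul c4)) (hb.prod hC') ?_
  rintro ⟨R, z⟩ hRz
  show kfun g (H3.ch (x.1 i) R) * (k (updI x i R) z * φ z) = 0
  by_cases hR : R ∈ H3.ball (x.1 i) V
  · have hz : z ∉ C' := fun hz => hRz ⟨hR, hz⟩
    rw [h0' _ ⟨R, hR, rfl⟩ z hz]; ring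
  · rw [H3.mem_ball, not_le] at hR
    rw [hV _ hR.le]; ring

theorem updI_ne (x : X D) {i j : D.I} (h : j ≠ i) (R : H3) : (updI x i R).1 j = x.1 j := by
  unfold updI
  exact Function.update_of_ne h R x.1

/-- `RX i g` applied to a basic kernel. -/
theorem RX_bk {g₀ : ℝ → ℂ} (hg₀ : IsTest g₀) (i : D.I) {g : D.I → ℝ → ℂ}
    (hg : ∀ i, IsTest (g i)) (l : List (Pl F)) (x z : X D) :
    RX i g₀ (fun y => bk g l y z) x = bk (Function.update g i (cv g₀ (g i))) l x z := by
  rw [RX_def]
  have e1 : ∀ R : H3, kfun g₀ (H3.ch (x.1 i) R) * bk g l (updI x i R) z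
      = (kfun g₀ (H3.ch (x.1 i) R) * kfun (g i) (H3.ch R (z.1 i))) *
        ((∏ j ∈ Finset.univ.erase i, kfun (g j) (H3.ch (x.1 j) (z.1 j))) * wk l x.2 z.2) := by
    intro R
    unfold bk pk
    rw [← Finset.mul_prod_erase Finset.univ _ (Finset.mem_univ i), updI_coord]
    have h2 : ∏ j ∈ Finset.univ.erase i, kfun (g j) (H3.ch ((updI x i R).1 j) (z.1 j))
        = ∏ j ∈ Finset.univ.erase i, kfun (g j) (H3.ch (x.1 j) (z.1 j)) :=
      Finset.prod_congr rfl fun j hj => by rw [updI_ne x (Finset.ne_of_mem_erase hj)]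
    rw [h2]
    show _ * (_ * wk l x.2 z.2) = _
    ring
  simp_rw [e1]
  rw [integral_mul_const, integral_kfun_mul_kfun hg₀ (hg i)]
  unfold bk pk
  rw [← Finset.mul_prod_erase Finset.univ (fun j => kfun (Function.update g i (cv g₀ (g i)) j)
    (H3.ch (x.1 j) (z.1 j))) (Finset.mem_univ i), Function.update_self]
  have h3 : ∏ j ∈ Finset.univ.erase i, kfun (Function.update g i (cv g₀ (g i)) j)
      (H3.ch (x.1 j) (z.1 j)) = ∏ j ∈ Finset.univ.erase i, kfun (g j) (H3.ch (x.1 j) (z.1 j)) :=
    Finset.prod_congr rfl fun j hj => by rw [Function.update_of_ne (Finset.ne_of_mem_erase hj)]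
  rw [h3]
  ring

/-- `TX w` applied to a basic kernel. -/
theorem TX_bk {w : Pl F} (hw : D.n w = 0) (g : D.I → ℝ → ℂ) {l : List (Pl F)}
    (x z : X D) : TX w (fun y => bk g l y z) x = bk g (w :: l) x z := by
  unfold TX
  have h1 : (fun y => bk g l (x.1, y) z) = fun y => pk g x.1 z.1 * wk l y z.2 := rfl
  rw [h1, ← ka_tk hw, (RF_tk hw).ka_smul]
  rfl

theorem ka_wk_of_isEig {P : Set (Pl F)} (hP : ∀ w ∈ P, D.n w = 0) {lam : Pl F → ℂ}
    {s : D.I → ℂ} {φ : X D → ℂ} (h : IsEig P lam s φ) (R : XI D.toArch) {l : List (Pl F)}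
    (hl : ∀ w ∈ l, w ∈ P) (y : Y D.toLevel) :
    ka (wk l) (fun y => φ (R, y)) y
      = (l.map fun w => (sq w : ℂ) * lam w).prod * φ (R, y) := by
  induction l generalizing y with
  | nil => rw [ka_wk_nil]; simp
  | cons w l ih =>
    have hgood : Good D.toLevel (w :: l) := fun v hv => hP v (hl v hv)
    rw [ka_wk_cons hgood]
    have h4 : ka (wk l) (fun y => φ (R, y))
        = fun y => (l.map fun w => (sq w : ℂ) * lam w).prod * φ (R, y) := by
      funext y
      exact ih (fun v hv => hl v (List.mem_cons_of_mem _ hv)) y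
    rw [h4, ← ka_tk hgood.of_cons.1, (RF_tk hgood.of_cons.1).ka_smul, ka_tk hgood.of_cons.1]
    have h5 := h.hecke w (hl w (List.mem_cons_self ..)) (R, y)
    have h6 : TY w (fun y => φ (R, y)) y = (sq w : ℂ) * lam w * φ (R, y) := h5
    show _ * TY w (fun y => φ (R, y)) y = _
    rw [h6, List.map_cons, List.prod_cons]
    ring

/-- Basic kernels act on joint eigenfunctions by scalars. -/
theorem appK_bk_of_isEig {P : Set (Pl F)} (hP : ∀ w ∈ P, D.n w = 0) {lam : Pl F → ℂ}
    {s : D.I → ℂ} {φ : X D → ℂ} (h : IsEig P lam s φ) (hφ : Continuous φ) {g : D.I → ℝ → ℂ}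
    (hg : ∀ i, IsTest (g i)) {l : List (Pl F)} (hl : ∀ w ∈ l, w ∈ P) (x : X D) :
    appK volume (bk g l) φ x
      = ((∏ i, hat (g i) (s i)) * (l.map fun w => (sq w : ℂ) * lam w).prod) * φ x := by
  have hgood : Good D.toLevel l := fun w hw => hP w (hl w hw)
  have h1 := appK_tensor hg (RF_wk hgood) hφ x
  have e0 : appK volume (bk g l) φ x
      = appK volume (fun x y : X D => pk g x.1 y.1 * wk l x.2 y.2) φ x := rfl
  rw [e0, h1]
  have h2 : ∀ y : Y D.toLevel, opA g (fun R => φ (R, y)) x.1
      = (∏ i, hat (g i) (s i)) * φ (x.1, y) := by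
    intro y
    have := integral_pi_eigen (fun i R => kfun (g i) (H3.ch (x.1 i) R)) (fun i => by
      have := (continuous_kfun_ch (hg i)).comp (Continuous.prodMk_right (X := H3) (Y := H3) (x.1 i))
      exact this) (fun i => H3.ball (x.1 i) ((hg i).exists_kfun_eq_zero.choose))
      (fun i => H3.isCompact_ball _ _) (fun i R hR => by
        rw [H3.mem_ball, not_le] at hR
        exact (hg i).exists_kfun_eq_zero.choose_spec.2 _ hR.le)
      (fun R => φ (R, y)) (by
        have := hφ.comp (Continuous.prodMk_left (X := XI D.toArch) y)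
        exact this) x.1 (fun i => hat (g i) (s i)) (by
        intro i z hz
        have h3 := h.arch i (g i) (hg i) (z, y)
        rw [RX_def] at h3
        rw [← hz]
        exact h3)
    exact this
  simp_rw [h2]
  rw [(RF_wk hgood).ka_smul, mul_assoc]
  show _ * ka (wk l) (fun y => φ (x.1, y)) x.2 = _
  rw [ka_wk_of_isEig hP h x.1 hl x.2]

/-! ### the space of spherical kernels -/

/-- The basic spherical kernels for the set `P` of places. -/
def SphSet (D : Datum F) (P : Set (Pl F)) : Set (X D → X D → ℂ) :=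
  {k | ∃ (g : D.I → ℝ → ℂ) (l : List (Pl F)), (∀ i, IsTest (g i)) ∧ (∀ w ∈ l, w ∈ P) ∧ k = bk g l}

/-- The spherical kernels for the set `P` of places. -/
def Sph (D : Datum F) (P : Set (Pl F)) : Submodule ℂ (X D → X D → ℂ) :=
  Submodule.span ℂ (SphSet D P)

variable {P : Set (Pl F)}

theorem bk_mem_Sph {g : D.I → ℝ → ℂ} (hg : ∀ i, IsTest (g i)) {l : List (Pl F)}
    (hl : ∀ w ∈ l, w ∈ P) : bk g l ∈ Sph D P :=
  Submodule.subset_span ⟨g, l, hg, hl, rfl⟩

theorem Sph_mono {P' : Set (Pl F)} (h : P ⊆ P') : Sph D P ≤ Sph D P' :=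
  Submodule.span_mono fun _ ⟨g, l, hg, hl, hk⟩ => ⟨g, l, hg, fun w hw => h (hl w hw), hk⟩

theorem isTestKer_of_mem_Sph (hP : ∀ w ∈ P, D.n w = 0) {k : X D → X D → ℂ} (hk : k ∈ Sph D P) :
    IsTestKer k := by
  refine Submodule.span_induction (p := fun k _ => IsTestKer k) ?_ ?_ ?_ ?_ hk
  · rintro _ ⟨g, l, hg, hl, rfl⟩
    exact isTestKer_bk hg fun w hw => hP w (hl w hw)
  · exact isTestKer_zero
  · exact fun k k' _ _ h h' => h.add h'
  · exact fun a k _ h => h.const_mul a

theorem symm_of_mem_Sph (hP : ∀ w ∈ P, D.n w = 0) {k : X D → X D → ℂ} (hk : k ∈ Sph D P)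
    (x y : X D) : k x y = k y x := by
  revert x y
  refine Submodule.span_induction (p := fun k _ => ∀ x y, k x y = k y x) ?_ ?_ ?_ ?_ hk
  · rintro _ ⟨g, l, hg, hl, rfl⟩ x y
    unfold bk
    rw [pk_comm, wk_symm fun w hw => hP w (hl w hw)]
  · intro x y; rfl
  · intro k k' _ _ h h' x y
    show k x y + k' x y = k y x + k' y x
    rw [h, h']
  · intro a k _ h x y
    show a * k x y = a * k y x
    rw [h]

theorem conj_mem_Sph {k : X D → X D → ℂ} (hk : k ∈ Sph D P) :
    (fun x y => (starRingEnd ℂ) (k x y)) ∈ Sph D P := by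
  refine Submodule.span_induction
    (p := fun k _ => (fun x y => (starRingEnd ℂ) (k x y)) ∈ Sph D P) ?_ ?_ ?_ ?_ hk
  · rintro _ ⟨g, l, hg, hl, rfl⟩
    have e : (fun x y => (starRingEnd ℂ) (bk g l x y))
        = bk (D := D) (fun i u => (starRingEnd ℂ) (g i u)) l := by
      funext x y
      unfold bk pk
      rw [map_mul, wk_conj, map_prod]
      congr 1
      exact Finset.prod_congr rfl fun i _ => (kfun_conj (hg i).evenSmooth _).symm
    rw [e]
    exact bk_mem_Sph (fun i => (hg i).conj) hl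
  · have e : (fun x y : X D => (starRingEnd ℂ) ((0 : X D → X D → ℂ) x y)) = 0 := by
      funext x y
      exact map_zero _
    rw [e]
    exact zero_mem _
  · intro k k' _ _ h h'
    have e : (fun x y => (starRingEnd ℂ) ((k + k') x y))
        = (fun x y => (starRingEnd ℂ) (k x y)) + fun x y => (starRingEnd ℂ) (k' x y) := by
      funext x y
      exact map_add _ _ _
    rw [e]
    exact add_mem h h'
  · intro a k _ h
    have e : (fun x y => (starRingEnd ℂ) ((a • k) x y))
        = (starRingEnd ℂ) a • fun x y => (starRingEnd ℂ) (k x y) := by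
      funext x y
      exact map_mul _ _ _
    rw [e]
    exact Submodule.smul_mem _ _ h

/-- integrability of the composition integrand -/
theorem integrable_comp {k k' : X D → X D → ℂ} (hk : IsTestKer k) (hk' : IsTestKer k')
    (x z : X D) : Integrable (fun y => k x y * k' y z) (volume : Measure (X D)) := by
  have hc : Continuous fun y => k' y z := by
    have := hk'.continuous.comp (Continuous.prodMk_left (X := X D) z)
    exact this
  exact hk.cKer.integrable hc.locallyIntegrable x

theorem comp_mem_Sph (hP : ∀ w ∈ P, D.n w = 0) {k k' : X D → X D → ℂ} (hk : k ∈ Sph D P)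
    (hk' : k' ∈ Sph D P) : (fun x z => ∫ y, k x y * k' y z) ∈ Sph D P := by
  refine Submodule.span_induction
    (p := fun k _ => (fun x z => ∫ y, k x y * k' y z) ∈ Sph D P) ?_ ?_ ?_ ?_ hk
  · rintro _ ⟨g, l, hg, hl, rfl⟩
    have hgl : Good D.toLevel l := fun w hw => hP w (hl w hw)
    refine Submodule.span_induction
      (p := fun k' _ => (fun x z => ∫ y, bk g l x y * k' y z) ∈ Sph D P) ?_ ?_ ?_ ?_ hk'
    · rintro _ ⟨g', l', hg', hl', rfl⟩
      have hgl' : Good D.toLevel l' := fun w hw => hP w (hl' w hw)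
      have e : (fun x z => ∫ y, bk g l x y * bk g' l' y z)
          = bk (D := D) (fun i => cv (g i) (g' i)) (l ++ l') := by
        funext x z
        exact integral_bk_bk hg hg' hgl hgl' x z
      rw [e]
      refine bk_mem_Sph (fun i => (hg i).cv (hg' i)) fun w hw => ?_
      rcases List.mem_append.1 hw with h | h
      · exact hl w h
      · exact hl' w h
    · have e : (fun x z => ∫ y, bk g l x y * (0 : X D → X D → ℂ) y z) = 0 := by
        funext x z; simp
      rw [e]; exact zero_mem _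
    · intro k1 k2 h1 h2 h h'
      have e : (fun x z => ∫ y, bk g l x y * (k1 + k2) y z)
          = (fun x z => ∫ y, bk g l x y * k1 y z) + fun x z => ∫ y, bk g l x y * k2 y z := by
        funext x z
        show _ = (∫ y, bk g l x y * k1 y z) + ∫ y, bk g l x y * k2 y z
        rw [← integral_add (integrable_comp (isTestKer_bk hg hgl) (isTestKer_of_mem_Sph hP h1) x z)
          (integrable_comp (isTestKer_bk hg hgl) (isTestKer_of_mem_Sph hP h2) x z)]
        refine integral_congr_ae (Eventually.of_forall fun y => ?_)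
        show _ * (k1 y z + k2 y z) = _
        ring
      rw [e]; exact add_mem h h'
    · intro a k1 h1 h
      have e : (fun x z => ∫ y, bk g l x y * (a • k1) y z)
          = a • fun x z => ∫ y, bk g l x y * k1 y z := by
        funext x z
        show _ = a * ∫ y, bk g l x y * k1 y z
        rw [← integral_const_mul]
        refine integral_congr_ae (Eventually.of_forall fun y => ?_)
        show _ * (a * k1 y z) = _
        ring
      rw [e]; exact Submodule.smul_mem _ _ h
  · have e : (fun x z => ∫ y, (0 : X D → X D → ℂ) x y * k' y z) = 0 := by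
      funext x z; simp
    rw [e]; exact zero_mem _
  · intro k1 k2 h1 h2 h h'
    have e : (fun x z => ∫ y, (k1 + k2) x y * k' y z)
        = (fun x z => ∫ y, k1 x y * k' y z) + fun x z => ∫ y, k2 x y * k' y z := by
      funext x z
      show _ = (∫ y, k1 x y * k' y z) + ∫ y, k2 x y * k' y z
      rw [← integral_add (integrable_comp (isTestKer_of_mem_Sph hP h1)
        (isTestKer_of_mem_Sph hP hk') x z)
        (integrable_comp (isTestKer_of_mem_Sph hP h2) (isTestKer_of_mem_Sph hP hk') x z)]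
      refine integral_congr_ae (Eventually.of_forall fun y => ?_)
      show (k1 x y + k2 x y) * _ = _
      ring
    rw [e]; exact add_mem h h'
  · intro a k1 h1 h
    have e : (fun x z => ∫ y, (a • k1) x y * k' y z)
        = a • fun x z => ∫ y, k1 x y * k' y z := by
      funext x z
      show _ = a * ∫ y, k1 x y * k' y z
      rw [← integral_const_mul]
      refine integral_congr_ae (Eventually.of_forall fun y => ?_)
      show (a * k1 x y) * _ = _
      ring
    rw [e]; exact Submodule.smul_mem _ _ h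

/-- **Spherical kernels commute.** -/
theorem comm_of_mem_Sph (hP : ∀ w ∈ P, D.n w = 0) {k k' : X D → X D → ℂ} (hk : k ∈ Sph D P)
    (hk' : k' ∈ Sph D P) (x z : X D) : ∫ y, k x y * k' y z = ∫ y, k' x y * k y z := by
  -- `k∘k'` is symmetric
  have h1 := symm_of_mem_Sph hP (comp_mem_Sph hP hk hk') x z
  have h2 : ∫ y, k x y * k' y z = ∫ y, k z y * k' y x := h1
  rw [h2]
  refine integral_congr_ae (Eventually.of_forall fun y => ?_)
  show k z y * k' y x = k' x y * k y z
  rw [symm_of_mem_Sph hP hk z y, symm_of_mem_Sph hP hk' y x, mul_comm]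

end Fermat.Agent.LT.B
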