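import Fermat.Agent.LT.B.HS

set_option autoImplicit false

/-!
# LT, piece B: compactness of Hilbert–Schmidt operators and the trace formula `tr = ∬`
-/

set_option linter.unusedSectionVars false

namespace Fermat.Agent.LT.B

open MeasureTheory ENNReal NNReal ComplexConjugate Filter Topology
open scoped InnerProductSpace

section compact

variable {H : Type*} [NormedAddCommGroup H] [InnerProductSpace ℂ H] [CompleteSpace H]
  {ι : Type*}

theorem isCompactOperator_smulRight (v w : H) :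
    IsCompactOperator ((innerSL ℂ v).smulRight w : H →L[ℂ] H) := by
  have h1 : IsCompactOperator (ContinuousLinearMap.toSpanSingleton ℂ w : ℂ →L[ℂ] H) :=
    isCompactOperator_of_locallyCompactSpace_rng
      (ContinuousLinearMap.toSpanSingleton ℂ w)
  have h2 := h1.comp_clm (innerSL ℂ v)
  have e : (⇑((innerSL ℂ v).smulRight w : H →L[ℂ] H)) =
      (⇑(ContinuousLinearMap.toSpanSingleton ℂ w : ℂ →L[ℂ] H) ∘ ⇑(innerSL ℂ v)) := by
    funext x; simp
  rw [e]; exact h2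

theorem norm_sum_smul_le (s : Finset ι) (a : ι → ℂ) (v : ι → H) :
    ‖∑ i ∈ s, a i • v i‖ ≤ Real.sqrt (∑ i ∈ s, ‖a i‖ ^ 2) * Real.sqrt (∑ i ∈ s, ‖v i‖ ^ 2) := by
  calc ‖∑ i ∈ s, a i • v i‖ ≤ ∑ i ∈ s, ‖a i • v i‖ := norm_sum_le _ _
    _ = ∑ i ∈ s, ‖a i‖ * ‖v i‖ := by simp [norm_smul]
    _ ≤ _ := Real.sum_mul_le_sqrt_mul_sqrt s _ _

/-- An operator with `Σ ‖T e_i‖² < ∞` is compact. -/
theorem isCompactOperator_of_summable (b : HilbertBasis ι ℂ H) (T : H →L[ℂ] H)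
    (h : Summable fun i => ‖T (b i)‖ ^ 2) : IsCompactOperator T := by
  classical
  let F : Finset ι → (H →L[ℂ] H) := fun s => ∑ i ∈ s, (innerSL ℂ (b i)).smulRight (T (b i))
  have hF : ∀ s x, F s x = ∑ i ∈ s, ⟪b i, x⟫_ℂ • T (b i) := by
    intro s x
    simp [F]
  have hT : ∀ x, HasSum (fun i => ⟪b i, x⟫_ℂ • T (b i)) (T x) := by
    intro x
    have := (b.hasSum_repr x).mapL T
    simpa [b.repr_apply_apply] using this
  refine isCompactOperator_of_tendsto (F := F) (l := atTop) ?_ (Eventually.of_forall fun s => ?_)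
  · rw [Metric.tendsto_atTop]
    intro ε hε
    rw [summable_iff_vanishing_norm] at h
    obtain ⟨s₀, hs₀⟩ := h ((ε / 2) ^ 2) (by positivity)
    refine ⟨s₀, fun s hs => ?_⟩
    rw [dist_eq_norm]
    refine lt_of_le_of_lt ?_ (half_lt_self hε)
    refine ContinuousLinearMap.opNorm_le_bound _ (by positivity) fun x => ?_
    have hlim : Tendsto (fun u : Finset ι => F s x - ∑ i ∈ u, ⟪b i, x⟫_ℂ • T (b i)) atTop
        (𝓝 (F s x - T x)) := tendsto_const_nhds.sub (hT x)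
    refine le_of_tendsto hlim.norm ?_
    filter_upwards [eventually_ge_atTop s] with u hu
    have e1 : F s x - ∑ i ∈ u, ⟪b i, x⟫_ℂ • T (b i)
        = - ∑ i ∈ u \ s, ⟪b i, x⟫_ℂ • T (b i) := by
      rw [hF, ← Finset.sum_sdiff hu]; abel
    rw [e1, norm_neg]
    refine (norm_sum_smul_le _ _ _).trans ?_
    have h1 : ∑ i ∈ u \ s, ‖⟪b i, x⟫_ℂ‖ ^ 2 ≤ ‖x‖ ^ 2 := b.orthonormal.sum_inner_products_le x
    have h2 : ∑ i ∈ u \ s, ‖T (b i)‖ ^ 2 ≤ (ε / 2) ^ 2 := by
      have hd : Disjoint (u \ s) s₀ := Finset.disjoint_of_subset_right hs Finset.sdiff_disjoint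
      exact (le_abs_self _).trans (hs₀ _ hd).le
    calc Real.sqrt (∑ i ∈ u \ s, ‖⟪b i, x⟫_ℂ‖ ^ 2) * Real.sqrt (∑ i ∈ u \ s, ‖T (b i)‖ ^ 2)
        ≤ Real.sqrt (‖x‖ ^ 2) * Real.sqrt ((ε / 2) ^ 2) := by gcongr
      _ = ε / 2 * ‖x‖ := by
        rw [Real.sqrt_sq (norm_nonneg _), Real.sqrt_sq (by positivity), mul_comm]
  · have : F s ∈ compactOperator (RingHom.id ℂ) H H :=
      Submodule.sum_mem _ fun i _ => isCompactOperator_smulRight _ _
    exact this

end compact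

variable {X : Type*} [MeasurableSpace X] {μ : Measure X} [SFinite μ] {K KA KB : X → X → ℂ}

/-- Integral operators with square integrable kernels are compact. -/
theorem HasKernel.isCompactOperator {ι : Type*} [Countable ι] (b : HilbertBasis ι ℂ (Lp ℂ 2 μ))
    {T : Lp ℂ 2 μ →L[ℂ] Lp ℂ 2 μ} (h : HasKernel μ T K) (hK : SqInt μ K) :
    IsCompactOperator T :=
  isCompactOperator_of_summable b T (h.summable_norm_sq b hK)

/-! ### kernels of products -/

theorem SqInt.integrable_pair (hA : SqInt μ KA) (hB : SqInt μ KB) :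
    Integrable (fun p : X × X => KA p.2 p.1 * KB p.1 p.2) (μ.prod μ) := by
  have h1 : MemLp (fun p : X × X => KA p.2 p.1) 2 (μ.prod μ) :=
    hA.comp_measurePreserving (Measure.measurePreserving_swap (μ := μ) (ν := μ))
  exact integrable_mul_of_memLp_two h1 hB

/-- The kernel of `T_B ∘ U_σ`, `U_σ f = f ∘ σ⁻¹`. -/
theorem HasKernel.comp_equiv {TB U : Lp ℂ 2 μ →L[ℂ] Lp ℂ 2 μ} (h : HasKernel μ TB KB)
    (σ : X ≃ᵐ X) (hσ : MeasurePreserving σ μ μ)
    (hU : ∀ f : Lp ℂ 2 μ, U f =ᵐ[μ] fun x => f (σ.symm x)) :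
    HasKernel μ (TB ∘L U) (fun x y => KB x (σ y)) := by
  intro f
  filter_upwards [h (U f)] with x hx
  rw [ContinuousLinearMap.comp_apply, hx]
  have h1 : (fun y => KB x y * (U f) y) =ᵐ[μ] fun y => KB x y * f (σ.symm y) := by
    filter_upwards [hU f] with y hy
    rw [hy]
  rw [integral_congr_ae h1, ← hσ.integral_comp' (fun y => KB x y * f (σ.symm y))]
  simp

theorem SqInt.comp_equiv (h : SqInt μ KB) (σ : X ≃ᵐ X) (hσ : MeasurePreserving σ μ μ) :
    SqInt μ (fun x y => KB x (σ y)) :=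
  h.comp_measurePreserving ((MeasurePreserving.id μ).prod hσ)

/-- **Trace formula** `tr (T_A T_B) = ∬ K_A(y,x) K_B(x,y)`. -/
theorem HasKernel.hasSum_trace {ι : Type*} [Countable ι] (b : HilbertBasis ι ℂ (Lp ℂ 2 μ))
    {TA TB : Lp ℂ 2 μ →L[ℂ] Lp ℂ 2 μ} (hA : HasKernel μ TA KA) (hKA : SqInt μ KA)
    (hB : HasKernel μ TB KB) (hKB : SqInt μ KB) :
    HasSum (fun i => ⟪b i, TA (TB (b i))⟫_ℂ) (∫ y, ∫ x, KA y x * KB x y ∂μ ∂μ) := by
  have h1 := (hA.adjoint hKA).hasSum_inner b hKA.conjTranspose hB hKB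
  simp only [Complex.conj_conj, ContinuousLinearMap.adjoint_inner_left] at h1
  rw [integral_integral_swap (hKA.integrable_pair hKB)] at h1
  exact h1

/-- **Twisted trace formula** `tr (T_A T_B U_σ) = ∬ K_A(y,x) K_B(x,σ y)`. -/
theorem HasKernel.hasSum_twisted_trace {ι : Type*} [Countable ι]
    (b : HilbertBasis ι ℂ (Lp ℂ 2 μ))
    {TA TB U : Lp ℂ 2 μ →L[ℂ] Lp ℂ 2 μ} (hA : HasKernel μ TA KA) (hKA : SqInt μ KA)
    (hB : HasKernel μ TB KB) (hKB : SqInt μ KB)
    (σ : X ≃ᵐ X) (hσ : MeasurePreserving σ μ μ)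
    (hU : ∀ f : Lp ℂ 2 μ, U f =ᵐ[μ] fun x => f (σ.symm x)) :
    HasSum (fun i => ⟪b i, TA (TB (U (b i)))⟫_ℂ) (∫ y, ∫ x, KA y x * KB x (σ y) ∂μ ∂μ) := by
  have h1 : HasKernel μ (TB ∘L U) (fun x y => KB x (σ y)) := hB.comp_equiv σ hσ hU
  have h2 : SqInt μ (fun x y => KB x (σ y)) := hKB.comp_equiv σ hσ
  have h3 := HasKernel.hasSum_trace b hA hKA h1 h2
  simpa only [ContinuousLinearMap.comp_apply] using h3

/-- The kernel of a product. -/
theorem HasKernel.comp {TA TB : Lp ℂ 2 μ →L[ℂ] Lp ℂ 2 μ} (hA : HasKernel μ TA KA)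
    (hKA : SqInt μ KA) (hB : HasKernel μ TB KB) (hKB : SqInt μ KB) :
    HasKernel μ (TA ∘L TB) (fun x z => ∫ y, KA x y * KB y z ∂μ) := by
  intro f
  filter_upwards [hA (TB f), hKA.memLp_ae] with x hx hx2
  rw [ContinuousLinearMap.comp_apply, hx]
  have h1 : (fun y => KA x y * (TB f) y) =ᵐ[μ] fun y => ∫ z, KA x y * KB y z * f z ∂μ := by
    filter_upwards [hB f] with y hy
    rw [hy, ← integral_const_mul]
    refine integral_congr_ae (Eventually.of_forall fun z => ?_)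
    simp only; ring
  rw [integral_congr_ae h1]
  have hint : Integrable (Function.uncurry fun y z => KA x y * KB y z * f z) (μ.prod μ) := by
    have := hKB.integrable_tensor hx2 (Lp.memLp f)
    exact this
  rw [integral_integral_swap hint]
  refine integral_congr_ae (Eventually.of_forall fun z => ?_)
  simp only
  rw [integral_mul_const]

end Fermat.Agent.LT.B
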