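import Fermat.Agent.LT.B.SphOps

/-!
# LT, piece B: twists

A twist of `X D` (with respect to a set `P` of good places) is a homeomorphism of the form
`(x, y) ↦ (x ∘ πI, σY y)` which is compatible with an automorphism of `PGL₂(F)`, permutes the Hecke
operators at the places in `P`, and preserves the `N(𝔸) B(F)`-invariant functions.
-/

set_option autoImplicit false
set_option maxHeartbeats 400000

open NumberField IsDedekindDomain Matrix MeasureTheory Set Filter Topology
open Fermat.LT Fermat.Agent.LT.CTree Fermat.Agent.LT.CArch

namespace Fermat.Agent.LT.B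

variable {F : Type} [Field F] [NumberField F] {D : Datum F}

/-- The permutation of the archimedean coordinates. -/
def permI (π : Equiv.Perm D.I) (x : XI D.toArch) : XI D.toArch := fun i => x (π i)

theorem continuous_permI (π : Equiv.Perm D.I) : Continuous (permI (D := D) π) := by
  have : Continuous fun (x : D.I → H3) (i : D.I) => x (π i) :=
    continuous_pi fun i => continuous_apply (π i)
  exact this

/-- The homeomorphism `(x, y) ↦ (x ∘ π, σY y)`. -/
noncomputable def twX (π : Equiv.Perm D.I) (σY : Y D.toLevel ≃ Y D.toLevel) : X D ≃ₜ X D where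
  toFun x := (permI π x.1, σY x.2)
  invFun x := (permI π.symm x.1, σY.symm x.2)
  left_inv x := by
    refine Prod.ext (funext fun i => ?_) (σY.symm_apply_apply x.2)
    show x.1 (π (π.symm i)) = x.1 i
    rw [Equiv.apply_symm_apply]
  right_inv x := by
    refine Prod.ext (funext fun i => ?_) (σY.apply_symm_apply x.2)
    show x.1 (π.symm (π i)) = x.1 i
    rw [Equiv.symm_apply_apply]
  continuous_toFun := by
    have h1 : Continuous fun x : X D => permI π x.1 := (continuous_permI π).comp continuous_fst
    have h2 : Continuous fun x : X D => σY x.2 :=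
      (continuous_of_discreteTopology (f := σY)).comp continuous_snd
    exact h1.prodMk h2
  continuous_invFun := by
    have h1 : Continuous fun x : X D => permI π.symm x.1 :=
      (continuous_permI π.symm).comp continuous_fst
    have h2 : Continuous fun x : X D => σY.symm x.2 :=
      (continuous_of_discreteTopology (f := σY.symm)).comp continuous_snd
    exact h1.prodMk h2

@[simp] theorem twX_apply (π : Equiv.Perm D.I) (σY : Y D.toLevel ≃ Y D.toLevel) (x : X D) :
    twX π σY x = (permI π x.1, σY x.2) := rfl

@[simp] theorem twX_symm_apply (π : Equiv.Perm D.I) (σY : Y D.toLevel ≃ Y D.toLevel) (x : X D) :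
    (twX π σY).symm x = (permI π.symm x.1, σY.symm x.2) := rfl

theorem measurePreserving_permI (π : Equiv.Perm D.I) :
    MeasurePreserving (permI (D := D) π) volume volume := by
  have h := measurePreserving_piCongrLeft (α := fun _ : D.I => H3)
    (fun _ : D.I => (volume : Measure H3)) π.symm
  have e : ⇑(MeasurableEquiv.piCongrLeft (fun _ : D.I => H3) π.symm)
      = fun (x : D.I → H3) (i : D.I) => x (π i) := by
    funext x i
    rw [MeasurableEquiv.coe_piCongrLeft]
    obtain ⟨j, rfl⟩ := π.symm.surjective i
    rw [Equiv.piCongrLeft_apply_apply, Equiv.apply_symm_apply]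
  rw [e] at h
  exact h

theorem measurePreserving_twX (π : Equiv.Perm D.I) (σY : Y D.toLevel ≃ Y D.toLevel) :
    MeasurePreserving (twX π σY) (volume : Measure (X D)) volume :=
  (measurePreserving_permI π).prod (Y_measurePreserving σY)

/-- A twist of `X D`. -/
structure Twist (D : Datum F) (P : Set (Pl F)) where
  /-- the automorphism of `PGL₂(F)` -/
  τ : PG F ≃* PG F
  /-- the permutation of the complex places -/
  πI : Equiv.Perm D.I
  /-- the action on the finite part -/
  σY : Y D.toLevel ≃ Y D.toLevel
  /-- the permutation of the finite places -/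
  πP : Equiv.Perm (Pl F)
  stable : ∀ w, πP w ∈ P ↔ w ∈ P
  smul : ∀ (γ : PG F) (x : X D), twX πI σY (γ • x) = τ γ • twX πI σY x
  hecke : ∀ w ∈ P, ∀ (φ : Y D.toLevel → ℂ) y,
    TY (πP w) φ (σY y) = TY w (fun y => φ (σY y)) y
  nb : ∀ ψ : X D → ℂ, IsNB ψ → IsNB fun x => ψ ((twX πI σY).symm x)

/-- the homeomorphism of `X D` -/
noncomputable abbrev Twist.hX {P : Set (Pl F)} (T : Twist D P) : X D ≃ₜ X D := twX T.πI T.σY

/-- the trivial twist -/
noncomputable def Twist.refl (D : Datum F) (P : Set (Pl F)) : Twist D P where
  τ := MulEquiv.refl _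
  πI := Equiv.refl _
  σY := Equiv.refl _
  πP := Equiv.refl _
  stable _ := Iff.rfl
  smul _ _ := rfl
  hecke _ _ _ _ := rfl
  nb _ h := h

end Fermat.Agent.LT.B
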