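import Mathlib

/-!
# Weights for a countable group action and the quotient measure

`Γ` countable, acting measurably on `(X, μ)` preserving `μ`.  A *weight* is a measurable function
`w : X → ℝ≥0∞` with `∑_γ w (γ x) = 1` for all `x`.  The quotient measure is `π_* (w μ)`.
-/

set_option linter.unusedSectionVars false

open MeasureTheory MulAction Set
open scoped ENNReal

namespace Fermat.Agent.LT.B

variable {Γ X : Type*} [Group Γ] [MulAction Γ X] [MeasurableSpace X]

/-- A weight for the action of `Γ` on `X`. -/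
structure IsWeight (Γ : Type*) {X : Type*} [Group Γ] [MulAction Γ X] [MeasurableSpace X]
    (w : X → ℝ≥0∞) : Prop where
  meas : Measurable w
  sum_eq : ∀ x, ∑' γ : Γ, w (γ • x) = 1

theorem IsWeight.le_one {w : X → ℝ≥0∞} (hw : IsWeight Γ w) (x : X) : w x ≤ 1 := by
  have h := ENNReal.le_tsum (f := fun γ : Γ => w (γ • x)) 1
  rw [hw.sum_eq] at h
  simpa using h

theorem IsWeight.ne_top {w : X → ℝ≥0∞} (hw : IsWeight Γ w) (x : X) : w x ≠ ∞ :=
  ne_top_of_le_ne_top ENNReal.one_ne_top (hw.le_one x)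

theorem IsWeight.sum_inv {w : X → ℝ≥0∞} (hw : IsWeight Γ w) (x : X) :
    ∑' γ : Γ, w (γ⁻¹ • x) = 1 := by
  rw [← hw.sum_eq x]
  exact (Equiv.inv Γ).tsum_eq (fun γ => w (γ • x))

section Unfold

variable [Countable Γ] [MeasurableConstSMul Γ X] {μ : Measure X} [SMulInvariantMeasure Γ X μ]

theorem lintegral_smul (γ : Γ) (f : X → ℝ≥0∞) :
    ∫⁻ x, f (γ • x) ∂μ = ∫⁻ x, f x ∂μ := by
  have h := (measurePreserving_smul γ μ).lintegral_comp_emb (MeasurableEquiv.smul γ).measurableEmbedding f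
  exact h

/-- Unfolding for nonnegative functions. -/
theorem IsWeight.lintegral_unfold {w : X → ℝ≥0∞} (hw : IsWeight Γ w) {φ : X → ℝ≥0∞}
    (hφ : AEMeasurable φ μ) :
    ∫⁻ x, w x * ∑' γ : Γ, φ (γ • x) ∂μ = ∫⁻ x, φ x ∂μ := by
  have hq : ∀ γ : Γ, AEMeasurable (fun x => φ (γ • x)) μ := fun γ =>
    hφ.comp_quasiMeasurePreserving (measurePreserving_smul γ μ).quasiMeasurePreserving
  calc ∫⁻ x, w x * ∑' γ : Γ, φ (γ • x) ∂μ
      = ∫⁻ x, ∑' γ : Γ, w x * φ (γ • x) ∂μ := by simp_rw [ENNReal.tsum_mul_left]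
    _ = ∑' γ : Γ, ∫⁻ x, w x * φ (γ • x) ∂μ :=
        lintegral_tsum (fun γ => hw.meas.aemeasurable.mul (hq γ))
    _ = ∑' γ : Γ, ∫⁻ x, w (γ⁻¹ • x) * φ x ∂μ := by
        congr 1
        ext γ
        rw [← lintegral_smul γ (fun x => w (γ⁻¹ • x) * φ x)]
        simp
    _ = ∫⁻ x, ∑' γ : Γ, w (γ⁻¹ • x) * φ x ∂μ := by
        rw [lintegral_tsum]
        intro γ
        exact (hw.meas.comp (measurable_const_smul _)).aemeasurable.mul hφ
    _ = ∫⁻ x, φ x ∂μ := by
        congr 1
        ext x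
        rw [ENNReal.tsum_mul_right, hw.sum_inv, one_mul]

/-- Two weights give the same integrals of invariant functions. -/
theorem IsWeight.lintegral_eq {w w' : X → ℝ≥0∞} (hw : IsWeight Γ w) (hw' : IsWeight Γ w')
    {F : X → ℝ≥0∞} (hF : AEMeasurable F μ) (hinv : ∀ (γ : Γ) x, F (γ • x) = F x) :
    ∫⁻ x, w x * F x ∂μ = ∫⁻ x, w' x * F x ∂μ := by
  rw [← hw.lintegral_unfold (φ := fun x => w' x * F x) (hw'.meas.aemeasurable.mul hF)]
  congr 1
  ext x
  simp_rw [hinv, ENNReal.tsum_mul_right, hw'.sum_eq, one_mul]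

/-- Partial unfolding: `w` a weight for `Γ`, `wH` a weight for a subgroup `H`, `φ` an `H`-invariant
function.  The sum over `H \ Γ` is written with a family of representatives. -/
theorem IsWeight.lintegral_unfold_subgroup {w : X → ℝ≥0∞} (hw : IsWeight Γ w) (H : Subgroup Γ)
    {wH : X → ℝ≥0∞} (hwH : IsWeight H wH) {φ : X → ℝ≥0∞} (hφ : AEMeasurable φ μ)
    (hinv : ∀ (γ : H) x, φ (γ • x) = φ x) :
    ∫⁻ x, w x * ∑' q : Quotient (QuotientGroup.rightRel H), φ (q.out • x) ∂μ
      = ∫⁻ x, wH x * φ x ∂μ := by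
  rw [← hw.lintegral_unfold (φ := fun x => wH x * φ x) (hwH.meas.aemeasurable.mul hφ)]
  congr 1
  ext x
  congr 1
  -- sum over Γ = sum over (right coset q) and h ∈ H of (h * q.out)
  let e : H × Quotient (QuotientGroup.rightRel H) ≃ Γ :=
    { toFun := fun p => (p.1 : Γ) * p.2.out
      invFun := fun g => (⟨g * (Quotient.mk (QuotientGroup.rightRel H) g).out⁻¹, by
          have h := QuotientGroup.rightRel_apply.1
            (Quotient.exact (Quotient.out_eq (Quotient.mk (QuotientGroup.rightRel H) g)))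
          exact h⟩, Quotient.mk _ g)
      left_inv := by
        rintro ⟨h, q⟩
        have hq : Quotient.mk (QuotientGroup.rightRel H) ((h : Γ) * q.out) = q := by
          conv_rhs => rw [← Quotient.out_eq q]
          apply Quotient.sound
          apply QuotientGroup.rightRel_apply.2
          simp
        ext
        · simp [hq]
        · simp [hq]
      right_inv := by
        intro g
        simp }
  rw [← e.tsum_eq (fun γ => wH (γ • x) * φ (γ • x)), ENNReal.tsum_prod', ENNReal.tsum_comm]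
  congr 1
  ext q
  have h1 : ∀ h : H, wH (e (h, q) • x) * φ (e (h, q) • x) = wH (h • (q.out • x)) * φ (q.out • x) := by
    intro h
    have : e (h, q) • x = h • (q.out • x) := by
      change ((h : Γ) * q.out) • x = (h : Γ) • (q.out • x)
      rw [mul_smul]
    rw [this, hinv]
  simp_rw [h1, ENNReal.tsum_mul_right, hwH.sum_eq, one_mul]

end Unfold

section Exists

variable [Countable Γ] [MeasurableConstSMul Γ X]

/-- number of `γ` with `γ x ∈ U` -/
noncomputable def cnt (Γ : Type*) [Group Γ] [MulAction Γ X] (U : Set X) (x : X) : ℝ≥0∞ :=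
  ∑' γ : Γ, U.indicator 1 (γ • x)

theorem measurable_cnt {U : Set X} (hU : MeasurableSet U) : Measurable (cnt Γ U) := by
  unfold cnt
  refine Measurable.tsum fun γ => ?_
  exact (measurable_one.indicator hU).comp (measurable_const_smul γ)

theorem cnt_smul (U : Set X) (γ : Γ) (x : X) : cnt Γ U (γ • x) = cnt Γ U x := by
  unfold cnt
  rw [← (Equiv.mulRight γ).tsum_eq (fun g : Γ => U.indicator (1 : X → ℝ≥0∞) (g • x))]
  simp [mul_smul]

theorem cnt_ne_top {U : Set X} {x : X} (h : {γ : Γ | γ • x ∈ U}.Finite) : cnt Γ U x ≠ ∞ := by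
  unfold cnt
  have : ∑' γ : Γ, U.indicator (1 : X → ℝ≥0∞) (γ • x) = ∑' γ : {γ : Γ | γ • x ∈ U}, 1 := by
    rw [tsum_subtype {γ : Γ | γ • x ∈ U} (fun _ => (1 : ℝ≥0∞))]
    congr 1
  rw [this]
  have := h.fintype
  rw [tsum_fintype]
  simp

theorem cnt_ne_zero {U : Set X} {x : X} (h : ∃ γ : Γ, γ • x ∈ U) : cnt Γ U x ≠ 0 := by
  obtain ⟨γ, hγ⟩ := h
  unfold cnt
  intro h0
  have := ENNReal.tsum_eq_zero.1 h0 γ
  simp [hγ] at this

theorem cnt_eq_zero {U : Set X} {x : X} (h : ¬ ∃ γ : Γ, γ • x ∈ U) : cnt Γ U x = 0 := by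
  unfold cnt
  refine ENNReal.tsum_eq_zero.2 fun γ => ?_
  have : γ • x ∉ U := fun h' => h ⟨γ, h'⟩
  simp [this]

/-- the weight attached to a countable cover -/
noncomputable def coverWeight (Γ : Type*) [Group Γ] [MulAction Γ X] (U : ℕ → Set X) (x : X) :
    ℝ≥0∞ :=
  ∑' i : ℕ, ({y : X | ∀ j < i, cnt Γ (U j) y = 0} ∩ U i).indicator (fun y => (cnt Γ (U i) y)⁻¹) x

theorem isWeight_coverWeight {U : ℕ → Set X} (hU : ∀ i, MeasurableSet (U i))
    (hcov : ∀ x, ∃ i, ∃ γ : Γ, γ • x ∈ U i)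
    (hfin : ∀ i x, {γ : Γ | γ • x ∈ U i}.Finite) : IsWeight Γ (coverWeight Γ U) := by
  classical
  constructor
  · unfold coverWeight
    refine Measurable.tsum fun i => ?_
    refine Measurable.indicator ((measurable_cnt (hU i)).inv) ?_
    refine MeasurableSet.inter ?_ (hU i)
    have : {y : X | ∀ j < i, cnt Γ (U j) y = 0} = ⋂ j : {j // j < i}, {y | cnt Γ (U j) y = 0} := by
      ext y
      simp
    rw [this]
    exact MeasurableSet.iInter fun j => (measurable_cnt (hU j)) (measurableSet_singleton 0)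
  · intro x
    have hex : ∃ i, cnt Γ (U i) x ≠ 0 := by
      obtain ⟨i, h⟩ := hcov x
      exact ⟨i, cnt_ne_zero h⟩
    let n := Nat.find hex
    have hn : cnt Γ (U n) x ≠ 0 := Nat.find_spec hex
    have hn' : ∀ j < n, cnt Γ (U j) x = 0 := fun j hj => by
      have := Nat.find_min hex hj
      simpa using this
    have key : ∀ γ : Γ, coverWeight Γ U (γ • x) = (cnt Γ (U n) x)⁻¹ * (U n).indicator 1 (γ • x) := by
      intro γ
      unfold coverWeight
      rw [tsum_eq_single n]
      · by_cases h : γ • x ∈ U n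
        · rw [indicator_of_mem, indicator_of_mem h, cnt_smul]
          · simp
          · exact ⟨fun j hj => by rw [cnt_smul]; exact hn' j hj, h⟩
        · rw [indicator_of_notMem, indicator_of_notMem h]
          · simp
          · exact fun h' => h h'.2
      · intro i hi
        apply indicator_of_notMem
        rintro ⟨h1, h2⟩
        rcases lt_or_gt_of_ne hi with h | h
        · have := hn' i h
          exact cnt_ne_zero (Γ := Γ) ⟨γ, h2⟩ this
        · have := h1 n h
          rw [cnt_smul] at this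
          exact hn this
    simp_rw [key]
    rw [ENNReal.tsum_mul_left]
    exact ENNReal.inv_mul_cancel hn (cnt_ne_top (hfin n x))

/-- Existence of a weight. -/
theorem exists_isWeight {ι : Type*} [Countable ι] {U : ι → Set X} (hU : ∀ i, MeasurableSet (U i))
    (hcov : ∀ x, ∃ i, ∃ γ : Γ, γ • x ∈ U i)
    (hfin : ∀ i x, {γ : Γ | γ • x ∈ U i}.Finite) : ∃ w : X → ℝ≥0∞, IsWeight Γ w := by
  classical
  rcases isEmpty_or_nonempty ι with h | h
  · have hX : IsEmpty X := ⟨fun x => by obtain ⟨i, _⟩ := hcov x; exact h.elim i⟩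
    exact ⟨fun _ => 0, measurable_const, fun x => hX.elim x⟩
  · obtain ⟨f, hf⟩ := exists_surjective_nat ι
    refine ⟨_, isWeight_coverWeight (U := fun n => U (f n)) (fun n => hU _) (fun x => ?_)
      (fun n x => hfin _ x)⟩
    obtain ⟨i, hi⟩ := hcov x
    obtain ⟨n, rfl⟩ := hf i
    exact ⟨n, hi⟩

end Exists

end Fermat.Agent.LT.B
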